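/-
S29 (item 90), CONTRACT (helper4, architect).  Statements only (+ two small definitions).

Chain:   EigenOccurs (R1 + R2, THE WALL)  +  HeckeGalois (R3a) + OpenStab (R3b) + Unram, FrobQuad (R4)
           ==(M)==>  EigenModuleExists  (nonzero finite-dimensional Galois module over `k` on which every
                     Frobenius at `l ∤ N p` satisfies `X^2 - φ(a_l) X + l`)
         EigenModuleExists (k algebraically closed) + FrobDensity (R5) + QuadRep (R6) + Cyclo (CYC)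
           ==(T)==>  S29 for algebraically closed `k`
         (BC)  S29 for algebraically closed `k`  ==>  S29   (k₁ = Zbar / ker φ is algebraically closed,
               `ResidualGaloisRep.baseChange`).
Every piece proves ONE of the `...Statement` props below, in its own file `Fermat/Agent/S29/<Piece>.lean`.
-/
import Mathlib
import Fermat.Prelude.Def_GaloisRep_Residual
import Fermat.Prelude.Def_ModularCurve_HeckeModule

set_option autoImplicit false

open ModularCurve AlgebraicCurve Polynomial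
open scoped TensorProduct

noncomputable section

namespace Fermat.Agent.S29

/-- the absolute Galois group of `ℚ`. -/
abbrev GQ : Type := AlgebraicClosure ℚ ≃ₐ[ℚ] AlgebraicClosure ℚ

/-! ### R3: Hecke operators and Galois on `J₀(N)` -/

/-- (R3a) `T_l` commutes with Galois.  (lead: `HG.heckeOperatorBar_smul`, DONE) -/
def HeckeGaloisStatement (N : ℕ) [NeZero N] : Prop :=
  ∀ (ℓ : Nat.Primes) (σ : GQ) (x : JZero N),
    heckeOperatorBar N ℓ (σ • x) = σ • heckeOperatorBar N ℓ x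

/-- (R3b) every point of `J₀(N)` is fixed by an open subgroup. -/
def OpenStabStatement (N : ℕ) [NeZero N] : Prop :=
  ∀ x : JZero N, ∃ L : IntermediateField ℚ (AlgebraicClosure ℚ), FiniteDimensional ℚ L ∧
    ∀ σ : GQ, (∀ y ∈ L, σ y = y) → σ • x = x

/-! ### R4: consequences of S18 + S37 on `J₀(N)[p]` (no `hcomm` needed: use `S37.ESInputsAt`) -/

/-- (R4a) inertia at `l ∤ N p` acts trivially on `J₀(N)[p]`. -/
def UnramStatement (N p : ℕ) [NeZero N] : Prop :=
  ∀ ℓ : ℕ, ℓ.Prime → ¬ ℓ ∣ N * p →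
    ∀ A : ValuationSubring (AlgebraicClosure ℚ), A.LiesOverPrime ℓ →
      ∀ σ ∈ A.inertiaSubgroupIn ℚ, ∀ x : JZero N, p • x = 0 → σ • x = x

/-- (R4b) Eichler–Shimura on `J₀(N)[p]`: `σ² - T_l σ + l = 0` for every Frobenius `σ` at `l ∤ N p`. -/
def FrobQuadStatement (N p : ℕ) [NeZero N] : Prop :=
  ∀ ℓ : ℕ, (hℓ : ℓ.Prime) → ¬ ℓ ∣ N * p →
    ∀ A : ValuationSubring (AlgebraicClosure ℚ), A.LiesOverPrime ℓ →
      ∀ σ : GQ, A.IsFrobeniusAt σ ℓ →
        ∀ x : JZero N, p • x = 0 →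
          σ • σ • x - heckeOperatorBar N ⟨ℓ, hℓ⟩ (σ • x) + ℓ • x = 0

/-! ### R1 + R2: the eigensystem of `g` mod `p` occurs in `k ⊗ J₀(N)[p]` -/

/-- `J₀(N)[p]` as a `ℤ`-submodule. -/
abbrev torsP (N p : ℕ) [NeZero N] : Submodule ℤ (JZero N) :=
  Submodule.torsionBy ℤ (JZero N) (p : ℤ)

theorem mem_torsP_iff (N p : ℕ) [NeZero N] (x : JZero N) : x ∈ torsP N p ↔ p • x = 0 := by
  rw [Submodule.mem_torsionBy_iff, natCast_zsmul]

/-- `T_l` on `J₀(N)[p]`. -/
def heckeTors (N p : ℕ) [NeZero N] (ℓ : Nat.Primes) : torsP N p →ₗ[ℤ] torsP N p :=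
  (heckeOperatorBar N ℓ).restrict (p := torsP N p) (q := torsP N p) (fun x hx => by
    rw [Submodule.mem_torsionBy_iff] at hx ⊢
    rw [← map_smul, hx, map_zero])

@[simp] theorem coe_heckeTors (N p : ℕ) [NeZero N] (ℓ : Nat.Primes) (x : torsP N p) :
    ((heckeTors N p ℓ x : torsP N p) : JZero N) = heckeOperatorBar N ℓ (x : JZero N) := rfl

/-- (R1 + R2, THE WALL) a nonzero simultaneous eigenvector of the `T_l`, `l ∤ N p`, in
`k ⊗_ℤ J₀(N)[p]` with the eigenvalues `φ (a_l g)`. -/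
def EigenOccurs (N : ℕ) [NeZero N] (g : CuspForm (CongruenceSubgroup.Gamma0 N) 2) (p : ℕ)
    (k : Type) [Field k] (φ : integralClosure ℤ ℂ →+* k) : Prop :=
  ∃ w : k ⊗[ℤ] torsP N p, w ≠ 0 ∧
    ∀ ℓ : ℕ, (hℓ : ℓ.Prime) → ¬ ℓ ∣ N * p →
      ∃ a : integralClosure ℤ ℂ, (a : ℂ) = ModularFormClass.qCoeff g ℓ ∧
        (heckeTors N p ⟨ℓ, hℓ⟩).baseChange k w = φ a • w

/-- (R1 + R2) for all normalised eigenforms. -/
def EigenOccursStatement : Prop :=
  ∀ (N : ℕ) [NeZero N] (g : CuspForm (CongruenceSubgroup.Gamma0 N) 2), g.IsNormalizedEigenform →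
    ∀ (p : ℕ), p.Prime → ∀ (k : Type) [Field k] [CharP k p] [IsAlgClosed k]
      (φ : integralClosure ℤ ℂ →+* k), EigenOccurs N g p k φ

/-! ### (M): the Galois module -/

/-- a nonzero finite-dimensional Galois module over `k`, of finite level, unramified outside `N p`,
on which every Frobenius at `l ∤ N p` is killed by `X² - φ(a_l) X + l`. -/
def EigenModuleExists (N : ℕ) (g : CuspForm (CongruenceSubgroup.Gamma0 N) 2) (p : ℕ)
    (k : Type) [Field k] (φ : integralClosure ℤ ℂ →+* k) : Prop :=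
  ∃ (U : Type) (_ : AddCommGroup U) (_ : Module k U) (_ : FiniteDimensional k U)
    (_ : Nontrivial U) (ρ : GQ →* Module.End k U),
    GaloisFactorsThroughFiniteLevel ρ ∧
    (∀ ℓ : ℕ, ℓ.Prime → ¬ ℓ ∣ N * p →
      ∀ A : ValuationSubring (AlgebraicClosure ℚ), A.LiesOverPrime ℓ →
        ∀ σ ∈ A.inertiaSubgroupIn ℚ, ρ σ = 1) ∧
    (∀ ℓ : ℕ, ℓ.Prime → ¬ ℓ ∣ N * p →
      ∀ A : ValuationSubring (AlgebraicClosure ℚ), A.LiesOverPrime ℓ →
        ∀ σ : GQ, A.IsFrobeniusAt σ ℓ →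
          ∃ a : integralClosure ℤ ℂ, (a : ℂ) = ModularFormClass.qCoeff g ℓ ∧
            ρ σ * ρ σ - φ a • ρ σ + (ℓ : k) • (1 : Module.End k U) = 0)

/-- (M) `EigenOccurs` + R3 + R4 ⟹ `EigenModuleExists`. -/
def EigenModuleStatement : Prop :=
  ∀ (N : ℕ) [NeZero N] (g : CuspForm (CongruenceSubgroup.Gamma0 N) 2) (p : ℕ), p.Prime →
    ∀ (k : Type) [Field k] [CharP k p] (φ : integralClosure ℤ ℂ →+* k),
      HeckeGaloisStatement N → OpenStabStatement N → UnramStatement N p → FrobQuadStatement N p →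
      EigenOccurs N g p k φ → EigenModuleExists N g p k φ

/-! ### R5: Frobenius density (elementary form) -/

/-- (R5) every `σ` agrees on a given finite extension `L` with a power of a Frobenius element at a
prime outside a given finite set. -/
def FrobDensityStatement : Prop :=
  ∀ (L : IntermediateField ℚ (AlgebraicClosure ℚ)), FiniteDimensional ℚ L →
    ∀ (S : Finset ℕ) (σ : GQ),
      ∃ ℓ : ℕ, ℓ.Prime ∧ ℓ ∉ S ∧ ∃ A : ValuationSubring (AlgebraicClosure ℚ), A.LiesOverPrime ℓ ∧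
        ∃ τ : GQ, A.IsFrobeniusAt τ ℓ ∧ ∃ j : ℕ, ∀ y ∈ L, (τ ^ j) y = σ y

/-! ### R6: group theory -/

/-- (R6) an irreducible representation over an algebraically closed field in which every group
element satisfies `g² - t(g) g + χ(g) = 0`, `χ` a character, has dimension `≤ 2`; in dimension 2 the
characteristic polynomial of `g` is `X² - t(g) X + χ(g)`. -/
def QuadRepStatement : Prop :=
  ∀ (k : Type) [Field k] [IsAlgClosed k] (G : Type) [Group G]
    (V : Type) [AddCommGroup V] [Module k V] [FiniteDimensional k V] [Nontrivial V]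
    (ρ : G →* Module.End k V) (χ : G →* kˣ) (t : G → k),
    (∀ W : Submodule k V, (∀ g : G, ∀ x ∈ W, ρ g x ∈ W) → W = ⊥ ∨ W = ⊤) →
    (∀ g : G, ρ g * ρ g - t g • ρ g + (χ g : k) • (1 : Module.End k V) = 0) →
    Module.finrank k V ≤ 2 ∧
      (Module.finrank k V = 2 →
        ∀ g : G, LinearMap.charpoly (ρ g) = X ^ 2 - C (t g) * X + C (χ g : k))

/-! ### CYC: the mod `p` cyclotomic character with values in `k` -/

/-- (CYC) a character of finite level, unramified outside `p`, with `χ(Frob_l) = l` for `l ≠ p`. -/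
def CycloStatement : Prop :=
  ∀ (p : ℕ), p.Prime → ∀ (k : Type) [Field k] [CharP k p],
    ∃ χ : GQ →* kˣ, GaloisFactorsThroughFiniteLevel χ ∧
      (∀ ℓ : ℕ, ℓ.Prime → ℓ ≠ p →
        ∀ A : ValuationSubring (AlgebraicClosure ℚ), A.LiesOverPrime ℓ →
          (∀ σ ∈ A.inertiaSubgroupIn ℚ, χ σ = 1) ∧
          ∀ σ : GQ, A.IsFrobeniusAt σ ℓ → ((χ σ : kˣ) : k) = (ℓ : k))

/-! ### (T) and (BC) -/

/-- the conclusion of S29. -/
def S29Conclusion (N : ℕ) (g : CuspForm (CongruenceSubgroup.Gamma0 N) 2) (p : ℕ)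
    (k : Type) [Field k] (φ : integralClosure ℤ ℂ →+* k) : Prop :=
  ∃ ρ : ResidualGaloisRep k, ρ.IsAttachedTo g φ ∧
    ∀ ℓ : ℕ, ℓ.Prime → ¬ ℓ ∣ N * p → ρ.IsUnramifiedAt ℓ

/-- (T) representation theory: from the Galois module to the 2-dimensional representation. -/
def RepStatement : Prop :=
  FrobDensityStatement → QuadRepStatement → CycloStatement →
  ∀ (N : ℕ) (g : CuspForm (CongruenceSubgroup.Gamma0 N) 2) (p : ℕ), p.Prime →
    ∀ (k : Type) [Field k] [CharP k p] [IsAlgClosed k] (φ : integralClosure ℤ ℂ →+* k),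
      EigenModuleExists N g p k φ → S29Conclusion N g p k φ

/-- (BC) reduction to an algebraically closed coefficient field. -/
def BaseChangeStatement : Prop :=
  (∀ (N : ℕ) (g : CuspForm (CongruenceSubgroup.Gamma0 N) 2), g.IsNormalizedEigenform →
    ∀ (p : ℕ), p.Prime → ∀ (k : Type) [Field k] [CharP k p] [IsAlgClosed k]
      (φ : integralClosure ℤ ℂ →+* k), S29Conclusion N g p k φ) →
  ∀ (N : ℕ) (g : CuspForm (CongruenceSubgroup.Gamma0 N) 2), g.IsNormalizedEigenform →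
    ∀ (p : ℕ), p.Prime → ∀ (k : Type) [Field k] [CharP k p]
      (φ : integralClosure ℤ ℂ →+* k), S29Conclusion N g p k φ

/-- (N0) level `N = 0` is vacuous (every prime divides `0`). -/
def LevelZeroStatement : Prop :=
  ∀ (g : CuspForm (CongruenceSubgroup.Gamma0 0) 2) (p : ℕ) (k : Type) [Field k]
    (φ : integralClosure ℤ ℂ →+* k), S29Conclusion 0 g p k φ

/-- **TOP**: S29 from the pieces. -/
theorem s29_of_pieces
    (hEX : EigenOccursStatement) (hM : EigenModuleStatement)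
    (hHG : ∀ (N : ℕ) [NeZero N], HeckeGaloisStatement N)
    (hOS : ∀ (N : ℕ) [NeZero N], OpenStabStatement N)
    (hUN : ∀ (N p : ℕ) [NeZero N], p.Prime → UnramStatement N p)
    (hFQ : ∀ (N p : ℕ) [NeZero N], p.Prime → FrobQuadStatement N p)
    (hR5 : FrobDensityStatement) (hR6 : QuadRepStatement) (hCY : CycloStatement)
    (hT : RepStatement) (hBC : BaseChangeStatement) (hN0 : LevelZeroStatement)
    {N : ℕ} {g : CuspForm (CongruenceSubgroup.Gamma0 N) 2} (hg : g.IsNormalizedEigenform)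
    {p : ℕ} (hp : p.Prime) {k : Type} [Field k] [CharP k p]
    (φ : integralClosure ℤ ℂ →+* k) :
    ∃ ρ : ResidualGaloisRep k, ρ.IsAttachedTo g φ ∧
      ∀ ℓ : ℕ, ℓ.Prime → ¬ ℓ ∣ N * p → ρ.IsUnramifiedAt ℓ := by
  refine hBC (fun N g hg p hp k _ _ _ φ => ?_) N g hg p hp k φ
  rcases Nat.eq_zero_or_pos N with hN | hN
  · subst hN
    exact hN0 g p k φ
  · haveI : NeZero N := ⟨hN.ne'⟩
    exact hT hR5 hR6 hCY N g p hp k φ
      (hM N g p hp k φ (hHG N) (hOS N) (hUN N p hp) (hFQ N p hp) (hEX N g hg p hp k φ))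

end Fermat.Agent.S29
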