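import Fermat.Agent.S37.ESFun

/-!
# S29 (item 90), piece R1(e): the abstract Kummer dictionary

`F / K` a function field, `n ≠ 0`.  A *Kummer pair* is `(u, D)` with `u ≠ 0`, `div u = n • D`;
its class `[D] ∈ Pic0 K F` is killed by `n`.
A *Kummer dictionary* on a commutative group `X` (of characters) is a relation `R χ u`
("`u` is the `n`-th power of a function with character `χ`") which is multiplicative,
determines `u` up to `n`-th powers, detects the trivial character and is realised by Kummer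
pairs.  From it:

* `KummerDict.Φ : X → Pic0 K F`, `Φ (χ * χ') = Φ χ + Φ χ'`, `n • Φ χ = 0`, `Φ` injective;
* `KummerDict.Φ_hecke` : if `R χ u → R (T χ) (Nm_α (β u))` then `Φ (T χ) = [α_* β^* D_χ]`.
-/

set_option autoImplicit false
set_option linter.style.haveILetI false
set_option linter.unusedSectionVars false

open AlgebraicCurve Fermat.Agent.S18.RPrime Fermat.Agent.S37.E3

noncomputable section

namespace Fermat.Agent.S29.KD

variable {K F : Type*} [Field K] [Field F] [Algebra K F]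

/-- `u ≠ 0` and `div u = n • D`. -/
structure IsKummerPair (n : ℕ) (u : F) (D : Divisor K F) : Prop where
  ne_zero : u ≠ 0
  ord_eq : ∀ P : Place K F, P.ord u = n * D P

namespace IsKummerPair

variable {n : ℕ} {u u' w : F} {D D' : Divisor K F}

theorem mul (h : IsKummerPair n u D) (h' : IsKummerPair n u' D') :
    IsKummerPair n (u * u') (D + D') :=
  ⟨mul_ne_zero h.ne_zero h'.ne_zero, fun P => by
    rw [P.ord_mul h.ne_zero h'.ne_zero, h.ord_eq, h'.ord_eq, Finsupp.add_apply]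
    ring⟩

theorem of_pow (hw : w ≠ 0) {E : Divisor K F} (hE : ∀ P, E P = P.ord w) :
    IsKummerPair n (w ^ n) E :=
  ⟨pow_ne_zero _ hw, fun P => by rw [ord_pow, hE]⟩

theorem degree_eq_zero [HasPrincipalDivisors K F] (hn : n ≠ 0) (h : IsKummerPair n u D) :
    Divisor.degree D = 0 := by
  obtain ⟨E, hE, hdeg⟩ := HasPrincipalDivisors.exists_divisor (K := K) u h.ne_zero
  have hEq : E = n • D := by
    ext P
    rw [hE, h.ord_eq, Finsupp.smul_apply, nsmul_eq_mul]
  rw [hEq, map_nsmul, nsmul_eq_mul] at hdeg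
  rcases mul_eq_zero.mp hdeg with h0 | h0
  · exact absurd (by exact_mod_cast h0) hn
  · exact h0

/-- two Kummer pairs whose functions differ by an `n`-th power have linearly equivalent
divisors. -/
theorem sub_isPrincipal (hn : n ≠ 0) (h : IsKummerPair n u D) (h' : IsKummerPair n u' D')
    (hw : w ≠ 0) (huw : u = w ^ n * u') : (D - D').IsPrincipal := by
  refine ⟨w, hw, fun P => ?_⟩
  have h1 := h.ord_eq P
  rw [huw, P.ord_mul (pow_ne_zero _ hw) h'.ne_zero, ord_pow, h'.ord_eq] at h1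
  have hn' : (n : ℤ) ≠ 0 := by exact_mod_cast hn
  rw [Finsupp.sub_apply]
  have : (n : ℤ) * (D P - D' P) = n * P.ord w := by linarith
  exact mul_left_cancel₀ hn' this

end IsKummerPair

section Class

variable [HasPrincipalDivisors K F] {n : ℕ} {u u' w : F} {D D' : Divisor K F}

/-- the class of a Kummer pair. -/
def kcls (hn : n ≠ 0) (h : IsKummerPair n u D) : Pic0 K F :=
  Pic0.mk ⟨D, Divisor.mem_degZero.2 (h.degree_eq_zero hn)⟩

theorem kcls_eq_iff (hn : n ≠ 0) (h : IsKummerPair n u D) (h' : IsKummerPair n u' D') :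
    kcls hn h = kcls hn h' ↔ (D - D').IsPrincipal := by
  unfold kcls Pic0.mk
  rw [QuotientAddGroup.eq, AddSubgroup.mem_addSubgroupOf]
  constructor
  · intro hp
    have : (-D + D').IsPrincipal := hp
    have h2 := (Divisor.principal (K := K) (F := F)).neg_mem this
    have h3 : -(-D + D') = D - D' := by abel
    rw [h3] at h2
    exact h2
  · intro hp
    have h2 := (Divisor.principal (K := K) (F := F)).neg_mem hp
    have h3 : -(D - D') = -D + D' := by abel
    rw [h3] at h2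
    exact h2

theorem kcls_eq_of_pow (hn : n ≠ 0) (h : IsKummerPair n u D) (h' : IsKummerPair n u' D')
    (hw : w ≠ 0) (huw : u = w ^ n * u') : kcls hn h = kcls hn h' :=
  (kcls_eq_iff hn h h').2 (h.sub_isPrincipal hn h' hw huw)

theorem kcls_mul (hn : n ≠ 0) (h : IsKummerPair n u D) (h' : IsKummerPair n u' D') :
    kcls hn (h.mul h') = kcls hn h + kcls hn h' := rfl

theorem nsmul_kcls (hn : n ≠ 0) (h : IsKummerPair n u D) : n • kcls hn h = 0 := by
  have hp : IsKummerPair n (u ^ n) (n • D) :=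
    ⟨pow_ne_zero _ h.ne_zero, fun P => by
      rw [ord_pow, h.ord_eq, Finsupp.smul_apply, nsmul_eq_mul]⟩
  have h0 : IsKummerPair n (1 : F) (0 : Divisor K F) :=
    ⟨one_ne_zero, fun P => by rw [Place.ord_one, Finsupp.zero_apply, mul_zero]⟩
  have e1 : kcls hn hp = n • kcls hn h := by
    unfold kcls Pic0.mk
    rw [← QuotientAddGroup.mk_nsmul]
    rfl
  have e2 : kcls hn h0 = 0 := by
    unfold kcls Pic0.mk
    exact (QuotientAddGroup.eq_zero_iff _).2 (AddSubgroup.zero_mem _)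
  rw [← e1, ← e2]
  exact kcls_eq_of_pow hn hp h0 h.ne_zero (by rw [mul_one])

/-- the class vanishes iff the function is a constant times an `n`-th power
(`hconst`: functions without zeros and poles are constant). -/
theorem kcls_eq_zero (hn : n ≠ 0)
    (hconst : ∀ f : F, f ≠ 0 → (∀ P : Place K F, P.ord f = 0) → ∃ c : K, c ≠ 0 ∧
      f = algebraMap K F c)
    (h : IsKummerPair n u D) (hz : kcls hn h = 0) :
    ∃ (c : K) (w : F), c ≠ 0 ∧ w ≠ 0 ∧ u = c • w ^ n := by
  have h0 : IsKummerPair n (1 : F) (0 : Divisor K F) :=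
    ⟨one_ne_zero, fun P => by rw [Place.ord_one, Finsupp.zero_apply, mul_zero]⟩
  have e2 : kcls hn h0 = 0 := by
    unfold kcls Pic0.mk
    exact (QuotientAddGroup.eq_zero_iff _).2 (AddSubgroup.zero_mem _)
  rw [← e2, kcls_eq_iff hn h h0, sub_zero] at hz
  obtain ⟨w, hw, hD⟩ := hz
  have hord : ∀ P : Place K F, P.ord (u * (w ^ n)⁻¹) = 0 := by
    intro P
    rw [P.ord_mul h.ne_zero (inv_ne_zero (pow_ne_zero _ hw)), Place.ord_inv, ord_pow,
      h.ord_eq, hD P]
    ring
  obtain ⟨c, hc, hcu⟩ := hconst _ (mul_ne_zero h.ne_zero (inv_ne_zero (pow_ne_zero _ hw))) hord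
  refine ⟨c, w, hc, hw, ?_⟩
  rw [Algebra.smul_def, ← hcu, mul_assoc, inv_mul_cancel₀ (pow_ne_zero _ hw), mul_one]

end Class

/-- **the abstract Kummer dictionary.** -/
structure KummerDict (X : Type*) [CommGroup X] (K F : Type*) [Field K] [Field F] [Algebra K F]
    (n : ℕ) where
  /-- `u` is the `n`-th power of a function with character `χ` -/
  R : X → F → Prop
  mul : ∀ {χ χ' : X} {u u' : F}, R χ u → R χ' u' → R (χ * χ') (u * u')
  unique : ∀ {χ : X} {u u' : F}, R χ u → R χ u' → ∃ w : F, w ≠ 0 ∧ u = w ^ n * u'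
  inj : ∀ {χ : X} {w : F} {c : K}, c ≠ 0 → w ≠ 0 → R χ (c • w ^ n) → χ = 1
  ex : ∀ χ : X, ∃ (u : F) (D : Divisor K F), R χ u ∧ IsKummerPair n u D

namespace KummerDict

variable {X : Type*} [CommGroup X] [HasPrincipalDivisors K F] {n : ℕ}
  (𝒟 : KummerDict X K F n) (hn : n ≠ 0)

/-- the function of a character. -/
def fn (χ : X) : F := Classical.choose (𝒟.ex χ)

/-- the divisor of a character. -/
def dv (χ : X) : Divisor K F := Classical.choose (Classical.choose_spec (𝒟.ex χ))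

theorem R_fn (χ : X) : 𝒟.R χ (𝒟.fn χ) :=
  (Classical.choose_spec (Classical.choose_spec (𝒟.ex χ))).1

theorem pair (χ : X) : IsKummerPair n (𝒟.fn χ) (𝒟.dv χ) :=
  (Classical.choose_spec (Classical.choose_spec (𝒟.ex χ))).2

/-- **the Kummer map** `χ ↦ [D_χ]`. -/
def Φ (χ : X) : Pic0 K F := kcls hn (𝒟.pair χ)

/-- `Φ χ` is the class of any Kummer pair realising `χ`. -/
theorem Φ_eq {χ : X} {u : F} {D : Divisor K F} (hR : 𝒟.R χ u) (h : IsKummerPair n u D) :
    𝒟.Φ hn χ = kcls hn h := by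
  obtain ⟨w, hw, huw⟩ := 𝒟.unique (𝒟.R_fn χ) hR
  exact kcls_eq_of_pow hn (𝒟.pair χ) h hw huw

theorem Φ_mul (χ χ' : X) : 𝒟.Φ hn (χ * χ') = 𝒟.Φ hn χ + 𝒟.Φ hn χ' := by
  rw [𝒟.Φ_eq hn (𝒟.mul (𝒟.R_fn χ) (𝒟.R_fn χ')) ((𝒟.pair χ).mul (𝒟.pair χ'))]
  rfl

theorem Φ_one : 𝒟.Φ hn 1 = 0 := by
  have h := 𝒟.Φ_mul hn 1 1
  rw [mul_one] at h
  exact left_eq_add.mp h

theorem Φ_inv (χ : X) : 𝒟.Φ hn χ⁻¹ = -𝒟.Φ hn χ := by
  have h := 𝒟.Φ_mul hn χ χ⁻¹
  rw [mul_inv_cancel, Φ_one] at h
  exact (neg_eq_of_add_eq_zero_right h.symm).symm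

theorem nsmul_Φ (χ : X) : n • 𝒟.Φ hn χ = 0 := nsmul_kcls hn (𝒟.pair χ)

/-- the Kummer map as a homomorphism. -/
def ΦHom : Additive X →+ Pic0 K F where
  toFun χ := 𝒟.Φ hn χ.toMul
  map_zero' := 𝒟.Φ_one hn
  map_add' χ χ' := 𝒟.Φ_mul hn χ.toMul χ'.toMul

theorem Φ_eq_zero
    (hconst : ∀ f : F, f ≠ 0 → (∀ P : Place K F, P.ord f = 0) → ∃ c : K, c ≠ 0 ∧
      f = algebraMap K F c)
    {χ : X} (h : 𝒟.Φ hn χ = 0) : χ = 1 := by
  obtain ⟨c, w, hc, hw, hu⟩ := kcls_eq_zero hn hconst (𝒟.pair χ) h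
  have hR := 𝒟.R_fn χ
  rw [hu] at hR
  exact 𝒟.inj hc hw hR

/-- **the Kummer map is injective.** -/
theorem Φ_injective
    (hconst : ∀ f : F, f ≠ 0 → (∀ P : Place K F, P.ord f = 0) → ∃ c : K, c ≠ 0 ∧
      f = algebraMap K F c) :
    Function.Injective (𝒟.Φ hn) := by
  intro χ χ' h
  have h1 : 𝒟.Φ hn (χ * χ'⁻¹) = 0 := by
    rw [Φ_mul, Φ_inv, h, add_neg_cancel]
  have := 𝒟.Φ_eq_zero hn hconst h1
  exact mul_inv_eq_one.mp this

end KummerDict

section Hecke

variable {FM : Type*} [Field FM] [Algebra K FM]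
  [HasPrincipalDivisors K F] [HasPrincipalDivisors K FM]
  {X : Type*} [CommGroup X] {n : ℕ}

/-- Kummer pairs are stable under the correspondence `α_* β^*` and the norm. -/
theorem IsKummerPair.correspondence (α β : F →ₐ[K] FM)
    (hα : α.toRingHom.IsIntegral) (hβ : β.toRingHom.IsIntegral)
    (hfin : FiniteAlong K α) (hN : NormFormulaAlong K α hfin)
    {u : F} {D : Divisor K F} (h : IsKummerPair n u D) :
    IsKummerPair n (normAlong α (β u)) (Divisor.correspondence β α hβ hα D) := by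
  have hβu : β u ≠ 0 := by
    rw [Ne, map_eq_zero_iff β β.toRingHom.injective]
    exact h.ne_zero
  refine ⟨normAlong_ne_zero α hfin hβu, fun v => ?_⟩
  have hE : ∀ P : Place K F, (n • D) P = P.ord u := by
    intro P
    rw [Finsupp.smul_apply, nsmul_eq_mul, h.ord_eq]
  have hD₁ : ∀ w : Place K FM, Divisor.pullbackAlong β hβ (n • D) w = w.ord (β u) :=
    fun w => pullbackAlong_apply_eq_ord β hβ hE w
  have h2 : Divisor.correspondence β α hβ hα (n • D) v = v.ord (normAlong α (β u)) := by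
    rw [Divisor.correspondence_apply]
    exact pushforwardAlong_apply_eq_ord α hα hfin hN hβu hD₁ v
  rw [← h2, map_nsmul, Finsupp.smul_apply, nsmul_eq_mul]

/-- **Hecke equivariance of the Kummer map.** -/
theorem KummerDict.Φ_hecke (𝒟 : KummerDict X K F n) (hn : n ≠ 0) (α β : F →ₐ[K] FM)
    (hα : α.toRingHom.IsIntegral) (hβ : β.toRingHom.IsIntegral)
    (hfin : FiniteAlong K α) (hN : NormFormulaAlong K α hfin)
    (T : X → X)
    (hT : ∀ (χ : X) (u : F), 𝒟.R χ u → 𝒟.R (T χ) (normAlong α (β u)))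
    (χ : X) :
    𝒟.Φ hn (T χ) = kcls hn ((𝒟.pair χ).correspondence α β hα hβ hfin hN) :=
  𝒟.Φ_eq hn (hT χ _ (𝒟.R_fn χ)) _

end Hecke

end Fermat.Agent.S29.KD
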