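import Mathlib

/-!
# S29 (item 90), R2 (helper3), the algebra: reduction of eigensystems

Integer matrices `A i` with a common eigenvector `v ≠ 0` over `ℂ`, `A i v = lam i • v`.  Then
every `lam i` is an algebraic integer and for every ring homomorphism `φ : ℤ̄ → k` into a field
of characteristic `p` the reduced matrices have a common eigenvector `w ≠ 0` over `k` with
eigenvalues `φ (lam i)`.

Proof: a valuation subring `B` of `ℂ` containing `ℤ̄` whose maximal ideal contains `ker φ`
(`Ideal.image_subset_nonunits_valuationSubring`); scale `v` to a primitive vector of `B ^ r`,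
reduce modulo the maximal ideal of `B`, and descend from the residue field of `B` to
`ℤ̄ / ker φ` by a linear functional.
-/

set_option autoImplicit false
set_option linter.unusedSectionVars false
set_option linter.style.haveILetI false

open Polynomial

noncomputable section

namespace Fermat.Agent.S29.R2Alg

/-- an eigenvalue of an integer matrix is an algebraic integer -/
theorem isIntegral_of_eigen {r : ℕ} (A : Fin r → Fin r → ℤ) (lam : ℂ) (v : Fin r → ℂ)
    (hv : v ≠ 0) (hev : ∀ n, ∑ m, (A n m : ℂ) * v m = lam * v n) : IsIntegral ℤ lam := by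
  classical
  let M : Matrix (Fin r) (Fin r) ℤ := Matrix.of A
  have h1 : (Matrix.scalar (Fin r) lam - M.map (Int.castRingHom ℂ)).det = 0 := by
    rw [← Matrix.exists_mulVec_eq_zero_iff]
    refine ⟨v, hv, ?_⟩
    ext n
    rw [Matrix.sub_mulVec, Pi.sub_apply, Pi.zero_apply, sub_eq_zero]
    have h2 : (Matrix.scalar (Fin r) lam).mulVec v n = lam * v n := by
      simp [Matrix.mulVec, dotProduct, Matrix.scalar_apply, Matrix.diagonal_apply]
    rw [h2, ← hev n]
    simp [Matrix.mulVec, dotProduct, M]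
  refine ⟨M.charpoly, M.charpoly_monic, ?_⟩
  rw [← Polynomial.eval_map, ← Matrix.charpoly_map, Matrix.eval_charpoly]
  exact h1

/-- the kernel of a ring homomorphism from `ℤ̄` to a field of positive characteristic is
maximal -/
theorem ker_isMaximal (p : ℕ) [Fact p.Prime] (k : Type*) [Field k] [CharP k p]
    (φ : integralClosure ℤ ℂ →+* k) : (RingHom.ker φ).IsMaximal := by
  haveI : (RingHom.ker φ).IsPrime := RingHom.ker_isPrime φ
  apply Ideal.isMaximal_of_isIntegral_of_isMaximal_comap (R := ℤ) (RingHom.ker φ)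
  have h1 : (RingHom.ker φ).comap (algebraMap ℤ (integralClosure ℤ ℂ)) =
      Ideal.span {(p : ℤ)} := by
    ext x
    rw [Ideal.mem_comap, RingHom.mem_ker, Ideal.mem_span_singleton, eq_intCast, map_intCast]
    exact CharP.intCast_eq_zero_iff k p x
  rw [h1]
  exact Int.ideal_span_isMaximal_of_prime p

/-- a valuation subring of `ℂ` containing `ℤ̄` whose maximal ideal contains `ker φ` -/
theorem exists_valuationSubring {k : Type*} [Field k] (φ : integralClosure ℤ ℂ →+* k) :
    ∃ B : ValuationSubring ℂ, (∀ x : ℂ, IsIntegral ℤ x → x ∈ B) ∧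
      ∀ a : integralClosure ℤ ℂ, φ a = 0 → (a : ℂ) ∈ B.nonunits := by
  let A : Subring ℂ := (integralClosure ℤ ℂ).toSubring
  let e : A →+* integralClosure ℤ ℂ :=
    { toFun := fun x => ⟨x.1, x.2⟩
      map_one' := rfl
      map_mul' := fun _ _ => rfl
      map_zero' := rfl
      map_add' := fun _ _ => rfl }
  let I : Ideal A := RingHom.ker (φ.comp e)
  have hI : I ≠ ⊤ := RingHom.ker_ne_top _
  obtain ⟨B, hAB, hIB⟩ := Ideal.image_subset_nonunits_valuationSubring I hI
  refine ⟨B, fun x hx => hAB hx, fun a ha => ?_⟩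
  apply hIB
  refine ⟨⟨a.1, a.2⟩, ?_, rfl⟩
  show (φ.comp e) ⟨a.1, a.2⟩ = 0
  exact ha

/-- descent of a common eigenvector along a field extension `ι : k0 → κ`, followed by the
push forward along `j : k0 → k` -/
theorem descend_eigenvector {k0 κ k : Type*} [Field k0] [Field κ] [Field k] (ι : k0 →+* κ)
    (j : k0 →+* k)
    {r : ℕ} {I : Type*} (c : I → Fin r → Fin r → k0) (a : I → k0)
    (u : Fin r → κ) (i0 : Fin r) (hu : u i0 = 1)
    (heq : ∀ i n, ∑ m, ι (c i n m) * u m = ι (a i) * u n) :
    ∃ w : Fin r → k, w i0 = 1 ∧ ∀ i n, ∑ m, j (c i n m) * w m = j (a i) * w n := by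
  letI : Module k0 κ := Module.compHom κ ι
  let f : k0 →ₗ[k0] κ :=
    { toFun := ι
      map_add' := map_add ι
      map_smul' := fun x y => by
        show ι (x * y) = ι x * ι y
        exact map_mul ι x y }
  have hf : LinearMap.ker f = ⊥ := LinearMap.ker_eq_bot.mpr ι.injective
  obtain ⟨π, hπ⟩ := LinearMap.exists_leftInverse_of_injective f hf
  have hπ1 : π 1 = 1 := by
    have h1 := LinearMap.congr_fun hπ (1 : k0)
    have h2 : f 1 = 1 := map_one ι
    rw [LinearMap.comp_apply, h2] at h1
    exact h1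
  have hπmul : ∀ (x : k0) (y : κ), π (ι x * y) = x * π y := fun x y => π.map_smul x y
  refine ⟨fun m => j (π (u m)), ?_, fun i n => ?_⟩
  · show j (π (u i0)) = 1
    rw [hu, hπ1, map_one]
  · have h1 := congrArg π (heq i n)
    rw [map_sum, hπmul] at h1
    have h2 := congrArg j h1
    rw [map_sum, map_mul] at h2
    rw [← h2]
    refine Finset.sum_congr rfl fun m _ => ?_
    rw [hπmul, map_mul]

/-- reduction of a common eigenvector modulo the maximal ideal of a valuation subring -/
theorem reduce_eigenvector (B : ValuationSubring ℂ) {r : ℕ} {I : Type*}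
    (A : I → Fin r → Fin r → ℤ) (lam : I → ℂ) (hlam : ∀ i, lam i ∈ B)
    (v : Fin r → ℂ) (hv : v ≠ 0)
    (hev : ∀ i n, ∑ m, (A i n m : ℂ) * v m = lam i * v n) :
    ∃ (u : Fin r → IsLocalRing.ResidueField B) (i0 : Fin r), u i0 = 1 ∧
      ∀ i n, ∑ m, ((A i n m : ℤ) : IsLocalRing.ResidueField B) * u m =
        IsLocalRing.residue B ⟨lam i, hlam i⟩ * u n := by
  classical
  obtain ⟨m0, hm0⟩ : ∃ m0, v m0 ≠ 0 := by
    by_contra hcon
    push Not at hcon
    exact hv (funext hcon)
  obtain ⟨i0, -, hi0⟩ := Finset.exists_max_image Finset.univ (fun m => B.valuation (v m))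
    ⟨m0, Finset.mem_univ m0⟩
  have hvi0 : v i0 ≠ 0 := by
    intro h0
    have h1 := hi0 m0 (Finset.mem_univ m0)
    rw [h0, map_zero] at h1
    exact hm0 ((map_eq_zero _).mp (le_antisymm h1 zero_le))
  have hval0 : B.valuation (v i0) ≠ 0 := (_root_.map_ne_zero _).mpr hvi0
  have huB : ∀ m, v m / v i0 ∈ B := by
    intro m
    rw [← ValuationSubring.valuation_le_one_iff, map_div₀]
    exact (div_le_one₀ (zero_lt_iff.mpr hval0)).mpr (hi0 m (Finset.mem_univ m))
  let uB : Fin r → B := fun m => ⟨v m / v i0, huB m⟩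
  have huB0 : uB i0 = 1 := Subtype.ext (div_self hvi0)
  have heqB : ∀ i n, ∑ m, ((A i n m : ℤ) : B) * uB m = (⟨lam i, hlam i⟩ : B) * uB n := by
    intro i n
    apply Subtype.ext
    have h1 := hev i n
    simp only [uB]
    push_cast
    rw [show lam i * (v n / v i0) = (lam i * v n) / v i0 by ring, ← h1, Finset.sum_div]
    refine Finset.sum_congr rfl fun m _ => ?_
    ring
  refine ⟨fun m => IsLocalRing.residue B (uB m), i0, ?_, fun i n => ?_⟩
  · show IsLocalRing.residue B (uB i0) = 1
    rw [huB0, map_one]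
  · have h1 := congrArg (IsLocalRing.residue B) (heqB i n)
    rw [map_sum, map_mul] at h1
    refine Eq.trans ?_ h1
    refine Finset.sum_congr rfl fun m _ => ?_
    rw [map_mul, map_intCast]

/-- **R2, algebra.**  Reduction of an eigensystem of integer matrices. -/
theorem exists_eigenvector_mod {r : ℕ} {I : Type*} (A : I → Fin r → Fin r → ℤ) (lam : I → ℂ)
    (v : Fin r → ℂ) (hv : v ≠ 0)
    (hev : ∀ i n, ∑ m, (A i n m : ℂ) * v m = lam i * v n)
    (p : ℕ) [Fact p.Prime] (k : Type*) [Field k] [CharP k p]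
    (φ : integralClosure ℤ ℂ →+* k) :
    ∃ w : Fin r → k, w ≠ 0 ∧ ∀ i, ∃ a : integralClosure ℤ ℂ, (a : ℂ) = lam i ∧
      ∀ n, ∑ m, (A i n m : k) * w m = φ a * w n := by
  classical
  have hint : ∀ i, lam i ∈ integralClosure ℤ ℂ :=
    fun i => isIntegral_of_eigen (A i) (lam i) v hv (hev i)
  haveI hmax : (RingHom.ker φ).IsMaximal := ker_isMaximal p k φ
  obtain ⟨B, hZB, hφB⟩ := exists_valuationSubring φ
  obtain ⟨u, i0, hu0, hequ⟩ := reduce_eigenvector B A lam (fun i => hZB _ (hint i)) v hv hev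
  -- the two maps from `ℤ̄`
  let incl : integralClosure ℤ ℂ →+* B :=
    { toFun := fun x => ⟨x.1, hZB _ x.2⟩
      map_one' := rfl
      map_mul' := fun _ _ => rfl
      map_zero' := rfl
      map_add' := fun _ _ => rfl }
  let ρ : integralClosure ℤ ℂ →+* IsLocalRing.ResidueField B := (IsLocalRing.residue B).comp incl
  have hker : RingHom.ker φ ≤ RingHom.ker ρ := by
    intro a ha
    rw [RingHom.mem_ker] at ha ⊢
    show IsLocalRing.residue B (incl a) = 0
    rw [IsLocalRing.residue_eq_zero_iff, IsLocalRing.mem_maximalIdeal]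
    have h1 := hφB a ha
    rw [ValuationSubring.mem_nonunits_iff_exists_mem_maximalIdeal] at h1
    obtain ⟨hmem, h2⟩ := h1
    exact (IsLocalRing.mem_maximalIdeal _).mp h2
  letI : Field (integralClosure ℤ ℂ ⧸ RingHom.ker φ) := Ideal.Quotient.field (RingHom.ker φ)
  let ι : (integralClosure ℤ ℂ ⧸ RingHom.ker φ) →+* IsLocalRing.ResidueField B :=
    Ideal.Quotient.lift (RingHom.ker φ) ρ (fun a ha => hker ha)
  let j : (integralClosure ℤ ℂ ⧸ RingHom.ker φ) →+* k :=
    Ideal.Quotient.lift (RingHom.ker φ) φ (fun a ha => ha)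
  have hι : ∀ a, ι (Ideal.Quotient.mk (RingHom.ker φ) a) = ρ a :=
    fun a => Ideal.Quotient.lift_mk _ _ _
  have hj : ∀ a, j (Ideal.Quotient.mk (RingHom.ker φ) a) = φ a :=
    fun a => Ideal.Quotient.lift_mk _ _ _
  have hjint : ∀ z : ℤ, j ((z : ℤ) : integralClosure ℤ ℂ ⧸ RingHom.ker φ) = (z : k) :=
    fun z => map_intCast j z
  obtain ⟨w, hw0, heq0⟩ := descend_eigenvector ι j
    (fun i n m => ((A i n m : ℤ) : integralClosure ℤ ℂ ⧸ RingHom.ker φ))
    (fun i => Ideal.Quotient.mk (RingHom.ker φ) ⟨lam i, hint i⟩) u i0 hu0 (fun i n => by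
      rw [hι]
      refine Eq.trans ?_ (hequ i n)
      refine Finset.sum_congr rfl fun m _ => ?_
      rw [map_intCast])
  refine ⟨w, ?_, fun i => ⟨⟨lam i, hint i⟩, rfl, fun n => ?_⟩⟩
  · intro h0
    have h1 := congrFun h0 i0
    simp only [Pi.zero_apply] at h1
    rw [hw0] at h1
    exact one_ne_zero h1
  · have h1 := heq0 i n
    rw [hj] at h1
    rw [← h1]
    refine Finset.sum_congr rfl fun m _ => ?_
    rw [hjint]

end Fermat.Agent.S29.R2Alg
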