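import Fermat.Agent.S49.Hecke

/-!
# S29 (item 90), R2 (helper3): a normalised eigenform is an eigenvector of `T_ℓ`, `ℓ ∤ N`

`IsNormalizedEigenform` is a statement about `q`-coefficients; with the `q`-expansion of
`T_ℓ f` (`S49.qc_heckeT`) and the `q`-expansion principle (`S49.cuspForm_ext_qc`):
`T_ℓ g = a_ℓ(g) • g` for every prime `ℓ ∤ N`.
-/

set_option autoImplicit false
set_option linter.style.haveILetI false

open ModularFormClass CongruenceSubgroup UpperHalfPlane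

namespace Fermat.Agent.S29.R2Eigen

open Fermat.Agent.S49

variable {N : ℕ}

/-- the coefficient relation `a_{nℓ} + [ℓ ∣ n] ℓ a_{n/ℓ} = a_ℓ a_n` of a normalised eigenform -/
theorem qCoeff_rel {g : CuspForm (Gamma0 N) 2} (hg : g.IsNormalizedEigenform)
    {ℓ : ℕ} (hℓ : ℓ.Prime) (hℓN : ¬ ℓ ∣ N) (n : ℕ) :
    qc N (n * ℓ) g + (if ℓ ∣ n then (ℓ : ℂ) * qc N (n / ℓ) g else 0) =
      qc N ℓ g * qc N n g := by
  rcases Nat.eq_zero_or_pos n with rfl | hn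
  · simp [qc_zero_index]
  obtain ⟨r, m, hm, rfl⟩ := Nat.exists_eq_pow_mul_and_not_dvd hn.ne' ℓ hℓ.ne_one
  have hcop : ∀ s : ℕ, (ℓ ^ s).Coprime m :=
    fun s => Nat.Coprime.pow_left s ((Nat.Prime.coprime_iff_not_dvd hℓ).mpr hm)
  have hmul : ∀ s : ℕ, qc N (ℓ ^ s * m) g = qc N (ℓ ^ s) g * qc N m g :=
    fun s => hg.qCoeff_mul_of_coprime _ _ (hcop s)
  rcases Nat.eq_zero_or_pos r with rfl | hr
  · have h1 : ¬ ℓ ∣ ℓ ^ 0 * m := by simpa using hm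
    rw [if_neg h1, add_zero, pow_zero, one_mul, mul_comm m ℓ]
    have h2 := hmul 1
    rw [pow_one] at h2
    exact h2
  · obtain ⟨s, rfl⟩ : ∃ s, r = s + 1 := ⟨r - 1, by omega⟩
    have h1 : ℓ ∣ ℓ ^ (s + 1) * m := Dvd.dvd.mul_right (dvd_pow_self ℓ (by omega)) m
    have h2 : ℓ ^ (s + 1) * m / ℓ = ℓ ^ s * m := by
      rw [pow_succ, mul_assoc, mul_comm ℓ m, ← mul_assoc]
      exact Nat.mul_div_cancel _ hℓ.pos
    have h3 : ℓ ^ (s + 1) * m * ℓ = ℓ ^ (s + 2) * m := by ring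
    rw [if_pos h1, h2, h3, hmul, hmul, hmul]
    have h4 := hg.qCoeff_prime_pow_of_not_dvd ℓ s hℓ hℓN
    have h5 : qc N (ℓ ^ (s + 2)) g =
        qc N ℓ g * qc N (ℓ ^ (s + 1)) g - (ℓ : ℂ) * qc N (ℓ ^ s) g := h4
    rw [h5]
    ring

/-- **a normalised eigenform is an eigenvector of `T_ℓ`**, `ℓ ∤ N` -/
theorem heckeTLin_eq_smul {g : CuspForm (Gamma0 N) 2} (hg : g.IsNormalizedEigenform)
    {ℓ : ℕ} (hℓ : ℓ.Prime) (hℓN : ¬ ℓ ∣ N) :
    CuspForm.heckeTLin 2 hℓ hℓN g = ModularFormClass.qCoeff g ℓ • g := by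
  apply cuspForm_ext_qc
  intro n
  rw [qc_heckeT hℓ hℓN, qCoeff_rel hg hℓ hℓN n, map_smul, smul_eq_mul]
  rfl

/-- a normalised eigenform is nonzero -/
theorem ne_zero {g : CuspForm (Gamma0 N) 2} (hg : g.IsNormalizedEigenform) : g ≠ 0 := by
  intro h0
  have h1 := hg.qCoeff_one
  have h2 : qc N 1 g = 0 := by rw [h0, map_zero]
  have h3 : qc N 1 g = 1 := h1
  rw [h2] at h3
  exact zero_ne_one h3

end Fermat.Agent.S29.R2Eigen
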