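import Mathlib

/-!
# S29 (item 90), R2 (helper3): the dual family of a finitely generated abelian group

For a finitely generated abelian group `Q` there are `q_1, …, q_r ∈ Q` and homomorphisms
`b_1, …, b_r : Q → ℤ` with `b_j (q_i) = δ_ij` such that every homomorphism `ψ : Q → A` into a
torsion-free group is `ψ x = ∑ j, b_j x • ψ (q_j)`.
-/

set_option autoImplicit false
set_option linter.unusedSectionVars false
set_option linter.style.haveILetI false

open scoped DirectSum

noncomputable section

namespace Fermat.Agent.S29.R2Lattice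

/-- the dual family of a finitely generated abelian group -/
theorem exists_dual_family (Q : Type*) [AddCommGroup Q] [AddGroup.FG Q] :
    ∃ (r : ℕ) (q : Fin r → Q) (b : Fin r → (Q →+ ℤ)),
      (∀ i j, b j (q i) = if i = j then 1 else 0) ∧
      ∀ (A : Type) [AddCommGroup A] [IsAddTorsionFree A] (ψ : Q →+ A),
        (∀ i, ψ (q i) = 0) → ψ = 0 := by
  classical
  obtain ⟨r, ι, _, p, hp, e, ⟨E⟩⟩ := AddCommGroup.equiv_free_prod_directSum_zmod Q
  refine ⟨r, fun j => E.symm (Finsupp.single j 1, 0),
    fun j => ((Finsupp.applyAddHom j).comp (AddMonoidHom.fst _ _)).comp E.toAddMonoidHom, ?_, ?_⟩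
  · intro i j
    simp only [AddMonoidHom.coe_comp, Function.comp_apply, AddEquiv.coe_toAddMonoidHom,
      AddEquiv.apply_symm_apply, AddMonoidHom.coe_fst, Finsupp.applyAddHom_apply]
    rw [Finsupp.single_apply]
  · intro A _ _ ψ hψ
    have key : ψ.comp E.symm.toAddMonoidHom = 0 := by
      rw [← AddMonoidHom.coprod_unique (ψ.comp E.symm.toAddMonoidHom),
        ← AddMonoidHom.coprod_unique (0 : (Fin r →₀ ℤ) × (⨁ i : ι, ZMod (p i ^ e i)) →+ A)]
      congr 1
      · apply Finsupp.addHom_ext
        intro j m
        have h3 : ((Finsupp.single j m : Fin r →₀ ℤ), (0 : ⨁ i : ι, ZMod (p i ^ e i)))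
            = m • ((Finsupp.single j 1 : Fin r →₀ ℤ), (0 : ⨁ i : ι, ZMod (p i ^ e i))) := by
          rw [Prod.smul_mk, smul_zero, Finsupp.smul_single, smul_eq_mul, mul_one]
        simp only [AddMonoidHom.coe_comp, Function.comp_apply, AddMonoidHom.inl_apply,
          AddEquiv.coe_toAddMonoidHom, AddMonoidHom.zero_apply]
        rw [h3, map_zsmul, map_zsmul, hψ j, smul_zero]
      · apply DirectSum.addHom_ext
        intro i y
        simp only [AddMonoidHom.coe_comp, Function.comp_apply, AddMonoidHom.inr_apply,
          AddEquiv.coe_toAddMonoidHom, AddMonoidHom.zero_apply]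
        have h1 : (p i ^ e i) • (E.symm ((0 : Fin r →₀ ℤ),
            DirectSum.of (fun i => ZMod (p i ^ e i)) i y)) = 0 := by
          rw [← map_nsmul, Prod.smul_mk, smul_zero, ← map_nsmul]
          have : (p i ^ e i) • y = 0 := by
            rw [nsmul_eq_mul, ZMod.natCast_self, zero_mul]
          rw [this, map_zero]
          exact map_zero E.symm
        have h2 := congrArg ψ h1
        rw [map_nsmul, map_zero] at h2
        have hne : (p i ^ e i : ℕ) ≠ 0 := pow_ne_zero _ (hp i).ne_zero
        exact (nsmul_eq_zero_iff_right hne).mp h2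
    ext x
    have := DFunLike.congr_fun key (E x)
    simpa using this

/-- the expansion of a homomorphism into a torsion-free group in the dual family -/
theorem eq_sum_of_dual_family {Q : Type*} [AddCommGroup Q] {r : ℕ} {q : Fin r → Q}
    {b : Fin r → (Q →+ ℤ)} (hb : ∀ i j, b j (q i) = if i = j then 1 else 0)
    {A : Type} [AddCommGroup A] [IsAddTorsionFree A]
    (hA : ∀ (ψ : Q →+ A), (∀ i, ψ (q i) = 0) → ψ = 0) (ψ : Q →+ A) (x : Q) :
    ψ x = ∑ j, b j x • ψ (q j) := by
  classical
  let ψ' : Q →+ A := ψ - ∑ j, (zmultiplesHom A (ψ (q j))).comp (b j)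
  have h0 : ψ' = 0 := by
    apply hA
    intro i
    simp only [ψ', AddMonoidHom.sub_apply, AddMonoidHom.finsetSum_apply,
      AddMonoidHom.coe_comp, Function.comp_apply, zmultiplesHom_apply, hb]
    rw [Finset.sum_eq_single i]
    · simp
    · intro j _ hji
      rw [if_neg (Ne.symm hji), zero_smul]
    · intro h
      exact absurd (Finset.mem_univ i) h
  have h1 := DFunLike.congr_fun h0 x
  simp only [ψ', AddMonoidHom.sub_apply, AddMonoidHom.finsetSum_apply,
    AddMonoidHom.coe_comp, Function.comp_apply, zmultiplesHom_apply,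
    AddMonoidHom.zero_apply] at h1
  exact sub_eq_zero.mp h1

end Fermat.Agent.S29.R2Lattice
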