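import Mathlib
import Fermat.Agent.S29.R2Lattice
import Fermat.Agent.S29.R2Eigen
import Fermat.Agent.S16.HeckePeriodPair
import Fermat.Agent.S16.Lift

/-!
# S29 (item 90), R2 (helper3): the period class of an eigenform and the lattice of `Γ₀(N)`

* `psi N g := periodHomPair N (g, 0)` : the period class, `psi_ne_zero`, `psi_smallTrace`,
  `heckeHomT_psi : τ_ℓ (psi g) = a_ℓ(g) • psi g` for a normalised eigenform `g`, `ℓ ∤ N`;
* `exists_gamma_dual` : elements `γ_i ∈ Γ₀(N)` and homomorphisms `b_j : Γ₀(N) → ℤ` killing the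
  elements of small trace, `b_j (γ_i) = δ_ij`, such that every homomorphism `ψ` into a
  torsion-free group killing the elements of small trace is `ψ x = ∑ j, b_j x • ψ (γ_j)`.
-/

set_option autoImplicit false
set_option linter.unusedSectionVars false
set_option linter.style.haveILetI false

open CongruenceSubgroup ModularCurve ModularCurve.Period
open scoped MatrixGroups

noncomputable section

namespace Fermat.Agent.S29.R2

open Fermat.Agent.S16

variable (N : ℕ) [NeZero N]

/-- the period class of `g` -/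
def psi (g : CuspForm (Gamma0 N) 2) : Additive (Gamma0 N) →+ ℂ := periodHomPair N (g, 0)

theorem eichlerShimura :
    Function.Injective (periodHomPair N) ∧
      LinearMap.range (periodHomPair N) = parabolicHoms ℂ (Gamma0 N) ℂ :=
  Fermat.Agent.FF.eichlerShimura_of_interfaces N (Fermat.Agent.S21.periodStatement N)
    (Fermat.Agent.FF.finrank_cuspForm_eq_genusFormula N)

variable {N}

theorem psi_ne_zero {g : CuspForm (Gamma0 N) 2} (hg : g ≠ 0) : psi N g ≠ 0 := by
  intro h0
  have h1 : periodHomPair N (g, 0) = periodHomPair N 0 := by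
    rw [map_zero]
    exact h0
  have h2 := (eichlerShimura N).1 h1
  exact hg (congrArg Prod.fst h2)

theorem psi_isParabolicHom (g : CuspForm (Gamma0 N) 2) : IsParabolicHom (Gamma0 N) (psi N g) := by
  have h1 : psi N g ∈ LinearMap.range (periodHomPair N) := ⟨(g, 0), rfl⟩
  rw [(eichlerShimura N).2] at h1
  exact h1

theorem psi_smallTrace (g : CuspForm (Gamma0 N) 2) (γ : Gamma0 N) (hγ : γ ∈ smallTrace N) :
    psi N g (Additive.ofMul γ) = 0 :=
  IsParabolicHom.eq_zero_of_trace_sq_le (psi_isParabolicHom g) γ hγ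

/-- **the period class of a normalised eigenform is an eigenvector of `τ_ℓ`** -/
theorem heckeHomT_psi {g : CuspForm (Gamma0 N) 2} (hg : g.IsNormalizedEigenform)
    (ℓ : ℕ) [Fact ℓ.Prime] (hℓN : ¬ ℓ ∣ N) :
    heckeHomT N ℓ hℓN (psi N g) = ModularFormClass.qCoeff g ℓ • psi N g := by
  have hℓ : ℓ.Prime := Fact.out
  have h1 := periodHomPair_heckeT ℓ hℓ hℓN ((g, 0) : CuspForm (Gamma0 N) 2 × CuspForm (Gamma0 N) 2)
  simp only at h1
  rw [R2Eigen.heckeTLin_eq_smul hg hℓ hℓN, map_zero] at h1
  rw [psi, ← h1, ← map_smul]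
  congr 1
  ext : 1
  · rfl
  · simp

variable (N)

/-- **the dual family of `Γ₀(N)` modulo the elements of small trace** -/
theorem exists_gamma_dual :
    ∃ (r : ℕ) (γ : Fin r → Gamma0 N) (b : Fin r → (Additive (Gamma0 N) →+ ℤ)),
      (∀ j, ∀ δ ∈ smallTrace N, b j (Additive.ofMul δ) = 0) ∧
      (∀ i j, b j (Additive.ofMul (γ i)) = if i = j then 1 else 0) ∧
      ∀ (A : Type) [AddCommGroup A] [IsAddTorsionFree A] (ψ : Additive (Gamma0 N) →+ A),
        (∀ δ ∈ smallTrace N, ψ (Additive.ofMul δ) = 0) →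
          ∀ x, ψ x = ∑ j, b j x • ψ (Additive.ofMul (γ j)) := by
  haveI := groupFG_Gamma0 N
  obtain ⟨r, q, b', hb', hA⟩ := R2Lattice.exists_dual_family (Lift.QB (smallTrace N))
  choose γ' hγ' using fun i => Lift.piB_surjective (smallTrace N) (q i)
  refine ⟨r, fun i => Additive.toMul (γ' i), fun j => (b' j).comp (Lift.piB (smallTrace N)),
    fun j δ hδ => ?_, fun i j => ?_, fun A _ _ ψ hψ x => ?_⟩
  · rw [AddMonoidHom.comp_apply, Lift.piB_bad _ hδ, map_zero]
  · rw [AddMonoidHom.comp_apply]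
    show b' j (Lift.piB (smallTrace N) (γ' i)) = _
    rw [hγ', hb']
  · have h1 := R2Lattice.eq_sum_of_dual_family hb' (hA A) (Lift.liftB ψ hψ)
      (Lift.piB (smallTrace N) x)
    rw [Lift.liftB_piB] at h1
    rw [h1]
    refine Finset.sum_congr rfl fun j _ => ?_
    rw [AddMonoidHom.comp_apply, ← hγ' j, Lift.liftB_piB]
    rfl

end Fermat.Agent.S29.R2
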