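import Mathlib
import Fermat.Agent.S29.R2Alg
import Fermat.Agent.S29.R2Period

/-!
# S29 (item 90), R2 (helper3): the eigensystem of `g` mod `p` occurs in `k ⊗ X`

`X = XP N p` : the homomorphisms `Γ₀(N) → ZMod p` killing the elements of small trace
(`trace ^ 2 ≤ 4`: `± 1`, elliptic and parabolic elements), with the Hecke operators
`TXP N p ℓ hℓN` induced by `S16.heckeHomT`.

**`eigen_occurs_XP`** : for a normalised eigenform `g`, a prime `p`, a field `k` of
characteristic `p` and `φ : ℤ̄ → k` there is `w ≠ 0` in `k ⊗[ℤ] XP N p` with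
`T_ℓ w = φ (a_ℓ g) • w` for all primes `ℓ ∤ N`.
-/

set_option autoImplicit false
set_option linter.unusedSectionVars false
set_option linter.style.haveILetI false

open CongruenceSubgroup ModularCurve ModularCurve.Period
open scoped MatrixGroups TensorProduct

noncomputable section

namespace Fermat.Agent.S29.R2

open Fermat.Agent.S16

variable (N p : ℕ) [NeZero N]

/-- the homomorphisms `Γ₀(N) → ZMod p` killing the elements of small trace -/
def XP : Submodule ℤ (Additive (Gamma0 N) →+ ZMod p) where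
  carrier := {ψ | ∀ γ ∈ smallTrace N, ψ (Additive.ofMul γ) = 0}
  zero_mem' := fun _ _ => rfl
  add_mem' := by
    intro φ ψ hφ hψ γ hγ
    show φ (Additive.ofMul γ) + ψ (Additive.ofMul γ) = 0
    rw [hφ γ hγ, hψ γ hγ, add_zero]
  smul_mem' := by
    intro c φ hφ γ hγ
    show c • φ (Additive.ofMul γ) = 0
    rw [hφ γ hγ, smul_zero]

variable {N p}

theorem mem_XP {ψ : Additive (Gamma0 N) →+ ZMod p} :
    ψ ∈ XP N p ↔ ∀ γ ∈ smallTrace N, ψ (Additive.ofMul γ) = 0 := Iff.rfl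

/-- the reduction of a homomorphism to `ℤ` killing the elements of small trace -/
def redX (b : Additive (Gamma0 N) →+ ℤ) (hb : ∀ δ ∈ smallTrace N, b (Additive.ofMul δ) = 0) :
    XP N p :=
  ⟨(Int.castAddHom (ZMod p)).comp b, fun δ hδ => by
    rw [AddMonoidHom.comp_apply, hb δ hδ, map_zero]⟩

theorem redX_apply (b : Additive (Gamma0 N) →+ ℤ)
    (hb : ∀ δ ∈ smallTrace N, b (Additive.ofMul δ) = 0) (x : Additive (Gamma0 N)) :
    ((redX b hb : XP N p) : Additive (Gamma0 N) →+ ZMod p) x = ((b x : ℤ) : ZMod p) := rfl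

/-- a homomorphism to `ℤ` killing the elements of small trace is parabolic, and conversely -/
theorem smallTrace_of_isParabolicHom {b : Additive (Gamma0 N) →+ ℤ}
    (hb : IsParabolicHom (Gamma0 N) b) : ∀ δ ∈ smallTrace N, b (Additive.ofMul δ) = 0 :=
  fun δ hδ => IsParabolicHom.eq_zero_of_trace_sq_le hb δ hδ

theorem isParabolicHom_of_smallTrace {b : Additive (Gamma0 N) →+ ℤ}
    (hb : ∀ δ ∈ smallTrace N, b (Additive.ofMul δ) = 0) : IsParabolicHom (Gamma0 N) b := by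
  intro δ hδ
  apply hb
  show ((δ : SL(2, ℤ)) : Matrix (Fin 2) (Fin 2) ℤ).trace ^ 2 ≤ 4
  rw [hδ]

/-- `τ_ℓ` preserves the homomorphisms to `ℤ` killing the elements of small trace -/
theorem heckeHomT_smallTrace (ℓ : ℕ) [Fact ℓ.Prime] (hℓN : ¬ ℓ ∣ N)
    {b : Additive (Gamma0 N) →+ ℤ} (hb : ∀ δ ∈ smallTrace N, b (Additive.ofMul δ) = 0) :
    ∀ δ ∈ smallTrace N, heckeHomT N ℓ hℓN b (Additive.ofMul δ) = 0 :=
  smallTrace_of_isParabolicHom
    (heckeHomT_isParabolicHom ℓ hℓN b (isParabolicHom_of_smallTrace hb))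

/-- `τ_ℓ` preserves `XP N p` -/
theorem heckeHomT_mem_XP (ℓ : ℕ) [Fact ℓ.Prime] (hℓN : ¬ ℓ ∣ N)
    {ψ : Additive (Gamma0 N) →+ ZMod p} (hψ : ψ ∈ XP N p) :
    heckeHomT N ℓ hℓN ψ ∈ XP N p := by
  obtain ⟨ψ', hpar, hred⟩ := exists_parabolic_lift N p ψ hψ
  have h1 : ψ = (Int.castAddHom (ZMod p)).comp ψ' := by
    ext x
    exact (hred (Additive.toMul x)).symm
  rw [h1, heckeHomT_comp]
  intro δ hδ
  rw [AddMonoidHom.comp_apply,
    heckeHomT_smallTrace ℓ hℓN (smallTrace_of_isParabolicHom hpar) δ hδ, map_zero]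

variable (N p)

/-- **the Hecke operator `τ_ℓ` on `XP N p`**, `ℓ ∤ N` -/
def TXP (ℓ : ℕ) [Fact ℓ.Prime] (hℓN : ¬ ℓ ∣ N) : XP N p →ₗ[ℤ] XP N p :=
  ((heckeHomT N ℓ hℓN : (Additive (Gamma0 N) →+ ZMod p) →+ _).toIntLinearMap).restrict
    (p := XP N p) (q := XP N p) (fun _ hψ => heckeHomT_mem_XP ℓ hℓN hψ)

variable {N p}

@[simp] theorem coe_TXP (ℓ : ℕ) [Fact ℓ.Prime] (hℓN : ¬ ℓ ∣ N) (ψ : XP N p) :
    ((TXP N p ℓ hℓN ψ : XP N p) : Additive (Gamma0 N) →+ ZMod p) =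
      heckeHomT N ℓ hℓN (ψ : Additive (Gamma0 N) →+ ZMod p) := rfl

/-- evaluation at `γ`, with values in `k` -/
def evX (k : Type*) [Field k] [CharP k p] (γ : Gamma0 N) : XP N p →+ k where
  toFun ψ := ZMod.castHom (dvd_refl p) k
    ((ψ : Additive (Gamma0 N) →+ ZMod p) (Additive.ofMul γ))
  map_zero' := by
    show ZMod.castHom (dvd_refl p) k 0 = 0
    rw [map_zero]
  map_add' ψ ψ' := by
    show ZMod.castHom (dvd_refl p) k
      ((ψ : Additive (Gamma0 N) →+ ZMod p) (Additive.ofMul γ) +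
        (ψ' : Additive (Gamma0 N) →+ ZMod p) (Additive.ofMul γ)) = _
    rw [map_add]

theorem evX_redX (k : Type*) [Field k] [CharP k p] (γ : Gamma0 N)
    (b : Additive (Gamma0 N) →+ ℤ) (hb : ∀ δ ∈ smallTrace N, b (Additive.ofMul δ) = 0) :
    evX k γ (redX (p := p) b hb) = ((b (Additive.ofMul γ) : ℤ) : k) := by
  show ZMod.castHom (dvd_refl p) k (((b (Additive.ofMul γ) : ℤ) : ZMod p)) = _
  rw [map_intCast]

/-- the functional `c ⊗ ψ ↦ c * ψ(γ)` on `k ⊗ XP` -/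
def evK (k : Type*) [Field k] [CharP k p] (γ : Gamma0 N) : k ⊗[ℤ] XP N p →+ k :=
  TensorProduct.liftAddHom
    ({ toFun := fun c => (AddMonoidHom.mulLeft c).comp (evX k γ)
       map_zero' := by
        ext ψ
        simp
       map_add' := fun c c' => by
        ext ψ
        simp [add_mul] } : k →+ (XP N p →+ k))
    (fun z c ψ => by
      show (z • c) * evX k γ ψ = c * evX k γ (z • ψ)
      rw [map_zsmul, smul_mul_assoc, mul_smul_comm])

theorem evK_tmul (k : Type*) [Field k] [CharP k p] (γ : Gamma0 N) (c : k) (ψ : XP N p) :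
    evK k γ (c ⊗ₜ[ℤ] ψ) = c * evX k γ ψ := rfl

/-- **R2.**  The eigensystem of a normalised eigenform `g` modulo `p` occurs in `k ⊗ XP N p`. -/
theorem eigen_occurs_XP (g : CuspForm (Gamma0 N) 2) (hg : g.IsNormalizedEigenform)
    (p : ℕ) [Fact p.Prime] (k : Type*) [Field k] [CharP k p]
    (φ : integralClosure ℤ ℂ →+* k) :
    ∃ w : k ⊗[ℤ] XP N p, w ≠ 0 ∧ ∀ (ℓ : ℕ) [Fact ℓ.Prime] (hℓN : ¬ ℓ ∣ N),
      ∃ a : integralClosure ℤ ℂ, (a : ℂ) = ModularFormClass.qCoeff g ℓ ∧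
        (TXP N p ℓ hℓN).baseChange k w = φ a • w := by
  classical
  obtain ⟨r, γ, b, hbad, hdual, hexp⟩ := exists_gamma_dual N
  -- the Hecke matrices
  let A : {ℓ : ℕ // ℓ.Prime ∧ ¬ ℓ ∣ N} → Fin r → Fin r → ℤ := fun i n m =>
    haveI : Fact i.1.Prime := ⟨i.2.1⟩
    heckeHomT N i.1 i.2.2 (b m) (Additive.ofMul (γ n))
  have hA : ∀ (ℓ : ℕ) [Fact ℓ.Prime] (hℓN : ¬ ℓ ∣ N) (n m : Fin r),
      A ⟨ℓ, Fact.out, hℓN⟩ n m = heckeHomT N ℓ hℓN (b m) (Additive.ofMul (γ n)) :=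
    fun ℓ _ hℓN n m => rfl
  let lam : {ℓ : ℕ // ℓ.Prime ∧ ¬ ℓ ∣ N} → ℂ := fun i => ModularFormClass.qCoeff g i.1
  let v : Fin r → ℂ := fun n => psi N g (Additive.ofMul (γ n))
  have hpsi : ∀ x, psi N g x = ∑ m, ((b m x : ℤ) : ℂ) * v m := by
    intro x
    rw [hexp ℂ (psi N g) (psi_smallTrace g) x]
    refine Finset.sum_congr rfl fun m _ => ?_
    rw [zsmul_eq_mul]
  have hv : v ≠ 0 := by
    intro h0
    apply psi_ne_zero (R2Eigen.ne_zero hg)
    apply AddMonoidHom.ext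
    intro x
    rw [hpsi x]
    simp [h0]
  have hev : ∀ i n, ∑ m, (A i n m : ℂ) * v m = lam i * v n := by
    rintro ⟨ℓ, hℓ, hℓN⟩ n
    haveI : Fact ℓ.Prime := ⟨hℓ⟩
    have h1 := DFunLike.congr_fun (heckeHomT_psi hg ℓ hℓN) (Additive.ofMul (γ n))
    rw [heckeHomT_apply] at h1
    have h2 : (ModularFormClass.qCoeff g ℓ • psi N g) (Additive.ofMul (γ n)) =
        ModularFormClass.qCoeff g ℓ * psi N g (Additive.ofMul (γ n)) := rfl
    rw [h2] at h1
    show ∑ m, (A ⟨ℓ, hℓ, hℓN⟩ n m : ℂ) * v m = ModularFormClass.qCoeff g ℓ * v n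
    rw [← h1]
    simp only [hpsi]
    rw [Finset.sum_comm]
    refine Finset.sum_congr rfl fun m _ => ?_
    rw [← Finset.sum_mul]
    congr 1
    rw [hA ℓ hℓN n m, heckeHomT_apply, Int.cast_sum]
  obtain ⟨w, hw, hwe⟩ := R2Alg.exists_eigenvector_mod A lam v hv hev p k φ
  refine ⟨∑ j, w j ⊗ₜ[ℤ] redX (b j) (hbad j), ?_, ?_⟩
  · -- nonvanishing
    intro h0
    apply hw
    funext n
    have h1 := congrArg (evK k (γ n)) h0
    rw [map_sum, map_zero] at h1
    simp only [evK_tmul, evX_redX, hdual] at h1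
    rw [Finset.sum_eq_single n] at h1
    · simpa using h1
    · intro j _ hjn
      rw [if_neg (Ne.symm hjn)]
      simp
    · intro h
      exact absurd (Finset.mem_univ n) h
  · intro ℓ _ hℓN
    obtain ⟨a, ha, hwa⟩ := hwe ⟨ℓ, Fact.out, hℓN⟩
    refine ⟨a, ha, ?_⟩
    -- the action of `τ_ℓ` on the reduced basis
    have hT : ∀ j, TXP N p ℓ hℓN (redX (b j) (hbad j)) =
        ∑ n, A ⟨ℓ, Fact.out, hℓN⟩ n j • redX (b n) (hbad n) := by
      intro j
      apply Subtype.ext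
      apply AddMonoidHom.ext
      intro x
      rw [coe_TXP]
      have h1 : ((redX (b j) (hbad j) : XP N p) : Additive (Gamma0 N) →+ ZMod p) =
          (Int.castAddHom (ZMod p)).comp (b j) := rfl
      rw [h1, heckeHomT_comp, AddMonoidHom.comp_apply,
        hexp ℤ (heckeHomT N ℓ hℓN (b j)) (heckeHomT_smallTrace ℓ hℓN (hbad j)) x]
      rw [Submodule.coe_sum, AddMonoidHom.finsetSum_apply, map_sum]
      refine Finset.sum_congr rfl fun n _ => ?_
      rw [Submodule.coe_smul, AddMonoidHom.smul_apply, redX_apply, hA ℓ hℓN n j]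
      simp only [Int.coe_castAddHom, smul_eq_mul, zsmul_eq_mul, Int.cast_mul]
      ring
    rw [map_sum]
    simp only [LinearMap.baseChange_tmul, hT, TensorProduct.tmul_sum, TensorProduct.tmul_smul]
    rw [Finset.sum_comm, Finset.smul_sum]
    refine Finset.sum_congr rfl fun n _ => ?_
    rw [TensorProduct.smul_tmul', smul_eq_mul, ← hwa n, TensorProduct.sum_tmul]
    refine Finset.sum_congr rfl fun j _ => ?_
    rw [TensorProduct.smul_tmul', zsmul_eq_mul]

end Fermat.Agent.S29.R2
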