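import Mathlib
import Fermat.Agent.S29.KummerDict
import Fermat.Agent.S29.R2
import Fermat.Agent.S29.Contract
import Fermat.Agent.S37.HeckePic
import Fermat.Agent.S37.E0Modular
import Fermat.Agent.S18.CTWireAux
import Fermat.Agent.S18.GenusAsm

/-!
# S29 (item 90), the BOTTOM of the descent chain (helper9)

`dict_of_functions`: a family `U ψ ∈ F_N` (`F_N` the function field of `X₀(N)` over `ℚ̄`),
`ψ ∈ XP N p`, of functions whose divisors are divisible by `p`, which is additive, injective and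
Hecke-equivariant modulo constants times `p`-th powers, gives the dictionary
`Φ : XP N p →+ J₀(N)[p]`, `Φ ψ = [(1/p) div (U ψ)]`, injective and Hecke-equivariant.
-/

set_option autoImplicit false
set_option linter.style.haveILetI false
set_option linter.unusedSectionVars false

open AlgebraicCurve ModularCurve Fermat.Agent.S18 Fermat.Agent.S18.RPrime Fermat.Agent.S37 Fermat.Agent.S37.E3
  Fermat.Agent.S29.KD

noncomputable section

namespace Fermat.Agent.S29.Bottom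

local notation "Kbar" => AlgebraicClosure ℚ

section General

variable {K F : Type*} [Field K] [Field F] [Algebra K F]

/-- the divisor `(1/p) div u`. -/
theorem exists_kummerPair [HasPrincipalDivisors K F] (p : ℕ) (u : F) (hu : u ≠ 0)
    (hdiv : ∀ P : Place K F, (p : ℤ) ∣ P.ord u) : ∃ D : Divisor K F, IsKummerPair p u D := by
  obtain ⟨E, hE, -⟩ := HasPrincipalDivisors.exists_divisor (K := K) u hu
  refine ⟨E.mapRange (fun z => z / (p : ℤ)) (by simp), hu, fun P => ?_⟩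
  rw [Finsupp.mapRange_apply, hE, Int.mul_ediv_cancel' (hdiv P)]

/-- over an algebraically closed field, constants times `p`-th powers are `p`-th powers. -/
theorem exists_pow_eq_smul [IsAlgClosed K] (p : ℕ) (hp : 0 < p) (c : K) (w : F) (hc : c ≠ 0)
    (hw : w ≠ 0) : ∃ w' : F, w' ≠ 0 ∧ c • w ^ p = w' ^ p := by
  obtain ⟨d, hd⟩ := IsAlgClosed.exists_pow_nat_eq c hp
  have hd0 : d ≠ 0 := by
    rintro rfl
    rw [zero_pow hp.ne'] at hd
    exact hc hd.symm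
  refine ⟨d • w, smul_ne_zero hd0 hw, ?_⟩
  rw [smul_pow, hd]

end General

variable (N : ℕ) [NeZero N]

/-- a function on `X₀(N)` over `ℚ̄` without zeros and poles is a nonzero constant. -/
theorem const_of_ord_eq_zero (f : ↥(modularFunctionFieldBar N)) (hf : f ≠ 0)
    (h : ∀ P : Place Kbar ↥(modularFunctionFieldBar N), P.ord f = 0) :
    ∃ c : Kbar, c ≠ 0 ∧ f = algebraMap Kbar ↥(modularFunctionFieldBar N) c := by
  have hmem : f ∈ riemannRochSpace (0 : Divisor Kbar ↥(modularFunctionFieldBar N)) := by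
    rw [mem_L_iff hf]
    intro v
    rw [h v]
    simp
  obtain ⟨c, hc⟩ := CT.exists_const_of_mem_L_zero (GenusAsm.curveRR_zero N) hmem
  refine ⟨c, ?_, hc⟩
  rintro rfl
  rw [map_zero] at hc
  exact hf hc

/-- **BOTTOM**: the dictionary from a Kummer system of functions over `ℚ̄`. -/
theorem dict_of_functions (p : ℕ) [Fact p.Prime]
    (U : R2.XP N p → ↥(modularFunctionFieldBar N))
    (hU0 : ∀ ψ, U ψ ≠ 0)
    (hkp : ∀ ψ (P : Place Kbar ↥(modularFunctionFieldBar N)), (p : ℤ) ∣ P.ord (U ψ))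
    (hadd : ∀ ψ ψ', ∃ (c : Kbar) (w : ↥(modularFunctionFieldBar N)), c ≠ 0 ∧ w ≠ 0 ∧
      U (ψ + ψ') = c • w ^ p * (U ψ * U ψ'))
    (hinj : ∀ ψ (c : Kbar) (w : ↥(modularFunctionFieldBar N)), c ≠ 0 → w ≠ 0 →
      U ψ = c • w ^ p → ψ = 0)
    (hhk : ∀ (ℓ : ℕ) [Fact ℓ.Prime] (hℓN : ¬ ℓ ∣ N), ¬ ℓ ∣ N * p → ∀ ψ,
      ∃ (c : Kbar) (w : ↥(modularFunctionFieldBar N)), c ≠ 0 ∧ w ≠ 0 ∧
        U (R2.TXP N p ℓ hℓN ψ) =
          c • w ^ p * (haveI : NeZero ℓ := ⟨(Fact.out : ℓ.Prime).ne_zero⟩;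
            normAlong (heckeAlphaBar Kbar N ℓ) (heckeBetaBar Kbar N ℓ (U ψ)))) :
    ∃ Φ : R2.XP N p →+ torsP N p, Function.Injective Φ ∧
      ∀ (ℓ : ℕ) [Fact ℓ.Prime] (hℓN : ¬ ℓ ∣ N), ¬ ℓ ∣ N * p →
        ∀ ψ : R2.XP N p,
          Φ (R2.TXP N p ℓ hℓN ψ) = heckeTors N p ⟨ℓ, Fact.out⟩ (Φ ψ) := by
  classical
  haveI := E0M.hasPrincipalDivisors_bar N
  have hpP : p.Prime := Fact.out
  have hp0 : p ≠ 0 := hpP.ne_zero
  have hpair : ∀ ψ, ∃ D : Divisor Kbar ↥(modularFunctionFieldBar N), IsKummerPair p (U ψ) D :=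
    fun ψ => exists_kummerPair p (U ψ) (hU0 ψ) (hkp ψ)
  choose D hD using hpair
  -- the class map
  set cl : R2.XP N p → JZero N := fun ψ => kcls hp0 (hD ψ) with hcl
  have hcl_add : ∀ ψ ψ', cl (ψ + ψ') = cl ψ + cl ψ' := by
    intro ψ ψ'
    obtain ⟨c, w, hc, hw, h⟩ := hadd ψ ψ'
    obtain ⟨w', hw', hcw⟩ := exists_pow_eq_smul p hpP.pos c w hc hw
    rw [hcw] at h
    exact kcls_eq_of_pow hp0 (hD (ψ + ψ')) ((hD ψ).mul (hD ψ')) hw' h
  have hcl_mem : ∀ ψ, cl ψ ∈ torsP N p := by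
    intro ψ
    rw [mem_torsP_iff]
    exact nsmul_kcls hp0 (hD ψ)
  let Φ : R2.XP N p →+ torsP N p :=
    AddMonoidHom.mk' (fun ψ => ⟨cl ψ, hcl_mem ψ⟩) (fun ψ ψ' => Subtype.ext (hcl_add ψ ψ'))
  refine ⟨Φ, ?_, ?_⟩
  · rw [injective_iff_map_eq_zero]
    intro ψ hψ
    have h0 : cl ψ = 0 := congrArg Subtype.val hψ
    obtain ⟨c, w, hc, hw, hu⟩ := kcls_eq_zero hp0 (const_of_ord_eq_zero N) (hD ψ) h0
    exact hinj ψ c w hc hw hu
  · intro ℓ _ hℓN hℓNp ψ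
    haveI : NeZero ℓ := ⟨(Fact.out : ℓ.Prime).ne_zero⟩
    haveI := E0M.hasPrincipalDivisors_bar (N * ℓ)
    apply Subtype.ext
    show cl (R2.TXP N p ℓ hℓN ψ) = heckeOperatorBar N ⟨ℓ, Fact.out⟩ (cl ψ)
    obtain ⟨c, w, hc, hw, h⟩ := hhk ℓ hℓN hℓNp ψ
    obtain ⟨w', hw', hcw⟩ := exists_pow_eq_smul p hpP.pos c w hc hw
    rw [hcw] at h
    have hcorr := (hD ψ).correspondence (heckeAlphaBar Kbar N ℓ) (heckeBetaBar Kbar N ℓ)
      (E0M.alphaIntegral N ℓ) (E0M.betaIntegral N ℓ) (E0M.finiteAlong_alpha N ℓ)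
      (E0M.normFormulaAlong_alpha N ℓ)
    have h1 : cl (R2.TXP N p ℓ hℓN ψ) = kcls hp0 hcorr :=
      kcls_eq_of_pow hp0 (hD (R2.TXP N p ℓ hℓN ψ)) hcorr hw' h
    rw [h1]
    have h2 := HeckePic.heckeOperatorBar_mk' N ℓ Fact.out
      ⟨D ψ, Divisor.mem_degZero.2 ((hD ψ).degree_eq_zero hp0)⟩
    show _ = heckeOperatorBar N ⟨ℓ, Fact.out⟩ (Pic0.mk ⟨D ψ, _⟩)
    rw [h2]
    rfl

end Fermat.Agent.S29.Bottom
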