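/-
S29 gamble (item 90), descent chain, abstract part (lead).

* `Triv C p`     : "constants times `p`-th powers" in a commutative group;
* `KSys`         : a Kummer system `U : X → G` (values in `KP`, additive, injective and
                   Hecke-equivariant modulo `Triv C p`);
* `Step`         : one reduction step `G_L ⊇ R --red--> G_k` (Gauss units and their reductions),
                   with the properties (D2) scaling/onto, (D3) `kp` (DivCompat) and `ct`, (D4) `e1`;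
* `KSys.descend` : a Kummer system over `L` and a step give a Kummer system over `k`.
-/
import Mathlib

set_option autoImplicit false
set_option linter.unusedSectionVars false

noncomputable section

namespace Fermat.Agent.S29.DStep

/-- constants times `p`-th powers. -/
def Triv {G : Type*} [CommGroup G] (C : Subgroup G) (p : ℕ) : Subgroup G :=
  C ⊔ (powMonoidHom p : G →* G).range

theorem mem_Triv_iff {G : Type*} [CommGroup G] {C : Subgroup G} {p : ℕ} {u : G} :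
    u ∈ Triv C p ↔ ∃ c ∈ C, ∃ w : G, u = c * w ^ p := by
  rw [Triv, Subgroup.mem_sup]
  constructor
  · rintro ⟨c, hc, y, ⟨w, rfl⟩, rfl⟩
    exact ⟨c, hc, w, rfl⟩
  · rintro ⟨c, hc, w, rfl⟩
    exact ⟨c, hc, _, ⟨w, rfl⟩, rfl⟩

theorem le_Triv {G : Type*} [CommGroup G] (C : Subgroup G) (p : ℕ) : C ≤ Triv C p :=
  le_sup_left

theorem pow_mem_Triv {G : Type*} [CommGroup G] (C : Subgroup G) (p : ℕ) (w : G) :
    w ^ p ∈ Triv C p :=
  (le_sup_right : (powMonoidHom p : G →* G).range ≤ Triv C p) ⟨w, rfl⟩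

/-- a Kummer system. -/
structure KSys {ι X : Type*} [AddCommGroup X] (T : ι → X →+ X) (G : Type*) [CommGroup G]
    (C KP : Subgroup G) (H : ι → G →* G) (p : ℕ) where
  U : X → G
  kp : ∀ x, U x ∈ KP
  add : ∀ x y, U (x + y) / (U x * U y) ∈ Triv C p
  inj : ∀ x, U x ∈ Triv C p → x = 0
  hk : ∀ i x, U (T i x) / H i (U x) ∈ Triv C p

/-- one reduction step. -/
structure Step {ι : Type*} (Gu Gd : Type*) [CommGroup Gu] [CommGroup Gd] (p : ℕ)
    (CL KPL : Subgroup Gu) (Ck KPk : Subgroup Gd) (HL : ι → Gu →* Gu) (Hk : ι → Gd →* Gd) where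
  R : Subgroup Gu
  red : R →* Gd
  scale : ∀ u : Gu, ∃ c ∈ CL, c * u ∈ R
  onto : Function.Surjective red
  red_const : ∀ c : R, (c : Gu) ∈ CL → red c ∈ Ck
  const_onto : ∀ cb ∈ Ck, ∃ c : R, (c : Gu) ∈ CL ∧ red c = cb
  CL_le : CL ≤ KPL
  pow_mem : ∀ w : Gu, w ^ p ∈ KPL
  kp : ∀ u : R, (u : Gu) ∈ KPL → red u ∈ KPk
  ct : ∀ u : R, (u : Gu) ∈ KPL → red u = 1 → ∃ h : Gu, h ^ p = u
  HL_const : ∀ i, ∀ c ∈ CL, HL i c ∈ CL
  e1 : ∀ i (u : R), ∃ h : HL i u ∈ R, red ⟨HL i u, h⟩ = Hk i (red u)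

namespace Step

variable {ι : Type*} {Gu Gd : Type*} [CommGroup Gu] [CommGroup Gd] {p : ℕ}
  {CL KPL : Subgroup Gu} {Ck KPk : Subgroup Gd} {HL : ι → Gu →* Gu} {Hk : ι → Gd →* Gd}
  (S : Step Gu Gd p CL KPL Ck KPk HL Hk)

/-- a scaling constant. -/
def sc (u : Gu) : Gu := (S.scale u).choose

theorem sc_mem (u : Gu) : S.sc u ∈ CL := (S.scale u).choose_spec.1

theorem sc_mul_mem (u : Gu) : S.sc u * u ∈ S.R := (S.scale u).choose_spec.2

/-- the reduction of (a scaling of) `u`. -/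
def r (u : Gu) : Gd := S.red ⟨S.sc u * u, S.sc_mul_mem u⟩

/-- the reduction of `u`, computed with any unit scaling. -/
theorem r_div_red_mem (u : Gu) (a : S.R) (h : (a : Gu) / u ∈ CL) : S.r u / S.red a ∈ Ck := by
  have h1 : (S.sc u * u) / (a : Gu) ∈ CL := by
    have : (S.sc u * u) / (a : Gu) = S.sc u * ((a : Gu) / u)⁻¹ := by
      rw [inv_div, mul_div_assoc]
    rw [this]
    exact CL.mul_mem (S.sc_mem u) (CL.inv_mem h)
  have h2 := S.red_const (⟨S.sc u * u, S.sc_mul_mem u⟩ / a) h1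
  rwa [map_div] at h2

theorem r_mem_Triv_of_mem (u : Gu) (hu : u ∈ Triv CL p) : S.r u ∈ Triv Ck p := by
  obtain ⟨c, hc, w, rfl⟩ := mem_Triv_iff.1 hu
  let a : S.R := ⟨S.sc w * w, S.sc_mul_mem w⟩ ^ p
  have ha : ((a : S.R) : Gu) / (c * w ^ p) ∈ CL := by
    have : ((a : S.R) : Gu) / (c * w ^ p) = (S.sc w) ^ p * c⁻¹ := by
      show (S.sc w * w) ^ p / (c * w ^ p) = _
      rw [mul_pow, div_eq_mul_inv, mul_inv]
      calc S.sc w ^ p * w ^ p * (c⁻¹ * (w ^ p)⁻¹)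
          = S.sc w ^ p * c⁻¹ * (w ^ p * (w ^ p)⁻¹) := by
            simp only [mul_assoc, mul_comm, mul_left_comm]
        _ = S.sc w ^ p * c⁻¹ := by rw [mul_inv_cancel, mul_one]
    rw [this]
    exact CL.mul_mem (CL.pow_mem (S.sc_mem w) p) (CL.inv_mem hc)
  have h1 := S.r_div_red_mem (c * w ^ p) a ha
  have h2 : S.r (c * w ^ p) = (S.r (c * w ^ p) / S.red a) * (S.r w) ^ p := by
    rw [map_pow]
    show _ = _ / (S.r w) ^ p * (S.r w) ^ p
    rw [div_mul_cancel]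
  rw [h2]
  exact mem_Triv_iff.2 ⟨_, h1, _, rfl⟩

theorem r_mul_div_mem (u v : Gu) : S.r (u * v) / (S.r u * S.r v) ∈ Ck := by
  have h := S.r_div_red_mem (u * v)
    (⟨S.sc u * u, S.sc_mul_mem u⟩ * ⟨S.sc v * v, S.sc_mul_mem v⟩) (by
      have : ((S.sc u * u) * (S.sc v * v)) / (u * v) = S.sc u * S.sc v := by
        rw [div_eq_mul_inv, mul_inv]
        calc S.sc u * u * (S.sc v * v) * (u⁻¹ * v⁻¹)
            = S.sc u * S.sc v * ((u * u⁻¹) * (v * v⁻¹)) := by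
              simp only [mul_assoc, mul_comm, mul_left_comm]
          _ = S.sc u * S.sc v := by rw [mul_inv_cancel, mul_inv_cancel, mul_one, mul_one]
      show ((S.sc u * u) * (S.sc v * v)) / (u * v) ∈ CL
      rw [this]
      exact CL.mul_mem (S.sc_mem u) (S.sc_mem v))
  rwa [map_mul] at h

theorem r_inv_mul_mem (u : Gu) : S.r u⁻¹ * S.r u ∈ Ck := by
  have h := S.r_div_red_mem u⁻¹ (⟨S.sc u * u, S.sc_mul_mem u⟩⁻¹) (by
    show (S.sc u * u)⁻¹ / u⁻¹ ∈ CL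
    have : (S.sc u * u)⁻¹ / u⁻¹ = (S.sc u)⁻¹ := by
      rw [div_eq_mul_inv, inv_inv, mul_inv, mul_assoc, inv_mul_cancel, mul_one]
    rw [this]
    exact CL.inv_mem (S.sc_mem u))
  rw [map_inv, div_inv_eq_mul] at h
  exact h

/-- `r` is a homomorphism modulo `Triv`. -/
theorem r_div_mem_Triv (u v : Gu) (h : u / v ∈ Triv CL p) : S.r u / S.r v ∈ Triv Ck p := by
  have h1 := S.r_mem_Triv_of_mem _ h
  have h2 := le_Triv Ck p (S.r_mul_div_mem (u / v) v)
  rw [div_mul_cancel] at h2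
  -- r u / (r (u/v) * r v) ∈ Triv, r (u/v) ∈ Triv
  have h3 := (Triv Ck p).mul_mem h2 h1
  have : S.r u / (S.r (u / v) * S.r v) * S.r (u / v) = S.r u / S.r v := by
    rw [div_mul_eq_div_div_swap, div_mul_cancel]
  rwa [this] at h3

theorem r_mem_KP (u : Gu) (hu : u ∈ KPL) : S.r u ∈ KPk :=
  S.kp _ (KPL.mul_mem (S.CL_le (S.sc_mem u)) hu)

theorem r_hecke_div_mem (i : ι) (u : Gu) : S.r (HL i u) / Hk i (S.r u) ∈ Ck := by
  obtain ⟨h, he⟩ := S.e1 i ⟨S.sc u * u, S.sc_mul_mem u⟩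
  have h1 := S.r_div_red_mem (HL i u) ⟨_, h⟩ (by
    show HL i (S.sc u * u) / HL i u ∈ CL
    rw [map_mul, mul_div_assoc, div_self', mul_one]
    exact S.HL_const i _ (S.sc_mem u))
  rwa [he] at h1

theorem mem_Triv_of_r_mem (u : Gu) (hu : u ∈ KPL) (h : S.r u ∈ Triv Ck p) : u ∈ Triv CL p := by
  obtain ⟨cb, hcb, wb, hr⟩ := mem_Triv_iff.1 h
  obtain ⟨C, hC, hCred⟩ := S.const_onto cb hcb
  obtain ⟨W, hW⟩ := S.onto wb
  let a : S.R := ⟨S.sc u * u, S.sc_mul_mem u⟩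
  have hv1 : S.red (a / (C * W ^ p)) = 1 := by
    rw [map_div, map_mul, map_pow, hCred, hW]
    show S.r u / _ = 1
    rw [hr, div_self']
  have hv2 : ((a / (C * W ^ p) : S.R) : Gu) ∈ KPL := by
    show (S.sc u * u) / ((C : Gu) * (W : Gu) ^ p) ∈ KPL
    exact KPL.div_mem (KPL.mul_mem (S.CL_le (S.sc_mem u)) hu)
      (KPL.mul_mem (S.CL_le hC) (S.pow_mem _))
  obtain ⟨h0, hh⟩ := S.ct _ hv2 hv1
  have hh' : h0 ^ p = (S.sc u * u) / ((C : Gu) * (W : Gu) ^ p) := hh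
  refine mem_Triv_iff.2 ⟨(S.sc u)⁻¹ * (C : Gu), CL.mul_mem (CL.inv_mem (S.sc_mem u)) hC,
    (W : Gu) * h0, ?_⟩
  rw [mul_pow, hh']
  have : (S.sc u)⁻¹ * (C : Gu) * ((W : Gu) ^ p * (S.sc u * u / ((C : Gu) * (W : Gu) ^ p))) =
      ((S.sc u)⁻¹ * S.sc u) * (((C : Gu) * (W : Gu) ^ p) / ((C : Gu) * (W : Gu) ^ p)) * u := by
    simp only [div_eq_mul_inv, mul_assoc, mul_comm, mul_left_comm]
  rw [this, inv_mul_cancel, div_self', one_mul, one_mul]

end Step

/-- **one descent step** for Kummer systems. -/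
def KSys.descend {ι X : Type*} [AddCommGroup X] {T : ι → X →+ X} {Gu Gd : Type*} [CommGroup Gu]
    [CommGroup Gd] {p : ℕ} {CL KPL : Subgroup Gu} {Ck KPk : Subgroup Gd} {HL : ι → Gu →* Gu}
    {Hk : ι → Gd →* Gd} (S : Step Gu Gd p CL KPL Ck KPk HL Hk) (K : KSys T Gu CL KPL HL p) :
    KSys T Gd Ck KPk Hk p where
  U x := S.r (K.U x)
  kp x := S.r_mem_KP _ (K.kp x)
  add x y := by
    have h1 := S.r_div_mem_Triv _ _ (K.add x y)
    have h2 := le_Triv Ck p (S.r_mul_div_mem (K.U x) (K.U y))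
    have h3 := (Triv Ck p).mul_mem h1 h2
    rwa [div_mul_div_cancel] at h3
  inj x h := K.inj x (S.mem_Triv_of_r_mem _ (K.kp x) h)
  hk i x := by
    have h1 := S.r_div_mem_Triv _ _ (K.hk i x)
    have h2 := le_Triv Ck p (S.r_hecke_div_mem i (K.U x))
    have h3 := (Triv Ck p).mul_mem h1 h2
    rwa [div_mul_div_cancel] at h3

end Fermat.Agent.S29.DStep
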