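import Mathlib
import Fermat.Agent.S18.ScalAlg
import Fermat.Prelude.Def_ModularCurve_X0ModL

/-!
# S29, wall piece W2 (D2), part 1: the Gauss datum of the modular pair, generic in `(L, A, π, k)`

For a field `L`, a valuation ring `A ⊂ L` and a ring homomorphism `π : A →+* k` onto a field `k`
which kills the non-units of `A`:
`GaussC.hyp_of_gen_core : GenOver L N → CoreOver k N → GaussD.Hyp A π F_N(L) F_N(k)`,
where `F_N(L) = modularFunctionFieldFullC L N ⊂ L((q))`.

* `GenOver L N` (GEN over `L`): every `y ∈ F_N(L)` satisfies `s(j) y = P(j, j_N)` with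
  `s(j) ≠ 0` and `deg_X P < ψ(N)`;
* `CoreOver k N` (CORE over `k`): `P(j, j_N) = 0` and `deg_X P < ψ(N)` imply `P = 0`.

This is the port of `Fermat/Agent/S18/ModularScal.lean` (where `L = ℚ̄` and `k` has
characteristic `ℓ`) to an arbitrary pair of fields; no new mathematics.
-/

set_option autoImplicit false

noncomputable section

open HahnSeries ModularCurve Polynomial

namespace Fermat.Agent.S29.GaussC

open Fermat.Agent.S18 Fermat.Agent.S18.MScal

/-- **GEN over `L`**: `s(j) y = P(j, j_N)` with `deg_X P < ψ(N)` for every `y` of the function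
field of level `N` over `L`. -/
def GenOver (L : Type*) [Field L] (N : ℕ) [NeZero N] : Prop :=
  ∀ y ∈ modularFunctionFieldFullC L N, ∃ (s : L[X]) (P : L[X][X]),
    evJ L s ≠ 0 ∧ P.natDegree < dedekindPsi N ∧ evJ L s * y = evJN L N P

/-- **CORE over `k`**: `1, j_N, …, j_N^(ψ(N)-1)` are linearly independent over `k[j]`. -/
def CoreOver (k : Type*) [Field k] (N : ℕ) [NeZero N] : Prop :=
  ∀ P : k[X][X], P.natDegree < dedekindPsi N → evJN k N P = 0 → P = 0

section Mem

variable (K : Type*) [Field K] (N : ℕ) [NeZero N]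

omit [NeZero N] in
theorem evJ_mem_full (p : K[X]) : evJ K p ∈ modularFunctionFieldFullC K N := by
  induction p using Polynomial.induction_on' with
  | add p q hp hq =>
    rw [map_add]
    exact add_mem hp hq
  | monomial n a =>
    rw [← Polynomial.C_mul_X_pow_eq_monomial, map_mul, map_pow, evJ_C, evJ_X]
    exact mul_mem (IntermediateField.algebraMap_mem _ _)
      (pow_mem (jqModC_mem_full K N) n)

theorem evJN_mem_full (P : K[X][X]) : evJN K N P ∈ modularFunctionFieldFullC K N := by
  induction P using Polynomial.induction_on' with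
  | add p q hp hq =>
    rw [map_add]
    exact add_mem hp hq
  | monomial n a =>
    rw [← Polynomial.C_mul_X_pow_eq_monomial, map_mul, map_pow, evJN_C, evJN_X]
    exact mul_mem (evJ_mem_full K N a) (pow_mem (jqModCd_mem_full K N dvd_rfl) n)

end Mem

section HypSec

variable {L : Type*} [Field L] (A : ValuationSubring L) {k : Type*} [Field k] (π : A →+* k)
variable (N : ℕ) [NeZero N]

/-- the evaluation of an `A`-polynomial is q-integral -/
theorem redQ_evJN_gen (P : A[X][X]) :
    RedQ A π (evJN L N (P.map (Polynomial.mapRingHom A.subtype)))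
      (evJN k N (P.map (Polynomial.mapRingHom π))) :=
  ⟨evJN A N P, coeffMap_evJN A.subtype N P, coeffMap_evJN π N P⟩

variable {π N} in
theorem evJN_red_ne_zero_gen (hcore : CoreOver k N) (P : A[X][X])
    (hdeg : P.natDegree < dedekindPsi N) (hP : P.map (Polynomial.mapRingHom π) ≠ 0) :
    evJN k N (P.map (Polynomial.mapRingHom π)) ≠ 0 := by
  intro h0
  exact hP (hcore _ (lt_of_le_of_lt Polynomial.natDegree_map_le hdeg) h0)

variable {π N} in
/-- **scal** for the modular pair -/
theorem modular_scal_gen (hgen : GenOver L N) (hcore : CoreOver k N)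
    (hpsi : 0 < dedekindPsi N)
    (y : modularFunctionFieldFullC L N) (hy : y ≠ 0) :
    ∃ c : L, c ≠ 0 ∧ ∃ yb : modularFunctionFieldFullC k N,
      yb ≠ 0 ∧ RedV A π (modularFunctionFieldFullC L N)
        (modularFunctionFieldFullC k N) (c • y) yb := by
  obtain ⟨s, P, hs, hdeg, hrel⟩ := hgen y.1 y.2
  have hy' : (y : LaurentSeries L) ≠ 0 := fun h => hy (Subtype.ext h)
  have hP : P ≠ 0 := by
    rintro rfl
    rw [map_zero] at hrel
    exact (mul_ne_zero hs hy') hrel
  have hs0 : (Polynomial.C s : L[X][X]) ≠ 0 := by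
    intro h
    apply hs
    rw [Polynomial.C_eq_zero.1 h, map_zero]
  obtain ⟨c1, hc1, P', hP', hP'red, hP'deg⟩ := exists_primitive_scaling A π P hP
  obtain ⟨c2, hc2, S', hS', hS'red, hS'deg⟩ :=
    exists_primitive_scaling A π (Polynomial.C s) hs0
  have hu : evJN L N (P'.map (Polynomial.mapRingHom A.subtype)) =
      algebraMap L (LaurentSeries L) c1 * evJN L N P := by
    rw [hP', map_mul, evJN_C, evJ_C]
  have hv : evJN L N (S'.map (Polynomial.mapRingHom A.subtype)) =
      algebraMap L (LaurentSeries L) c2 * evJ L s := by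
    rw [hS', map_mul, evJN_C, evJ_C, evJN_C]
  have humem : evJN L N (P'.map (Polynomial.mapRingHom A.subtype)) ∈
      modularFunctionFieldFullC L N := evJN_mem_full L N _
  have hvmem : evJN L N (S'.map (Polynomial.mapRingHom A.subtype)) ∈
      modularFunctionFieldFullC L N := evJN_mem_full L N _
  have hub0 := evJN_red_ne_zero_gen A hcore P' (hP'deg ▸ hdeg) hP'red
  have hvb0 := evJN_red_ne_zero_gen A hcore S'
    (by rw [hS'deg, Polynomial.natDegree_C]; exact hpsi) hS'red
  set ub : modularFunctionFieldFullC k N :=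
    ⟨_, evJN_mem_full k N (P'.map (Polynomial.mapRingHom π))⟩ with hub
  set vb : modularFunctionFieldFullC k N :=
    ⟨_, evJN_mem_full k N (S'.map (Polynomial.mapRingHom π))⟩ with hvb
  have hub0' : ub ≠ 0 := fun h => hub0 (congrArg Subtype.val h)
  have hvb0' : vb ≠ 0 := fun h => hvb0 (congrArg Subtype.val h)
  refine ⟨c1 / c2, div_ne_zero hc1 hc2, ub / vb, div_ne_zero hub0' hvb0', ?_⟩
  refine ⟨⟨_, humem⟩, ⟨_, hvmem⟩, ub, vb, redQ_evJN_gen A π N P', redQ_evJN_gen A π N S',
    hvb0', ?_, ?_⟩
  · apply Subtype.ext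
    show ((c1 / c2) • y : modularFunctionFieldFullC L N).1 *
      evJN L N (S'.map (Polynomial.mapRingHom A.subtype)) =
      evJN L N (P'.map (Polynomial.mapRingHom A.subtype))
    have hsm : (((c1 / c2) • y : modularFunctionFieldFullC L N) : LaurentSeries L) =
        algebraMap L (LaurentSeries L) (c1 / c2) * (y : LaurentSeries L) := by
      rw [Algebra.smul_def]
      rfl
    rw [hsm, hu, hv, ← hrel, map_div₀]
    have hc2' : algebraMap L (LaurentSeries L) c2 ≠ 0 := by
      simpa using hc2
    field_simp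
  · exact div_mul_cancel₀ ub hvb0'

/-- the generators of the function field over `k` are reductions -/
theorem redQ_jqNModC_gen (d : ℕ) [NeZero d] :
    RedQ A π (qExpand L d (jqModC L)) (qExpand k d (jqModC k)) :=
  ⟨jqNModC A d, coeffMap_jqNModC A.subtype d, coeffMap_jqNModC π d⟩

omit [NeZero N] in
variable {π} in
/-- **onto** for the modular pair -/
theorem modular_onto_aux_gen (hsurj : Function.Surjective π) (x : LaurentSeries k)
    (hx : x ∈ IntermediateField.adjoin k (divisorExpansionsC k N)) :
    ∃ (y : modularFunctionFieldFullC L N) (xb : modularFunctionFieldFullC k N),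
      (xb : LaurentSeries k) = x ∧
      RedV A π (modularFunctionFieldFullC L N) (modularFunctionFieldFullC k N) y xb := by
  induction hx using IntermediateField.adjoin_induction with
  | mem x hx =>
    obtain ⟨d, hd, hdN, rfl⟩ := hx
    exact ⟨⟨_, jqModCd_mem_full L N hdN⟩, ⟨_, jqModCd_mem_full k N hdN⟩, rfl,
      GaussD.redV_of_redQ (redQ_jqNModC_gen A π d)⟩
  | algebraMap c =>
    obtain ⟨a, rfl⟩ := hsurj c
    exact ⟨algebraMap L (modularFunctionFieldFullC L N) (a : L),
      algebraMap k (modularFunctionFieldFullC k N) (π a),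
      rfl, GaussD.redV_const a⟩
  | add x y hx hy ihx ihy =>
    obtain ⟨x', xb, rfl, hx'⟩ := ihx
    obtain ⟨y', yb, rfl, hy'⟩ := ihy
    exact ⟨x' + y', xb + yb, rfl, GaussD.redV_add hx' hy'⟩
  | inv x hx ihx =>
    obtain ⟨x', xb, rfl, hx'⟩ := ihx
    by_cases h0 : xb = 0
    · refine ⟨0, 0, ?_, GaussD.redV_zero⟩
      rw [h0]
      simp
    · exact ⟨x'⁻¹, xb⁻¹, rfl, GaussD.redV_inv hx' h0⟩
  | mul x y hx hy ihx ihy =>
    obtain ⟨x', xb, rfl, hx'⟩ := ihx
    obtain ⟨y', yb, rfl, hy'⟩ := ihy
    exact ⟨x' * y', xb * yb, rfl, GaussD.redV_mul hx' hy'⟩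

omit [NeZero N] in
variable {π} in
theorem modular_onto_gen (hsurj : Function.Surjective π) (yb : modularFunctionFieldFullC k N) :
    ∃ y : modularFunctionFieldFullC L N,
      RedV A π (modularFunctionFieldFullC L N) (modularFunctionFieldFullC k N) y yb := by
  obtain ⟨y, xb, hxb, hr⟩ := modular_onto_aux_gen A N hsurj yb.1 yb.2
  have : xb = yb := Subtype.ext hxb
  exact ⟨y, this ▸ hr⟩

variable {π N} in
/-- **(D2), abstract form**: the hypotheses of the Gauss datum hold for the modular pair
`(F_N(L), F_N(k))` as soon as GEN holds over `L` and CORE holds over `k`. -/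
theorem hyp_of_gen_core (hker : ∀ a : A, ¬ IsUnit a → π a = 0)
    (hsurj : Function.Surjective π) (hgen : GenOver L N) (hcore : CoreOver k N)
    (hpsi : 0 < dedekindPsi N) :
    GaussD.Hyp A π (modularFunctionFieldFullC L N) (modularFunctionFieldFullC k N) where
  ker := hker
  surj := hsurj
  scal := modular_scal_gen A hgen hcore hpsi
  onto := modular_onto_gen A N hsurj

end HypSec

end Fermat.Agent.S29.GaussC
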