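import Mathlib
import Fermat.Agent.S29.GaussC
import Fermat.Agent.S28.GenAlg
import Fermat.Agent.S28.GenBar
import Fermat.Agent.FF.ModRealAlg

/-!
# S29, wall piece W2 (D2), part 2: CORE over every field of characteristic `0`

`GaussC.coreOver_of_charZero : CoreOver k N` for every field `k` of characteristic `0`:
`P(j, j_N) = 0` in `k((q))` with `deg_X P < ψ(N)` implies `P = 0`.

Route: over `ℚ̄` this is `S28.card_le_natDegree_minpoly_JdF` (the minimal polynomial of `j_N`
over `ℚ̄(j)` has degree at least `ψ(N)`); descent to `ℚ` by the injectivity of the coefficient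
map; ascent to `k` by `ℚ`-linear functionals `k → ℚ` (`S28.descend_relation`).
-/

set_option autoImplicit false

noncomputable section

open HahnSeries ModularCurve Polynomial IntermediateField

namespace Fermat.Agent.S29.GaussC

open Fermat.Agent.S18 Fermat.Agent.S18.MScal Fermat.Agent.FF Fermat.Agent.S28

section Bar

variable (N : ℕ) [NeZero N]

omit [NeZero N] in
theorem coe_jBar' : ((jBar N : FN N) : LaurentSeries Kbar) = jqModC Kbar := by
  have h2 : ((jBar N : FN N) : LaurentSeries Kbar) = coeffEmb Kbar jq := rfl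
  rw [h2]
  have h := coeffMap_jqModC (algebraMap ℚ Kbar)
  simpa [coeffEmb, jqModC_rat] using h

theorem coe_JdF_self' : ((JdF N N dvd_rfl : FN N) : LaurentSeries Kbar) = jqNModC Kbar N := by
  have h4 : ((JdF N N dvd_rfl : FN N) : LaurentSeries Kbar) = coeffEmb Kbar (jqN N) := rfl
  rw [h4]
  have h := coeffMap_jqNModC (algebraMap ℚ Kbar) N
  simpa [coeffEmb, jqNModC_rat] using h

/-- shortcut instance (the generic search takes more than the default number of heartbeats) -/
local instance instAlgebraKbarAdjoinJ : Algebra Kbar ↥Kbar⟮jBar N⟯ := IntermediateField.algebra' _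

/-- the evaluation `ℚ̄[Y] → ℚ̄(j) ⊂ F_N` -/
def evE : Kbar[X] →+* ↥Kbar⟮jBar N⟯ :=
  (Polynomial.aeval (AdjoinSimple.gen Kbar (jBar N))).toRingHom

theorem evE_injective : Function.Injective (evE N) := by
  rw [injective_iff_map_eq_zero]
  intro p hp
  by_contra hp0
  apply transcendental_jBar N
  refine ⟨p, hp0, ?_⟩
  have h1 := congrArg (algebraMap ↥Kbar⟮jBar N⟯ (FN N)) hp
  rw [map_zero] at h1
  rw [← h1]
  unfold evE
  rw [AlgHom.toRingHom_eq_coe, RingHom.coe_coe, ← Polynomial.aeval_algebraMap_apply,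
    AdjoinSimple.algebraMap_gen]

omit [NeZero N] in
theorem coe_comp_evE :
    ((algebraMap (FN N) (LaurentSeries Kbar)).comp
      (algebraMap ↥Kbar⟮jBar N⟯ (FN N))).comp (evE N) = evJ Kbar := by
  apply Polynomial.ringHom_ext
  · intro a
    rw [RingHom.comp_apply, RingHom.comp_apply, evJ_C]
    unfold evE
    rw [AlgHom.toRingHom_eq_coe, RingHom.coe_coe, Polynomial.aeval_C]
    rfl
  · rw [RingHom.comp_apply, RingHom.comp_apply, evJ_X]
    show algebraMap (FN N) (LaurentSeries Kbar) (algebraMap ↥Kbar⟮jBar N⟯ (FN N)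
      (Polynomial.aeval (AdjoinSimple.gen Kbar (jBar N)) Polynomial.X)) = _
    rw [Polynomial.aeval_X, AdjoinSimple.algebraMap_gen]
    exact coe_jBar' N

/-- **CORE over `ℚ̄`** -/
theorem coreOver_bar : CoreOver Kbar N := by
  intro P hdeg hP
  set Q : Polynomial ↥Kbar⟮jBar N⟯ := P.map (evE N) with hQ
  have hQ0 : Polynomial.aeval (JdF N N dvd_rfl) Q = 0 := by
    apply (algebraMap (FN N) (LaurentSeries Kbar)).injective
    rw [map_zero, hQ, Polynomial.aeval_def, Polynomial.eval₂_map, Polynomial.hom_eval₂,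
      ← RingHom.comp_assoc, coe_comp_evE]
    rw [evJN_apply] at hP
    rw [← hP]
    congr 1
    exact coe_JdF_self' N
  have hQz : Q = 0 := by
    by_contra hne
    have h1 := minpoly.degree_le_of_ne_zero ↥Kbar⟮jBar N⟯ (JdF N N dvd_rfl) hne hQ0
    have h2 := Polynomial.natDegree_le_natDegree h1
    have h3 := card_le_natDegree_minpoly_JdF N
    have h4 : Q.natDegree ≤ P.natDegree := Polynomial.natDegree_map_le
    rw [Fermat.Agent.FF.card_X_eq N] at h3
    omega
  exact Polynomial.map_injective (evE N) (evE_injective N) (by rw [← hQ, hQz, Polynomial.map_zero])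

/-- **CORE over `ℚ`** -/
theorem coreOver_rat : CoreOver ℚ N := by
  intro P hdeg hP
  have h1 : evJN Kbar N (P.map (Polynomial.mapRingHom (algebraMap ℚ Kbar))) = 0 := by
    rw [← coeffMap_evJN, hP, map_zero]
  have h2 := coreOver_bar N _ (lt_of_le_of_lt Polynomial.natDegree_map_le hdeg) h1
  have hinj : Function.Injective (Polynomial.mapRingHom (algebraMap ℚ Kbar)) :=
    Polynomial.map_injective _ (algebraMap ℚ Kbar).injective
  exact Polynomial.map_injective _ hinj (by rw [h2, Polynomial.map_zero])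

end Bar

section CharZero

variable (k : Type*) [Field k] [CharZero k] (N : ℕ) [NeZero N]

theorem coeffEmb_jq_eq : coeffEmb k jq = jqModC k := by
  have h := coeffMap_jqModC (algebraMap ℚ k)
  simpa [coeffEmb, jqModC_rat] using h

theorem coeffEmb_jqN_eq : coeffEmb k (jqN N) = jqNModC k N := by
  have h := coeffMap_jqNModC (algebraMap ℚ k) N
  simpa [coeffEmb, jqNModC_rat] using h

theorem evJ_eq_aeval (R : Type*) [CommRing R] (p : R[X]) :
    evJ R p = Polynomial.aeval (jqModC R) p := rfl

/-- **CORE over a field of characteristic `0`** -/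
theorem coreOver_of_charZero : CoreOver k N := by
  intro P hdeg hP
  by_contra hP0
  obtain ⟨i, hi⟩ : ∃ i, P.coeff i ≠ 0 := by
    by_contra hcon
    exact hP0 (Polynomial.ext fun m => by
      rw [Polynomial.coeff_zero]
      by_contra hm
      exact hcon ⟨m, hm⟩)
  have hiN : i < dedekindPsi N := by
    have := Polynomial.le_natDegree_of_ne_zero hi
    omega
  obtain ⟨φ, hφ⟩ := exists_polyFunctional_ne_zero hi
  have hrel : Polynomial.aeval (coeffEmb k jq) (0 : k[X]) * coeffEmb k (0 : LaurentSeries ℚ) =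
      ∑ m ∈ Finset.range (dedekindPsi N),
        Polynomial.aeval (coeffEmb k jq) (P.coeff m) * (coeffEmb k (jqN N)) ^ m := by
    rw [map_zero, zero_mul, coeffEmb_jq_eq, coeffEmb_jqN_eq, ← hP, evJN_apply,
      Polynomial.eval₂_eq_sum_range' (evJ k) hdeg]
    rfl
  have h1 := descend_relation φ jq (jqN N) 0 (dedekindPsi N) 0 (fun m => P.coeff m) hrel
  rw [mul_zero] at h1
  set Pφ : ℚ[X][X] := ∑ m ∈ Finset.range (dedekindPsi N),
    Polynomial.C (polyFunctional φ (P.coeff m)) * Polynomial.X ^ m with hPφ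
  have hdegφ : Pφ.natDegree < dedekindPsi N := by
    have hle : Pφ.natDegree ≤ dedekindPsi N - 1 := by
      rw [Polynomial.natDegree_le_iff_coeff_eq_zero]
      intro m hm
      rw [hPφ, Polynomial.finsetSum_coeff]
      refine Finset.sum_eq_zero fun j hj => ?_
      rw [Polynomial.coeff_C_mul, Polynomial.coeff_X_pow, if_neg, mul_zero]
      have := Finset.mem_range.mp hj
      omega
    omega
  have hev : evJN ℚ N Pφ = 0 := by
    rw [hPφ, map_sum, h1]
    refine Finset.sum_congr rfl fun m _ => ?_
    rw [map_mul, map_pow, evJN_C, evJN_X]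
    rfl
  have hz := coreOver_rat N Pφ hdegφ hev
  apply hφ
  have hc := congrArg (fun p : ℚ[X][X] => p.coeff i) hz
  simp only [Polynomial.coeff_zero] at hc
  rw [← hc, hPφ, Polynomial.finsetSum_coeff]
  rw [Finset.sum_eq_single_of_mem i (Finset.mem_range.mpr hiN)]
  · rw [Polynomial.coeff_C_mul, Polynomial.coeff_X_pow, if_pos rfl, mul_one]
  · intro j _ hji
    rw [Polynomial.coeff_C_mul, Polynomial.coeff_X_pow, if_neg (Ne.symm hji), mul_zero]

/-- `j` is transcendental over a field of characteristic `0`: `evJ` is injective -/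
theorem evJ_ne_zero_of_charZero {s : k[X]} (hs : s ≠ 0) : evJ k s ≠ 0 := by
  intro h0
  apply transcendental_coeffEmb_jq k
  refine ⟨s, hs, ?_⟩
  rw [coeffEmb_jq_eq]
  exact h0

end CharZero

end Fermat.Agent.S29.GaussC
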