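import Mathlib
import Fermat.Agent.S29.GaussCCore
import Fermat.Agent.S28.Gen

/-!
# S29, wall piece W2 (D2), part 3: GEN over every field of characteristic `0`

`GaussC.genOver_of_charZero : GenOver L N` for every field `L` of characteristic `0`:
every element `y` of `F_N(L) = L(j_d : d ∣ N) ⊂ L((q))` satisfies `s(j) y = P(j, j_N)` with
`s ≠ 0` and `deg_X P < ψ(N)`.

Route: GEN over `ℚ` (`S28.gen`, with integral polynomials) base-changed to `L` gives the
relations for the generators `j_d` and for all powers `j_N^m`; hence the `L(j)`-span `W` of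
`1, j_N, …, j_N^(ψ(N)-1)` is a finite-dimensional `L(j)`-subalgebra of the field `L((q))`,
so a field, and it contains the generators.
-/

set_option autoImplicit false

noncomputable section

open HahnSeries ModularCurve Polynomial IntermediateField

namespace Fermat.Agent.S29.GaussC

open Fermat.Agent.S18 Fermat.Agent.S18.MScal Fermat.Agent.FF Fermat.Agent.S28

section GenCharZero

variable (L : Type*) [Field L] [CharZero L] (N : ℕ) [NeZero N]

theorem coeffEmb_comp_evalAtJ :
    (coeffEmb L).comp evalAtJ = (evJ L).comp (Polynomial.mapRingHom (Int.castRingHom L)) := by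
  apply Polynomial.ringHom_ext'
  · exact RingHom.ext_int _ _
  · rw [RingHom.comp_apply, RingHom.comp_apply, evalAtJ_X, Polynomial.coe_mapRingHom,
      Polynomial.map_X, evJ_X, coeffEmb_jq_eq]

theorem coeffEmb_evalAtJ (s : ℤ[X]) :
    coeffEmb L (evalAtJ s) = evJ L (s.map (Int.castRingHom L)) :=
  congrArg (fun g : ℤ[X] →+* LaurentSeries L => g s) (coeffEmb_comp_evalAtJ L)

theorem coeffEmb_eval₂_evalAtJ (a : ℤ[X][X]) :
    coeffEmb L (a.eval₂ evalAtJ (jqN N)) =
      evJN L N (a.map (Polynomial.mapRingHom (Int.castRingHom L))) := by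
  rw [Polynomial.hom_eval₂, coeffEmb_comp_evalAtJ, coeffEmb_jqN_eq, evJN_apply,
    Polynomial.eval₂_map]

/-- GEN over `ℚ`, base-changed to `L` -/
theorem gen_base (f : LaurentSeries ℚ) (hf : f ∈ modularFunctionFieldFull N) :
    ∃ (s : L[X]) (P : L[X][X]), s ≠ 0 ∧ P.natDegree < dedekindPsi N ∧
      evJ L s * coeffEmb L f = evJN L N P := by
  obtain ⟨a, s, hs, hdeg, hrel⟩ := gen N f hf
  refine ⟨s.map (Int.castRingHom L), a.map (Polynomial.mapRingHom (Int.castRingHom L)),
    ?_, ?_, ?_⟩
  · exact (Polynomial.map_ne_zero_iff (RingHom.injective_int (Int.castRingHom L))).2 hs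
  · exact lt_of_le_of_lt Polynomial.natDegree_map_le hdeg
  · rw [← coeffEmb_evalAtJ, ← map_mul, hrel, coeffEmb_eval₂_evalAtJ]

/-- the field `L(j) ⊂ L((q))` -/
abbrev EJ : IntermediateField L (LaurentSeries L) := L⟮jqModC L⟯

omit [CharZero L] in
theorem evJ_mem_EJ (p : L[X]) : evJ L p ∈ EJ L := by
  induction p using Polynomial.induction_on' with
  | add p q hp hq =>
    rw [map_add]
    exact add_mem hp hq
  | monomial n a =>
    rw [← Polynomial.C_mul_X_pow_eq_monomial, map_mul, map_pow, evJ_C, evJ_X]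
    exact mul_mem (IntermediateField.algebraMap_mem _ _)
      (pow_mem (IntermediateField.mem_adjoin_simple_self L (jqModC L)) n)

/-- the `L(j)`-span of `1, j_N, …, j_N^(ψ(N)-1)` in `L((q))` -/
def W : Submodule (EJ L) (LaurentSeries L) :=
  Submodule.span (EJ L) (Set.range fun k : Fin (dedekindPsi N) => (jqNModC L N) ^ (k : ℕ))

omit [CharZero L] in
theorem smul_EJ_def (e : EJ L) (y : LaurentSeries L) : e • y = (e : LaurentSeries L) * y := rfl

theorem mem_W_of_rel {y : LaurentSeries L} {s : L[X]} {P : L[X][X]} (hs : s ≠ 0)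
    (hdeg : P.natDegree < dedekindPsi N) (h : evJ L s * y = evJN L N P) : y ∈ W L N := by
  have hs' := evJ_ne_zero_of_charZero L hs
  have hy : y = (evJ L s)⁻¹ * evJN L N P := by
    rw [← h, inv_mul_cancel_left₀ hs']
  rw [hy, evJN_apply, Polynomial.eval₂_eq_sum_range' (evJ L) hdeg, Finset.mul_sum]
  refine Submodule.sum_mem _ fun k hk => ?_
  have hmem : (evJ L s)⁻¹ * evJ L (P.coeff k) ∈ EJ L :=
    mul_mem (inv_mem (evJ_mem_EJ L s)) (evJ_mem_EJ L _)
  have hsm : (evJ L s)⁻¹ * (evJ L (P.coeff k) * (jqNModC L N) ^ k) =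
      (⟨_, hmem⟩ : EJ L) • (jqNModC L N) ^ k := by
    rw [smul_EJ_def, ← mul_assoc]
  rw [hsm]
  exact Submodule.smul_mem _ _ (Submodule.subset_span ⟨⟨k, Finset.mem_range.mp hk⟩, rfl⟩)

theorem pow_mem_W (m : ℕ) : (jqNModC L N) ^ m ∈ W L N := by
  have hf : (jqN N) ^ m ∈ modularFunctionFieldFull N := pow_mem (jqd_mem_full N dvd_rfl) m
  obtain ⟨s, P, hs, hdeg, hrel⟩ := gen_base L N _ hf
  rw [map_pow, coeffEmb_jqN_eq] at hrel
  exact mem_W_of_rel L N hs hdeg hrel

theorem jd_mem_W (d : ℕ) [NeZero d] (hd : d ∣ N) : qExpand L d (jqModC L) ∈ W L N := by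
  have hf : qExpand ℚ d jq ∈ modularFunctionFieldFull N := jqd_mem_full N hd
  obtain ⟨s, P, hs, hdeg, hrel⟩ := gen_base L N _ hf
  have h1 : coeffEmb L (qExpand ℚ d jq) = qExpand L d (jqModC L) :=
    coeffEmb_jqN_eq L d
  rw [h1] at hrel
  exact mem_W_of_rel L N hs hdeg hrel

theorem one_mem_W : (1 : LaurentSeries L) ∈ W L N := by
  have := pow_mem_W L N 0
  rwa [pow_zero] at this

theorem mul_mem_W {x y : LaurentSeries L} (hx : x ∈ W L N) (hy : y ∈ W L N) :
    x * y ∈ W L N := by
  unfold W at hx
  induction hx using Submodule.span_induction with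
  | mem x hx =>
    obtain ⟨k, rfl⟩ := hx
    unfold W at hy
    induction hy using Submodule.span_induction with
    | mem y hy =>
      obtain ⟨l, rfl⟩ := hy
      simp only
      rw [← _root_.pow_add]
      exact pow_mem_W L N _
    | zero => rw [mul_zero]; exact Submodule.zero_mem _
    | add y z _ _ hy hz => rw [mul_add]; exact Submodule.add_mem _ hy hz
    | smul e y _ hy => rw [mul_smul_comm]; exact Submodule.smul_mem _ _ hy
  | zero => rw [zero_mul]; exact Submodule.zero_mem _
  | add x z _ _ hx hz => rw [add_mul]; exact Submodule.add_mem _ hx hz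
  | smul e x _ hx => rw [smul_mul_assoc]; exact Submodule.smul_mem _ _ hx

/-- `W` as a subalgebra -/
def WAlg : Subalgebra (EJ L) (LaurentSeries L) :=
  (W L N).toSubalgebra (one_mem_W L N) (fun _ _ hx hy => mul_mem_W L N hx hy)

theorem mem_WAlg {x : LaurentSeries L} : x ∈ WAlg L N ↔ x ∈ W L N := Iff.rfl

theorem inv_mem_W {x : LaurentSeries L} (hx : x ∈ W L N) : x⁻¹ ∈ W L N := by
  have hfg : (Subalgebra.toSubmodule (WAlg L N)).FG := by
    rw [WAlg, Submodule.toSubalgebra_toSubmodule]
    exact Submodule.fg_span (Set.finite_range _)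
  have hint : IsIntegral (EJ L) x := IsIntegral.of_mem_of_fg (WAlg L N) hfg x hx
  have := (WAlg L N).inv_mem_of_algebraic (x := ⟨x, hx⟩) hint.isAlgebraic
  exact this

theorem algebraMap_mem_W (c : L) : algebraMap L (LaurentSeries L) c ∈ W L N := by
  have h := (WAlg L N).algebraMap_mem (algebraMap L (EJ L) c)
  exact h

/-- the function field of level `N` over `L` lies in `W` -/
theorem full_le_W (y : LaurentSeries L) (hy : y ∈ modularFunctionFieldFullC L N) :
    y ∈ W L N := by
  unfold modularFunctionFieldFullC at hy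
  induction hy using IntermediateField.adjoin_induction with
  | mem x hx =>
    obtain ⟨d, hd, hdN, rfl⟩ := hx
    exact jd_mem_W L N d hdN
  | algebraMap c => exact algebraMap_mem_W L N c
  | add x y _ _ hx hy => exact Submodule.add_mem _ hx hy
  | inv x _ hx => exact inv_mem_W L N hx
  | mul x y _ _ hx hy => exact mul_mem_W L N hx hy

/-- **GEN over a field of characteristic `0`** -/
theorem genOver_of_charZero : GenOver L N := by
  intro y hy
  have hW := full_le_W L N y hy
  unfold W at hW
  obtain ⟨c, hc⟩ := (Submodule.mem_span_range_iff_exists_fun (EJ L)).1 hW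
  set c' : ℕ → LaurentSeries L := fun k =>
    if h : k < dedekindPsi N then ((c ⟨k, h⟩ : EJ L) : LaurentSeries L) else 0 with hc'
  have hc'mem : ∀ k, c' k ∈ L⟮jqModC L⟯ := by
    intro k
    rw [hc']
    simp only
    split_ifs with h
    · exact (c ⟨k, h⟩).2
    · exact zero_mem _
  obtain ⟨s, hs, hsa⟩ := exists_common_denominator (K := L) (jqModC L) c' hc'mem (dedekindPsi N)
  choose! a ha using hsa
  have hpos := dedekindPsi_pos N
  refine ⟨s, ∑ k ∈ Finset.range (dedekindPsi N), Polynomial.C (a k) * Polynomial.X ^ k,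
    hs, ?_, ?_⟩
  · have hle : (∑ k ∈ Finset.range (dedekindPsi N), Polynomial.C (a k) * Polynomial.X ^ k :
        L[X][X]).natDegree ≤ dedekindPsi N - 1 := by
      rw [Polynomial.natDegree_le_iff_coeff_eq_zero]
      intro m hm
      rw [Polynomial.finsetSum_coeff]
      refine Finset.sum_eq_zero fun k hk => ?_
      rw [Polynomial.coeff_C_mul, Polynomial.coeff_X_pow, if_neg, mul_zero]
      have := Finset.mem_range.mp hk
      omega
    omega
  · have hy' : y = ∑ k ∈ Finset.range (dedekindPsi N), c' k * (jqNModC L N) ^ k := by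
      rw [← hc, Finset.sum_range (fun k => c' k * (jqNModC L N) ^ k)]
      refine Finset.sum_congr rfl fun i _ => ?_
      rw [smul_EJ_def]
      congr 1
      rw [hc']
      simp only
      rw [dif_pos i.2]
    rw [hy', map_sum, Finset.mul_sum]
    refine Finset.sum_congr rfl fun k hk => ?_
    rw [map_mul, map_pow, evJN_C, evJN_X, ← mul_assoc]
    congr 1
    exact ha k (Finset.mem_range.mp hk)

end GenCharZero

end Fermat.Agent.S29.GaussC
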