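import Mathlib
import Fermat.Agent.S29.GaussCGen

/-!
# S29, wall piece W2 (D2): the Gauss datum of the modular pair in equal characteristic `0`

For fields `L`, `k` of characteristic `0`, a valuation ring `A ⊂ L` and a surjective ring
homomorphism `π : A →+* k` which kills the non-units of `A`, at EVERY level `N`:

* `GaussC.modularHypC : GaussD.Hyp A π F_N(L) F_N(k)`, `F_N(K) = modularFunctionFieldFullC K N`;
* `GaussC.modularDatumC : RPrime.RedDatum L F_N(L) k F_N(k)` with `O = {y | ∃ yb, RedV y yb}`,
  `red y = yb ↔ RedV y yb`, and `red` onto.
-/

set_option autoImplicit false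

noncomputable section

open HahnSeries ModularCurve Polynomial

namespace Fermat.Agent.S29.GaussC

open Fermat.Agent.S18 Fermat.Agent.S28

variable {L : Type*} [Field L] [CharZero L] (A : ValuationSubring L)
variable {k : Type*} [Field k] [CharZero k] (π : A →+* k)
variable (hker : ∀ a : A, ¬ IsUnit a → π a = 0) (hsurj : Function.Surjective π)
variable (N : ℕ) [NeZero N]

include hker hsurj in
/-- **(D2)**: the hypotheses of the Gauss datum hold for the modular pair at every level `N`,
in equal characteristic `0`. -/
theorem modularHypC :
    GaussD.Hyp A π (modularFunctionFieldFullC L N) (modularFunctionFieldFullC k N) :=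
  hyp_of_gen_core A hker hsurj (genOver_of_charZero L N) (coreOver_of_charZero k N)
    (dedekindPsi_pos N)

/-- **(D2)**: the Gauss reduction datum of the modular pair at level `N`. -/
def modularDatumC : RPrime.RedDatum L (modularFunctionFieldFullC L N) k
    (modularFunctionFieldFullC k N) :=
  GaussD.gaussDatum (modularHypC A π hker hsurj N)

theorem modularDatumC_onto : (modularDatumC A π hker hsurj N).Onto :=
  GaussD.gaussDatum_onto (modularHypC A π hker hsurj N)

theorem mem_modularDatumC_O {y : modularFunctionFieldFullC L N} :
    y ∈ (modularDatumC A π hker hsurj N).O ↔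
      ∃ yb : modularFunctionFieldFullC k N,
        RedV A π (modularFunctionFieldFullC L N) (modularFunctionFieldFullC k N) y yb := Iff.rfl

theorem modularDatumC_red_eq_iff (y : (modularDatumC A π hker hsurj N).O)
    (yb : modularFunctionFieldFullC k N) :
    (modularDatumC A π hker hsurj N).red y = yb ↔
      RedV A π (modularFunctionFieldFullC L N) (modularFunctionFieldFullC k N)
        (y : modularFunctionFieldFullC L N) yb :=
  GaussD.gaussDatum_red_eq_iff (modularHypC A π hker hsurj N) y yb

end Fermat.Agent.S29.GaussC
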