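/-
S29 gamble (item 90), piece (D4)/(E1), abstract part (lead): **the norm commutes with reduction**.

`F ⊂ F'` a finite extension of fields, `O ⊂ F`, `O' ⊂ F'` valuation subrings with residue maps
`red : O → Fb`, `red' : O' → Fb'` (compatible), `Fb ⊂ Fb'` finite of the SAME degree.  Then lifts of
a basis of `Fb' / Fb` form a basis of `F' / F`, the multiplication matrix of an element `z ∈ O'` has
entries in `O`, and `red (Nm z) = Nm (red' z)`.
-/
import Mathlib

set_option autoImplicit false
set_option linter.unusedSectionVars false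
set_option linter.style.haveILetI false

open scoped BigOperators

noncomputable section

namespace Fermat.Agent.S29.NormRed

variable {F F' Fb Fb' : Type*} [Field F] [Field F'] [Field Fb] [Field Fb']
  [Algebra F F'] [Algebra Fb Fb']

/-- among finitely many elements of `F`, not all zero, one has maximal valuation. -/
theorem exists_scale_vec (O : ValuationSubring F) {n : ℕ} (a : Fin n → F) (h : ∃ i, a i ≠ 0) :
    ∃ i₀, a i₀ ≠ 0 ∧ ∀ i, a i / a i₀ ∈ O := by
  obtain ⟨i₁, hi₁⟩ := h
  obtain ⟨i₀, -, hmax⟩ := Finset.exists_max_image Finset.univ (fun i => O.valuation (a i))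
    ⟨i₁, Finset.mem_univ _⟩
  have hv1 : O.valuation (a i₁) ≠ 0 := (map_ne_zero _).2 hi₁
  have hv0 : O.valuation (a i₀) ≠ 0 := by
    intro h0
    have := hmax i₁ (Finset.mem_univ _)
    rw [h0] at this
    exact hv1 (le_antisymm this zero_le)
  have h0 : a i₀ ≠ 0 := (map_ne_zero _).1 hv0
  refine ⟨i₀, h0, fun i => ?_⟩
  rw [← O.valuation_le_one_iff, map_div₀]
  exact (div_le_one₀ (zero_lt_iff.2 hv0)).2 (hmax i (Finset.mem_univ _))

/-- the hypotheses. -/
structure Setup (O : ValuationSubring F) (O' : ValuationSubring F') (red : O →+* Fb)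
    (red' : O' →+* Fb') : Prop where
  mem : ∀ x : F, x ∈ O → algebraMap F F' x ∈ O'
  red_comp : ∀ (x : F) (hx : x ∈ O),
    red' ⟨algebraMap F F' x, mem x hx⟩ = algebraMap Fb Fb' (red ⟨x, hx⟩)
  ker : ∀ x : O, ¬ IsUnit x → red x = 0
  surj' : Function.Surjective red'
  finrank_eq : Module.finrank Fb Fb' = Module.finrank F F'

variable {O : ValuationSubring F} {O' : ValuationSubring F'} {red : O →+* Fb}
  {red' : O' →+* Fb'}

/-- reduction of an integral linear combination. -/
theorem Setup.red_sum (S : Setup O O' red red') {n : ℕ} (b : Fin n → O') (c : Fin n → O)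
    (w : O') (h : ∑ i, algebraMap F F' (c i : F) * (b i : F') = (w : F')) :
    red' w = ∑ i, red (c i) • red' (b i) := by
  have hw : w = ∑ i, (⟨algebraMap F F' (c i : F), S.mem _ (c i).2⟩ : O') * b i := by
    apply Subtype.ext
    rw [← h]
    push_cast
    rfl
  rw [hw, map_sum]
  refine Finset.sum_congr rfl fun i _ => ?_
  rw [map_mul, S.red_comp, Algebra.smul_def]

/-- lifts of linearly independent residues are linearly independent. -/
theorem Setup.linearIndependent_lift (S : Setup O O' red red') {n : ℕ} (b : Fin n → O')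
    (hb : LinearIndependent Fb fun i => red' (b i)) :
    LinearIndependent F fun i => ((b i : O') : F') := by
  rw [Fintype.linearIndependent_iff]
  intro a ha
  by_contra hne
  push Not at hne
  obtain ⟨i₀, h0, hmem⟩ := exists_scale_vec O a hne
  have hsum : ∑ i, algebraMap F F' ((⟨a i / a i₀, hmem i⟩ : O) : F) * (b i : F') =
      ((0 : O') : F') := by
    have h1 : ∑ i, algebraMap F F' (a i / a i₀) * (b i : F') =
        algebraMap F F' (a i₀)⁻¹ * ∑ i, a i • (b i : F') := by
      rw [Finset.mul_sum]
      refine Finset.sum_congr rfl fun i _ => ?_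
      rw [Algebra.smul_def, div_eq_mul_inv, map_mul]
      ring
    rw [ZeroMemClass.coe_zero]
    rw [ha, mul_zero] at h1
    exact h1
  have h2 := S.red_sum b (fun i => ⟨a i / a i₀, hmem i⟩) 0 hsum
  rw [map_zero] at h2
  have h3 := (Fintype.linearIndependent_iff.1 hb) _ h2.symm i₀
  have h4 : (⟨a i₀ / a i₀, hmem i₀⟩ : O) = 1 := by
    apply Subtype.ext
    show a i₀ / a i₀ = 1
    exact div_self h0
  rw [h4, map_one] at h3
  exact one_ne_zero h3

/-- if an integral combination `∑ aᵢ bᵢ` of lifts of a residue basis lies in `O'`, the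
coefficients lie in `O`. -/
theorem Setup.coeff_mem (S : Setup O O' red red') {n : ℕ} (b : Fin n → O')
    (hb : LinearIndependent Fb fun i => red' (b i)) (a : Fin n → F) (w : O')
    (h : ∑ i, a i • ((b i : O') : F') = (w : F')) (i : Fin n) : a i ∈ O := by
  by_cases hne : ∃ i, a i ≠ 0
  swap
  · push Not at hne
    rw [hne i]
    exact O.zero_mem
  obtain ⟨i₀, h0, hmem⟩ := exists_scale_vec O a hne
  have key : a i₀ ∈ O := by
    by_contra hnot
    have hinv : (a i₀)⁻¹ ∈ O := (O.mem_or_inv_mem (a i₀)).resolve_left hnot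
    have hnu : ¬ IsUnit (⟨(a i₀)⁻¹, hinv⟩ : O) := by
      intro hu
      obtain ⟨u, hu⟩ := hu
      apply hnot
      have h1 : ((u⁻¹ : Oˣ) : O) * ⟨(a i₀)⁻¹, hinv⟩ = 1 := by
        rw [← hu]
        exact u.inv_mul
      have h2 : (((u⁻¹ : Oˣ) : O) : F) * (a i₀)⁻¹ = 1 := by
        have := congrArg (fun x : O => (x : F)) h1
        simpa using this
      have h3 : (((u⁻¹ : Oˣ) : O) : F) = a i₀ := by
        field_simp at h2
        exact h2
      rw [← h3]
      exact ((u⁻¹ : Oˣ) : O).2
    have hsum : ∑ i, algebraMap F F' ((⟨a i / a i₀, hmem i⟩ : O) : F) * (b i : F') =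
        (((⟨algebraMap F F' (a i₀)⁻¹, S.mem _ hinv⟩ : O') * w : O') : F') := by
      have h1 : ∑ i, algebraMap F F' (a i / a i₀) * (b i : F') =
          algebraMap F F' (a i₀)⁻¹ * ∑ i, a i • (b i : F') := by
        rw [Finset.mul_sum]
        refine Finset.sum_congr rfl fun i _ => ?_
        rw [Algebra.smul_def, div_eq_mul_inv, map_mul]
        ring
      rw [h] at h1
      exact h1
    have h2 := S.red_sum b (fun i => ⟨a i / a i₀, hmem i⟩) _ hsum
    rw [map_mul, S.red_comp _ hinv, S.ker _ hnu, map_zero, zero_mul] at h2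
    have h3 := (Fintype.linearIndependent_iff.1 hb) _ h2.symm i₀
    have h4 : (⟨a i₀ / a i₀, hmem i₀⟩ : O) = 1 := by
      apply Subtype.ext
      show a i₀ / a i₀ = 1
      exact div_self h0
    rw [h4, map_one] at h3
    exact one_ne_zero h3
  have : a i = a i / a i₀ * a i₀ := by
    field_simp
  rw [this]
  exact O.mul_mem _ _ (hmem i) key

/-- **the norm commutes with reduction.** -/
theorem Setup.norm_red (S : Setup O O' red red') [FiniteDimensional Fb Fb'] (z : O') :
    ∃ h : Algebra.norm F (z : F') ∈ O,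
      red ⟨Algebra.norm F (z : F'), h⟩ = Algebra.norm Fb (red' z) := by
  classical
  have hnpos : 0 < Module.finrank Fb Fb' := Module.finrank_pos
  haveI : Nonempty (Fin (Module.finrank Fb Fb')) := ⟨⟨0, hnpos⟩⟩
  let bb : Module.Basis (Fin (Module.finrank Fb Fb')) Fb Fb' := Module.finBasis Fb Fb'
  choose b hb using fun i => S.surj' (bb i)
  have hbli : LinearIndependent Fb fun i => red' (b i) := by
    have : (fun i => red' (b i)) = bb := funext hb
    rw [this]
    exact bb.linearIndependent
  have hli := S.linearIndependent_lift b hbli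
  let B : Module.Basis (Fin (Module.finrank Fb Fb')) F F' :=
    basisOfLinearIndependentOfCardEqFinrank hli (by rw [Fintype.card_fin, S.finrank_eq])
  have hB : ∀ i, B i = ((b i : O') : F') := fun i => by
    simp only [B, coe_basisOfLinearIndependentOfCardEqFinrank]
  have hsum : ∀ j, ∑ i, Algebra.leftMulMatrix B (z : F') i j • ((b i : O') : F') =
      (((z * b j : O')) : F') := by
    intro j
    have h1 := B.sum_repr ((z : F') * B j)
    simp only [hB] at h1
    have h2 : (((z * b j : O')) : F') = (z : F') * ((b j : O') : F') := rfl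
    rw [h2]
    refine Eq.trans (Finset.sum_congr rfl fun i _ => ?_) h1
    rw [Algebra.leftMulMatrix_eq_repr_mul, hB]
  have hent : ∀ i j, Algebra.leftMulMatrix B (z : F') i j ∈ O := fun i j =>
    S.coeff_mem b hbli (fun i => Algebra.leftMulMatrix B (z : F') i j) (z * b j) (hsum j) i
  let MO : Matrix (Fin (Module.finrank Fb Fb')) (Fin (Module.finrank Fb Fb')) O :=
    fun i j => ⟨Algebra.leftMulMatrix B (z : F') i j, hent i j⟩
  have hMO : Algebra.leftMulMatrix B (z : F') = O.subtype.mapMatrix MO := by
    ext i j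
    rfl
  have hred : Algebra.leftMulMatrix bb (red' z) = red.mapMatrix MO := by
    ext i j
    rw [Algebra.leftMulMatrix_eq_repr_mul]
    have h2 := S.red_sum b (fun i => MO i j) (z * b j) (by
      rw [← hsum j]
      refine Finset.sum_congr rfl fun i _ => ?_
      rw [Algebra.smul_def])
    rw [map_mul, hb] at h2
    simp only [hb] at h2
    rw [h2, Module.Basis.repr_sum_self]
    rfl
  have hnorm : Algebra.norm F (z : F') = ((Matrix.det MO : O) : F) := by
    rw [Algebra.norm_eq_matrix_det B, hMO, ← RingHom.map_det]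
    rfl
  refine ⟨hnorm ▸ (Matrix.det MO).2, ?_⟩
  have h3 : (⟨Algebra.norm F (z : F'), hnorm ▸ (Matrix.det MO).2⟩ : O) = Matrix.det MO :=
    Subtype.ext hnorm
  rw [h3, Algebra.norm_eq_matrix_det bb, hred, ← RingHom.map_det]

end Fermat.Agent.S29.NormRed
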