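/-
S29 gamble (item 90), piece (D4)/(E1), instantiation (lead).

For char-0 fields `L`, `k`, a valuation ring `A ⊂ L` with residue map `π : A → k`, levels `N`,
`N ℓ`: the Gauss valuation rings of `F_L(N) ⊂ F_L(N ℓ)` (helper8's `GaussC.modularHypC`) satisfy
`NormRed.Setup`; hence **`red (Nm_α (β u)) = Nm_α (β (red u))`** for every Gauss-integral `u`
(`α` = inclusion, `β = (q ↦ q^ℓ)`).
-/
import Mathlib
import Fermat.Agent.S29.NormRed
import Fermat.Agent.S29.GaussCHyp
import Fermat.Agent.S29.GaussCTower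

set_option autoImplicit false
set_option linter.unusedSectionVars false
set_option linter.style.haveILetI false
set_option warn.classDefReducibility false

noncomputable section

open HahnSeries ModularCurve AlgebraicCurve

namespace Fermat.Agent.S29.NRM

open Fermat.Agent.S18 Fermat.Agent.S18.GaussD Fermat.Agent.S29.GaussC Fermat.Agent.S28

section Maps

variable (K : Type*) [Field K] (N ℓ : ℕ) [NeZero N] [NeZero ℓ]

/-- the degeneracy map `α` (inclusion) on `F_K(N)`. -/
def alphaC : ↥(modularFunctionFieldFullC K N) →ₐ[K] ↥(modularFunctionFieldFullC K (N * ℓ)) :=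
  IntermediateField.inclusion (full_degeneracyC_le K (dvd_mul_right N ℓ))

theorem coe_alphaC (x : ↥(modularFunctionFieldFullC K N)) :
    ((alphaC K N ℓ x : ↥(modularFunctionFieldFullC K (N * ℓ))) : LaurentSeries K) = x :=
  IntermediateField.coe_inclusion _ x

/-- the degeneracy map `β` (`q ↦ q^ℓ`) on `F_K(N)`. -/
def betaC : ↥(modularFunctionFieldFullC K N) →ₐ[K] ↥(modularFunctionFieldFullC K (N * ℓ)) where
  toFun x := ⟨qExpand K ℓ (x : LaurentSeries K),
    full_degeneracyC_map_le K N ℓ ⟨x, x.2, rfl⟩⟩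
  map_one' := Subtype.ext (map_one (qExpand K ℓ))
  map_mul' _ _ := Subtype.ext (map_mul (qExpand K ℓ) _ _)
  map_zero' := Subtype.ext (map_zero (qExpand K ℓ))
  map_add' _ _ := Subtype.ext (map_add (qExpand K ℓ) _ _)
  commutes' a := Subtype.ext <| by
    show qExpand K ℓ (algebraMap K (LaurentSeries K) a) = algebraMap K (LaurentSeries K) a
    rw [algebraMap_laurentSeries_eq_single, qExpand_single, mul_zero]

theorem coe_betaC (x : ↥(modularFunctionFieldFullC K N)) :
    ((betaC K N ℓ x : ↥(modularFunctionFieldFullC K (N * ℓ))) : LaurentSeries K) =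
      qExpand K ℓ (x : LaurentSeries K) := rfl

/-- the algebra structure of `F_K(N ℓ)` over `F_K(N)` along `α`. -/
def algC : Algebra ↥(modularFunctionFieldFullC K N) ↥(modularFunctionFieldFullC K (N * ℓ)) :=
  (alphaC K N ℓ).toRingHom.toAlgebra

/-- `u ↦ Nm_α (β u)` on `F_K(N)`. -/
def normBeta : ↥(modularFunctionFieldFullC K N) →* ↥(modularFunctionFieldFullC K N) :=
  letI := algC K N ℓ
  (Algebra.norm ↥(modularFunctionFieldFullC K N)).comp
    (betaC K N ℓ).toRingHom.toMonoidHom

/-- the Hecke operator on functions: `u ↦ Nm_α (β u)` on units. -/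
def heckeUnits : (↥(modularFunctionFieldFullC K N))ˣ →* (↥(modularFunctionFieldFullC K N))ˣ :=
  Units.map (normBeta K N ℓ)

theorem normBeta_apply (u : ↥(modularFunctionFieldFullC K N)) :
    normBeta K N ℓ u =
      @Algebra.norm ↥(modularFunctionFieldFullC K N) ↥(modularFunctionFieldFullC K (N * ℓ)) _ _
        (algC K N ℓ) (betaC K N ℓ u) := rfl

end Maps

section RedQ

variable {L : Type*} [Field L] (A : ValuationSubring L) {k : Type*} [Field k] (π : A →+* k)

theorem redQ_qExpand' (M : ℕ) [NeZero M] {y : LaurentSeries L} {yb : LaurentSeries k}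
    (hy : RedQ A π y yb) : RedQ A π (qExpand L M y) (qExpand k M yb) := by
  obtain ⟨y', rfl, rfl⟩ := hy
  exact ⟨qExpand A M y', coeffMap_qExpand _ _ _, coeffMap_qExpand _ _ _⟩

end RedQ

section Inst

variable {L : Type*} [Field L] [CharZero L] (A : ValuationSubring L)
variable {k : Type*} [Field k] [CharZero k] (π : A →+* k)
variable (N ℓ : ℕ) [NeZero N] [NeZero ℓ]

/-- transport of `RedV` along `α`. -/
theorem redV_alpha {y : ↥(modularFunctionFieldFullC L N)} {yb : ↥(modularFunctionFieldFullC k N)}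
    (h : RedV A π (modularFunctionFieldFullC L N) (modularFunctionFieldFullC k N) y yb) :
    RedV A π (modularFunctionFieldFullC L (N * ℓ)) (modularFunctionFieldFullC k (N * ℓ))
      (alphaC L N ℓ y) (alphaC k N ℓ yb) := by
  obtain ⟨u, v, ub, vb, hu, hv, hvb, h1, h2⟩ := h
  refine ⟨alphaC L N ℓ u, alphaC L N ℓ v, alphaC k N ℓ ub, alphaC k N ℓ vb, ?_, ?_, ?_, ?_, ?_⟩
  · rw [coe_alphaC, coe_alphaC]; exact hu
  · rw [coe_alphaC, coe_alphaC]; exact hv
  · exact (map_ne_zero _).2 hvb
  · rw [← map_mul, h1]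
  · rw [← map_mul, h2]

/-- transport of `RedV` along `β`. -/
theorem redV_beta {y : ↥(modularFunctionFieldFullC L N)} {yb : ↥(modularFunctionFieldFullC k N)}
    (h : RedV A π (modularFunctionFieldFullC L N) (modularFunctionFieldFullC k N) y yb) :
    RedV A π (modularFunctionFieldFullC L (N * ℓ)) (modularFunctionFieldFullC k (N * ℓ))
      (betaC L N ℓ y) (betaC k N ℓ yb) := by
  obtain ⟨u, v, ub, vb, hu, hv, hvb, h1, h2⟩ := h
  refine ⟨betaC L N ℓ u, betaC L N ℓ v, betaC k N ℓ ub, betaC k N ℓ vb, ?_, ?_, ?_, ?_, ?_⟩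
  · rw [coe_betaC, coe_betaC]; exact redQ_qExpand' A π ℓ hu
  · rw [coe_betaC, coe_betaC]; exact redQ_qExpand' A π ℓ hv
  · exact (map_ne_zero _).2 hvb
  · rw [← map_mul, h1]
  · rw [← map_mul, h2]

variable (hker : ∀ a : A, ¬ IsUnit a → π a = 0) (hsurj : Function.Surjective π)

/-- the Gauss ring at level `N`. -/
abbrev OG : ValuationSubring ↥(modularFunctionFieldFullC L N) :=
  gaussRing (modularHypC A π hker hsurj N)

/-- the Gauss reduction at level `N`. -/
abbrev redG : OG A π N hker hsurj →+* ↥(modularFunctionFieldFullC k N) :=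
  gaussRed (modularHypC A π hker hsurj N)

instance neZero_mul : NeZero (N * ℓ) := ⟨Nat.mul_ne_zero (NeZero.ne N) (NeZero.ne ℓ)⟩

theorem finrank_algC_eq :
    @Module.finrank ↥(modularFunctionFieldFullC k N) ↥(modularFunctionFieldFullC k (N * ℓ)) _ _
      (algC k N ℓ).toModule =
    @Module.finrank ↥(modularFunctionFieldFullC L N) ↥(modularFunctionFieldFullC L (N * ℓ)) _ _
      (algC L N ℓ).toModule := by
  have h1 := finrank_toAlgebra_mul k (dvd_mul_right N ℓ) (alphaC k N ℓ).toRingHom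
    (fun x => coe_alphaC k N ℓ x)
  have h2 := finrank_toAlgebra_mul L (dvd_mul_right N ℓ) (alphaC L N ℓ).toRingHom
    (fun x => coe_alphaC L N ℓ x)
  exact Nat.eq_of_mul_eq_mul_right (dedekindPsi_pos N) (h1.trans h2.symm)

theorem finite_algC (K : Type*) [Field K] [CharZero K] :
    @Module.Finite ↥(modularFunctionFieldFullC K N) ↥(modularFunctionFieldFullC K (N * ℓ)) _ _
      (algC K N ℓ).toModule :=
  finite_toAlgebra K (dvd_mul_right N ℓ) (alphaC K N ℓ).toRingHom (fun x => coe_alphaC K N ℓ x)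

/-- the setup of `NormRed` for the levels `N`, `N ℓ`. -/
theorem setup :
    letI := algC L N ℓ
    letI := algC k N ℓ
    NormRed.Setup (OG A π N hker hsurj) (OG A π (N * ℓ) hker hsurj)
      (redG A π N hker hsurj) (redG A π (N * ℓ) hker hsurj) := by
  letI := algC L N ℓ
  letI := algC k N ℓ
  have hmem : ∀ x : ↥(modularFunctionFieldFullC L N), x ∈ OG A π N hker hsurj →
      algebraMap _ ↥(modularFunctionFieldFullC L (N * ℓ)) x ∈ OG A π (N * ℓ) hker hsurj := by
    rintro x ⟨xb, hx⟩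
    exact ⟨alphaC k N ℓ xb, redV_alpha A π N ℓ hx⟩
  refine ⟨hmem, ?_, ?_, ?_, ?_⟩
  · intro x hx
    rw [gaussRed_eq_iff]
    exact redV_alpha A π N ℓ (redV_gaussRed _ ⟨x, hx⟩)
  · intro x hx
    by_contra h0
    exact hx (isUnit_of_gaussRed_ne_zero _ x h0)
  · intro yb
    obtain ⟨y, hy⟩ := (modularHypC A π hker hsurj (N * ℓ)).onto yb
    exact ⟨⟨y, ⟨yb, hy⟩⟩, (gaussRed_eq_iff _ _ _).2 hy⟩
  · exact finrank_algC_eq (L := L) (k := k) N ℓ

/-- **(E1)**: the Gauss reduction commutes with `u ↦ Nm_α (β u)`. -/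
theorem normBeta_red (u : OG A π N hker hsurj) :
    ∃ h : normBeta L N ℓ (u : ↥(modularFunctionFieldFullC L N)) ∈ OG A π N hker hsurj,
      redG A π N hker hsurj ⟨_, h⟩ = normBeta k N ℓ (redG A π N hker hsurj u) := by
  letI := algC L N ℓ
  letI := algC k N ℓ
  haveI : FiniteDimensional ↥(modularFunctionFieldFullC k N)
      ↥(modularFunctionFieldFullC k (N * ℓ)) := finite_algC (N := N) (ℓ := ℓ) k
  have hz : RedV A π (modularFunctionFieldFullC L (N * ℓ)) (modularFunctionFieldFullC k (N * ℓ))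
      (betaC L N ℓ (u : ↥(modularFunctionFieldFullC L N)))
      (betaC k N ℓ (redG A π N hker hsurj u)) :=
    redV_beta A π N ℓ (redV_gaussRed _ u)
  obtain ⟨h, he⟩ := (setup A π N ℓ hker hsurj).norm_red
    (⟨betaC L N ℓ (u : ↥(modularFunctionFieldFullC L N)), ⟨_, hz⟩⟩ : OG A π (N * ℓ) hker hsurj)
  have h2 : redG A π (N * ℓ) hker hsurj
      ⟨betaC L N ℓ (u : ↥(modularFunctionFieldFullC L N)), ⟨_, hz⟩⟩ =
      betaC k N ℓ (redG A π N hker hsurj u) := (gaussRed_eq_iff _ _ _).2 hz
  rw [h2] at he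
  exact ⟨h, he⟩

end Inst

end Fermat.Agent.S29.NRM
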