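/-
S29 gamble (item 90), the CANONICAL objects of the descent chain (lead).

For a field `K`, level `N`, prime `p`:
* `KM.CK K N`     : the constants in `F_K(N)ˣ`  (`F_K(N) = modularFunctionFieldFullC K N`);
* `KM.KPK K N p`  : the units all of whose orders are divisible by `p`;
* `KM.Idx N p`    : the primes `ℓ ∤ N p`;
* `KM.TX N p i`   : the Hecke operator `R2.TXP` on `R2.XP N p`;
* `KM.HK K N p i` : `u ↦ Nm_α (β u)` on `F_K(N)ˣ` (`NRM.heckeUnits`);
* `KM.KSysMod K N p` : the type of Kummer systems over `K`.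
-/
import Mathlib
import Fermat.Agent.S29.R2
import Fermat.Agent.S29.DescentStep
import Fermat.Agent.S29.NormRedMod

set_option autoImplicit false
set_option linter.unusedSectionVars false
set_option linter.style.haveILetI false

noncomputable section

open HahnSeries ModularCurve AlgebraicCurve

namespace Fermat.Agent.S29.KM

open Fermat.Agent.S29.DStep

variable (K : Type*) [Field K] (N : ℕ) [NeZero N] (p : ℕ)

/-- the constants in `F_K(N)ˣ`. -/
def CK : Subgroup (↥(modularFunctionFieldFullC K N))ˣ :=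
  (Units.map (algebraMap K ↥(modularFunctionFieldFullC K N) : K →* _)).range

theorem mem_CK_iff {u : (↥(modularFunctionFieldFullC K N))ˣ} :
    u ∈ CK K N ↔ ∃ c : K, c ≠ 0 ∧ (u : ↥(modularFunctionFieldFullC K N)) = algebraMap K _ c := by
  constructor
  · rintro ⟨c, rfl⟩
    exact ⟨(c : K), c.ne_zero, rfl⟩
  · rintro ⟨c, hc, h⟩
    exact ⟨Units.mk0 c hc, Units.ext h.symm⟩

/-- the units with all orders divisible by `p`. -/
def KPK : Subgroup (↥(modularFunctionFieldFullC K N))ˣ where
  carrier := {u | ∀ P : Place K ↥(modularFunctionFieldFullC K N),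
    (p : ℤ) ∣ P.ord (u : ↥(modularFunctionFieldFullC K N))}
  mul_mem' := by
    intro u v hu hv P
    rw [Units.val_mul, Place.ord_mul P u.ne_zero v.ne_zero]
    exact dvd_add (hu P) (hv P)
  one_mem' := by
    intro P
    rw [Units.val_one, Place.ord_one]
    exact dvd_zero _
  inv_mem' := by
    intro u hu P
    rw [Units.val_inv_eq_inv_val, Place.ord_inv]
    exact (dvd_neg).2 (hu P)

theorem mem_KPK_iff {u : (↥(modularFunctionFieldFullC K N))ˣ} :
    u ∈ KPK K N p ↔ ∀ P : Place K ↥(modularFunctionFieldFullC K N),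
      (p : ℤ) ∣ P.ord (u : ↥(modularFunctionFieldFullC K N)) := Iff.rfl

/-- the primes `ℓ ∤ N p`. -/
def Idx : Type := {ℓ : ℕ // ℓ.Prime ∧ ¬ ℓ ∣ N * p}

variable {N p} in
theorem Idx.not_dvd (i : Idx N p) : ¬ i.1 ∣ N := fun h => i.2.2 (h.mul_right p)

/-- the Hecke operators on `XP N p`. -/
def TX (i : Idx N p) : R2.XP N p →+ R2.XP N p :=
  haveI : Fact i.1.Prime := ⟨i.2.1⟩
  (R2.TXP N p i.1 i.not_dvd).toAddMonoidHom

/-- the Hecke operators on `F_K(N)ˣ`. -/
def HK (i : Idx N p) :
    (↥(modularFunctionFieldFullC K N))ˣ →* (↥(modularFunctionFieldFullC K N))ˣ :=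
  haveI : NeZero i.1 := ⟨i.2.1.ne_zero⟩
  NRM.heckeUnits K N i.1

/-- Kummer systems over `K`. -/
abbrev KSysMod : Type _ :=
  KSys (TX N p) (↥(modularFunctionFieldFullC K N))ˣ (CK K N) (KPK K N p) (HK K N p) p

end Fermat.Agent.S29.KM
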