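import Mathlib
import Fermat.Agent.S29.Bottom
import Fermat.Agent.S29.KSysMod
import Fermat.Agent.S18.ModularScal

/-!
# S29 (item 90), the BOTTOM of the descent chain, adapter (helper9)

`dict_of_ksys`: a Kummer system `KM.KSysMod (AlgebraicClosure ℚ) N p` (units of
`modularFunctionFieldFullC ℚ̄ N`) gives the dictionary `XP N p →+ J₀(N)[p]`
(`J₀(N) = Pic⁰` of `modularFunctionFieldBar N`): transport along
`modularFunctionFieldBar N = modularFunctionFieldFullC ℚ̄ N`.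
-/

set_option autoImplicit false
set_option linter.style.haveILetI false
set_option linter.unusedSectionVars false

open AlgebraicCurve ModularCurve HahnSeries Fermat.Agent.S18 Fermat.Agent.S37
  Fermat.Agent.S37.E3 Fermat.Agent.S29.KD Fermat.Agent.S29.DStep

noncomputable section

namespace Fermat.Agent.S29.Bottom

local notation "Kbar" => AlgebraicClosure ℚ

section Generic

variable {K : Type*} [Field K] (ℓ : ℕ) [NeZero ℓ]

/-- the map `q ↦ q^ℓ` between two subfields of `K((q))`. -/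
def betaG {E E' : IntermediateField K (LaurentSeries K)}
    (hq : ∀ x ∈ E, qExpand K ℓ x ∈ E') : ↥E →ₐ[K] ↥E' where
  toFun x := ⟨qExpand K ℓ (x : LaurentSeries K), hq x x.2⟩
  map_one' := Subtype.ext (map_one (qExpand K ℓ))
  map_mul' _ _ := Subtype.ext (map_mul (qExpand K ℓ) _ _)
  map_zero' := Subtype.ext (map_zero (qExpand K ℓ))
  map_add' _ _ := Subtype.ext (map_add (qExpand K ℓ) _ _)
  commutes' a := Subtype.ext <| by
    show qExpand K ℓ (algebraMap K (LaurentSeries K) a) = algebraMap K (LaurentSeries K) a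
    rw [algebraMap_laurentSeries_eq_single, qExpand_single, mul_zero]

/-- `u ↦ Nm_α (β u)` for two subfields `E ≤ E'` of `K((q))`. -/
def normG {E E' : IntermediateField K (LaurentSeries K)} (h : E ≤ E')
    (hq : ∀ x ∈ E, qExpand K ℓ x ∈ E') (u : ↥E) : ↥E :=
  normAlong (IntermediateField.inclusion h) (betaG ℓ hq u)

theorem normG_congr {E₁ E₂ E₁' E₂' : IntermediateField K (LaurentSeries K)}
    (hE : E₁ = E₂) (hE' : E₁' = E₂') (h₁ : E₁ ≤ E₁') (h₂ : E₂ ≤ E₂')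
    (hq₁ : ∀ x ∈ E₁, qExpand K ℓ x ∈ E₁') (hq₂ : ∀ x ∈ E₂, qExpand K ℓ x ∈ E₂') (u : ↥E₁) :
    IntermediateField.equivOfEq hE (normG ℓ h₁ hq₁ u) =
      normG ℓ h₂ hq₂ (IntermediateField.equivOfEq hE u) := by
  subst hE
  subst hE'
  rw [IntermediateField.equivOfEq_rfl]
  rfl

theorem dvd_ord_congr {E₁ E₂ : IntermediateField K (LaurentSeries K)} (hE : E₁ = E₂) (p : ℕ)
    (u : ↥E₁) (hu : ∀ P : Place K ↥E₁, (p : ℤ) ∣ P.ord u) :
    ∀ P : Place K ↥E₂, (p : ℤ) ∣ P.ord (IntermediateField.equivOfEq hE u) := by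
  subst hE
  rw [IntermediateField.equivOfEq_rfl]
  exact hu

end Generic

variable (N : ℕ) [NeZero N]

/-- the identification of the two descriptions of the function field over `ℚ̄`. -/
def eBar : ↥(modularFunctionFieldFullC Kbar N) ≃ₐ[Kbar] ↥(modularFunctionFieldBar N) :=
  IntermediateField.equivOfEq (MScal.modularFunctionFieldBar_eq_fullC N).symm

theorem normBeta_eq_normG (K : Type*) [Field K] (ℓ : ℕ) [NeZero ℓ]
    (u : ↥(modularFunctionFieldFullC K N)) :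
    NRM.normBeta K N ℓ u =
      normG ℓ (full_degeneracyC_le K (dvd_mul_right N ℓ))
        (fun x hx => full_degeneracyC_map_le K N ℓ ⟨x, hx, rfl⟩) u := rfl

theorem normAlong_bar_eq_normG (ℓ : ℕ) [NeZero ℓ]
    (h : modularFunctionFieldBar N ≤ modularFunctionFieldBar (N * ℓ))
    (hq : ∀ x ∈ modularFunctionFieldBar N, qExpand Kbar ℓ x ∈ modularFunctionFieldBar (N * ℓ))
    (v : ↥(modularFunctionFieldBar N)) :
    normAlong (heckeAlphaBar Kbar N ℓ) (heckeBetaBar Kbar N ℓ v) = normG ℓ h hq v := rfl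

/-- the Hecke operator on functions, in the two descriptions. -/
theorem eBar_normBeta (ℓ : ℕ) [NeZero ℓ] (u : ↥(modularFunctionFieldFullC Kbar N)) :
    eBar N (NRM.normBeta Kbar N ℓ u) =
      normAlong (heckeAlphaBar Kbar N ℓ) (heckeBetaBar Kbar N ℓ (eBar N u)) := by
  have h : modularFunctionFieldBar N ≤ modularFunctionFieldBar (N * ℓ) := by
    intro x hx
    exact (heckeAlphaBar Kbar N ℓ ⟨x, hx⟩).2
  have hq : ∀ x ∈ modularFunctionFieldBar N,
      qExpand Kbar ℓ x ∈ modularFunctionFieldBar (N * ℓ) := by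
    intro x hx
    exact (heckeBetaBar Kbar N ℓ ⟨x, hx⟩).2
  rw [normAlong_bar_eq_normG N ℓ h hq, normBeta_eq_normG]
  exact normG_congr ℓ (MScal.modularFunctionFieldBar_eq_fullC N).symm
    (MScal.modularFunctionFieldBar_eq_fullC (N * ℓ)).symm _ h _ hq u

variable (p : ℕ)

theorem triv_transport {u : (↥(modularFunctionFieldFullC Kbar N))ˣ}
    (hu : u ∈ Triv (KM.CK Kbar N) p) :
    ∃ (c : Kbar) (w : ↥(modularFunctionFieldBar N)), c ≠ 0 ∧ w ≠ 0 ∧
      eBar N (u : ↥(modularFunctionFieldFullC Kbar N)) = c • w ^ p := by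
  obtain ⟨c, hc, w, rfl⟩ := mem_Triv_iff.1 hu
  obtain ⟨c₀, hc₀, hcc⟩ := (KM.mem_CK_iff Kbar N).1 hc
  refine ⟨c₀, eBar N (w : ↥(modularFunctionFieldFullC Kbar N)), hc₀,
    (map_ne_zero (eBar N)).2 w.ne_zero, ?_⟩
  rw [Units.val_mul, Units.val_pow_eq_pow_val, hcc, map_mul, map_pow, AlgEquiv.commutes,
    Algebra.smul_def]

theorem triv_of_eq {u : (↥(modularFunctionFieldFullC Kbar N))ˣ} (c : Kbar)
    (w : ↥(modularFunctionFieldBar N)) (hc : c ≠ 0) (hw : w ≠ 0)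
    (h : eBar N (u : ↥(modularFunctionFieldFullC Kbar N)) = c • w ^ p) :
    u ∈ Triv (KM.CK Kbar N) p := by
  have hw' : (eBar N).symm w ≠ 0 := (map_ne_zero (eBar N).symm).2 hw
  have hc' : algebraMap Kbar ↥(modularFunctionFieldFullC Kbar N) c ≠ 0 :=
    (map_ne_zero _).2 hc
  refine mem_Triv_iff.2 ⟨Units.mk0 _ hc', (KM.mem_CK_iff Kbar N).2 ⟨c, hc, rfl⟩,
    Units.mk0 _ hw', Units.ext ?_⟩
  rw [Units.val_mul, Units.val_pow_eq_pow_val, Units.val_mk0, Units.val_mk0]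
  apply (eBar N).injective
  rw [h, map_mul, map_pow, AlgEquiv.apply_symm_apply, AlgEquiv.commutes, Algebra.smul_def]

/-- **BOTTOM**: a Kummer system over `ℚ̄` gives the dictionary. -/
theorem dict_of_ksys [Fact p.Prime] (K : KM.KSysMod Kbar N p) :
    ∃ Φ : R2.XP N p →+ torsP N p, Function.Injective Φ ∧
      ∀ (ℓ : ℕ) [Fact ℓ.Prime] (hℓN : ¬ ℓ ∣ N), ¬ ℓ ∣ N * p →
        ∀ ψ : R2.XP N p,
          Φ (R2.TXP N p ℓ hℓN ψ) = heckeTors N p ⟨ℓ, Fact.out⟩ (Φ ψ) := by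
  have hne : ∀ u : (↥(modularFunctionFieldFullC Kbar N))ˣ,
      eBar N (u : ↥(modularFunctionFieldFullC Kbar N)) ≠ 0 :=
    fun u => (map_ne_zero (eBar N)).2 u.ne_zero
  refine dict_of_functions N p
    (fun ψ => eBar N ((K.U ψ : (↥(modularFunctionFieldFullC Kbar N))ˣ) :
      ↥(modularFunctionFieldFullC Kbar N))) (fun ψ => hne _) ?_ ?_ ?_ ?_
  · intro ψ P
    exact dvd_ord_congr (MScal.modularFunctionFieldBar_eq_fullC N).symm p _
      ((KM.mem_KPK_iff Kbar N p).1 (K.kp ψ)) P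
  · intro ψ ψ'
    obtain ⟨c, w, hc, hw, h⟩ := triv_transport N p (K.add ψ ψ')
    refine ⟨c, w, hc, hw, ?_⟩
    rw [Units.val_div_eq_div_val, map_div₀, Units.val_mul, map_mul] at h
    exact (div_eq_iff (mul_ne_zero (hne _) (hne _))).1 h
  · intro ψ c w hc hw h
    exact K.inj ψ (triv_of_eq N p c w hc hw h)
  · intro ℓ _ hℓN hℓNp ψ
    haveI : NeZero ℓ := ⟨(Fact.out : ℓ.Prime).ne_zero⟩
    obtain ⟨c, w, hc, hw, h⟩ := triv_transport N p (K.hk ⟨ℓ, Fact.out, hℓNp⟩ ψ)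
    refine ⟨c, w, hc, hw, ?_⟩
    rw [Units.val_div_eq_div_val, map_div₀] at h
    have h2 : eBar N ((KM.HK Kbar N p ⟨ℓ, Fact.out, hℓNp⟩ (K.U ψ) :
        (↥(modularFunctionFieldFullC Kbar N))ˣ) : ↥(modularFunctionFieldFullC Kbar N)) =
        normAlong (heckeAlphaBar Kbar N ℓ) (heckeBetaBar Kbar N ℓ
          (eBar N ((K.U ψ : (↥(modularFunctionFieldFullC Kbar N))ˣ) :
            ↥(modularFunctionFieldFullC Kbar N)))) :=
      eBar_normBeta N ℓ _
    rw [← h2]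
    exact (div_eq_iff (hne _)).1 h

end Fermat.Agent.S29.Bottom
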