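import Mathlib

/-!
# S29 (item 90), CHAIN: the tower of algebraically closed fields (pure field theory)

`E` an algebraically closed field (`= ℂ`), `K0` an algebraically closed field of characteristic
zero with `[Algebra K0 E]` (`= AlgebraicClosure ℚ`), `P` a property of fields.  If `P` descends
along every extension `L / k` of algebraically closed fields of transcendence degree one
(`step`), then for every finite `S ⊆ E` there is an algebraically closed subfield `T ⊇ S` of `E`
with `P T → P K0`.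

* `nextIF k c` : the algebraic closure of `k(c)` in `E`;
* `halg_next`, `transcendental_next`, `isAlgClosed_nextIF`;
* `chain`, `chain'` : the tower.
-/

set_option autoImplicit false
set_option linter.unusedSectionVars false
set_option linter.unusedVariables false
set_option linter.style.haveILetI false

open Polynomial IntermediateField

namespace Fermat.Agent.S29.Chain

variable {E : Type} [Field E] [IsAlgClosed E]

section generic

variable (k : Type) [Field k] [Algebra k E] (c : E)

/-- the algebraic closure of `k(c)` in `E` -/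
abbrev nextIF : IntermediateField ↥(k⟮c⟯) E := algebraicClosure ↥(k⟮c⟯) E

theorem isAlgClosed_nextIF : IsAlgClosed ↥(nextIF (E := E) k c) :=
  IsAlgClosure.isAlgClosed ↥(k⟮c⟯)

theorem c_mem_nextIF : c ∈ nextIF (E := E) k c := by
  have h : algebraMap ↥(k⟮c⟯) E ⟨c, mem_adjoin_simple_self k c⟩ ∈ nextIF (E := E) k c :=
    (nextIF (E := E) k c).algebraMap_mem _
  exact h

theorem algebraMap_mem_nextIF (a : k) : algebraMap k E a ∈ nextIF (E := E) k c := by
  have h : algebraMap ↥(k⟮c⟯) E (algebraMap k ↥(k⟮c⟯) a) ∈ nextIF (E := E) k c :=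
    (nextIF (E := E) k c).algebraMap_mem _
  exact h

open scoped IntermediateField.algebraAdjoinAdjoin in
/-- an element algebraic over `k(c)` is a root of a nonzero polynomial over `k[c]` -/
theorem exists_poly_of_isAlgebraic (y : E) (hy : IsAlgebraic ↥(k⟮c⟯) y) :
    ∃ Q : k[X][X], Q ≠ 0 ∧
      Polynomial.eval₂ (Polynomial.aeval c : k[X] →ₐ[k] E).toRingHom y Q = 0 := by
  have h1 : IsAlgebraic ↥(Algebra.adjoin k {c}) y :=
    (IsFractionRing.isAlgebraic_iff ↥(Algebra.adjoin k {c}) ↥(k⟮c⟯) E).mpr hy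
  obtain ⟨Q', hQ', hQ'y⟩ := h1
  let φ : k[X] →+* ↥(Algebra.adjoin k {c}) :=
    (Polynomial.aeval c : k[X] →ₐ[k] E).toRingHom.codRestrict (Algebra.adjoin k {c})
      (fun p => Polynomial.aeval_mem_adjoin_singleton k c)
  have hφ : Function.Surjective φ := by
    rintro ⟨z, hz⟩
    rw [Algebra.adjoin_singleton_eq_range_aeval] at hz
    obtain ⟨p, hp⟩ := hz
    exact ⟨p, Subtype.ext hp⟩
  obtain ⟨Q, hQ⟩ := Polynomial.map_surjective φ hφ Q'
  refine ⟨Q, fun h0 => hQ' (by rw [← hQ, h0, Polynomial.map_zero]), ?_⟩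
  have e : (Polynomial.aeval c : k[X] →ₐ[k] E).toRingHom
      = (algebraMap ↥(Algebra.adjoin k {c}) E).comp φ := by
    apply RingHom.ext
    intro p
    rfl
  rw [e, ← Polynomial.eval₂_map, hQ]
  exact hQ'y

theorem algebraMap_aeval_nextIF (q : k[X]) :
    algebraMap ↥(nextIF (E := E) k c) E
      (Polynomial.aeval (⟨c, c_mem_nextIF k c⟩ : ↥(nextIF (E := E) k c)) q)
      = Polynomial.aeval c q := by
  induction q using Polynomial.induction_on' with
  | add p q hp hq => rw [map_add, map_add, map_add, hp, hq]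
  | monomial n a =>
    rw [Polynomial.aeval_monomial, Polynomial.aeval_monomial, map_mul, map_pow]
    rfl

/-- every element of `nextIF k c` is algebraic over `k[c]` -/
theorem halg_nextIF (y : ↥(nextIF (E := E) k c)) :
    ∃ Q : k[X][X], Q ≠ 0 ∧
      Polynomial.eval₂ (Polynomial.aeval (⟨c, c_mem_nextIF k c⟩ : ↥(nextIF (E := E) k c)) :
        k[X] →ₐ[k] ↥(nextIF (E := E) k c)).toRingHom y Q = 0 := by
  have hy : IsAlgebraic ↥(k⟮c⟯) (y : E) := mem_algebraicClosure_iff.mp y.2
  obtain ⟨Q, hQ0, hQ⟩ := exists_poly_of_isAlgebraic k c y hy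
  refine ⟨Q, hQ0, ?_⟩
  apply (algebraMap ↥(nextIF (E := E) k c) E).injective
  rw [Polynomial.hom_eval₂, map_zero]
  have e : (algebraMap ↥(nextIF (E := E) k c) E).comp
      (Polynomial.aeval (⟨c, c_mem_nextIF k c⟩ : ↥(nextIF (E := E) k c)) :
        k[X] →ₐ[k] ↥(nextIF (E := E) k c)).toRingHom
      = (Polynomial.aeval c : k[X] →ₐ[k] E).toRingHom := by
    apply RingHom.ext
    intro q
    exact algebraMap_aeval_nextIF k c q
  rw [e]
  exact hQ

theorem transcendental_nextIF (hc : Transcendental k c) :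
    Transcendental k (⟨c, c_mem_nextIF k c⟩ : ↥(nextIF (E := E) k c)) := by
  intro halg
  apply hc
  obtain ⟨p, hp0, hp⟩ := halg
  refine ⟨p, hp0, ?_⟩
  have h := congrArg (algebraMap ↥(nextIF (E := E) k c) E) hp
  rw [map_zero] at h
  rw [← h]
  exact (algebraMap_aeval_nextIF k c p).symm

end generic

/-- an element outside an algebraically closed subfield is transcendental over it -/
theorem transcendental_of_notMem (T : Subfield E) [IsAlgClosed ↥T] (a : E) (ha : a ∉ T) :
    Transcendental ↥T a := by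
  intro halg
  apply ha
  have hint : IsIntegral ↥T a := halg.isIntegral
  have hdeg : (minpoly ↥T a).degree = 1 :=
    IsAlgClosed.degree_eq_one_of_irreducible ↥T (minpoly.irreducible hint)
  obtain ⟨x, hx⟩ := minpoly.mem_range_of_degree_eq_one ↥T a hdeg
  rw [← hx]
  exact x.2

/-- **CHAIN, with the constants**: the tower of algebraically closed subfields. -/
theorem chain' {K0 : Type} [Field K0] [IsAlgClosed K0] [CharZero K0] [Algebra K0 E]
    (P : (K : Type) → [Field K] → Prop)
    (step : ∀ (k L : Type) [Field k] [Field L] [Algebra k L] [IsAlgClosed k] [IsAlgClosed L]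
      [CharZero k] [CharZero L] (t : L), Transcendental k t →
      (∀ y : L, ∃ Q : k[X][X], Q ≠ 0 ∧
        Polynomial.eval₂ (Polynomial.aeval t : k[X] →ₐ[k] L).toRingHom y Q = 0) →
      P L → P k)
    (ht0 : ∃ t0 : E, Transcendental K0 t0) (S : Finset E) :
    ∃ T : Subfield E, (↑S : Set E) ⊆ (T : Set E) ∧ IsAlgClosed ↥T ∧ (P ↥T → P K0) ∧
      ∀ a : K0, algebraMap K0 E a ∈ T := by
  classical
  haveI : CharZero E := charZero_of_injective_algebraMap (algebraMap K0 E).injective
  induction S using Finset.induction_on with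
  | empty =>
    obtain ⟨t0, ht0⟩ := ht0
    haveI := isAlgClosed_nextIF (E := E) K0 t0
    haveI : CharZero ↥(nextIF (E := E) K0 t0) :=
      RingHom.charZero (algebraMap ↥(nextIF (E := E) K0 t0) E)
    refine ⟨(nextIF (E := E) K0 t0).toSubfield, by simp, isAlgClosed_nextIF K0 t0,
      fun hP => ?_, fun a => algebraMap_mem_nextIF K0 t0 a⟩
    exact step K0 ↥(nextIF (E := E) K0 t0) ⟨t0, c_mem_nextIF K0 t0⟩
      (transcendental_nextIF K0 t0 ht0) (halg_nextIF K0 t0) hP
  | insert a S' ha ih =>
    obtain ⟨T, hST, hT, hPT, hK0⟩ := ih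
    by_cases haT : a ∈ T
    · refine ⟨T, ?_, hT, hPT, hK0⟩
      rw [Finset.coe_insert]
      exact Set.insert_subset haT hST
    · haveI := hT
      haveI : CharZero ↥T := RingHom.charZero T.subtype
      have htr : Transcendental ↥T a := transcendental_of_notMem T a haT
      haveI := isAlgClosed_nextIF (E := E) ↥T a
      haveI : CharZero ↥(nextIF (E := E) ↥T a) :=
        RingHom.charZero (algebraMap ↥(nextIF (E := E) ↥T a) E)
      refine ⟨(nextIF (E := E) ↥T a).toSubfield, ?_, isAlgClosed_nextIF ↥T a,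
        fun hP => hPT ?_, fun x => ?_⟩
      · rw [Finset.coe_insert]
        refine Set.insert_subset (c_mem_nextIF ↥T a) (fun x hx => ?_)
        exact algebraMap_mem_nextIF ↥T a ⟨x, hST hx⟩
      · exact step ↥T ↥(nextIF (E := E) ↥T a) ⟨a, c_mem_nextIF ↥T a⟩
          (transcendental_nextIF ↥T a htr) (halg_nextIF ↥T a) hP
      · exact algebraMap_mem_nextIF ↥T a ⟨algebraMap K0 E x, hK0 x⟩

/-- **CHAIN.** -/
theorem chain {K0 : Type} [Field K0] [IsAlgClosed K0] [CharZero K0] [Algebra K0 E]
    (P : (K : Type) → [Field K] → Prop)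
    (step : ∀ (k L : Type) [Field k] [Field L] [Algebra k L] [IsAlgClosed k] [IsAlgClosed L]
      [CharZero k] [CharZero L] (t : L), Transcendental k t →
      (∀ y : L, ∃ Q : k[X][X], Q ≠ 0 ∧
        Polynomial.eval₂ (Polynomial.aeval t : k[X] →ₐ[k] L).toRingHom y Q = 0) →
      P L → P k)
    (ht0 : ∃ t0 : E, Transcendental K0 t0) (S : Finset E) :
    ∃ T : Subfield E, (↑S : Set E) ⊆ (T : Set E) ∧ IsAlgClosed ↥T ∧ (P ↥T → P K0) := by
  obtain ⟨T, h1, h2, h3, -⟩ := chain' P step ht0 S
  exact ⟨T, h1, h2, h3⟩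

/-- a transcendental element of `ℂ` over any algebraic extension of `ℚ` -/
theorem exists_transcendental_complex (K0 : Type) [Field K0] [Algebra ℚ K0]
    [Algebra.IsAlgebraic ℚ K0] [Algebra K0 ℂ] [IsScalarTower ℚ K0 ℂ] :
    ∃ t0 : ℂ, Transcendental K0 t0 := by
  have hx : Transcendental ℤ (liouvilleNumber 2) :=
    transcendental_liouvilleNumber (by norm_num : 2 ≤ 2)
  have hxC : Transcendental ℤ (algebraMap ℝ ℂ (liouvilleNumber 2)) :=
    (transcendental_algebraMap_iff (algebraMap ℝ ℂ).injective).mpr hx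
  refine ⟨algebraMap ℝ ℂ (liouvilleNumber 2), fun halg => hxC ?_⟩
  have h1 : IsAlgebraic ℚ (algebraMap ℝ ℂ (liouvilleNumber 2)) := halg.restrictScalars ℚ
  exact (IsFractionRing.isAlgebraic_iff ℤ ℚ ℂ).mpr h1

/-- the instance for `K0 = AlgebraicClosure ℚ` -/
theorem exists_transcendental_complex_Qbar [Algebra (AlgebraicClosure ℚ) ℂ] :
    ∃ t0 : ℂ, Transcendental (AlgebraicClosure ℚ) t0 := by
  haveI : IsScalarTower ℚ (AlgebraicClosure ℚ) ℂ :=
    IsScalarTower.of_algebraMap_eq (fun x => by
      rw [eq_ratCast, eq_ratCast, map_ratCast])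
  haveI : Algebra.IsAlgebraic ℚ (AlgebraicClosure ℚ) := AlgebraicClosure.isAlgebraic ℚ
  exact exists_transcendental_complex (AlgebraicClosure ℚ)

end Fermat.Agent.S29.Chain
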