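/-
S29 gamble (item 90), small inputs of the CHAIN (helper4).

* `ChainT.fg_Gamma0`     : `Γ₀(N)` is finitely generated (Schreier + `SL2Z_generators`);
* `ChainT.finite_XP`     : `R2.XP N p` is finite (so that the finitely many values of a Kummer
  system over `ℂ` are defined over a finitely generated field, `A1T.exists_finset_def_units`).
-/
import Mathlib
import Fermat.Agent.S29.R2

set_option autoImplicit false
set_option linter.unusedSectionVars false
set_option linter.style.haveILetI false

noncomputable section

open CongruenceSubgroup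
open scoped MatrixGroups

namespace Fermat.Agent.S29.ChainT

/-- `Γ₀(N)` is finitely generated. -/
theorem fg_Gamma0 (N : ℕ) [NeZero N] : Group.FG (Gamma0 N) := by
  haveI : Group.FG SL(2, ℤ) := by
    rw [Group.fg_iff]
    exact ⟨{ModularGroup.S, ModularGroup.T}, SpecialLinearGroup.SL2Z_generators,
      Set.toFinite _⟩
  exact Subgroup.fg_of_index_ne_zero (Gamma0 N)

/-- homomorphisms from `Γ₀(N)` to a finite group are finitely many. -/
theorem finite_hom (N : ℕ) [NeZero N] (A : Type*) [AddCommGroup A] [Finite A] :
    Finite (Additive (Gamma0 N) →+ A) := by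
  obtain ⟨s, hs, hfin⟩ := Group.fg_iff.1 (fg_Gamma0 N)
  haveI : Finite s := Set.finite_coe_iff.2 hfin
  let r : (Additive (Gamma0 N) →+ A) → (s → A) := fun ψ g => ψ (Additive.ofMul g.1)
  refine Finite.of_injective r ?_
  intro ψ ψ' h
  have key : ∀ g ∈ Subgroup.closure s, ψ (Additive.ofMul g) = ψ' (Additive.ofMul g) := by
    intro g hg
    induction hg using Subgroup.closure_induction with
    | mem x hx => exact congrFun h ⟨x, hx⟩
    | one => rw [ofMul_one, map_zero, map_zero]
    | mul x y _ _ hx hy => rw [ofMul_mul, map_add, map_add, hx, hy]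
    | inv x _ hx => rw [ofMul_inv, map_neg, map_neg, hx]
  ext a
  have ha : Additive.toMul a ∈ Subgroup.closure s := by
    rw [hs]
    exact Subgroup.mem_top _
  exact key _ ha

/-- `XP N p` is finite. -/
theorem finite_XP (N p : ℕ) [NeZero N] [NeZero p] : Finite (R2.XP N p) := by
  haveI : Finite (Additive (Gamma0 N) →+ ZMod p) := finite_hom N (ZMod p)
  exact Finite.of_injective (fun x : R2.XP N p => (x : Additive (Gamma0 N) →+ ZMod p))
    Subtype.val_injective

end Fermat.Agent.S29.ChainT
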