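import Mathlib

/-!
# S29, wall piece A3, abstract core: extension of a discrete valuation ring under a
constant field extension

`k ⊂ K` fields, `O` a discrete valuation ring over `k` with residue field `k`
(`ρ : O →ₐ[k] k`, `ρ t = 0` for a uniformiser `t`), `F'` a field over `K` and an injective
`K`-algebra homomorphism `Φ : K ⊗[k] O → F'` whose image generates `F'` as a field.  Then
`V = {Φ x / Φ y | ρ_K y ≠ 0}` is a discrete valuation ring of `F'` containing `K` and `Φ (1 ⊗ O)`,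
with uniformiser `Φ (1 ⊗ t)` (`A3.exists_dvr_extension`).

Key lemma (`exists_decomp`): every nonzero `x ∈ K ⊗[k] O` is `(1 ⊗ t)^m · y` with `ρ_K y ≠ 0`
(coordinates with respect to a `k`-basis of `K`).
-/

set_option autoImplicit false

noncomputable section

open scoped TensorProduct

namespace Fermat.Agent.S29.A3

section Core

variable {k K O F' : Type*} [Field k] [Field K] [Algebra k K]
  [CommRing O] [IsDomain O] [IsDiscreteValuationRing O] [Algebra k O]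
  [Field F'] [Algebra K F']

/-- the residue map of `K ⊗ O` -/
def rhoK (ρ : O →ₐ[k] k) : K ⊗[k] O →ₐ[K] K :=
  Algebra.TensorProduct.lift (AlgHom.id K K) ((Algebra.ofId k K).comp ρ)
    (fun _ _ => Commute.all _ _)

omit [IsDomain O] [IsDiscreteValuationRing O] in
theorem rhoK_tmul (ρ : O →ₐ[k] k) (c : K) (f : O) :
    rhoK ρ (c ⊗ₜ[k] f) = c * algebraMap k K (ρ f) := by
  simp [rhoK, Algebra.ofId_apply]

/-- **decomposition**: every nonzero element of `K ⊗ O` is a power of `1 ⊗ t` times an element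
with nonzero residue. -/
theorem exists_decomp (ρ : O →ₐ[k] k) {t : O} (ht : Irreducible t) (x : K ⊗[k] O)
    (hx : x ≠ 0) :
    ∃ (m : ℕ) (y : K ⊗[k] O), x = ((1 : K) ⊗ₜ[k] (t ^ m)) * y ∧ rhoK ρ y ≠ 0 := by
  classical
  let b := Module.Basis.ofVectorSpace k K
  obtain ⟨c, rfl⟩ := TensorProduct.eq_repr_basis_left b x
  have hc : c ≠ 0 := by
    rintro rfl
    exact hx (by simp)
  have hex : ∀ i, ∃ n : ℕ, c i ≠ 0 → ∃ u : Oˣ, c i = u * t ^ n := by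
    intro i
    by_cases h : c i = 0
    · exact ⟨0, fun h' => absurd h h'⟩
    · obtain ⟨n, u, hu⟩ := IsDiscreteValuationRing.eq_unit_mul_pow_irreducible h ht
      exact ⟨n, fun _ => ⟨u, hu⟩⟩
  choose n hn using hex
  have hsne : c.support.Nonempty := Finsupp.support_nonempty_iff.2 hc
  obtain ⟨i0, hi0, hmin⟩ := Finset.exists_min_image c.support n hsne
  have hq : ∀ i, ∃ d : O, c i = t ^ (n i0) * d ∧ (i = i0 → IsUnit d) := by
    intro i
    by_cases h : c i = 0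
    · refine ⟨0, by rw [h, mul_zero], fun hi => ?_⟩
      subst hi
      exact absurd h (Finsupp.mem_support_iff.1 hi0)
    · obtain ⟨u, hu⟩ := hn i h
      have hle : n i0 ≤ n i := hmin i (Finsupp.mem_support_iff.2 h)
      refine ⟨u * t ^ (n i - n i0), ?_, fun hi => ?_⟩
      · rw [hu, mul_left_comm, ← pow_add, Nat.add_sub_cancel' hle]
      · subst hi
        rw [Nat.sub_self, pow_zero, mul_one]
        exact u.isUnit
  choose d hd hdu using hq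
  refine ⟨n i0, ∑ i ∈ c.support, b i ⊗ₜ[k] d i, ?_, ?_⟩
  · rw [Finsupp.sum, Finset.mul_sum]
    refine Finset.sum_congr rfl fun i _ => ?_
    rw [Algebra.TensorProduct.tmul_mul_tmul, one_mul, ← hd i]
  · rw [map_sum]
    intro h0
    have h1 : ∑ i ∈ c.support, ρ (d i) • b i = 0 := by
      rw [← h0]
      refine Finset.sum_congr rfl fun i _ => ?_
      rw [rhoK_tmul, Algebra.smul_def, mul_comm]
    have h2 := linearIndependent_iff'.1 b.linearIndependent c.support (fun i => ρ (d i)) h1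
      i0 hi0
    exact ((hdu i0 rfl).map ρ).ne_zero h2

variable (ρ : O →ₐ[k] k) (Φ : K ⊗[k] O →ₐ[K] F')

/-- the subring `{Φ x / Φ y | ρ_K y ≠ 0}` of `F'` -/
def extSubring : Subring F' where
  carrier := {z | ∃ x y : K ⊗[k] O, rhoK ρ y ≠ 0 ∧ z * Φ y = Φ x}
  zero_mem' := ⟨0, 1, by simp, by simp⟩
  one_mem' := ⟨1, 1, by simp, by simp⟩
  add_mem' := by
    rintro a b ⟨x1, y1, h1, e1⟩ ⟨x2, y2, h2, e2⟩
    refine ⟨x1 * y2 + x2 * y1, y1 * y2, by rw [map_mul]; exact mul_ne_zero h1 h2, ?_⟩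
    rw [map_add, map_mul, map_mul, map_mul, ← e1, ← e2]
    ring
  mul_mem' := by
    rintro a b ⟨x1, y1, h1, e1⟩ ⟨x2, y2, h2, e2⟩
    refine ⟨x1 * x2, y1 * y2, by rw [map_mul]; exact mul_ne_zero h1 h2, ?_⟩
    rw [map_mul, map_mul, ← e1, ← e2]
    ring
  neg_mem' := by
    rintro a ⟨x, y, h, e⟩
    exact ⟨-x, y, h, by rw [map_neg, ← e]; ring⟩

omit [IsDomain O] [IsDiscreteValuationRing O] in
theorem mem_extSubring {z : F'} :
    z ∈ extSubring ρ Φ ↔ ∃ x y : K ⊗[k] O, rhoK ρ y ≠ 0 ∧ z * Φ y = Φ x := Iff.rfl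

variable {ρ Φ}
variable (hΦ : Function.Injective Φ)
  (hfrac : ∀ z : F', ∃ x y : K ⊗[k] O, y ≠ 0 ∧ z * Φ y = Φ x)
  {t : O} (ht : Irreducible t) (hρt : ρ t = 0)

include hΦ in
omit [IsDomain O] [IsDiscreteValuationRing O] in
theorem Phi_ne_zero {y : K ⊗[k] O} (hy : y ≠ 0) : Φ y ≠ 0 := fun h =>
  hy (hΦ (by rw [h, map_zero]))

omit [IsDomain O] [IsDiscreteValuationRing O] in
theorem ne_zero_of_rhoK {y : K ⊗[k] O} (hy : rhoK ρ y ≠ 0) : y ≠ 0 := by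
  rintro rfl
  exact hy (map_zero _)

include hΦ ht in
/-- nonzero elements of `F'` which are fractions are `τ^m · w` with `w, w⁻¹ ∈ V` (`m ∈ ℤ`). -/
theorem exists_zpow_mul {z : F'} (hz : z ≠ 0) {x y : K ⊗[k] O} (hy : y ≠ 0)
    (e : z * Φ y = Φ x) :
    ∃ (m m' : ℕ) (w : F'), w ∈ extSubring ρ Φ ∧ w⁻¹ ∈ extSubring ρ Φ ∧
      z * Φ (1 ⊗ₜ[k] t) ^ m' = Φ (1 ⊗ₜ[k] t) ^ m * w := by
  have hx : x ≠ 0 := by
    rintro rfl
    rw [map_zero] at e
    exact (mul_ne_zero hz (Phi_ne_zero hΦ hy)) e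
  obtain ⟨m, x', rfl, hx'⟩ := exists_decomp ρ ht x hx
  obtain ⟨m', y', rfl, hy'⟩ := exists_decomp ρ ht y hy
  have hx'0 := Phi_ne_zero hΦ (ne_zero_of_rhoK hx')
  have hy'0 := Phi_ne_zero hΦ (ne_zero_of_rhoK hy')
  refine ⟨m, m', Φ x' / Φ y', ⟨x', y', hy', div_mul_cancel₀ _ hy'0⟩,
    ⟨y', x', hx', by rw [inv_div, div_mul_cancel₀ _ hx'0]⟩, ?_⟩
  have hpow : ∀ n : ℕ, Φ ((1 : K) ⊗ₜ[k] (t ^ n)) = Φ (1 ⊗ₜ[k] t) ^ n := by
    intro n
    rw [← map_pow, Algebra.TensorProduct.tmul_pow, one_pow]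
  rw [map_mul, map_mul, hpow, hpow] at e
  field_simp
  rw [← e]
  ring

include hΦ hρt in
omit [IsDomain O] [IsDiscreteValuationRing O] in
/-- `τ⁻¹ ∉ V` -/
theorem inv_tau_not_mem (hτ : Φ ((1 : K) ⊗ₜ[k] t) ≠ 0) :
    (Φ (1 ⊗ₜ[k] t))⁻¹ ∉ extSubring ρ Φ := by
  rintro ⟨x, y, hy, e⟩
  have h2 : Φ y = Φ (((1 : K) ⊗ₜ[k] t) * x) := by
    rw [map_mul, ← e]
    field_simp
  have h3 : y = ((1 : K) ⊗ₜ[k] t) * x := hΦ h2
  apply hy
  rw [h3, map_mul, rhoK_tmul, hρt, map_zero, mul_zero, zero_mul]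

include hΦ hfrac ht in
/-- the valuation ring `V = {Φ x / Φ y | ρ_K y ≠ 0}` of `F'` -/
def extVal (hτ : Φ ((1 : K) ⊗ₜ[k] t) ≠ 0) : ValuationSubring F' :=
  { extSubring ρ Φ with
    mem_or_inv_mem' := by
      intro z
      by_cases hz : z = 0
      · left
        rw [hz]
        exact (extSubring ρ Φ).zero_mem
      · obtain ⟨x, y, hy, e⟩ := hfrac z
        obtain ⟨m, m', w, hw, hw', hzw⟩ := exists_zpow_mul (ρ := ρ) hΦ ht hz hy e
        rcases le_total m' m with hle | hle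
        · left
          have h1 : z = Φ (1 ⊗ₜ[k] t) ^ (m - m') * w := by
            have h2 : Φ ((1 : K) ⊗ₜ[k] t) ^ m =
                Φ (1 ⊗ₜ[k] t) ^ (m - m') * Φ (1 ⊗ₜ[k] t) ^ m' := by
              rw [← pow_add, Nat.sub_add_cancel hle]
            rw [h2] at hzw
            have h3 : Φ ((1 : K) ⊗ₜ[k] t) ^ m' ≠ 0 := pow_ne_zero _ hτ
            apply mul_right_cancel₀ h3
            rw [hzw]
            ring
          show z ∈ extSubring ρ Φ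
          rw [h1]
          refine (extSubring ρ Φ).mul_mem ((extSubring ρ Φ).pow_mem ?_ _) hw
          exact ⟨1 ⊗ₜ[k] t, 1, by simp, by simp⟩
        · right
          have hw0 : w ≠ 0 := by
            rintro rfl
            rw [mul_zero] at hzw
            exact (mul_ne_zero hz (pow_ne_zero _ hτ)) hzw
          have h1 : z⁻¹ = Φ (1 ⊗ₜ[k] t) ^ (m' - m) * w⁻¹ := by
            have h2 : Φ ((1 : K) ⊗ₜ[k] t) ^ m' =
                Φ (1 ⊗ₜ[k] t) ^ (m' - m) * Φ (1 ⊗ₜ[k] t) ^ m := by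
              rw [← pow_add, Nat.sub_add_cancel hle]
            rw [h2] at hzw
            have h3 : Φ ((1 : K) ⊗ₜ[k] t) ^ m ≠ 0 := pow_ne_zero _ hτ
            have h4 : z * Φ ((1 : K) ⊗ₜ[k] t) ^ (m' - m) = w := by
              apply mul_right_cancel₀ h3
              rw [mul_assoc, hzw, mul_comm]
            rw [← h4]
            field_simp
          show z⁻¹ ∈ extSubring ρ Φ
          rw [h1]
          refine (extSubring ρ Φ).mul_mem ((extSubring ρ Φ).pow_mem ?_ _) hw'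
          exact ⟨1 ⊗ₜ[k] t, 1, by simp, by simp⟩ }

theorem mem_extVal (hτ : Φ ((1 : K) ⊗ₜ[k] t) ≠ 0) {z : F'} :
    z ∈ extVal (ρ := ρ) hΦ hfrac ht hτ ↔ z ∈ extSubring ρ Φ := Iff.rfl

include hΦ hfrac ht hρt in
/-- **A3, abstract core**: `V` is a discrete valuation ring of `F'` containing `K` and the image
of `O`, with uniformiser `τ = Φ (1 ⊗ t)`. -/
theorem exists_dvr_extension (hτ : Φ ((1 : K) ⊗ₜ[k] t) ≠ 0) :
    ∃ V : ValuationSubring F', (∀ c : K, algebraMap K F' c ∈ V) ∧ V ≠ ⊤ ∧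
      IsPrincipalIdealRing V ∧ (∀ f : O, Φ (1 ⊗ₜ[k] f) ∈ V) ∧
      ∃ h : Φ ((1 : K) ⊗ₜ[k] t) ∈ V, Irreducible (⟨_, h⟩ : V) := by
  set V : ValuationSubring F' := extVal (ρ := ρ) hΦ hfrac ht hτ with hV
  have hmemV : ∀ z : F', z ∈ V ↔ z ∈ extSubring ρ Φ := fun z => Iff.rfl
  have hO : ∀ f : O, Φ (1 ⊗ₜ[k] f) ∈ V := fun f =>
    (hmemV _).2 ⟨1 ⊗ₜ[k] f, 1, by simp, by simp⟩
  have hK : ∀ c : K, algebraMap K F' c ∈ V := fun c =>
    (hmemV _).2 ⟨algebraMap K (K ⊗[k] O) c, 1, by simp,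
      by rw [map_one, mul_one, AlgHom.commutes]⟩
  have hτV : Φ ((1 : K) ⊗ₜ[k] t) ∈ V := hO t
  have hinv : (Φ ((1 : K) ⊗ₜ[k] t))⁻¹ ∉ V := fun h =>
    inv_tau_not_mem hΦ hρt hτ ((hmemV _).1 h)
  -- structure of the nonzero elements of `V`
  have hstruct : ∀ z : F', z ∈ V → z ≠ 0 → ∃ (m : ℕ) (w : F'), w ∈ V ∧ w⁻¹ ∈ V ∧
      z = Φ (1 ⊗ₜ[k] t) ^ m * w := by
    intro z hzV hz
    obtain ⟨x, y, hy, e⟩ := (hmemV z).1 hzV
    have hx : x ≠ 0 := by
      rintro rfl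
      rw [map_zero] at e
      exact (mul_ne_zero hz (Phi_ne_zero hΦ (ne_zero_of_rhoK hy))) e
    obtain ⟨m, x', rfl, hx'⟩ := exists_decomp ρ ht x hx
    have hx'0 := Phi_ne_zero hΦ (ne_zero_of_rhoK hx')
    have hy0 := Phi_ne_zero hΦ (ne_zero_of_rhoK hy)
    refine ⟨m, Φ x' / Φ y, (hmemV _).2 ⟨x', y, hy, div_mul_cancel₀ _ hy0⟩,
      (hmemV _).2 ⟨y, x', hx', by rw [inv_div, div_mul_cancel₀ _ hx'0]⟩, ?_⟩
    have hpow : Φ ((1 : K) ⊗ₜ[k] (t ^ m)) = Φ (1 ⊗ₜ[k] t) ^ m := by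
      rw [← map_pow, Algebra.TensorProduct.tmul_pow, one_pow]
    rw [map_mul, hpow] at e
    rw [← mul_div_assoc, ← e, mul_div_cancel_right₀ _ hy0]
  -- units of `V`
  have hunit : ∀ (w : F') (hw : w ∈ V), w⁻¹ ∈ V → w ≠ 0 → IsUnit (⟨w, hw⟩ : V) := by
    intro w hw hw' hw0
    refine ⟨⟨⟨w, hw⟩, ⟨w⁻¹, hw'⟩, ?_, ?_⟩, rfl⟩
    · exact Subtype.ext (mul_inv_cancel₀ hw0)
    · exact Subtype.ext (inv_mul_cancel₀ hw0)
  have hnu : ¬ IsUnit (⟨_, hτV⟩ : V) := by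
    intro hu
    obtain ⟨u, hu⟩ := hu
    apply hinv
    have h1 : ((u⁻¹ : Vˣ) : V) * ⟨_, hτV⟩ = 1 := by
      rw [← hu]
      exact u.inv_mul
    have h2 : (((u⁻¹ : Vˣ) : V) : F') * Φ ((1 : K) ⊗ₜ[k] t) = 1 := congrArg Subtype.val h1
    have h3 : (Φ ((1 : K) ⊗ₜ[k] t))⁻¹ = (((u⁻¹ : Vˣ) : V) : F') :=
      (eq_inv_of_mul_eq_one_left h2).symm
    rw [h3]
    exact ((u⁻¹ : Vˣ) : V).2
  have hirr : Irreducible (⟨_, hτV⟩ : V) := by
    refine ⟨hnu, ?_⟩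
    intro a b hab
    have hab' : Φ ((1 : K) ⊗ₜ[k] t) = (a : F') * (b : F') := congrArg Subtype.val hab
    have ha0 : (a : F') ≠ 0 := fun h => hτ (by rw [hab', h, zero_mul])
    have hb0 : (b : F') ≠ 0 := fun h => hτ (by rw [hab', h, mul_zero])
    obtain ⟨i, wa, hwa, hwa', ea⟩ := hstruct a a.2 ha0
    obtain ⟨j, wb, hwb, hwb', eb⟩ := hstruct b b.2 hb0
    have hwa0 : wa ≠ 0 := fun h => ha0 (by rw [ea, h, mul_zero])
    have hwb0 : wb ≠ 0 := fun h => hb0 (by rw [eb, h, mul_zero])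
    rcases Nat.eq_zero_or_pos i with hi | hi
    · left
      have : a = ⟨wa, hwa⟩ := Subtype.ext (by rw [ea, hi, pow_zero, one_mul])
      rw [this]
      exact hunit wa hwa hwa' hwa0
    rcases Nat.eq_zero_or_pos j with hj | hj
    · right
      have : b = ⟨wb, hwb⟩ := Subtype.ext (by rw [eb, hj, pow_zero, one_mul])
      rw [this]
      exact hunit wb hwb hwb' hwb0
    exfalso
    apply hinv
    have h1 : (Φ ((1 : K) ⊗ₜ[k] t))⁻¹ =
        Φ (1 ⊗ₜ[k] t) ^ (i - 1) * Φ (1 ⊗ₜ[k] t) ^ (j - 1) * (wa * wb) := by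
      have hi' : Φ ((1 : K) ⊗ₜ[k] t) ^ i =
          Φ (1 ⊗ₜ[k] t) ^ (i - 1) * Φ (1 ⊗ₜ[k] t) := by
        rw [← pow_succ, Nat.sub_add_cancel hi]
      have hj' : Φ ((1 : K) ⊗ₜ[k] t) ^ j =
          Φ (1 ⊗ₜ[k] t) ^ (j - 1) * Φ (1 ⊗ₜ[k] t) := by
        rw [← pow_succ, Nat.sub_add_cancel hj]
      rw [ea, eb, hi', hj'] at hab'
      have h5 : Φ ((1 : K) ⊗ₜ[k] t) * (Φ ((1 : K) ⊗ₜ[k] t) *
          (Φ ((1 : K) ⊗ₜ[k] t) ^ (i - 1) * Φ (1 ⊗ₜ[k] t) ^ (j - 1) * (wa * wb))) =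
          Φ ((1 : K) ⊗ₜ[k] t) * 1 := by
        rw [mul_one]
        conv_rhs => rw [hab']
        ring
      have h6 := mul_left_cancel₀ hτ h5
      exact (eq_inv_of_mul_eq_one_right h6).symm
    rw [h1]
    exact V.mul_mem _ _ (V.mul_mem _ _ (V.pow_mem hτV _) (V.pow_mem hτV _)) (V.mul_mem _ _ hwa hwb)
  have hfact : IsDiscreteValuationRing.HasUnitMulPowIrreducibleFactorization V := by
    refine ⟨⟨_, hτV⟩, hirr, ?_⟩
    intro z hz
    have hz0 : (z : F') ≠ 0 := fun h => hz (Subtype.ext h)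
    obtain ⟨m, w, hw, hw', e⟩ := hstruct z z.2 hz0
    have hw0 : w ≠ 0 := fun h => hz0 (by rw [e, h, mul_zero])
    obtain ⟨u, hu⟩ := hunit w hw hw' hw0
    exact ⟨m, u, Subtype.ext (by
      rw [MulMemClass.coe_mul, hu, SubmonoidClass.coe_pow, e])⟩
  have hdvr : IsDiscreteValuationRing V :=
    IsDiscreteValuationRing.ofHasUnitMulPowIrreducibleFactorization hfact
  refine ⟨V, hK, ?_, inferInstance, hO, hτV, hirr⟩
  intro htop
  apply hinv
  rw [htop]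
  exact ValuationSubring.mem_top _

end Core

end Fermat.Agent.S29.A3
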