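import Mathlib
import Fermat.Agent.S29.PlaceExtAbs
import Fermat.Prelude.Def_AlgebraicCurve_DivisorClassGroup
import Fermat.Prelude.Def_ModularCurve_LaurentCoeff
import Fermat.Prelude.Def_ModularCurve_X0ModL

/-!
# S29, wall piece A3: every place of `F_k` extends to a place of `F_K` with the same order

`ι : k →+* K` fields, `F_k ⊂ k((q))`, `F_K ⊂ K((q))` with `coeffMap ι F_k ⊂ F_K` and
`F_K ⊂ K(coeffMap ι F_k)`.  For every place `Q` of `F_k` whose residue field is `k`:

`A3.exists_place_over_gen : ∃ P : Place K F_K, ∀ f : F_k, P.ord (bcF f) = Q.ord f`,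

and `A3.exists_place_over` for the modular function fields `modularFunctionFieldFullC · N`.
-/

set_option autoImplicit false

noncomputable section

open scoped TensorProduct
open AlgebraicCurve ModularCurve

namespace Fermat.Agent.S29.A3

section Gen

variable {k K : Type*} [Field k] [Field K] (ι : k →+* K)
  (Fk : IntermediateField k (LaurentSeries k)) (FK : IntermediateField K (LaurentSeries K))
  (hι : ∀ f ∈ Fk, coeffMap ι f ∈ FK)

/-- the coefficientwise base change `F_k → F_K` -/
def bcF : Fk →+* FK where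
  toFun f := ⟨coeffMap ι (f : LaurentSeries k), hι f f.2⟩
  map_one' := Subtype.ext (map_one _)
  map_mul' _ _ := Subtype.ext (map_mul _ _ _)
  map_zero' := Subtype.ext (map_zero _)
  map_add' _ _ := Subtype.ext (map_add _ _ _)

@[simp] theorem coe_bcF (f : Fk) :
    ((bcF ι Fk FK hι f : FK) : LaurentSeries K) = coeffMap ι (f : LaurentSeries k) := rfl

theorem bcF_algebraMap (c : k) :
    bcF ι Fk FK hι (algebraMap k Fk c) = algebraMap K FK (ι c) := by
  apply Subtype.ext
  rw [coe_bcF]
  show coeffMap ι (algebraMap k (LaurentSeries k) c) = algebraMap K (LaurentSeries K) (ι c)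
  rw [algebraMap_laurentSeries_eq_single, algebraMap_laurentSeries_eq_single, coeffMap_single]

end Gen

section Ext

variable {k K : Type*} [Field k] [Field K] [Algebra k K]
  (Fk : IntermediateField k (LaurentSeries k)) (FK : IntermediateField K (LaurentSeries K))
  (hι : ∀ f ∈ Fk, coeffMap (algebraMap k K) f ∈ FK)

/-- the `k`-algebra structure of `F_K` -/
@[reducible] def algFK : Algebra k ↥FK := ((algebraMap K FK).comp (algebraMap k K)).toAlgebra

attribute [local instance] algFK

local instance instTowerFK : IsScalarTower k K ↥FK := IsScalarTower.of_algebraMap_eq (fun _ => rfl)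

variable (Q : Place k Fk)

/-- the base change on the valuation ring of `Q`, as a `k`-algebra homomorphism -/
def gO : ↥Q.toValuationSubring →ₐ[k] ↥FK where
  toFun f := bcF (algebraMap k K) Fk FK hι (f : Fk)
  map_one' := map_one _
  map_mul' _ _ := map_mul _ _ _
  map_zero' := map_zero _
  map_add' _ _ := map_add _ _ _
  commutes' c := by
    show bcF (algebraMap k K) Fk FK hι (algebraMap k Fk c) = _
    rw [bcF_algebraMap]
    rfl

@[simp] theorem gO_apply (f : ↥Q.toValuationSubring) :
    gO Fk FK hι Q f = bcF (algebraMap k K) Fk FK hι (f : Fk) := rfl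

/-- `Φ : K ⊗[k] O_Q → F_K` -/
def PhiO : K ⊗[k] ↥Q.toValuationSubring →ₐ[K] ↥FK :=
  Algebra.TensorProduct.lift (Algebra.ofId K FK) (gO Fk FK hι Q) (fun _ _ => Commute.all _ _)

theorem PhiO_tmul (c : K) (f : ↥Q.toValuationSubring) :
    PhiO Fk FK hι Q (c ⊗ₜ[k] f) = algebraMap K FK c * bcF (algebraMap k K) Fk FK hι (f : Fk) := by
  simp [PhiO, Algebra.ofId_apply]

theorem coeff_PhiO_tmul (c : K) (f : ↥Q.toValuationSubring) (n : ℤ) :
    ((PhiO Fk FK hι Q (c ⊗ₜ[k] f) : FK) : LaurentSeries K).coeff n =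
      c * algebraMap k K (((f : Fk) : LaurentSeries k).coeff n) := by
  rw [PhiO_tmul, MulMemClass.coe_mul, coe_bcF]
  show (algebraMap K (LaurentSeries K) c * _).coeff n = _
  rw [algebraMap_laurentSeries_eq_single, HahnSeries.coeff_single_mul, sub_zero, coeffMap_coeff]

/-- linear disjointness: `Φ` is injective -/
theorem PhiO_injective : Function.Injective (PhiO Fk FK hι Q) := by
  classical
  rw [injective_iff_map_eq_zero]
  intro x hx
  let b := Module.Basis.ofVectorSpace k K
  obtain ⟨c, rfl⟩ := TensorProduct.eq_repr_basis_left b x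
  have hc : ∀ i ∈ c.support, c i = 0 := by
    intro i hi
    apply Subtype.ext
    apply Subtype.ext
    ext n
    have h1 := congrArg (fun z : FK => (z : LaurentSeries K).coeff n) hx
    simp only [Finsupp.sum, map_sum] at h1
    have h2 : ∑ j ∈ c.support, (((c j : ↥Q.toValuationSubring) : Fk) : LaurentSeries k).coeff n
        • b j = 0 := by
      have h1z : ((0 : FK) : LaurentSeries K).coeff n = 0 := rfl
      have h3 : (((∑ j ∈ c.support, PhiO Fk FK hι Q (b j ⊗ₜ[k] c j) : FK)) :
          LaurentSeries K).coeff n = ∑ j ∈ c.support,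
            ((PhiO Fk FK hι Q (b j ⊗ₜ[k] c j) : FK) : LaurentSeries K).coeff n := by
        rw [AddSubmonoidClass.coe_finsetSum, HahnSeries.coeff_sum]
      rw [h3, h1z] at h1
      refine Eq.trans (Finset.sum_congr rfl fun j _ => ?_) h1
      rw [coeff_PhiO_tmul, Algebra.smul_def, mul_comm]
    have h4 := linearIndependent_iff'.1 b.linearIndependent c.support
      (fun j => (((c j : ↥Q.toValuationSubring) : Fk) : LaurentSeries k).coeff n) h2 i hi
    simpa using h4
  rw [Finsupp.sum]
  refine Finset.sum_eq_zero fun i hi => ?_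
  rw [hc i hi, TensorProduct.tmul_zero]

/-- `Φ` with values in `K((q))` -/
def phiL : K ⊗[k] ↥Q.toValuationSubring →+* LaurentSeries K :=
  (algebraMap FK (LaurentSeries K)).comp (PhiO Fk FK hι Q : K ⊗[k] ↥Q.toValuationSubring →+* FK)

theorem phiL_apply (x : K ⊗[k] ↥Q.toValuationSubring) :
    phiL Fk FK hι Q x = ((PhiO Fk FK hι Q x : FK) : LaurentSeries K) := rfl

theorem phiL_tmul_one (f : ↥Q.toValuationSubring) :
    phiL Fk FK hι Q ((1 : K) ⊗ₜ[k] f) = coeffMap (algebraMap k K) ((f : Fk) : LaurentSeries k) := by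
  rw [phiL_apply, PhiO_tmul, map_one, one_mul, coe_bcF]

/-- every element of `K(coeffMap F_k)` is a fraction of elements of the image of `Φ` -/
theorem exists_frac_aux (z : LaurentSeries K)
    (hz : z ∈ IntermediateField.adjoin K
      (coeffMap (algebraMap k K) '' (Fk : Set (LaurentSeries k)))) :
    ∃ x y : K ⊗[k] ↥Q.toValuationSubring, phiL Fk FK hι Q y ≠ 0 ∧
      z * phiL Fk FK hι Q y = phiL Fk FK hι Q x := by
  induction hz using IntermediateField.adjoin_induction with
  | mem z hz =>
    obtain ⟨f, hf, rfl⟩ := hz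
    rcases Q.toValuationSubring.mem_or_inv_mem (⟨f, hf⟩ : Fk) with h | h
    · refine ⟨(1 : K) ⊗ₜ[k] ⟨⟨f, hf⟩, h⟩, 1, by rw [map_one]; exact one_ne_zero, ?_⟩
      rw [map_one, mul_one, phiL_tmul_one]
    · by_cases hf0 : f = 0
      · refine ⟨0, 1, by rw [map_one]; exact one_ne_zero, ?_⟩
        rw [hf0, map_zero, map_zero, zero_mul]
      · have hy : phiL Fk FK hι Q ((1 : K) ⊗ₜ[k] ⟨(⟨f, hf⟩ : Fk)⁻¹, h⟩) =
            coeffMap (algebraMap k K) f⁻¹ := by
          rw [phiL_tmul_one]
          rfl
        refine ⟨1, (1 : K) ⊗ₜ[k] ⟨(⟨f, hf⟩ : Fk)⁻¹, h⟩, ?_, ?_⟩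
        · rw [hy]
          intro h0
          have h1 : coeffMap (algebraMap k K) f * coeffMap (algebraMap k K) f⁻¹ = 1 := by
            rw [← map_mul, mul_inv_cancel₀ hf0, map_one]
          rw [h0, mul_zero] at h1
          exact zero_ne_one h1
        · rw [hy, map_one, ← map_mul, mul_inv_cancel₀ hf0, map_one]
  | algebraMap c =>
    refine ⟨algebraMap K _ c, 1, by rw [map_one]; exact one_ne_zero, ?_⟩
    rw [map_one, mul_one, phiL_apply, AlgHom.commutes]
    rfl
  | add z w _ _ hz hw =>
    obtain ⟨x1, y1, h1, e1⟩ := hz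
    obtain ⟨x2, y2, h2, e2⟩ := hw
    refine ⟨x1 * y2 + x2 * y1, y1 * y2, by rw [map_mul]; exact mul_ne_zero h1 h2, ?_⟩
    rw [map_add, map_mul, map_mul, map_mul, ← e1, ← e2]
    ring
  | inv z _ hz =>
    obtain ⟨x, y, h, e⟩ := hz
    by_cases hz0 : z = 0
    · refine ⟨0, 1, by rw [map_one]; exact one_ne_zero, ?_⟩
      rw [hz0, inv_zero, zero_mul, map_zero]
    · refine ⟨y, x, ?_, ?_⟩
      · rw [← e]
        exact mul_ne_zero hz0 h
      · rw [← e, ← mul_assoc, inv_mul_cancel₀ hz0, one_mul]
  | mul z w _ _ hz hw =>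
    obtain ⟨x1, y1, h1, e1⟩ := hz
    obtain ⟨x2, y2, h2, e2⟩ := hw
    refine ⟨x1 * x2, y1 * y2, by rw [map_mul]; exact mul_ne_zero h1 h2, ?_⟩
    rw [map_mul, map_mul, ← e1, ← e2]
    ring

/-- the residue map of `Q`, when the residue field is `k` -/
def rhoQ (hQ : Function.Surjective (algebraMap k Q.ResidueField)) :
    ↥Q.toValuationSubring →ₐ[k] k :=
  ((AlgEquiv.ofBijective (Algebra.ofId k Q.ResidueField)
      ⟨(algebraMap k Q.ResidueField).injective, hQ⟩).symm :
        Q.ResidueField →ₐ[k] k).comp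
    (IsScalarTower.toAlgHom k ↥Q.toValuationSubring Q.ResidueField)

theorem rhoQ_eq_zero (hQ : Function.Surjective (algebraMap k Q.ResidueField))
    {t : ↥Q.toValuationSubring} (ht : ¬ IsUnit t) : rhoQ Fk Q hQ t = 0 := by
  have h1 : (IsScalarTower.toAlgHom k ↥Q.toValuationSubring Q.ResidueField) t = 0 := by
    show IsLocalRing.residue _ t = 0
    rw [IsLocalRing.residue_eq_zero_iff]
    exact (IsLocalRing.mem_maximalIdeal t).2 ht
  show ((AlgEquiv.ofBijective (Algebra.ofId k Q.ResidueField)
      ⟨(algebraMap k Q.ResidueField).injective, hQ⟩).symm)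
        ((IsScalarTower.toAlgHom k ↥Q.toValuationSubring Q.ResidueField) t) = 0
  rw [h1, map_zero]

/-- **A3 (general form)**: every place `Q` of `F_k` with residue field `k` is the restriction
of a place `P` of `F_K = K(coeffMap F_k)` with the same order function. -/
theorem exists_place_over_gen
    (hgen : FK ≤ IntermediateField.adjoin K
      (coeffMap (algebraMap k K) '' (Fk : Set (LaurentSeries k))))
    (hQ : Function.Surjective (algebraMap k Q.ResidueField)) :
    ∃ P : Place K FK, ∀ f : Fk, P.ord (bcF (algebraMap k K) Fk FK hι f) = Q.ord f := by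
  obtain ⟨t, ht⟩ := IsDiscreteValuationRing.exists_irreducible ↥Q.toValuationSubring
  have hΦ := PhiO_injective Fk FK hι Q
  have hfrac : ∀ z : FK, ∃ x y : K ⊗[k] ↥Q.toValuationSubring, y ≠ 0 ∧
      z * PhiO Fk FK hι Q y = PhiO Fk FK hι Q x := by
    intro z
    obtain ⟨x, y, hy, e⟩ := exists_frac_aux Fk FK hι Q (z : LaurentSeries K) (hgen z.2)
    refine ⟨x, y, ?_, Subtype.ext e⟩
    rintro rfl
    exact hy (map_zero _)
  have hρt : rhoQ Fk Q hQ t = 0 := rhoQ_eq_zero Fk Q hQ ht.not_isUnit
  have hbO : ∀ f : ↥Q.toValuationSubring, bcF (algebraMap k K) Fk FK hι (f : Fk) =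
      PhiO Fk FK hι Q ((1 : K) ⊗ₜ[k] f) := by
    intro f
    rw [PhiO_tmul, map_one, one_mul]
  have ht0 : ((t : ↥Q.toValuationSubring) : Fk) ≠ 0 := by
    intro h
    exact ht.ne_zero (Subtype.ext h)
  have hτ : PhiO Fk FK hι Q ((1 : K) ⊗ₜ[k] t) ≠ 0 := by
    rw [← hbO]
    exact (map_ne_zero _).2 ht0
  obtain ⟨V, hK, hne, hpid, hO, hτV, hirr⟩ :=
    exists_dvr_extension (ρ := rhoQ Fk Q hQ) hΦ hfrac ht hρt hτ
  let P : Place K FK := ⟨V, hK, hne, hpid⟩
  refine ⟨P, fun f => ?_⟩
  by_cases hf : f = 0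
  · rw [hf, map_zero, Place.ord_zero, Place.ord_zero]
  · obtain ⟨u, hu⟩ := Q.exists_unit_mul_zpow hf ht
    have huV : bcF (algebraMap k K) Fk FK hι ((u : ↥Q.toValuationSubring) : Fk) ∈ V := by
      rw [hbO]
      exact hO _
    have hinvcoe : (((u⁻¹ : (↥Q.toValuationSubring)ˣ) : ↥Q.toValuationSubring) : Fk) =
        (((u : ↥Q.toValuationSubring) : Fk))⁻¹ := by
      apply eq_inv_of_mul_eq_one_left
      have := congrArg (Subtype.val) u.inv_mul
      exact this
    have huV' : (bcF (algebraMap k K) Fk FK hι ((u : ↥Q.toValuationSubring) : Fk))⁻¹ ∈ V := by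
      rw [← map_inv₀, ← hinvcoe, hbO]
      exact hO _
    have hu0 : bcF (algebraMap k K) Fk FK hι ((u : ↥Q.toValuationSubring) : Fk) ≠ 0 := by
      apply (map_ne_zero _).2
      intro h
      exact u.ne_zero (Subtype.ext h)
    let u' : (↥P.toValuationSubring)ˣ :=
      ⟨⟨_, huV⟩, ⟨_, huV'⟩, Subtype.ext (mul_inv_cancel₀ hu0), Subtype.ext (inv_mul_cancel₀ hu0)⟩
    have key := P.ord_unit_smul_zpow u' (π := ⟨_, hτV⟩) hirr (Q.ord f)
    rw [← key]
    congr 1
    conv_lhs => rw [hu]
    rw [map_mul, map_zpow₀, hbO t]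

end Ext

section Modular

variable {k K : Type*} [Field k] [Field K] (ι : k →+* K) (N : ℕ) [NeZero N]

omit [NeZero N] in
/-- the coefficient map sends `F_k(N)` into `F_K(N)` -/
theorem coeffMap_mem_fullC (x : LaurentSeries k) (hx : x ∈ modularFunctionFieldFullC k N) :
    coeffMap ι x ∈ modularFunctionFieldFullC K N := by
  unfold modularFunctionFieldFullC at hx
  induction hx using IntermediateField.adjoin_induction with
  | mem x hx =>
    obtain ⟨d, hd, hdN, rfl⟩ := hx
    have h := coeffMap_jqNModC ι d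
    rw [jqNModC, jqNModC] at h
    rw [h]
    exact jqModCd_mem_full K N hdN
  | algebraMap c =>
    rw [algebraMap_laurentSeries_eq_single, coeffMap_single,
      ← algebraMap_laurentSeries_eq_single]
    exact IntermediateField.algebraMap_mem _ _
  | add x y _ _ hx hy => rw [map_add]; exact add_mem hx hy
  | inv x _ hx => rw [map_inv₀]; exact inv_mem hx
  | mul x y _ _ hx hy => rw [map_mul]; exact mul_mem hx hy

omit [NeZero N] in
/-- `F_K(N)` is generated over `K` by the image of `F_k(N)` -/
theorem fullC_le_adjoin :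
    modularFunctionFieldFullC K N ≤ IntermediateField.adjoin K
      (coeffMap ι '' (modularFunctionFieldFullC k N : Set (LaurentSeries k))) := by
  rw [modularFunctionFieldFullC, IntermediateField.adjoin_le_iff]
  rintro x ⟨d, hd, hdN, rfl⟩
  apply IntermediateField.subset_adjoin
  refine ⟨qExpand k d (jqModC k), jqModCd_mem_full k N hdN, ?_⟩
  have h := coeffMap_jqNModC ι d
  rw [jqNModC, jqNModC] at h
  exact h

/-- the coefficientwise base change `F_k(N) → F_K(N)` -/
def bcN : ↥(modularFunctionFieldFullC k N) →+* ↥(modularFunctionFieldFullC K N) :=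
  bcF ι (modularFunctionFieldFullC k N) (modularFunctionFieldFullC K N)
    (coeffMap_mem_fullC ι N)

omit [NeZero N] in
@[simp] theorem coe_bcN (f : ↥(modularFunctionFieldFullC k N)) :
    ((bcN ι N f : ↥(modularFunctionFieldFullC K N)) : LaurentSeries K) =
      coeffMap ι (f : LaurentSeries k) := rfl

omit [NeZero N] in
/-- **A3**: every place `Q` of `F_k(N)` with residue field `k` is the restriction of a place
`P` of `F_K(N)` with `P.ord (bcN f) = Q.ord f`. -/
theorem exists_place_over (Q : Place k ↥(modularFunctionFieldFullC k N))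
    (hQ : Function.Surjective (algebraMap k Q.ResidueField)) :
    ∃ P : Place K ↥(modularFunctionFieldFullC K N),
      ∀ f : ↥(modularFunctionFieldFullC k N), P.ord (bcN ι N f) = Q.ord f := by
  let _ : Algebra k K := ι.toAlgebra
  exact exists_place_over_gen (modularFunctionFieldFullC k N) (modularFunctionFieldFullC K N)
    (coeffMap_mem_fullC ι N) Q (fullC_le_adjoin ι N) hQ

omit [NeZero N] in
/-- consequence: `p`-divisibility of all orders descends from `F_K(N)` to `F_k(N)`. -/
theorem dvd_ord_of_dvd_ord_bc (p : ℤ) (f : ↥(modularFunctionFieldFullC k N))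
    (hres : ∀ Q : Place k ↥(modularFunctionFieldFullC k N),
      Function.Surjective (algebraMap k Q.ResidueField))
    (h : ∀ P : Place K ↥(modularFunctionFieldFullC K N), p ∣ P.ord (bcN ι N f))
    (Q : Place k ↥(modularFunctionFieldFullC k N)) : p ∣ Q.ord f := by
  obtain ⟨P, hP⟩ := exists_place_over ι N Q (hres Q)
  rw [← hP f]
  exact h P

/-- a place of degree one has residue field `k` -/
theorem surjective_of_deg_one {F : Type*} [Field F] [Algebra k F] (Q : Place k F)
    (h : Q.deg = 1) : Function.Surjective (algebraMap k Q.ResidueField) :=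
  ((Algebra.finrank_eq_one_iff_bijective_algebraMap).1 h).2

omit [NeZero N] in
/-- **A3, degree-one form** (all places of `F_k(N)` of degree one, e.g. from `CurveRR`):
`p`-divisibility of all orders descends from `F_K(N)` to `F_k(N)`. -/
theorem dvd_ord_of_dvd_ord_bc' (p : ℤ) (f : ↥(modularFunctionFieldFullC k N))
    (hdeg : ∀ Q : Place k ↥(modularFunctionFieldFullC k N), Q.deg = 1)
    (h : ∀ P : Place K ↥(modularFunctionFieldFullC K N), p ∣ P.ord (bcN ι N f))
    (Q : Place k ↥(modularFunctionFieldFullC k N)) : p ∣ Q.ord f :=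
  dvd_ord_of_dvd_ord_bc ι N p f (fun Q => surjective_of_deg_one Q (hdeg Q)) h Q

end Modular

end Fermat.Agent.S29.A3
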