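/-
S29 gamble (item 90), piece A1-DEF (helper4): finitely many elements of `F_E(N)` are defined
over every subfield `T ⊆ E` containing a suitable FINITE set `S` of constants.

* `A1T.exists_finset_def_one`   : one element;
* `A1T.exists_finset_def`       : a finite family;
* `A1T.exists_finset_def_units` : a finite family of units, in the `A3.bcN` form used by TRANSFER.

No algebraic closedness is needed: `s(j) y = P(j, j_N)` (`GaussC.genOver_of_charZero`) and `S` is
the set of coefficients of `s` and `P`.
-/
import Mathlib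
import Fermat.Agent.S29.GaussCGen
import Fermat.Agent.S29.GaussC
import Fermat.Agent.S29.PlaceExt

set_option autoImplicit false
set_option linter.unusedSectionVars false
set_option linter.style.haveILetI false

noncomputable section

open HahnSeries ModularCurve AlgebraicCurve

namespace Fermat.Agent.S29.A1T

open Fermat.Agent.S18 Fermat.Agent.S18.MScal Fermat.Agent.S29.GaussC

variable {E : Type*} [Field E] [CharZero E] (N : ℕ) [NeZero N]

/-- a polynomial whose coefficients lie in `T` comes from `T`. -/
theorem exists_map_eq_of_coeffs {T : Subfield E} (s : Polynomial E)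
    (h : (s.coeffs : Set E) ⊆ (T : Set E)) : ∃ s' : Polynomial ↥T, s'.map T.subtype = s := by
  have hl : s ∈ Polynomial.lifts T.subtype := by
    rw [Polynomial.lifts_iff_coeff_lifts]
    intro n
    by_cases h0 : s.coeff n = 0
    · exact ⟨0, by rw [h0, map_zero]⟩
    · exact ⟨⟨s.coeff n, h (Polynomial.coeff_mem_coeffs h0)⟩, rfl⟩
  exact (Polynomial.mem_lifts _).1 hl

/-- the coefficients of the coefficients of a bivariate polynomial. -/
def coeffs2 (P : Polynomial (Polynomial E)) : Finset E :=
  by classical exact P.support.biUnion fun k => (P.coeff k).coeffs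

/-- a bivariate polynomial whose coefficients lie in `T` comes from `T`. -/
theorem exists_map_eq_of_coeffs2 {T : Subfield E} (P : Polynomial (Polynomial E))
    (h : (coeffs2 P : Set E) ⊆ (T : Set E)) :
    ∃ P' : Polynomial (Polynomial ↥T), P'.map (Polynomial.mapRingHom T.subtype) = P := by
  classical
  have hl : P ∈ Polynomial.lifts (Polynomial.mapRingHom T.subtype) := by
    rw [Polynomial.lifts_iff_coeff_lifts]
    intro k
    by_cases h0 : P.coeff k = 0
    · exact ⟨0, by rw [h0, map_zero]⟩
    · have hk : (((P.coeff k).coeffs : Finset E) : Set E) ⊆ (T : Set E) := by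
        intro x hx
        apply h
        have hx' : x ∈ (P.coeff k).coeffs := hx
        show x ∈ coeffs2 P
        unfold coeffs2
        exact Finset.mem_biUnion.2 ⟨k, Polynomial.mem_support_iff.2 h0, hx'⟩
      obtain ⟨c, hc⟩ := exists_map_eq_of_coeffs (P.coeff k) hk
      exact ⟨c, hc⟩
  exact (Polynomial.mem_lifts _).1 hl

/-- **A1-DEF**, one element. -/
theorem exists_finset_def_one (y : LaurentSeries E) (hy : y ∈ modularFunctionFieldFullC E N) :
    ∃ S : Finset E, ∀ T : Subfield E, (S : Set E) ⊆ (T : Set E) →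
      ∃ y' ∈ modularFunctionFieldFullC ↥T N, coeffMap T.subtype y' = y := by
  classical
  obtain ⟨s, P, hs, -, hrel⟩ := genOver_of_charZero E N y hy
  refine ⟨s.coeffs ∪ coeffs2 P, fun T hT => ?_⟩
  have hT1 : (s.coeffs : Set E) ⊆ (T : Set E) := fun x hx =>
    hT (Finset.mem_coe.2 (Finset.mem_union_left _ (Finset.mem_coe.1 hx)))
  have hT2 : (coeffs2 P : Set E) ⊆ (T : Set E) := fun x hx =>
    hT (Finset.mem_coe.2 (Finset.mem_union_right _ (Finset.mem_coe.1 hx)))
  obtain ⟨s', hs'⟩ := exists_map_eq_of_coeffs s hT1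
  obtain ⟨P', hP'⟩ := exists_map_eq_of_coeffs2 P hT2
  refine ⟨evJN ↥T N P' * (evJ ↥T s')⁻¹,
    mul_mem (evJN_mem_full ↥T N P') (inv_mem (evJ_mem_full ↥T N s')), ?_⟩
  rw [map_mul, map_inv₀, coeffMap_evJ, coeffMap_evJN, hs', hP', ← hrel, mul_comm,
    ← mul_assoc, inv_mul_cancel₀ hs, one_mul]

/-- **A1-DEF**, a finite family. -/
theorem exists_finset_def {ι : Type*} [Finite ι] (u : ι → LaurentSeries E)
    (hu : ∀ i, u i ∈ modularFunctionFieldFullC E N) :
    ∃ S : Finset E, ∀ T : Subfield E, (S : Set E) ⊆ (T : Set E) →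
      ∀ i, ∃ y' ∈ modularFunctionFieldFullC ↥T N, coeffMap T.subtype y' = u i := by
  classical
  haveI : Fintype ι := Fintype.ofFinite ι
  choose S hS using fun i => exists_finset_def_one N (u i) (hu i)
  refine ⟨Finset.univ.biUnion S, fun T hT i => hS i T ?_⟩
  intro x hx
  exact hT (Finset.mem_coe.2 (Finset.mem_biUnion.2 ⟨i, Finset.mem_univ i, Finset.mem_coe.1 hx⟩))

/-- **A1-DEF**, a finite family of units, `A3.bcN` form. -/
theorem exists_finset_def_units {ι : Type*} [Finite ι]
    (U : ι → (↥(modularFunctionFieldFullC E N))ˣ) :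
    ∃ S : Finset E, ∀ T : Subfield E, (S : Set E) ⊆ (T : Set E) →
      ∀ i, ∃ u : (↥(modularFunctionFieldFullC ↥T N))ˣ,
        Units.map (A3.bcN T.subtype N :
          ↥(modularFunctionFieldFullC ↥T N) →* ↥(modularFunctionFieldFullC E N)) u = U i := by
  obtain ⟨S, hS⟩ := exists_finset_def N
    (fun i => ((U i : ↥(modularFunctionFieldFullC E N)) : LaurentSeries E))
    (fun i => (U i : ↥(modularFunctionFieldFullC E N)).2)
  refine ⟨S, fun T hT i => ?_⟩
  obtain ⟨y', hy', he⟩ := hS T hT i
  have hne : (⟨y', hy'⟩ : ↥(modularFunctionFieldFullC ↥T N)) ≠ 0 := by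
    intro h0
    have h1 : y' = 0 := congrArg Subtype.val h0
    rw [h1, map_zero] at he
    have h2 : (U i : ↥(modularFunctionFieldFullC E N)) = 0 := Subtype.ext he.symm
    exact (U i).ne_zero h2
  refine ⟨Units.mk0 _ hne, ?_⟩
  apply Units.ext
  apply Subtype.ext
  exact he

end Fermat.Agent.S29.A1T
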