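import Mathlib
import Fermat.Agent.S29.ChainFields
import Fermat.Agent.S29.KSysMod
import Fermat.Agent.S29.FieldDefT
import Fermat.Agent.S29.ChainTrans

/-!
# S29 (item 90), CHAIN applied: from a Kummer system over `ℂ` to one over `ℚ̄`

`ksys_Qbar_of` : given the one-step descent (`step`, STEP) and the transfer to algebraically
closed subfields of `ℂ` over which the values are defined (`transfer`, TRANSFER), a Kummer system
over `ℂ` gives a Kummer system over `AlgebraicClosure ℚ`.
-/

set_option autoImplicit false
set_option linter.unusedSectionVars false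
set_option linter.unusedVariables false
set_option linter.style.haveILetI false

open Polynomial ModularCurve

noncomputable section

namespace Fermat.Agent.S29.ChainApply

open Fermat.Agent.S29.Chain

/-- the shape of STEP: one descent step along an extension of algebraically closed fields of
transcendence degree one -/
def StepStatement (N p : ℕ) [NeZero N] : Prop :=
  ∀ (k L : Type) [Field k] [Field L] [Algebra k L] [IsAlgClosed k] [IsAlgClosed L]
    [CharZero k] [CharZero L] (t : L), Transcendental k t →
    (∀ y : L, ∃ Q : k[X][X], Q ≠ 0 ∧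
      Polynomial.eval₂ (Polynomial.aeval t : k[X] →ₐ[k] L).toRingHom y Q = 0) →
    Nonempty (KM.KSysMod L N p) → Nonempty (KM.KSysMod k N p)

/-- the shape of TRANSFER: a Kummer system over `ℂ` whose values are defined over an
algebraically closed subfield `T` comes from a Kummer system over `T` -/
def TransferStatement (N p : ℕ) [NeZero N] : Prop :=
  ∀ (T : Subfield ℂ), IsAlgClosed ↥T → ∀ K : KM.KSysMod ℂ N p,
    (∀ x, ∃ u : (↥(modularFunctionFieldFullC ↥T N))ˣ,
      Units.map (A3.bcN T.subtype N :
        ↥(modularFunctionFieldFullC ↥T N) →* ↥(modularFunctionFieldFullC ℂ N)) u = K.U x) →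
    Nonempty (KM.KSysMod ↥T N p)

/-- **CHAIN applied.** -/
theorem ksys_Qbar_of (N p : ℕ) [NeZero N] [NeZero p] [Algebra (AlgebraicClosure ℚ) ℂ]
    (step : StepStatement N p) (transfer : TransferStatement N p)
    (K : KM.KSysMod ℂ N p) : Nonempty (KM.KSysMod (AlgebraicClosure ℚ) N p) := by
  haveI : Finite (R2.XP N p) := ChainT.finite_XP N p
  obtain ⟨S, hS⟩ := A1T.exists_finset_def_units (E := ℂ) N K.U
  obtain ⟨T, hST, hT, hP⟩ := chain (E := ℂ) (K0 := AlgebraicClosure ℚ)
    (fun (K : Type) [Field K] => Nonempty (KM.KSysMod K N p)) step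
    exists_transcendental_complex_Qbar S
  exact hP (transfer T hT K (hS T hST))

end Fermat.Agent.S29.ChainApply
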