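import Fermat.Agent.S29.PlaceC

/-!
# S29 (item 90), piece R1 (d1) (helper8): a place of RANK ONE in transcendence degree one

`K` algebraically closed, `t ∈ L` transcendental over `K`, `L` algebraic over `K(t)`.
`exists_place_rank_one`: there is a valuation subring `B` of `L` and a place `π : B → K`,
identity on `K`, with `π t = 0`, and `B` is archimedean (rank one):
`∀ x non-unit, ∀ c ≠ 0, ∃ n, c ∣ x ^ n`  (`= S18.Gauss.IsArch B`).
-/

set_option autoImplicit false
set_option linter.style.haveILetI false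
set_option linter.unusedSectionVars false

open Polynomial

noncomputable section

namespace Fermat.Agent.S29.PlaceC

section Rank

variable {K L : Type*} [Field K] [Field L] [Algebra K L]

/-- the partial place `K[t] → K`, `t ↦ 0`. -/
def pairOfTranscendental (t : L) (ht : Transcendental K t) : Pair K L where
  R := (Polynomial.aeval t : K[X] →ₐ[K] L).range
  f := (Polynomial.aeval (0 : K)).comp
    (AlgEquiv.ofInjective (Polynomial.aeval t) (transcendental_iff_injective.1 ht)).symm.toAlgHom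

theorem aeval_mem_pair (t : L) (ht : Transcendental K t) (p : K[X]) :
    Polynomial.aeval t p ∈ (pairOfTranscendental t ht).R := ⟨p, rfl⟩

theorem pairOfTranscendental_apply (t : L) (ht : Transcendental K t) (p : K[X]) :
    (pairOfTranscendental t ht).f ⟨Polynomial.aeval t p, aeval_mem_pair t ht p⟩ = p.eval 0 := by
  have h1 : (⟨Polynomial.aeval t p, aeval_mem_pair t ht p⟩ : (pairOfTranscendental t ht).R) =
      AlgEquiv.ofInjective (Polynomial.aeval t) (transcendental_iff_injective.1 ht) p := rfl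
  rw [h1]
  show (Polynomial.aeval (0 : K)) ((AlgEquiv.ofInjective (Polynomial.aeval t)
    (transcendental_iff_injective.1 ht)).symm ((AlgEquiv.ofInjective (Polynomial.aeval t)
    (transcendental_iff_injective.1 ht)) p)) = _
  rw [AlgEquiv.symm_apply_apply, Polynomial.coe_aeval_eq_eval]

end Rank

section RankMain

variable {K L : Type*} [Field K] [Field L] [Algebra K L]

/-- a place of `L` over `K` with `t ↦ 0`. -/
structure TPlace (K : Type*) {L : Type*} [Field K] [Field L] [Algebra K L] (t : L) where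
  /-- the valuation ring -/
  B : ValuationSubring L
  /-- the place -/
  π : B →+* K
  hK : ∀ c : K, ∃ hc : algebraMap K L c ∈ B, π ⟨_, hc⟩ = c
  hker : ∀ x : B, π x = 0 ↔ x ∈ IsLocalRing.maximalIdeal B
  hpoly : ∀ p : K[X], ∃ hp : Polynomial.aeval t p ∈ B, π ⟨_, hp⟩ = p.eval 0

theorem exists_tPlace [IsAlgClosed K] (t : L) (ht : Transcendental K t) :
    Nonempty (TPlace K t) := by
  obtain ⟨B, π, h1, h2, h3⟩ := exists_place (pairOfTranscendental t ht)
  refine ⟨⟨B, π, h1, h3, fun p => ?_⟩⟩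
  obtain ⟨hB, hπ⟩ := h2 _ (aeval_mem_pair t ht p)
  exact ⟨hB, hπ.trans (pairOfTranscendental_apply t ht p)⟩

variable {t : L} (E : TPlace K t)

theorem TPlace.val_eq_one {p : K[X]} (hp : p.eval 0 ≠ 0) :
    E.B.valuation (Polynomial.aeval t p) = 1 := by
  obtain ⟨hB, hπ⟩ := E.hpoly p
  have hu : IsUnit (⟨_, hB⟩ : E.B) := by
    by_contra hnu
    have hm : (⟨_, hB⟩ : E.B) ∈ IsLocalRing.maximalIdeal E.B :=
      (IsLocalRing.mem_maximalIdeal _).2 hnu
    rw [← E.hker, hπ] at hm
    exact hp hm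
  exact (E.B.valuation_eq_one_iff ⟨_, hB⟩).1 hu

theorem TPlace.val_t_lt_one : E.B.valuation t < 1 := by
  obtain ⟨hB, hπ⟩ := E.hpoly Polynomial.X
  rw [Polynomial.eval_X] at hπ
  have hm : (⟨_, hB⟩ : E.B) ∈ IsLocalRing.maximalIdeal E.B := (E.hker _).1 hπ
  have := (E.B.valuation_lt_one_iff ⟨_, hB⟩).1 hm
  simpa using this

theorem TPlace.val_aeval {p : K[X]} (hp : p ≠ 0) :
    ∃ e : ℕ, E.B.valuation (Polynomial.aeval t p) = E.B.valuation t ^ e := by
  obtain ⟨q, hq, hnd⟩ := Polynomial.exists_eq_pow_rootMultiplicity_mul_and_not_dvd p hp 0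
  refine ⟨Polynomial.rootMultiplicity 0 p, ?_⟩
  have hq0 : q.eval 0 ≠ 0 := by
    intro h0
    exact hnd ((Polynomial.dvd_iff_isRoot).2 h0)
  conv_lhs => rw [hq]
  rw [map_mul, map_pow, map_mul, map_pow, E.val_eq_one hq0, mul_one]
  simp

/-- **key**: the value of an element algebraic over `K(t)` is commensurable with the value of
`t`. -/
theorem TPlace.exists_pow_eq (ht : Transcendental K t) {y : L} (hy : y ≠ 0) {P : K[X][X]}
    (hP : P ≠ 0)
    (h0 : Polynomial.eval₂ (Polynomial.aeval t : K[X] →ₐ[K] L).toRingHom y P = 0) :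
    ∃ a : ℕ, 0 < a ∧ ∃ b c : ℕ,
      E.B.valuation y ^ a * E.B.valuation t ^ b = E.B.valuation t ^ c := by
  classical
  set v := E.B.valuation with hv
  have hinj : Function.Injective (Polynomial.aeval t : K[X] →ₐ[K] L) :=
    transcendental_iff_injective.1 ht
  let z : ℕ → L := fun i => Polynomial.aeval t (P.coeff i) * y ^ i
  have hsum : ∑ i ∈ P.support, z i = 0 := by
    rw [← h0, Polynomial.eval₂_eq_sum, Polynomial.sum]
    rfl
  have hz : ∀ i ∈ P.support, z i ≠ 0 := by
    intro i hi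
    have hc : P.coeff i ≠ 0 := Polynomial.mem_support_iff.1 hi
    have h1 : Polynomial.aeval t (P.coeff i) ≠ 0 := by
      intro h
      exact hc (hinj (by rw [h, map_zero]))
    exact mul_ne_zero h1 (pow_ne_zero _ hy)
  have hvy : v y ≠ 0 := (Valuation.ne_zero_iff v).2 hy
  have hex : ∀ i ∈ P.support, ∃ e : ℕ, v (z i) = v t ^ e * v y ^ i := by
    intro i hi
    obtain ⟨e, he⟩ := E.val_aeval (Polynomial.mem_support_iff.1 hi)
    exact ⟨e, by rw [map_mul, map_pow, he]⟩
  have hne : P.support.Nonempty := Polynomial.support_nonempty.2 hP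
  obtain ⟨j, hj, hmax⟩ := Finset.exists_max_image P.support (fun i => v (z i)) hne
  by_contra hcon
  push Not at hcon
  have hlt : ∀ i ∈ P.support \ {j}, v (z i) < v (z j) := by
    intro i hi
    rw [Finset.mem_sdiff, Finset.mem_singleton] at hi
    obtain ⟨hi, hij⟩ := hi
    refine lt_of_le_of_ne (hmax i hi) ?_
    intro heq
    obtain ⟨ei, hei⟩ := hex i hi
    obtain ⟨ej, hej⟩ := hex j hj
    rw [hei, hej] at heq
    rcases lt_or_gt_of_ne hij with h | h
    · -- i < j
      have e1 : v y ^ j = v y ^ (j - i) * v y ^ i := by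
        rw [← pow_add, Nat.sub_add_cancel h.le]
      rw [e1, ← mul_assoc] at heq
      have := mul_right_cancel₀ (pow_ne_zero i hvy) heq
      exact hcon (j - i) (Nat.sub_pos_of_lt h) ej ei (by rw [mul_comm]; exact this.symm)
    · -- j < i
      have e1 : v y ^ i = v y ^ (i - j) * v y ^ j := by
        rw [← pow_add, Nat.sub_add_cancel h.le]
      rw [e1, ← mul_assoc] at heq
      have := mul_right_cancel₀ (pow_ne_zero j hvy) heq
      exact hcon (i - j) (Nat.sub_pos_of_lt h) ei ej (by rw [mul_comm]; exact this)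
  have h1 := Valuation.map_sum_eq_of_lt v hj hlt
  rw [hsum, map_zero] at h1
  exact (Valuation.ne_zero_iff v).2 (hz j hj) h1.symm

/-- **rank one**: `B` is archimedean when `L` is algebraic over `K(t)`. -/
theorem TPlace.isArch (ht : Transcendental K t)
    (halg : ∀ y : L, ∃ P : K[X][X], P ≠ 0 ∧
      Polynomial.eval₂ (Polynomial.aeval t : K[X] →ₐ[K] L).toRingHom y P = 0)
    (x : E.B) (hx : ¬ IsUnit x) (w : E.B) (hw : w ≠ 0) : ∃ n : ℕ, w ∣ x ^ n := by
  by_cases hx0 : x = 0
  · exact ⟨1, by rw [hx0, pow_one]; exact dvd_zero w⟩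
  set v := E.B.valuation with hv
  have hxL : (x : L) ≠ 0 := fun h => hx0 (Subtype.ext h)
  have hwL : (w : L) ≠ 0 := fun h => hw (Subtype.ext h)
  have ht1 : v t < 1 := E.val_t_lt_one
  have ht0 : v t ≠ 0 := (Valuation.ne_zero_iff v).2 (fun h => ht (h ▸ isAlgebraic_zero))
  have hx1 : v (x : L) < 1 := by
    have hm : x ∈ IsLocalRing.maximalIdeal E.B := (IsLocalRing.mem_maximalIdeal _).2 hx
    exact (E.B.valuation_lt_one_iff x).1 hm
  have hw1 : v (w : L) ≤ 1 := (E.B.valuation_le_one_iff _).2 w.2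
  obtain ⟨P, hP, hP0⟩ := halg x
  obtain ⟨a, ha, b, c, habc⟩ := E.exists_pow_eq ht hxL hP hP0
  obtain ⟨P₂, hP₂, hP₂0⟩ := halg w
  obtain ⟨a₂, ha₂, b₂, c₂, habc₂⟩ := E.exists_pow_eq ht hwL hP₂ hP₂0
  -- `c > b`
  have hbc : b < c := by
    by_contra hcb
    rw [not_lt] at hcb
    have h1 : v t ^ b ≤ v t ^ c := pow_le_pow_right_of_le_one' ht1.le hcb
    have h2 : v (x : L) ^ a < 1 := pow_lt_one' hx1 ha.ne'
    have h3 : v (x : L) ^ a * v t ^ b < v t ^ b := by
      calc v (x : L) ^ a * v t ^ b < 1 * v t ^ b :=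
            mul_lt_mul_of_pos_right h2 (pow_pos (zero_lt_iff.2 ht0) b)
        _ = v t ^ b := one_mul _
    rw [habc] at h3
    exact absurd h1 (not_le.2 h3)
  -- `v x ^ a = v t ^ (c - b)`
  have hxa : v (x : L) ^ a = v t ^ (c - b) := by
    have e1 : v t ^ c = v t ^ (c - b) * v t ^ b := by
      rw [← pow_add, Nat.sub_add_cancel hbc.le]
    rw [e1] at habc
    exact mul_right_cancel₀ (pow_ne_zero b ht0) habc
  refine ⟨a * c₂, ?_⟩
  have hle : v ((x : L) ^ (a * c₂)) ≤ v (w : L) := by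
    rw [map_pow, pow_mul, hxa, ← pow_mul]
    calc v t ^ ((c - b) * c₂) ≤ v t ^ c₂ := by
          apply pow_le_pow_right_of_le_one' ht1.le
          exact Nat.le_mul_of_pos_left c₂ (Nat.sub_pos_of_lt hbc)
      _ = v (w : L) ^ a₂ * v t ^ b₂ := habc₂.symm
      _ ≤ v (w : L) ^ a₂ * 1 := mul_le_mul' le_rfl (pow_le_one' ht1.le b₂)
      _ = v (w : L) ^ a₂ := mul_one _
      _ ≤ v (w : L) ^ 1 := pow_le_pow_right_of_le_one' hw1 ha₂
      _ = v (w : L) := pow_one _
  obtain ⟨u, hu⟩ := (E.B.valuation_le_iff _ _).1 hle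
  exact Dvd.intro_left u (Subtype.ext (by simpa using hu))

/-- **(d1)**: a rank one place in transcendence degree one. -/
theorem exists_place_rank_one [IsAlgClosed K] (t : L) (ht : Transcendental K t)
    (halg : ∀ y : L, ∃ P : K[X][X], P ≠ 0 ∧
      Polynomial.eval₂ (Polynomial.aeval t : K[X] →ₐ[K] L).toRingHom y P = 0) :
    ∃ (B : ValuationSubring L) (π : B →+* K),
      (∀ c : K, ∃ hc : algebraMap K L c ∈ B, π ⟨_, hc⟩ = c) ∧
      (∀ x : B, π x = 0 ↔ x ∈ IsLocalRing.maximalIdeal B) ∧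
      (∃ ht' : t ∈ B, π ⟨t, ht'⟩ = 0) ∧
      (∀ x : B, ¬ IsUnit x → ∀ w : B, w ≠ 0 → ∃ n : ℕ, w ∣ x ^ n) := by
  obtain ⟨E⟩ := exists_tPlace (K := K) t ht
  refine ⟨E.B, E.π, E.hK, E.hker, ?_, E.isArch ht halg⟩
  obtain ⟨hB, hπ⟩ := E.hpoly Polynomial.X
  rw [Polynomial.eval_X] at hπ
  have e : Polynomial.aeval t (Polynomial.X : K[X]) = t := Polynomial.aeval_X t
  have ht' : t ∈ E.B := by
    have h := hB
    rwa [e] at h
  refine ⟨ht', ?_⟩
  have h2 : (⟨t, ht'⟩ : E.B) = ⟨Polynomial.aeval t (Polynomial.X : K[X]), hB⟩ :=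
    Subtype.ext e.symm
  rw [h2]
  exact hπ

end RankMain

end Fermat.Agent.S29.PlaceC
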