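import Mathlib
import Fermat.Prelude.Def_ModularCurve_LaurentCoeff

/-!
# S29 (item 90), piece (D3-genus), algebra: constant field extension

* `GenusBC.finrank_le_of_generated` : `F₂ = K · φ(F₁)`, `[F₁ : k(t)] < ∞`
  `⟹ [F₂ : K(φ t)] ≤ [F₁ : k(t)]`;
* `GenusBC.linearIndependent_coeffMap` : `k`-linearly independent Laurent series over `k` stay
  `K`-linearly independent in `K((q))`.
-/

set_option autoImplicit false
set_option linter.unusedSectionVars false
set_option linter.style.haveILetI false

open scoped IntermediateField Polynomial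

noncomputable section

namespace Fermat.Agent.S29.GenusBC

section Degree

variable {k K F₁ F₂ : Type*} [Field k] [Field K] [Field F₁] [Field F₂] [Algebra k F₁]
  [Algebra K F₂] (ι : k →+* K) (φ : F₁ →+* F₂)

theorem map_aeval (hφ : ∀ c : k, φ (algebraMap k F₁ c) = algebraMap K F₂ (ι c)) (t : F₁)
    (r : k[X]) : φ (Polynomial.aeval t r) = Polynomial.aeval (φ t) (r.map ι) := by
  rw [Polynomial.aeval_def, Polynomial.hom_eval₂, Polynomial.aeval_def, Polynomial.eval₂_map]
  congr 1
  exact RingHom.ext hφ

theorem map_mem_adjoin (hφ : ∀ c : k, φ (algebraMap k F₁ c) = algebraMap K F₂ (ι c)) (t : F₁)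
    {c : F₁} (hc : c ∈ k⟮t⟯) : φ c ∈ K⟮φ t⟯ := by
  obtain ⟨r, s, rfl⟩ := (IntermediateField.mem_adjoin_simple_iff k c).mp hc
  rw [map_div₀, map_aeval ι φ hφ, map_aeval ι φ hφ, IntermediateField.mem_adjoin_simple_iff]
  exact ⟨r.map ι, s.map ι, rfl⟩

/-- **constant field extension does not increase the degree.** -/
theorem finrank_le_of_generated
    (hφ : ∀ c : k, φ (algebraMap k F₁ c) = algebraMap K F₂ (ι c))
    (hgen : IntermediateField.adjoin K (Set.range φ) = ⊤)
    (t : F₁) [FiniteDimensional k⟮t⟯ F₁] :
    FiniteDimensional K⟮φ t⟯ F₂ ∧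
      Module.finrank K⟮φ t⟯ F₂ ≤ Module.finrank k⟮t⟯ F₁ := by
  classical
  set E : IntermediateField K F₂ := K⟮φ t⟯ with hE
  let b := Module.finBasis k⟮t⟯ F₁
  set n := Module.finrank k⟮t⟯ F₁ with hn
  set W : Submodule E F₂ := Submodule.span E (Set.range fun i => φ (b i)) with hW
  -- (2) `φ f ∈ W`
  have h2 : ∀ f : F₁, φ f ∈ W := by
    intro f
    have hf : f = ∑ i, (b.repr f i : F₁) * b i := by
      conv_lhs => rw [← b.sum_repr f]
      refine Finset.sum_congr rfl fun i _ => ?_
      rw [IntermediateField.smul_def, smul_eq_mul]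
    rw [hf, map_sum]
    refine Submodule.sum_mem _ fun i _ => ?_
    rw [map_mul]
    have hc : φ (b.repr f i : F₁) ∈ E := map_mem_adjoin ι φ hφ t (b.repr f i).2
    have : φ (b.repr f i : F₁) * φ (b i) = (⟨_, hc⟩ : E) • φ (b i) := by
      rw [IntermediateField.smul_def, smul_eq_mul]
    rw [this]
    exact Submodule.smul_mem _ _ (Submodule.subset_span ⟨i, rfl⟩)
  -- (3) the algebra generated by `range φ` is contained in `W`
  have h3 : (Algebra.adjoin E (Set.range φ)).toSubmodule ≤ W := by
    rw [Algebra.adjoin_eq_span]
    have hcl : (Submonoid.closure (Set.range φ) : Set F₂) = Set.range φ := by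
      have : Submonoid.closure (Set.range φ) = (φ.rangeS.toSubmonoid) := by
        apply le_antisymm
        · rw [Submonoid.closure_le]
          rintro _ ⟨x, rfl⟩
          exact ⟨x, rfl⟩
        · rintro _ ⟨x, rfl⟩
          exact Submonoid.subset_closure ⟨x, rfl⟩
      rw [this]
      ext y
      constructor
      · rintro ⟨x, rfl⟩; exact ⟨x, rfl⟩
      · rintro ⟨x, rfl⟩; exact ⟨x, rfl⟩
    rw [hcl, Submodule.span_le]
    rintro _ ⟨f, rfl⟩
    exact h2 f
  haveI hWfin : Module.Finite E W := Module.Finite.span_of_finite E (Set.finite_range _)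
  have hAfg : (Algebra.adjoin E (Set.range φ)).toSubmodule.FG := by
    haveI : IsNoetherian E W := inferInstance
    have : Module.Finite E (Algebra.adjoin E (Set.range φ)).toSubmodule :=
      Submodule.finiteDimensional_of_le h3
    exact Module.Finite.iff_fg.mp this
  -- (4) elements of `range φ` are algebraic over `E`
  have halg : ∀ x ∈ Set.range φ, IsAlgebraic E x := fun x hx =>
    (IsIntegral.of_mem_of_fg _ hAfg x (Algebra.subset_adjoin hx)).isAlgebraic
  have h4 : (IntermediateField.adjoin E (Set.range φ)).toSubalgebra =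
      Algebra.adjoin E (Set.range φ) :=
    IntermediateField.adjoin_toSubalgebra_of_isAlgebraic halg
  -- (5) `adjoin E (range φ) = ⊤`
  have h5 : IntermediateField.adjoin E (Set.range φ) = ⊤ := by
    rw [eq_top_iff]
    intro y _
    have hy : y ∈ IntermediateField.adjoin K (Set.range φ) := by rw [hgen]; trivial
    have hle : IntermediateField.adjoin K (Set.range φ) ≤
        (IntermediateField.adjoin E (Set.range φ)).restrictScalars K := by
      rw [IntermediateField.adjoin_le_iff]
      intro z hz
      exact IntermediateField.subset_adjoin E _ hz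
    exact hle hy
  have hWtop : W = ⊤ := by
    rw [eq_top_iff]
    intro y _
    apply h3
    have : y ∈ (IntermediateField.adjoin E (Set.range φ)).toSubalgebra := by
      rw [h5]; trivial
    rw [h4] at this
    exact this
  have hfin : FiniteDimensional E F₂ := by
    have : Module.Finite E (⊤ : Submodule E F₂) := hWtop ▸ hWfin
    exact Module.finite_def.mpr (Module.Finite.iff_fg.mp this |> fun h => by
      simpa using h)
  refine ⟨hfin, ?_⟩
  calc Module.finrank E F₂ = Module.finrank E (⊤ : Submodule E F₂) := (finrank_top E F₂).symm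
    _ = Module.finrank E W := by rw [hWtop]
    _ ≤ Fintype.card (Fin n) := finrank_range_le_card _
    _ = n := Fintype.card_fin n

end Degree

section LinInd

variable {k K : Type*} [Field k] [Field K] (ι : k →+* K)

/-- `k`-linearly independent Laurent series stay `K`-linearly independent. -/
theorem linearIndependent_coeffMap {n : ℕ} (f : Fin n → LaurentSeries k)
    (hf : LinearIndependent k f) :
    LinearIndependent K (fun i => ModularCurve.coeffMap ι (f i)) := by
  classical
  letI : Algebra k K := ι.toAlgebra
  obtain ⟨lam, hlam⟩ := LinearMap.exists_leftInverse_of_injective (Algebra.linearMap k K)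
    (LinearMap.ker_eq_bot.mpr (algebraMap k K).injective)
  have hlam1 : ∀ a : k, lam (ι a) = a := fun a => by
    have := congrArg (fun g : k →ₗ[k] k => g a) hlam
    show lam (algebraMap k K a) = a
    simpa using this
  rw [Fintype.linearIndependent_iff]
  intro c hc i
  by_contra hci
  -- the coefficients `d * c j` for `d = (c i)⁻¹`
  set d : K := (c i)⁻¹ with hd
  have hrel : ∑ j, lam (d * c j) • f j = 0 := by
    ext m
    rw [HahnSeries.coeff_sum, HahnSeries.coeff_zero]
    have h1 : ∀ j, (lam (d * c j) • f j).coeff m = lam (d * c j * ι ((f j).coeff m)) := by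
      intro j
      rw [HahnSeries.coeff_smul, smul_eq_mul]
      have : d * c j * ι ((f j).coeff m) = ((f j).coeff m) • (d * c j) := by
        rw [Algebra.smul_def, mul_comm]
        rfl
      rw [this, map_smul, smul_eq_mul, mul_comm]
    rw [Finset.sum_congr rfl fun j _ => h1 j, ← map_sum]
    have h2 : ∑ j, d * c j * ι ((f j).coeff m) = 0 := by
      have := congrArg (fun z : LaurentSeries K => z.coeff m) hc
      simp only [HahnSeries.coeff_sum, HahnSeries.coeff_smul, smul_eq_mul,
        ModularCurve.coeffMap_coeff, HahnSeries.coeff_zero] at this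
      calc ∑ j, d * c j * ι ((f j).coeff m) = d * ∑ j, c j * ι ((f j).coeff m) := by
            rw [Finset.mul_sum]
            exact Finset.sum_congr rfl fun j _ => by ring
        _ = 0 := by rw [this, mul_zero]
    rw [h2, map_zero]
  have h3 := (Fintype.linearIndependent_iff.mp hf) _ hrel i
  rw [hd, inv_mul_cancel₀ hci] at h3
  have h4 := hlam1 1
  rw [map_one] at h4
  rw [h4] at h3
  exact one_ne_zero h3

end LinInd

end Fermat.Agent.S29.GenusBC
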