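import Mathlib
import Fermat.Agent.S29.GenusBCAlg
import Fermat.Agent.S18.RPrimeDefs
import Fermat.Agent.S18.RPrimeBasic
import Fermat.Agent.S18.RRl.Fibres
import Fermat.Agent.S18.RRl.Support
import Fermat.Agent.FF.AFinite
import Fermat.Agent.S18.CTWireDefs

/-!
# S29 (item 90), piece (D3-genus): the genus does not increase under constant field extension

`k ⊂ K` algebraically closed of characteristic zero (`ι : k →+* K`), `F_k ⊂ k((q))`,
`F_K ⊂ K((q))` function fields with `F_K = K · ι(F_k)`, places `∞` with `ord = q`-order on both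
sides, Riemann's theorem with genus `g` on `F_k` and `g'` on `F_K`.  Then `g' ≤ g`
(`GenusBC.genus_le_of_baseChange`).

Proof: a function `t ∈ F_k` with a single pole at `∞` keeps a single pole in `F_K` (degree
count, `finrank_le_of_generated`); functions of `L(m∞)` are integral over `k[t]`, so their
images lie in `L_K(m∞)`; linear independence is preserved (`linearIndependent_coeffMap`).
-/

set_option autoImplicit false
set_option linter.unusedSectionVars false
set_option linter.style.haveILetI false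

open AlgebraicCurve Module
open scoped IntermediateField Polynomial

noncomputable section

namespace Fermat.Agent.S29.GenusBC

open Fermat.Agent.S18 Fermat.Agent.S18.RPrime Fermat.Agent.S18.RRl Fermat.Agent.S18.FFl
  Fermat.Agent.FF

section Val

variable {F : Type*} [Field F]

/-- a root of a monic polynomial with coefficients in a valuation ring lies in it. -/
theorem mem_of_monic_relation (A : ValuationSubring F) (y : F) (d : ℕ) (c : ℕ → F)
    (hc : ∀ i, c i ∈ A) (h : y ^ d + ∑ i ∈ Finset.range d, c i * y ^ i = 0) : y ∈ A := by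
  by_contra hy
  have hy0 : y ≠ 0 := fun h0 => hy (h0 ▸ A.zero_mem)
  have hinv : y⁻¹ ∈ A := (A.mem_or_inv_mem y).resolve_left hy
  rcases Nat.eq_zero_or_pos d with hd | hd
  · subst hd
    simp at h
  have h1 : y = -∑ i ∈ Finset.range d, c i * (y⁻¹) ^ (d - 1 - i) := by
    have h2 : y ^ d = -∑ i ∈ Finset.range d, c i * y ^ i := eq_neg_of_add_eq_zero_left h
    have h3 : y ^ d * (y⁻¹) ^ (d - 1) = y := by
      have : y ^ d = y * y ^ (d - 1) := by
        rw [← pow_succ']
        congr 1
        omega
      rw [this, mul_assoc, ← mul_pow, mul_inv_cancel₀ hy0, one_pow, mul_one]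
    have h5 : ∀ i ∈ Finset.range d, c i * y ^ i * (y⁻¹) ^ (d - 1) =
        c i * (y⁻¹) ^ (d - 1 - i) := by
      intro i hi
      rw [Finset.mem_range] at hi
      have h4 : (y⁻¹) ^ (d - 1) = (y⁻¹) ^ i * (y⁻¹) ^ (d - 1 - i) := by
        rw [← pow_add]
        congr 1
        omega
      rw [h4, mul_assoc, ← mul_assoc (y ^ i), ← mul_pow, mul_inv_cancel₀ hy0, one_pow, one_mul]
    calc y = y ^ d * (y⁻¹) ^ (d - 1) := h3.symm
      _ = (-∑ i ∈ Finset.range d, c i * y ^ i) * (y⁻¹) ^ (d - 1) := by rw [h2]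
      _ = -∑ i ∈ Finset.range d, c i * y ^ i * (y⁻¹) ^ (d - 1) := by
          rw [neg_mul, Finset.sum_mul]
      _ = -∑ i ∈ Finset.range d, c i * (y⁻¹) ^ (d - 1 - i) := by
          rw [Finset.sum_congr rfl h5]
  apply hy
  rw [h1]
  exact neg_mem (sum_mem fun i _ => mul_mem (hc i) (pow_mem hinv _))

end Val

section Order

variable {k K : Type*} [Field k] [Field K] (ι : k →+* K)

theorem orderTop_coeffMap (x : LaurentSeries k) :
    (ModularCurve.coeffMap ι x).orderTop = x.orderTop := by
  by_cases hx : x = 0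
  · simp [hx]
  have hinj : Function.Injective ι := ι.injective
  have hx' : ModularCurve.coeffMap ι x ≠ 0 := fun h => hx (by
    ext n
    have := congrArg (fun z : LaurentSeries K => z.coeff n) h
    simp only [ModularCurve.coeffMap_coeff, HahnSeries.coeff_zero] at this
    rw [HahnSeries.coeff_zero]
    exact hinj (by rw [this, map_zero]))
  rw [HahnSeries.orderTop_of_ne_zero hx', HahnSeries.orderTop_of_ne_zero hx]
  congr 1
  apply le_antisymm
  · apply Set.IsWF.min_le_min_of_subset
    intro n hn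
    rw [HahnSeries.mem_support] at hn ⊢
    rw [ModularCurve.coeffMap_coeff]
    exact fun h => hn (hinj (by rw [h, map_zero]))
  · apply Set.IsWF.min_le_min_of_subset
    intro n hn
    rw [HahnSeries.mem_support] at hn ⊢
    rw [ModularCurve.coeffMap_coeff] at hn
    exact fun h => hn (by rw [h, map_zero])

end Order

section Main

variable {k K : Type*} [Field k] [Field K] (ι : k →+* K)
  (Fk : IntermediateField k (LaurentSeries k)) (FK : IntermediateField K (LaurentSeries K))
  (hι : ∀ f ∈ Fk, ModularCurve.coeffMap ι f ∈ FK)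

/-- the base change map `F_k → F_K` (coefficientwise). -/
def bc : Fk →+* FK where
  toFun f := ⟨ModularCurve.coeffMap ι (f : LaurentSeries k), hι f f.2⟩
  map_one' := Subtype.ext (map_one _)
  map_mul' _ _ := Subtype.ext (map_mul _ _ _)
  map_zero' := Subtype.ext (map_zero _)
  map_add' _ _ := Subtype.ext (map_add _ _ _)

@[simp] theorem coe_bc (f : Fk) :
    ((bc ι Fk FK hι f : FK) : LaurentSeries K) = ModularCurve.coeffMap ι (f : LaurentSeries k) :=
  rfl

theorem bc_algebraMap (c : k) :
    bc ι Fk FK hι (algebraMap k Fk c) = algebraMap K FK (ι c) := by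
  apply Subtype.ext
  rw [coe_bc, CT.coe_algebraMap_eq, CT.coe_algebraMap_eq]
  show ModularCurve.coeffMap ι (HahnSeries.single 0 c) = HahnSeries.single 0 (ι c)
  exact ModularCurve.coeffMap_single ι 0 c

theorem bc_injective : Function.Injective (bc ι Fk FK hι) := (bc ι Fk FK hι).injective

theorem bc_aeval (t : Fk) (r : k[X]) :
    bc ι Fk FK hι (Polynomial.aeval t r) = Polynomial.aeval (bc ι Fk FK hι t) (r.map ι) :=
  map_aeval ι (bc ι Fk FK hι) (bc_algebraMap ι Fk FK hι) t r

variable {Fk FK}

/-- `ord` at `∞` is preserved by base change. -/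
theorem ord_bc_eq (Pinf : Place k Fk)
    (hPinf : ∀ y : Fk, y ≠ 0 → (Pinf.ord y : WithTop ℤ) = (y : LaurentSeries k).orderTop)
    (Qinf : Place K FK)
    (hQinf : ∀ y : FK, y ≠ 0 → (Qinf.ord y : WithTop ℤ) = (y : LaurentSeries K).orderTop)
    (y : Fk) : Qinf.ord (bc ι Fk FK hι y) = Pinf.ord y := by
  rcases eq_or_ne y 0 with rfl | hy
  · rw [map_zero, Place.ord_zero, Place.ord_zero]
  have hy' : bc ι Fk FK hι y ≠ 0 := fun h => hy (bc_injective ι Fk FK hι (by rw [h, map_zero]))
  have h1 := hQinf _ hy'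
  rw [coe_bc, orderTop_coeffMap, ← hPinf y hy] at h1
  exact_mod_cast h1

end Main

section Pole

variable {k : Type*} [Field k] [IsAlgClosed k] [CharZero k] {F : Type*} [Field F] [Algebra k F]

/-- a function with poles only at `P` has pole order `[F : k(t)]` at `P`. -/
theorem neg_ord_eq_finrank (t : F) (ht : Transcendental k t) [FiniteDimensional k⟮t⟯ F]
    (P : Place k F) (hP : ∀ v : Place k F, v ≠ P → 0 ≤ v.ord t) :
    -P.ord t = (Module.finrank k⟮t⟯ F : ℤ) := by
  classical
  have hsum := FF.sum_ord_placesOverInf t ht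
  have hne := FF.placesOverInf_nonempty t ht
  have hsub : ∀ v ∈ (FF.placesOverInf_finite t ht).toFinset, v = P := by
    intro v hv
    rw [Set.Finite.mem_toFinset] at hv
    by_contra hvP
    have := hP v hvP
    have hv' : v.ord t < 0 := hv
    omega
  have heq : (FF.placesOverInf_finite t ht).toFinset = {P} := by
    obtain ⟨v, hv⟩ := hne
    have hv1 : v ∈ (FF.placesOverInf_finite t ht).toFinset := by
      rw [Set.Finite.mem_toFinset]; exact hv
    have hvP := hsub v hv1
    subst hvP
    ext w
    rw [Finset.mem_singleton]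
    exact ⟨fun hw => hsub w hw, fun hw => hw ▸ hv1⟩
  rw [heq, Finset.sum_singleton] at hsum
  exact hsum

/-- if `P` is a pole of `t` of order `≥ [F : k(t)]`, it is the only pole. -/
theorem ord_nonneg_of_ne (t : F) (ht : Transcendental k t) [FiniteDimensional k⟮t⟯ F]
    (P : Place k F) (hP : (Module.finrank k⟮t⟯ F : ℤ) ≤ -P.ord t)
    (hpos : 0 < Module.finrank k⟮t⟯ F) (v : Place k F) (hv : v ≠ P) : 0 ≤ v.ord t := by
  classical
  by_contra hneg
  rw [not_le] at hneg
  have hsum := FF.sum_ord_placesOverInf t ht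
  have hPmem : P ∈ (FF.placesOverInf_finite t ht).toFinset := by
    rw [Set.Finite.mem_toFinset]
    show P.ord t < 0
    have : (0 : ℤ) < Module.finrank k⟮t⟯ F := by exact_mod_cast hpos
    omega
  have hvmem : v ∈ (FF.placesOverInf_finite t ht).toFinset := by
    rw [Set.Finite.mem_toFinset]
    exact hneg
  have hsubset : ({P, v} : Finset (Place k F)) ⊆ (FF.placesOverInf_finite t ht).toFinset := by
    intro w hw
    rw [Finset.mem_insert, Finset.mem_singleton] at hw
    rcases hw with rfl | rfl
    · exact hPmem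
    · exact hvmem
  have hle : ∑ w ∈ ({P, v} : Finset (Place k F)), (-w.ord t) ≤
      ∑ w ∈ (FF.placesOverInf_finite t ht).toFinset, (-w.ord t) := by
    apply Finset.sum_le_sum_of_subset_of_nonneg hsubset
    intro w hw _
    rw [Set.Finite.mem_toFinset] at hw
    have hw' : w.ord t < 0 := hw
    omega
  rw [Finset.sum_pair (Ne.symm hv), hsum] at hle
  omega

end Pole

section Genus

variable {k K F₁ F₂ : Type*} [Field k] [Field K] [Field F₁] [Field F₂] [Algebra k F₁]
  [Algebra K F₂] [IsAlgClosed k] [IsAlgClosed K] [CharZero k] [CharZero K]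
  (ι : k →+* K) (φ : F₁ →+* F₂)
  (hφ : ∀ c : k, φ (algebraMap k F₁ c) = algebraMap K F₂ (ι c))

/-- a non-constant function with poles only at `∞`. -/
theorem exists_single_pole {g : ℕ} (hk : CurveRR k F₁ g) (Pinf : Place k F₁) :
    ∃ t : F₁, Transcendental k t ∧ ∀ v : Place k F₁, v ≠ Pinf → 0 ≤ v.ord t := by
  classical
  set E₁ : Divisor k F₁ := Finsupp.single Pinf (2 * (g : ℤ) + 1) with hE₁
  have hdeg : Divisor.degree E₁ = 2 * (g : ℤ) + 1 := degree_single_one hk.deg_one Pinf _
  have hdim := hk.riemann E₁ (by rw [hdeg]; omega)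
  rw [hdeg] at hdim
  haveI := hk.finite E₁
  have hex : ∃ t ∈ riemannRochSpace E₁, ∀ c : k, algebraMap k F₁ c ≠ t := by
    by_contra hcon
    push Not at hcon
    have hle : riemannRochSpace E₁ ≤ Submodule.span k {(1 : F₁)} := by
      intro t ht
      obtain ⟨c, hc⟩ := hcon t ht
      rw [Submodule.mem_span_singleton]
      exact ⟨c, by rw [← hc, Algebra.smul_def, mul_one]⟩
    have h1 := Submodule.finrank_mono hle
    rw [finrank_span_singleton (one_ne_zero)] at h1
    have : (Module.finrank k (riemannRochSpace E₁) : ℤ) ≤ 1 := by exact_mod_cast h1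
    omega
  obtain ⟨t, htE, htc⟩ := hex
  have ht0 : t ≠ 0 := fun h => htc 0 (by rw [map_zero, h])
  refine ⟨t, fun halg => ?_, fun v hv => ?_⟩
  · obtain ⟨c, hc⟩ := exists_algebraMap_eq_of_isAlgebraic halg
    exact htc c hc
  · rcases (mem_riemannRochSpace_iff.mp htE) v with h | h
    · exact absurd h ht0
    · rw [hE₁, Finsupp.single_apply, if_neg (Ne.symm hv)] at h
      simpa using h

include hφ in
/-- integrality transfer: if `f` has no poles where `t` has none, and `φ t ∈ O_Q`, then
`φ f ∈ O_Q`. -/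
theorem ord_map_nonneg (t : F₁) (ht : Transcendental k t) [FiniteDimensional k⟮t⟯ F₁]
    (f : F₁) (hfv : ∀ v : Place k F₁, 0 ≤ v.ord t → 0 ≤ v.ord f)
    (Q : Place K F₂) (hTmem : φ t ∈ Q.toValuationSubring) :
    0 ≤ Q.ord (φ f) := by
  classical
  choose a ha using fun i => minpoly_coeff_mem_range t ht f hfv i
  have hint : IsIntegral k⟮t⟯ f := IsIntegral.of_finite _ _
  have hmonic : (minpoly k⟮t⟯ f).Monic := minpoly.monic hint
  have hroot : Polynomial.aeval f (minpoly k⟮t⟯ f) = 0 := minpoly.aeval _ _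
  have hrel : f ^ (minpoly k⟮t⟯ f).natDegree + ∑ i ∈ Finset.range (minpoly k⟮t⟯ f).natDegree,
      Polynomial.aeval t (a i) * f ^ i = 0 := by
    rw [Polynomial.aeval_eq_sum_range, Finset.sum_range_succ] at hroot
    have hlead : (minpoly k⟮t⟯ f).coeff (minpoly k⟮t⟯ f).natDegree = 1 := hmonic.coeff_natDegree
    rw [hlead, one_smul, add_comm] at hroot
    rw [← hroot]
    congr 1
    refine Finset.sum_congr rfl fun i _ => ?_
    rw [← ha i, Algebra.smul_def]
  have hrel' : (φ f) ^ (minpoly k⟮t⟯ f).natDegree +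
      ∑ i ∈ Finset.range (minpoly k⟮t⟯ f).natDegree,
        Polynomial.aeval (φ t) ((a i).map ι) * (φ f) ^ i = 0 := by
    have := congrArg φ hrel
    rw [map_add, map_pow, map_sum, map_zero] at this
    rw [← this]
    congr 1
    refine Finset.sum_congr rfl fun i _ => ?_
    rw [map_mul, map_pow, map_aeval ι φ hφ]
  have := mem_of_monic_relation Q.toValuationSubring (φ f) _
    (fun i => Polynomial.aeval (φ t) ((a i).map ι))
    (fun i => aeval_mem_valuationSubring Q hTmem _) hrel'
  exact FF.ord_nonneg_of_mem Q this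

include hφ in
/-- the image of `L(m∞)` lies in `L_K(m∞)`. -/
theorem map_mem_riemannRochSpace
    (Pinf : Place k F₁) (Qinf : Place K F₂)
    (hinf : ∀ y : F₁, Qinf.ord (φ y) = Pinf.ord y)
    (t : F₁) (ht : Transcendental k t) [FiniteDimensional k⟮t⟯ F₁]
    (htneg : Pinf.ord t < 0)
    (hTpole : ∀ Q : Place K F₂, Q ≠ Qinf → 0 ≤ Q.ord (φ t))
    (m : ℤ) (f : F₁) (hf : f ∈ riemannRochSpace (Finsupp.single Pinf m : Divisor k F₁)) :
    φ f ∈ riemannRochSpace (Finsupp.single Qinf m : Divisor K F₂) := by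
  classical
  rw [mem_riemannRochSpace_iff] at hf ⊢
  intro Q
  rcases eq_or_ne f 0 with rfl | hf0
  · left; exact map_zero _
  right
  have ht0 : t ≠ 0 := fun h => ht (h ▸ isAlgebraic_zero)
  have hT0 : φ t ≠ 0 := fun h => ht0 (φ.injective (by rw [h, map_zero]))
  by_cases hQ : Q = Qinf
  · subst hQ
    rw [Finsupp.single_eq_same, hinf f]
    rcases hf Pinf with h | h
    · exact absurd h hf0
    · rwa [Finsupp.single_eq_same] at h
  · rw [Finsupp.single_apply, if_neg (Ne.symm hQ), neg_zero]
    have hfv : ∀ v : Place k F₁, 0 ≤ v.ord t → 0 ≤ v.ord f := by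
      intro v hv
      have hvP : v ≠ Pinf := by
        rintro rfl
        omega
      rcases hf v with h | h
      · exact absurd h hf0
      · rwa [Finsupp.single_apply, if_neg (Ne.symm hvP), neg_zero] at h
    exact ord_map_nonneg ι φ hφ t ht f hfv Q (FF.mem_of_ord_nonneg Q hT0 (hTpole Q hQ))

/-- linear independence is preserved. -/
theorem finrank_le_of_map_mem
    (hli : ∀ (n : ℕ) (f : Fin n → F₁), LinearIndependent k f →
      LinearIndependent K (fun i => φ (f i)))
    (S : Submodule k F₁) [Module.Finite k S]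
    (S' : Submodule K F₂) [Module.Finite K S']
    (h : ∀ f ∈ S, φ f ∈ S') :
    Module.finrank k S ≤ Module.finrank K S' := by
  classical
  let b := Module.finBasis k S
  have h1 : LinearIndependent k (fun i => ((b i : S) : F₁)) :=
    b.linearIndependent.map' S.subtype (Submodule.ker_subtype _)
  have hliK := hli _ _ h1
  let gi : Fin (Module.finrank k S) → S' := fun i => ⟨φ (b i), h _ (b i).2⟩
  have hligi : LinearIndependent K gi := by
    apply LinearIndependent.of_comp S'.subtype
    exact hliK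
  have hcard := hligi.fintype_card_le_finrank
  rwa [Fintype.card_fin] at hcard

include hφ in
/-- **the genus does not increase under constant field extension** (abstract form). -/
theorem genus_le_of_baseChange_abstract
    (hgen : IntermediateField.adjoin K (Set.range φ) = ⊤)
    (hli : ∀ (n : ℕ) (f : Fin n → F₁), LinearIndependent k f →
      LinearIndependent K (fun i => φ (f i)))
    (x : F₁) (hx : Transcendental k x) [FiniteDimensional k⟮x⟯ F₁]
    {g g' : ℕ} (hk : CurveRR k F₁ g) (hK : CurveRR K F₂ g')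
    (Pinf : Place k F₁) (Qinf : Place K F₂)
    (hinf : ∀ y : F₁, Qinf.ord (φ y) = Pinf.ord y) :
    g' ≤ g := by
  classical
  obtain ⟨t, ht, htpole⟩ := exists_single_pole hk Pinf
  haveI hfd : FiniteDimensional k⟮t⟯ F₁ := finiteDimensional_of_transcendental x hx t ht
  have hn := neg_ord_eq_finrank t ht Pinf htpole
  have hnpos : 0 < Module.finrank k⟮t⟯ F₁ := Module.finrank_pos
  have hnpos' : (0 : ℤ) < Module.finrank k⟮t⟯ F₁ := by exact_mod_cast hnpos
  have hordT : Qinf.ord (φ t) = Pinf.ord t := hinf t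
  have hTtr : Transcendental K (φ t) := by
    intro halg
    obtain ⟨c, hc⟩ := exists_algebraMap_eq_of_isAlgebraic halg
    have h1 : Qinf.ord (φ t) = 0 := by rw [← hc]; exact FF.ord_algebraMap Qinf c
    rw [hordT] at h1
    omega
  obtain ⟨hfdK, hle⟩ := finrank_le_of_generated ι φ hφ hgen t
  haveI := hfdK
  have hnK : 0 < Module.finrank K⟮φ t⟯ F₂ := Module.finrank_pos
  have hTpole : ∀ Q : Place K F₂, Q ≠ Qinf → 0 ≤ Q.ord (φ t) := by
    refine ord_nonneg_of_ne _ hTtr Qinf ?_ hnK
    rw [hordT, hn]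
    exact_mod_cast hle
  have hdegE : Divisor.degree (Finsupp.single Pinf (2 * (g : ℤ) + 2 * (g' : ℤ)) :
      Divisor k F₁) = 2 * (g : ℤ) + 2 * (g' : ℤ) := degree_single_one hk.deg_one Pinf _
  have hdegE' : Divisor.degree (Finsupp.single Qinf (2 * (g : ℤ) + 2 * (g' : ℤ)) :
      Divisor K F₂) = 2 * (g : ℤ) + 2 * (g' : ℤ) := degree_single_one hK.deg_one Qinf _
  have hdim := hk.riemann _ (by rw [hdegE]; omega)
  have hdim' := hK.riemann _ (by rw [hdegE']; omega)
  rw [hdegE] at hdim
  rw [hdegE'] at hdim'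
  haveI := hk.finite (Finsupp.single Pinf (2 * (g : ℤ) + 2 * (g' : ℤ)))
  haveI := hK.finite (Finsupp.single Qinf (2 * (g : ℤ) + 2 * (g' : ℤ)))
  have hfin := finrank_le_of_map_mem φ hli
    (riemannRochSpace (Finsupp.single Pinf (2 * (g : ℤ) + 2 * (g' : ℤ)) : Divisor k F₁))
    (riemannRochSpace (Finsupp.single Qinf (2 * (g : ℤ) + 2 * (g' : ℤ)) : Divisor K F₂))
    (fun f hf => map_mem_riemannRochSpace ι φ hφ Pinf Qinf hinf t ht (by omega) hTpole _ f hf)
  have h1 : (Module.finrank k (riemannRochSpace (Finsupp.single Pinf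
      (2 * (g : ℤ) + 2 * (g' : ℤ)) : Divisor k F₁)) : ℤ) ≤
      (Module.finrank K (riemannRochSpace (Finsupp.single Qinf
      (2 * (g : ℤ) + 2 * (g' : ℤ)) : Divisor K F₂)) : ℤ) := by exact_mod_cast hfin
  rw [hdim', hdim] at h1
  omega

end Genus

section Concrete

variable {k K : Type*} [Field k] [Field K] (ι : k →+* K)
  {Fk : IntermediateField k (LaurentSeries k)} {FK : IntermediateField K (LaurentSeries K)}
  (hι : ∀ f ∈ Fk, ModularCurve.coeffMap ι f ∈ FK)

/-- `bc` preserves linear independence. -/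
theorem linearIndependent_bc (n : ℕ) (f : Fin n → Fk) (hf : LinearIndependent k f) :
    LinearIndependent K (fun i => bc ι Fk FK hι (f i)) := by
  have h1 : LinearIndependent k (fun i => ((f i : Fk) : LaurentSeries k)) :=
    hf.map' (CT.embLin Fk) (LinearMap.ker_eq_bot.mpr fun x y h => Subtype.ext h)
  have h2 := linearIndependent_coeffMap ι _ h1
  apply LinearIndependent.of_comp (CT.embLin FK)
  exact h2

/-- **the genus does not increase under constant field extension**: `F_k ⊂ k((q))`,
`F_K = K · ι(F_k) ⊂ K((q))`, places at `∞` with `ord = q`-order. -/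
theorem genus_le_of_baseChange [IsAlgClosed k] [IsAlgClosed K] [CharZero k] [CharZero K]
    (hgen : IntermediateField.adjoin K (Set.range (bc ι Fk FK hι)) = ⊤)
    (x : Fk) (hx : Transcendental k x) (hfd : FiniteDimensional k⟮x⟯ Fk)
    {g g' : ℕ} (hk : CurveRR k Fk g) (hK : CurveRR K FK g')
    (Pinf : Place k Fk)
    (hPinf : ∀ y : Fk, y ≠ 0 → (Pinf.ord y : WithTop ℤ) = (y : LaurentSeries k).orderTop)
    (Qinf : Place K FK)
    (hQinf : ∀ y : FK, y ≠ 0 → (Qinf.ord y : WithTop ℤ) = (y : LaurentSeries K).orderTop) :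
    g' ≤ g :=
  genus_le_of_baseChange_abstract ι (bc ι Fk FK hι) (bc_algebraMap ι Fk FK hι) hgen
    (linearIndependent_bc ι hι) x hx hk hK Pinf Qinf (ord_bc_eq ι hι Pinf hPinf Qinf hQinf)

end Concrete

end Fermat.Agent.S29.GenusBC
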