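import Mathlib
import Fermat.Agent.S29.GenusBC
import Fermat.Agent.S29.GaussCGen
import Fermat.Agent.S29.GaussCCore
import Fermat.Agent.S18.ModularInf
import Fermat.Agent.S18.GenusAsm
import Fermat.Agent.S18.GenusLe
import Fermat.Agent.S18.LatticeR
import Fermat.Agent.S29.GaussCHyp

/-!
# S29 (item 90), piece (D3-genus), instantiation: the genus of `F_N(K)` in characteristic `0`

For every algebraically closed field `K` of characteristic `0` and `F_N(K) =
modularFunctionFieldFullC K N ⊂ K((q))`:

* `transcendental_jF`, `finiteDimensional_jF` : `j` is transcendental and `F_N(K) / K(j)` is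
  finite;
* `curveRR_C : CurveRR K F_N(K) (gb K N)` (Riemann's theorem);
* `gb_le_of_ringHom (ι : k →+* K) : gb K N ≤ gb k N` (no increase under constant field
  extension).
-/

set_option autoImplicit false
set_option linter.unusedSectionVars false
set_option linter.style.haveILetI false

open AlgebraicCurve Module ModularCurve
open scoped IntermediateField Polynomial

noncomputable section

namespace Fermat.Agent.S29.GenusC

open Fermat.Agent.S18 Fermat.Agent.S18.RPrime Fermat.Agent.S18.RedScal
  Fermat.Agent.S18.GenusAsm Fermat.Agent.S29.GaussC Fermat.Agent.S29.GenusBC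
  Fermat.Agent.S18.MScal

section Abstract

variable {K F : Type*} [Field K] [Field F] [Algebra K F]

/-- if every element is a `K(j)`-combination of `1, y, …, y^(n-1)`, then `F / K(j)` is
finite. -/
theorem finiteDimensional_of_rel (j jN : F) (n : ℕ)
    (h : ∀ y : F, ∃ (s : K[X]) (c : Fin n → K[X]), Polynomial.aeval j s ≠ 0 ∧
      Polynomial.aeval j s * y = ∑ i, Polynomial.aeval j (c i) * jN ^ (i : ℕ)) :
    FiniteDimensional K⟮j⟯ F := by
  classical
  let v : Fin n → F := fun i => jN ^ (i : ℕ)
  apply Module.Finite.of_surjective (Fintype.linearCombination K⟮j⟯ v)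
  intro y
  obtain ⟨s, c, hs, hrel⟩ := h y
  have hmem : ∀ p : K[X], Polynomial.aeval j p ∈ K⟮j⟯ := fun p => by
    rw [IntermediateField.mem_adjoin_simple_iff]
    exact ⟨p, 1, by simp⟩
  let a : Fin n → K⟮j⟯ := fun i =>
    ⟨Polynomial.aeval j (c i) / Polynomial.aeval j s, div_mem (hmem _) (hmem _)⟩
  refine ⟨a, ?_⟩
  rw [Fintype.linearCombination_apply]
  have h1 : ∀ i : Fin n, a i • v i =
      (Polynomial.aeval j s)⁻¹ * (Polynomial.aeval j (c i) * jN ^ (i : ℕ)) := by
    intro i
    rw [IntermediateField.smul_def, smul_eq_mul]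
    show Polynomial.aeval j (c i) / Polynomial.aeval j s * _ = _
    rw [div_eq_mul_inv]
    ring
  rw [Finset.sum_congr rfl fun i _ => h1 i, ← Finset.mul_sum, ← hrel, ← mul_assoc,
    inv_mul_cancel₀ hs, one_mul]

end Abstract

section Field

variable (K : Type*) [Field K] [CharZero K] (N : ℕ) [NeZero N]

theorem coe_aeval_jF (p : K[X]) :
    ((Polynomial.aeval (jF K N) p : modularFunctionFieldFullC K N) : LaurentSeries K) =
      evJ K p := by
  rw [← IntermediateField.aeval_coe]
  rfl

theorem transcendental_jF : Transcendental K (jF K N) := by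
  rw [transcendental_iff]
  intro p hp
  by_contra hp0
  apply evJ_ne_zero_of_charZero (k := K) hp0
  rw [← coe_aeval_jF K N, hp]
  rfl

/-- GEN inside `F_N(K)`. -/
theorem exists_rel (y : modularFunctionFieldFullC K N) :
    ∃ (s : K[X]) (c : Fin (dedekindPsi N) → K[X]), Polynomial.aeval (jF K N) s ≠ 0 ∧
      Polynomial.aeval (jF K N) s * y =
        ∑ i, Polynomial.aeval (jF K N) (c i) * (jNF K N) ^ (i : ℕ) := by
  classical
  have hgen := genOver_of_charZero K N
  obtain ⟨s, P, hs, hP, hrel⟩ := hgen (y : LaurentSeries K) y.2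
  refine ⟨s, fun i => P.coeff i, fun h0 => hs ?_, ?_⟩
  · rw [← coe_aeval_jF K N, h0]
    rfl
  · apply Subtype.ext
    rw [MulMemClass.coe_mul, coe_aeval_jF, hrel, evJN_apply,
      Polynomial.eval₂_eq_sum_range' (evJ K) hP]
    rw [Fin.sum_univ_eq_sum_range (fun i => Polynomial.aeval (jF K N) (P.coeff i) *
      (jNF K N) ^ i) (dedekindPsi N)]
    rw [AddSubmonoidClass.coe_finsetSum]
    refine Finset.sum_congr rfl fun i _ => ?_
    rw [MulMemClass.coe_mul, coe_aeval_jF, SubmonoidClass.coe_pow]
    rfl

theorem finiteDimensional_jF :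
    FiniteDimensional K⟮jF K N⟯ (modularFunctionFieldFullC K N) :=
  finiteDimensional_of_rel (jF K N) (jNF K N) (dedekindPsi N) (exists_rel K N)

/-- **Riemann's theorem** for `F_N(K)`, `K` algebraically closed of characteristic `0`. -/
theorem curveRR_C [IsAlgClosed K] :
    CurveRR K ↥(modularFunctionFieldFullC K N) (gb K N) := by
  haveI := finiteDimensional_jF K N
  exact RRl.curveRR_charZero (jF K N) (transcendental_jF K N)

end Field

section BaseChange

variable {k K : Type*} [Field k] [Field K] (ι : k →+* K) (N : ℕ) [NeZero N]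

/-- base change of constants preserves the function field. -/
theorem coeffMap_mem_full {x : LaurentSeries k}
    (hx : x ∈ modularFunctionFieldFullC k N) :
    coeffMap ι x ∈ modularFunctionFieldFullC K N := by
  change x ∈ Subfield.closure
    (Set.range (algebraMap k (LaurentSeries k)) ∪ divisorExpansionsC k N) at hx
  induction hx using Subfield.closure_induction with
  | mem y hy =>
      rcases hy with ⟨a, rfl⟩ | ⟨d, hd, hdN, rfl⟩
      · rw [ModularCurve.algebraMap_laurentSeries_eq_single]
        show coeffMap ι (HahnSeries.single 0 a) ∈ _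
        rw [ModularCurve.coeffMap_single]
        have := (modularFunctionFieldFullC K N).algebraMap_mem (ι a)
        rwa [ModularCurve.algebraMap_laurentSeries_eq_single] at this
      · haveI := hd
        rw [coeffMap_qExpand, coeffMap_jqModC]
        exact jqModCd_mem_full K N hdN
  | one => simp
  | add x y _ _ hx hy => simpa using add_mem hx hy
  | neg x _ hx => simpa using neg_mem hx
  | inv x _ hx => simpa using inv_mem hx
  | mul x y _ _ hx hy => simpa using mul_mem hx hy

/-- the base change map `F_N(k) → F_N(K)` -/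
abbrev bcN : ↥(modularFunctionFieldFullC k N) →+* ↥(modularFunctionFieldFullC K N) :=
  bc ι (modularFunctionFieldFullC k N) (modularFunctionFieldFullC K N)
    (fun _ hf => coeffMap_mem_full ι N hf)

theorem bcN_jF : bcN ι N (jF k N) = jF K N :=
  Subtype.ext (coeffMap_jqModC ι)

theorem bcN_jNF : bcN ι N (jNF k N) = jNF K N :=
  Subtype.ext (coeffMap_jqNModC ι N)

end BaseChange

section Gen

variable {K F : Type*} [Field K] [Field F] [Algebra K F]

/-- abstract generation: if every element satisfies `s(j) y = ∑ c_i(j) y₀^i` and `j, y₀ ∈ A`,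
then `A = ⊤`. -/
theorem eq_top_of_rel (A : IntermediateField K F) (j jN : F) (hj : j ∈ A) (hjN : jN ∈ A)
    (n : ℕ)
    (h : ∀ y : F, ∃ (s : K[X]) (c : Fin n → K[X]), Polynomial.aeval j s ≠ 0 ∧
      Polynomial.aeval j s * y = ∑ i, Polynomial.aeval j (c i) * jN ^ (i : ℕ)) :
    A = ⊤ := by
  rw [eq_top_iff]
  intro y _
  obtain ⟨s, c, hs, hrel⟩ := h y
  have hmem : ∀ p : K[X], Polynomial.aeval j p ∈ A := by
    intro p
    have h1 : Polynomial.aeval j p ∈ Algebra.adjoin K {j} :=
      Polynomial.aeval_mem_adjoin_singleton K j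
    have h2 : Algebra.adjoin K {j} ≤ A.toSubalgebra :=
      Algebra.adjoin_le (Set.singleton_subset_iff.mpr hj)
    exact h2 h1
  have hy : y = (Polynomial.aeval j s)⁻¹ *
      ∑ i, Polynomial.aeval j (c i) * jN ^ (i : ℕ) := by
    rw [← hrel, ← mul_assoc, inv_mul_cancel₀ hs, one_mul]
  rw [hy]
  exact mul_mem (inv_mem (hmem s)) (sum_mem fun i _ => mul_mem (hmem _) (pow_mem hjN _))

end Gen

section BaseChange2

variable {k K : Type*} [Field k] [Field K] [CharZero K] (ι : k →+* K) (N : ℕ) [NeZero N]

/-- `F_N(K)` is generated over `K` by the image of `F_N(k)`. -/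
theorem adjoin_range_bcN : IntermediateField.adjoin K (Set.range (bcN ι N)) = ⊤ :=
  eq_top_of_rel _ (jF K N) (jNF K N)
    (IntermediateField.subset_adjoin K _ ⟨jF k N, bcN_jF ι N⟩)
    (IntermediateField.subset_adjoin K _ ⟨jNF k N, bcN_jNF ι N⟩)
    (dedekindPsi N) (exists_rel K N)

end BaseChange2



section Genus

variable {k K : Type*} [Field k] [Field K] [IsAlgClosed k] [IsAlgClosed K] [CharZero k]
  [CharZero K] (N : ℕ) [NeZero N]

/-- **the genus of `F_N` does not increase under extension of the constants.** -/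
theorem gb_le_of_ringHom (ι : k →+* K) : gb K N ≤ gb k N :=
  genus_le_of_baseChange ι (fun _ hf => coeffMap_mem_full ι N hf) (adjoin_range_bcN ι N)
    (jF k N) (transcendental_jF k N) (finiteDimensional_jF k N)
    (curveRR_C k N) (curveRR_C K N)
    (MInf.qPlaceBar k N) (MInf.infk k N) (MInf.qPlaceBar K N) (MInf.infk K N)

end Genus

section Eq

variable {L : Type*} [Field L] [CharZero L] [IsAlgClosed L] (A : ValuationSubring L)
  {k : Type*} [Field k] [CharZero k] [IsAlgClosed k] (π : A →+* k)
  (hker : ∀ a : A, ¬ IsUnit a → π a = 0) (hsurj : Function.Surjective π)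
  (N : ℕ) [NeZero N]

include hker hsurj in
/-- **`g(F_N(k)) ≤ g(F_N(L))`** for a rank one place `(A, π)` of `L` onto `k` (reduction of
Riemann–Roch spaces, `GenusLe.genus_le_of_lattice`). -/
theorem gb_le_of_place (harch : Gauss.IsArch A) : gb k N ≤ gb L N := by
  haveI : Infinite k := Infinite.of_injective (fun n : ℕ => (n : k)) Nat.cast_injective
  exact GenusLe.genus_le_of_lattice (curveRR_C L N) (curveRR_C k N)
    (modularDatumC A π hker hsurj N)
    (Lat.gaussDatum_latticeLemma (modularHypC A π hker hsurj N) harch)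
    (GaussD.gaussDatum_red_surjective (modularHypC A π hker hsurj N))

include hker hsurj in
/-- **the genus is the same on both sides of a rank one place** (`WireData.hK`, `hk`). -/
theorem gb_eq_of_place (harch : Gauss.IsArch A) (ι : k →+* L) : gb L N = gb k N :=
  le_antisymm (gb_le_of_ringHom N ι) (gb_le_of_place A π hker hsurj N harch)

include hker hsurj in
/-- Riemann's theorem on both sides with the same genus. -/
theorem exists_genus_of_place (harch : Gauss.IsArch A) (ι : k →+* L) :
    ∃ g : ℕ, CurveRR L ↥(modularFunctionFieldFullC L N) g ∧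
      CurveRR k ↥(modularFunctionFieldFullC k N) g :=
  ⟨gb L N, curveRR_C L N, by
    rw [gb_eq_of_place A π hker hsurj N harch ι]
    exact curveRR_C k N⟩

end Eq

end Fermat.Agent.S29.GenusC
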