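import Mathlib
import Fermat.Agent.S29.GenusC
import Fermat.Agent.S18.CTWire
import Fermat.Agent.S18.RPrimeDrop
import Fermat.Agent.S18.LatticeR
import Fermat.Agent.S18.ModularInf

/-!
# S29 (item 90), piece (D3), assembly: `WireData`, `kp` and `ct` for a rank one place

Setting: `L`, `k` algebraically closed of characteristic `0`, `A ⊂ L` a valuation ring of rank
one (`Gauss.IsArch A`), `π : A →+* k` onto with kernel the non-units, `F_N(K) =
modularFunctionFieldFullC K N`, `H = GaussC.modularHypC A π hker hsurj N`.

* `exists_r`          : the place reduction `r` (`DivCompatR` + (F3)) from Riemann's theorem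
                        with the same genus on both sides;
* `wireData_of_disc`  : `CT.WireData` from `r` and the three disc statements (C1), (C5), (P1);
* `kp_of_compat`      : **(KP)** if `p ∣ ord_P u` for all places `P` of `F_N(L)` and `u` is a
                        Gauss unit with reduction `ub`, then `p ∣ ord_Q ub` for all places `Q`;
* `ct_of_wire`        : **(CT)** from `CT.ct_wire`.
-/

set_option autoImplicit false
set_option linter.unusedSectionVars false
set_option linter.style.haveILetI false

open AlgebraicCurve Module ModularCurve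

noncomputable section

namespace Fermat.Agent.S29.WireAsm

open Fermat.Agent.S18 Fermat.Agent.S18.RPrime Fermat.Agent.S29.GaussC

variable {L : Type*} [Field L] [CharZero L] [IsAlgClosed L] (A : ValuationSubring L)
  {k : Type*} [Field k] [CharZero k] [IsAlgClosed k] (π : A →+* k)
  (hker : ∀ a : A, ¬ IsUnit a → π a = 0) (hsurj : Function.Surjective π)
  (N : ℕ) [NeZero N]

local notation "FL" => modularFunctionFieldFullC L N
local notation "Fk" => modularFunctionFieldFullC k N

/-- the place reduction `r` of the modular pair over a rank one place. -/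
theorem exists_r (harch : Gauss.IsArch A) {g : ℕ} (hK : CurveRR L FL g) (hk : CurveRR k Fk g) :
    ∃ r : Place L FL → Place k Fk,
      DivCompatR (modularDatumC A π hker hsurj N) r ∧
      ∀ E : Divisor L FL, 3 * (g : ℤ) < Divisor.degree E →
        (modularDatumC A π hker hsurj N).redSub (riemannRochSpace E) =
          riemannRochSpace (Finsupp.mapDomain r E) := by
  haveI : Infinite k := Infinite.of_injective (fun n : ℕ => (n : k)) Nat.cast_injective
  exact RPrime.rPrimeStatement hK hk (modularDatumC A π hker hsurj N)
    (Lat.gaussDatum_latticeLemma (modularHypC A π hker hsurj N) harch)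
    (modularDatumC_onto A π hker hsurj N)

/-- `WireData` for the modular pair over a rank one place, from the three disc statements. -/
theorem wireData_of_disc (harch : Gauss.IsArch A)
    (hnt : ∃ π₀ : L, π₀ ≠ 0 ∧ A.valuation π₀ < 1)
    {g : ℕ} (hK : CurveRR L FL g) (hk : CurveRR k Fk g)
    (r : Place L FL → Place k Fk)
    (hr : DivCompatR (modularDatumC A π hker hsurj N) r)
    (hF3 : ∀ E : Divisor L FL, 3 * (g : ℤ) < Divisor.degree E →
        (modularDatumC A π hker hsurj N).redSub (riemannRochSpace E) =
          riemannRochSpace (Finsupp.mapDomain r E))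
    (hC1 : r (MInf.qPlaceBar L N) = MInf.qPlaceBar k N)
    (hC5 : CT.QIntegrality A π FL Fk r (MInf.qPlaceBar L N) (MInf.qPlaceBar k N))
    (hP1 : ∃ P1 : Place L FL, r P1 ≠ MInf.qPlaceBar k N) :
    CT.WireData g (modularHypC A π hker hsurj N) r (MInf.qPlaceBar L N)
      (MInf.qPlaceBar k N) where
  hK := hK
  hk := hk
  hr := hr
  hF3 := hF3
  hPinf := MInf.infk L N
  hQinf := MInf.infk k N
  hC1 := hC1
  hC5 := hC5
  hP1 := hP1
  harch := harch
  hnontriv := hnt
  hroot := fun c _ hm => IsAlgClosed.exists_pow_nat_eq c hm

/-- **(KP)**: divisibility of all orders by `p` is preserved by the reduction of Gauss units. -/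
theorem kp_of_compat {g : ℕ} (hK : CurveRR L FL g)
    (r : Place L FL → Place k Fk)
    (hr : DivCompatR (modularDatumC A π hker hsurj N) r)
    (p : ℤ) (u : FL) (ub : Fk) (hred : RedV A π FL Fk u ub) (hub : ub ≠ 0)
    (hdiv : ∀ P : Place L FL, p ∣ P.ord u) (Q : Place k Fk) : p ∣ Q.ord ub := by
  classical
  set y : (modularDatumC A π hker hsurj N).O := ⟨u, ⟨ub, hred⟩⟩ with hy
  have hry : (modularDatumC A π hker hsurj N).red y = ub :=
    (modularDatumC_red_eq_iff A π hker hsurj N y ub).2 hred
  have hunit : IsUnit y := (modularDatumC A π hker hsurj N).isUnit_of_red_ne_zero y (by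
    rw [hry]; exact hub)
  have h := hr y hunit (divOf hK (u : FL)) (fun P => divOf_apply hK _ P) Q
  rw [hry, mapDomain_apply_eq_sum] at h
  rw [← h]
  refine Finset.dvd_sum fun P _ => ?_
  split_ifs
  · rw [divOf_apply]
    exact hdiv P
  · exact dvd_zero _

/-- **(CT)** for the modular pair over a rank one place. -/
theorem ct_of_wire {g : ℕ} {r : Place L FL → Place k Fk}
    (W : CT.WireData g (modularHypC A π hker hsurj N) r (MInf.qPlaceBar L N)
      (MInf.qPlaceBar k N))
    (u : FL) (m : ℕ) (hm : m ≠ 0) (hred : RedV A π FL Fk u 1)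
    (hdiv : ∀ P : Place L FL, (m : ℤ) ∣ P.ord u) : ∃ h : FL, h ^ m = u :=
  CT.ct_wire W u m (by exact_mod_cast hm) hred hdiv

end Fermat.Agent.S29.WireAsm
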