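import Mathlib
import Fermat.Agent.S29.GenusC
import Fermat.Agent.S18.NoCancel
import Fermat.Agent.S18.QIntegral
import Fermat.Agent.S18.DiscL
import Fermat.Agent.S18.CTWireDefs

/-!
# S29 (item 90), piece (D3), the three disc statements (C1), (C5), (P1) for a rank one place

Setting: `k ⊂ L` algebraically closed of characteristic `0` (`ι : k →+* L`), `A ⊂ L` a valuation
ring containing `ι k`, `π : A →+* k` with `π ∘ ι = id` (equal characteristic), `F_N(K) =
modularFunctionFieldFullC K N`, `r` a place reduction compatible with the divisors of the units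
of the Gauss ring (`DivCompatR`).

* `r_inf_eq`  : **(C1)** `r ∞_L = ∞_k`;
* `exists_r_ne` : **(P1)** some place does not reduce to `∞_k`;
* `qIntegrality` : **(C5)** `q`-integrality on the residue disc of `∞_k`.

Shortcut (no port of the tame level argument of S18): the base change `bcN ι N : F_N(k) → F_N(L)`
is a section of the Gauss reduction, a function of `F_N(k)` with a single pole at `∞` keeps a
single pole after base change, and `[F_N(L) : L(j)] ≤ [F_N(k) : k(j)]` gives "no cancellation"
(`RPrime.ord_eq_zero_of_simple_pole`) for `j`.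
-/

set_option autoImplicit false
set_option linter.unusedSectionVars false
set_option linter.style.haveILetI false

open AlgebraicCurve Module ModularCurve
open scoped IntermediateField Polynomial

noncomputable section

namespace Fermat.Agent.S29.WireC

open Fermat.Agent.S18 Fermat.Agent.S18.RPrime Fermat.Agent.S29.GenusBC Fermat.Agent.FF

section Abstract

variable {K F k Fb : Type*} [Field K] [Field F] [Algebra K F] [Field k] [Field Fb] [Algebra k Fb]
  [IsAlgClosed K] [IsAlgClosed k] [CharZero K] [CharZero k] {g g' : ℕ}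

/-- the degree of the divisor of poles of `t` is `[F : K(t)]`. -/
theorem degree_polePart_divOf (h : CurveRR K F g) (t : F) (ht : Transcendental K t)
    [FiniteDimensional K⟮t⟯ F] :
    Divisor.degree (polePart (divOf h t)) = (Module.finrank K⟮t⟯ F : ℤ) := by
  classical
  rw [degree_eq_sum h.deg_one, ← FF.sum_ord_placesOverInf t ht, Finsupp.sum]
  refine Finset.sum_congr ?_ ?_
  · ext v
    rw [Finsupp.mem_support_iff, Set.Finite.mem_toFinset, polePart_apply, divOf_apply]
    show _ ↔ v.ord t < 0
    constructor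
    · intro hne
      by_contra hlt
      exact hne (max_eq_right (by omega))
    · intro hlt hmax
      have := le_max_left (-v.ord t) 0
      omega
  · intro v hv
    rw [Set.Finite.mem_toFinset] at hv
    have hv' : v.ord t < 0 := hv
    rw [polePart_apply, divOf_apply, max_eq_left (by omega)]

variable (hK : CurveRR K F g) (hk : CurveRR k Fb g') (R : RedDatum K F k Fb)
  {r : Place K F → Place k Fb} (hr : DivCompatR R r)
  (ι : k →+* K) (φ : Fb →+* F) (hφ : ∀ c : k, φ (algebraMap k Fb c) = algebraMap K F (ι c))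
  (hgen : IntermediateField.adjoin K (Set.range φ) = ⊤)
  (hφO : ∀ y : Fb, ∃ h : φ y ∈ R.O, R.red ⟨φ y, h⟩ = y)
  (Pinf : Place K F) (Qinf : Place k Fb) (hinf : ∀ y : Fb, Pinf.ord (φ y) = Qinf.ord y)
  (x : Fb) (hx : Transcendental k x) [FiniteDimensional k⟮x⟯ Fb]

include hinf in
theorem transcendental_map (t : Fb) (ht : Qinf.ord t ≠ 0) : Transcendental K (φ t) := by
  intro halg
  obtain ⟨c, hc⟩ := exists_algebraMap_eq_of_isAlgebraic halg
  have h1 : Pinf.ord (φ t) = 0 := by rw [← hc]; exact FF.ord_algebraMap Pinf c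
  rw [hinf] at h1
  exact ht h1

include hk hφ hgen hinf hx in
/-- a function of `Fb` with a single pole at `Qinf` whose base change has a single pole at
`Pinf`. -/
theorem exists_single_pole_bc :
    ∃ t : Fb, Qinf.ord t < 0 ∧ (∀ v : Place k Fb, v ≠ Qinf → 0 ≤ v.ord t) ∧
      ∀ P : Place K F, P ≠ Pinf → 0 ≤ P.ord (φ t) := by
  classical
  obtain ⟨t, ht, htpole⟩ := exists_single_pole hk Qinf
  haveI hfd : FiniteDimensional k⟮t⟯ Fb := finiteDimensional_of_transcendental x hx t ht
  have hn := neg_ord_eq_finrank t ht Qinf htpole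
  have hnpos : 0 < Module.finrank k⟮t⟯ Fb := Module.finrank_pos
  have hnpos' : (0 : ℤ) < Module.finrank k⟮t⟯ Fb := by exact_mod_cast hnpos
  have hordT : Pinf.ord (φ t) = Qinf.ord t := hinf t
  have hTtr : Transcendental K (φ t) := transcendental_map φ Pinf Qinf hinf t (by omega)
  obtain ⟨hfdK, hle⟩ := finrank_le_of_generated ι φ hφ hgen t
  haveI := hfdK
  have hnK : 0 < Module.finrank K⟮φ t⟯ F := Module.finrank_pos
  refine ⟨t, by omega, htpole, ?_⟩
  refine ord_nonneg_of_ne _ hTtr Pinf ?_ hnK
  rw [hordT, hn]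
  exact_mod_cast hle

include hK hk hr hφ hgen hφO hinf hx in
/-- **(C1)**, abstract form. -/
theorem r_inf_eq_abstract : r Pinf = Qinf := by
  classical
  obtain ⟨t, htneg, -, hTpole⟩ := exists_single_pole_bc hk ι φ hφ hgen Pinf Qinf hinf x hx
  obtain ⟨hmem, hred⟩ := hφO t
  have ht0 : t ≠ 0 := by
    rintro rfl
    rw [Place.ord_zero] at htneg
    omega
  have hunit : IsUnit (⟨φ t, hmem⟩ : R.O) :=
    R.isUnit_of_red_ne_zero _ (by rw [hred]; exact ht0)
  have h := hr _ hunit (divOf hK (φ t)) (fun P => divOf_apply hK _ P) Qinf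
  rw [hred, mapDomain_apply_eq_sum] at h
  by_contra hne
  have hnn : 0 ≤ ∑ P ∈ (divOf hK (φ t)).support,
      if r P = Qinf then divOf hK (φ t) P else 0 := by
    refine Finset.sum_nonneg fun P _ => ?_
    split_ifs with hP
    · rw [divOf_apply]
      exact hTpole P (by rintro rfl; exact hne hP)
    · exact le_rfl
  omega

include hK hk hr hφ hgen hφO hinf hx in
/-- **(P1)**, abstract form. -/
theorem exists_r_ne_abstract : ∃ P1 : Place K F, r P1 ≠ Qinf := by
  classical
  by_contra hall
  push Not at hall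
  obtain ⟨t, htneg, -, -⟩ := exists_single_pole_bc hk ι φ hφ hgen Pinf Qinf hinf x hx
  obtain ⟨hmem, hred⟩ := hφO t
  have ht0 : t ≠ 0 := by
    rintro rfl
    rw [Place.ord_zero] at htneg
    omega
  have hunit : IsUnit (⟨φ t, hmem⟩ : R.O) :=
    R.isUnit_of_red_ne_zero _ (by rw [hred]; exact ht0)
  have hdeg := degree_divOf hk t
  rw [degree_eq_sum hk.deg_one, Finsupp.sum] at hdeg
  obtain ⟨Q', -, hQ'pos⟩ : ∃ Q' ∈ (divOf hk t).support, 0 < divOf hk t Q' := by
    by_contra hcon
    push Not at hcon
    have hQmem : Qinf ∈ (divOf hk t).support := by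
      rw [Finsupp.mem_support_iff, divOf_apply]
      omega
    have hlt : ∑ v ∈ (divOf hk t).support, divOf hk t v <
        ∑ v ∈ (divOf hk t).support, (0 : ℤ) :=
      Finset.sum_lt_sum (fun v hv => hcon v hv)
        ⟨Qinf, hQmem, by rw [divOf_apply]; exact htneg⟩
    rw [Finset.sum_const_zero] at hlt
    omega
  rw [divOf_apply] at hQ'pos
  have h := hr _ hunit (divOf hK (φ t)) (fun P => divOf_apply hK _ P) Q'
  rw [hred, mapDomain_apply_eq_sum] at h
  have hz : ∑ P ∈ (divOf hK (φ t)).support,
      (if r P = Q' then divOf hK (φ t) P else 0) = 0 := by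
    refine Finset.sum_eq_zero fun P _ => ?_
    rw [if_neg]
    rw [hall P]
    rintro rfl
    omega
  omega

include hK hk hr hφ hgen hφO hinf in
/-- **(C2) + (C3)**, abstract form: the base change of a function with a simple pole at `Qinf`
has neither zero nor pole at the other places of the residue disc of `Qinf`. -/
theorem ord_eq_zero_of_disc (hC1 : r Pinf = Qinf) (jb : Fb) (hjb : Transcendental k jb)
    [FiniteDimensional k⟮jb⟯ Fb] (hord : Qinf.ord jb = -1)
    (P' : Place K F) (hP' : P' ≠ Pinf) (hrP' : r P' = r Pinf) : P'.ord (φ jb) = 0 := by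
  classical
  obtain ⟨hmem, hred⟩ := hφO jb
  have hj0 : jb ≠ 0 := by
    rintro rfl
    rw [Place.ord_zero] at hord
    omega
  have hunit : IsUnit (⟨φ jb, hmem⟩ : R.O) :=
    R.isUnit_of_red_ne_zero _ (by rw [hred]; exact hj0)
  have hJtr : Transcendental K (φ jb) :=
    transcendental_map φ Pinf Qinf hinf jb (by omega)
  obtain ⟨hfdK, hle⟩ := finrank_le_of_generated ι φ hφ hgen jb
  haveI := hfdK
  have hdeg : Divisor.degree (polePart (divOf hK ((⟨φ jb, hmem⟩ : R.O) : F))) ≤
      Divisor.degree (polePart (divOf hk (R.red ⟨φ jb, hmem⟩))) := by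
    rw [hred, degree_polePart_divOf hK _ hJtr, degree_polePart_divOf hk _ hjb]
    exact_mod_cast hle
  exact ord_eq_zero_of_simple_pole hK hk R hr hunit hdeg Pinf
    (by show Pinf.ord (φ jb) < 0; rw [hinf]; omega)
    (by rw [hC1, hred]; exact hord) P' hP' hrP'

end Abstract

section Concrete

open Fermat.Agent.S18.RedScal Fermat.Agent.S18.DiscL Fermat.Agent.S29.GaussC
  Fermat.Agent.S29.GenusC

variable {L : Type*} [Field L] [CharZero L] [IsAlgClosed L] (A : ValuationSubring L)
  {k : Type*} [Field k] [CharZero k] [IsAlgClosed k] (π : A →+* k)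
  (hker : ∀ a : A, ¬ IsUnit a → π a = 0) (hsurj : Function.Surjective π)
  (N : ℕ) [NeZero N]
  (ι : k →+* L) (hι : ∀ c : k, ∃ h : ι c ∈ A, π ⟨ι c, h⟩ = c)

local notation "FL" => modularFunctionFieldFullC L N
local notation "Fk" => modularFunctionFieldFullC k N

include hι in
/-- the coefficientwise base change is a section of the `q`-integral reduction. -/
theorem redQ_coeffMap (y : LaurentSeries k) : RedQ A π (coeffMap ι y) y := by
  let ιA : k →+* A := ι.codRestrict A (fun c => (hι c).1)
  refine ⟨coeffMap ιA y, ?_, ?_⟩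
  · rw [coeffMap_coeffMap]
    rfl
  · rw [coeffMap_coeffMap]
    have : π.comp ιA = RingHom.id k := by
      ext c
      exact (hι c).2
    rw [this, coeffMap_id]

include hι in
/-- the base change is a section of the Gauss reduction. -/
theorem redV_bcN (y : Fk) : RedV A π FL Fk (bcN ι N y) y :=
  GaussD.redV_of_redQ (redQ_coeffMap A π ι hι (y : LaurentSeries k))

include hι in
theorem bcN_mem_red (y : Fk) :
    ∃ h : bcN ι N y ∈ (modularDatumC A π hker hsurj N).O,
      (modularDatumC A π hker hsurj N).red ⟨bcN ι N y, h⟩ = y :=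
  ⟨⟨y, redV_bcN A π N ι hι y⟩,
    (modularDatumC_red_eq_iff A π hker hsurj N _ y).2 (redV_bcN A π N ι hι y)⟩

theorem ord_bcN (y : Fk) :
    (MInf.qPlaceBar L N).ord (bcN ι N y) = (MInf.qPlaceBar k N).ord y :=
  ord_bc_eq ι _ (MInf.qPlaceBar k N) (MInf.infk k N) (MInf.qPlaceBar L N) (MInf.infk L N) y

include hι in
/-- **(C1)**: `r ∞_L = ∞_k`. -/
theorem r_inf_eq {g : ℕ} (hK : CurveRR L FL g) (hk : CurveRR k Fk g)
    (r : Place L FL → Place k Fk)
    (hr : DivCompatR (modularDatumC A π hker hsurj N) r) :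
    r (MInf.qPlaceBar L N) = MInf.qPlaceBar k N := by
  haveI := finiteDimensional_jF k N
  exact r_inf_eq_abstract hK hk (modularDatumC A π hker hsurj N) hr ι (bcN ι N)
    (bc_algebraMap ι _ _ _) (adjoin_range_bcN ι N) (bcN_mem_red A π hker hsurj N ι hι)
    (MInf.qPlaceBar L N) (MInf.qPlaceBar k N) (ord_bcN N ι) (jF k N) (transcendental_jF k N)

include hι in
/-- **(P1)**: some place of `F_N(L)` does not reduce to `∞_k`. -/
theorem exists_r_ne {g : ℕ} (hK : CurveRR L FL g) (hk : CurveRR k Fk g)
    (r : Place L FL → Place k Fk)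
    (hr : DivCompatR (modularDatumC A π hker hsurj N) r) :
    ∃ P1 : Place L FL, r P1 ≠ MInf.qPlaceBar k N := by
  haveI := finiteDimensional_jF k N
  exact exists_r_ne_abstract hK hk (modularDatumC A π hker hsurj N) hr ι (bcN ι N)
    (bc_algebraMap ι _ _ _) (adjoin_range_bcN ι N) (bcN_mem_red A π hker hsurj N ι hι)
    (MInf.qPlaceBar L N) (MInf.qPlaceBar k N) (ord_bcN N ι) (jF k N) (transcendental_jF k N)

theorem coe_jF_inv (K : Type*) [Field K] :
    (((jF K N)⁻¹ : modularFunctionFieldFullC K N) : LaurentSeries K) = jInvSer K := by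
  rw [jInvSer_eq_inv]
  rfl

theorem jF_ne_zero (K : Type*) [Field K] : jF K N ≠ 0 := MInf.jFb_ne_zero K N

theorem ord_jF : (MInf.qPlaceBar k N).ord (jF k N) = -1 := by
  have h := MInf.infk k N (jF k N) (jF_ne_zero N k)
  have hne : ((jF k N : Fk) : LaurentSeries k) ≠ 0 := fun h0 => jF_ne_zero N k (Subtype.ext h0)
  rw [← HahnSeries.order_eq_orderTop_of_ne_zero hne] at h
  have h2 : ((jF k N : Fk) : LaurentSeries k).order = -1 := MInf.order_jFb k N
  rw [h2] at h
  exact_mod_cast h

include hι in
/-- the data of the residue disc of `∞` for the modular pair over a rank one place,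
`s = 1 / j`. -/
theorem discData {g : ℕ} (hK : CurveRR L FL g) (hk : CurveRR k Fk g)
    (r : Place L FL → Place k Fk)
    (hr : DivCompatR (modularDatumC A π hker hsurj N) r) :
    QInt.DiscData (modularHypC A π hker hsurj N) g r (MInf.qPlaceBar L N) ((jF L N)⁻¹) where
  curve := hK
  compat := hr
  inf := MInf.infk L N
  s_int := fun n => by
    rw [coe_jF_inv, ← coeffMap_jInvSer A A.subtype]
    exact (((jInvSer A).coeff n : A)).2
  s_low := fun n hn => by
    rw [coe_jF_inv]
    exact coeff_jInvSer_of_lt L hn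
  s_unit := ⟨1, isUnit_one, by
    rw [coe_jF_inv, coeff_jInvSer_one]
    rfl⟩
  s_red := ⟨(jF k N)⁻¹, inv_ne_zero (jF_ne_zero N k), GaussD.redV_of_redQ (by
    rw [coe_jF_inv, coe_jF_inv]
    exact ⟨jInvSer A, coeffMap_jInvSer _ _, coeffMap_jInvSer _ _⟩)⟩
  s_disc := fun P' hP' hrP' => by
    haveI := finiteDimensional_jF k N
    have h := ord_eq_zero_of_disc hK hk (modularDatumC A π hker hsurj N) hr ι (bcN ι N)
      (bc_algebraMap ι _ _ _) (adjoin_range_bcN ι N) (bcN_mem_red A π hker hsurj N ι hι)
      (MInf.qPlaceBar L N) (MInf.qPlaceBar k N) (ord_bcN N ι)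
      (r_inf_eq A π hker hsurj N ι hι hK hk r hr) (jF k N) (transcendental_jF k N)
      (ord_jF N) P' hP' hrP'
    rw [bcN_jF] at h
    rw [Place.ord_inv, h, neg_zero]

include hι in
/-- **(C5)**: `q`-integrality on the residue disc of `∞_k`. -/
theorem qIntegrality {g : ℕ} (hK : CurveRR L FL g) (hk : CurveRR k Fk g)
    (r : Place L FL → Place k Fk)
    (hr : DivCompatR (modularDatumC A π hker hsurj N) r) :
    CT.QIntegrality A π FL Fk r (MInf.qPlaceBar L N) (MInf.qPlaceBar k N) := by
  intro y yb hy hp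
  have hC1 := r_inf_eq A π hker hsurj N ι hι hK hk r hr
  exact (discData A π hker hsurj N ι hι hK hk r hr).redQ_of_no_pole hy
    (fun P' h1 h2 => hp P' (h2.trans hC1) h1)

end Concrete

end Fermat.Agent.S29.WireC
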