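import Mathlib
import Fermat.Agent.S29.WireAsm
import Fermat.Agent.S29.WireC
import Fermat.Agent.S29.KSysMod

/-!
# S29 (item 90), descent chain: the reduction `Step` of the modular pair over a rank one place

Setting: `L`, `k` algebraically closed of characteristic `0`, `A ⊂ L` a valuation ring,
`π : A →+* k` onto with kernel the non-units, `F_K = modularFunctionFieldFullC K N`.

* `RU`      : the Gauss units of `F_Lˣ` (units with a nonzero Gauss reduction);
* `redU`    : the reduction `RU →* F_kˣ`;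
* `stepMod` : the `DStep.Step` of the canonical objects `KM.CK`, `KM.KPK`, `KM.HK`, from
              `CT.WireData` ((D3): `kp`, `ct`) and `NRM.normBeta_red` ((D4): `e1`).
-/

set_option autoImplicit false
set_option linter.unusedSectionVars false
set_option linter.style.haveILetI false

open AlgebraicCurve Module ModularCurve

noncomputable section

namespace Fermat.Agent.S29.StepMod

open Fermat.Agent.S18 Fermat.Agent.S18.RPrime Fermat.Agent.S18.GaussD Fermat.Agent.S29.GaussC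
  Fermat.Agent.S29.DStep

variable {L : Type*} [Field L] [CharZero L] (A : ValuationSubring L)
  {k : Type*} [Field k] [CharZero k] (π : A →+* k)
  (hker : ∀ a : A, ¬ IsUnit a → π a = 0) (hsurj : Function.Surjective π)
  (N : ℕ) [NeZero N] (p : ℕ)

local notation "FL" => modularFunctionFieldFullC L N
local notation "Fk" => modularFunctionFieldFullC k N

/-- the Gauss units of `F_L(N)ˣ`. -/
def RU : Subgroup (↥FL)ˣ where
  carrier := {u | ∃ ub : Fk, ub ≠ 0 ∧ RedV A π FL Fk (u : FL) ub}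
  mul_mem' := by
    rintro u v ⟨a, ha0, ha⟩ ⟨b, hb0, hb⟩
    exact ⟨a * b, mul_ne_zero ha0 hb0, by rw [Units.val_mul]; exact redV_mul ha hb⟩
  one_mem' := ⟨1, one_ne_zero, by rw [Units.val_one]; exact redV_one⟩
  inv_mem' := by
    rintro u ⟨a, ha0, ha⟩
    exact ⟨a⁻¹, inv_ne_zero ha0, by rw [Units.val_inv_eq_inv_val]; exact redV_inv ha ha0⟩

variable {A π N} in
theorem mem_RU_iff {u : (↥FL)ˣ} :
    u ∈ RU A π N ↔ ∃ ub : Fk, ub ≠ 0 ∧ RedV A π FL Fk (u : FL) ub := Iff.rfl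

/-- the reduction of a Gauss unit (as an element of `F_k(N)`). -/
def redVal (u : RU A π N) : Fk := Classical.choose u.2

variable {A π N} in
theorem redVal_ne_zero (u : RU A π N) : redVal A π N u ≠ 0 := (Classical.choose_spec u.2).1

variable {A π N} in
theorem redV_redVal (u : RU A π N) : RedV A π FL Fk ((u : (↥FL)ˣ) : FL) (redVal A π N u) :=
  (Classical.choose_spec u.2).2

variable {A π N} in
theorem redVal_eq {u : RU A π N} {ub : Fk} (h : RedV A π FL Fk ((u : (↥FL)ˣ) : FL) ub) :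
    redVal A π N u = ub := redV_unique (redV_redVal u) h

/-- the reduction of Gauss units. -/
def redU : RU A π N →* (↥Fk)ˣ where
  toFun u := Units.mk0 (redVal A π N u) (redVal_ne_zero u)
  map_one' := Units.ext (redVal_eq (by
    show RedV A π FL Fk (((1 : (↥FL)ˣ) : FL)) 1
    rw [Units.val_one]; exact redV_one))
  map_mul' u v := Units.ext (redVal_eq (by
    show RedV A π FL Fk (((u : (↥FL)ˣ) * (v : (↥FL)ˣ) : (↥FL)ˣ) : FL)
      (redVal A π N u * redVal A π N v)
    rw [Units.val_mul]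
    exact redV_mul (redV_redVal u) (redV_redVal v)))

variable {A π N} in
theorem coe_redU (u : RU A π N) : ((redU A π N u : (↥Fk)ˣ) : Fk) = redVal A π N u := rfl

variable {A π N} in
theorem redU_eq_iff (u : RU A π N) (vb : (↥Fk)ˣ) :
    redU A π N u = vb ↔ RedV A π FL Fk ((u : (↥FL)ˣ) : FL) (vb : Fk) := by
  constructor
  · rintro rfl
    exact redV_redVal u
  · intro h
    exact Units.ext (redVal_eq h)

section Fields

include hker hsurj

theorem scale (u : (↥FL)ˣ) : ∃ c ∈ KM.CK L N, c * u ∈ RU A π N := by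
  obtain ⟨c, hc, yb, hyb, hr⟩ := (modularHypC A π hker hsurj N).scal (u : FL) u.ne_zero
  refine ⟨Units.map (algebraMap L ↥FL : L →* _) (Units.mk0 c hc), ⟨_, rfl⟩, yb, hyb, ?_⟩
  rw [Units.val_mul]
  show RedV A π FL Fk (algebraMap L ↥FL c * (u : FL)) yb
  rw [← Algebra.smul_def]
  exact hr

theorem onto : Function.Surjective (redU A π N) := by
  intro vb
  obtain ⟨y, hy⟩ := (modularHypC A π hker hsurj N).onto (vb : Fk)
  have hy0 : y ≠ 0 := ne_zero_of_redV hy vb.ne_zero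
  exact ⟨⟨Units.mk0 y hy0, ⟨(vb : Fk), vb.ne_zero, hy⟩⟩, (redU_eq_iff _ _).2 hy⟩

theorem red_const (c : RU A π N) (hc : (c : (↥FL)ˣ) ∈ KM.CK L N) :
    redU A π N c ∈ KM.CK k N := by
  obtain ⟨c0, hc0, hcc⟩ := (KM.mem_CK_iff L N).1 hc
  have h0 : RedV A π FL Fk (algebraMap L ↥FL c0) (redVal A π N c) := by
    have := redV_redVal c
    rwa [hcc] at this
  have hc0A : c0 ∈ A :=
    const_mem_of_mem_gaussRing (modularHypC A π hker hsurj N) ⟨_, h0⟩
  have h1 : RedV A π FL Fk (algebraMap L ↥FL c0) (algebraMap k ↥Fk (π ⟨c0, hc0A⟩)) :=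
    redV_const (⟨c0, hc0A⟩ : A)
  have h2 : redVal A π N c = algebraMap k ↥Fk (π ⟨c0, hc0A⟩) := redV_unique h0 h1
  have h3 : ((redU A π N c : (↥Fk)ˣ) : Fk) = algebraMap k ↥Fk (π ⟨c0, hc0A⟩) := h2
  have h4 : π ⟨c0, hc0A⟩ ≠ 0 := by
    intro h
    apply redVal_ne_zero c
    rw [h2, h]
    exact map_zero _
  exact (KM.mem_CK_iff k N).2 ⟨_, h4, h3⟩

theorem const_onto (cb : (↥Fk)ˣ) (hcb : cb ∈ KM.CK k N) :
    ∃ c : RU A π N, (c : (↥FL)ˣ) ∈ KM.CK L N ∧ redU A π N c = cb := by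
  obtain ⟨a, ha0, hca⟩ := (KM.mem_CK_iff k N).1 hcb
  obtain ⟨a', ha'⟩ := hsurj a
  have ha'0 : (a' : L) ≠ 0 := by
    intro h
    apply ha0
    have : a' = 0 := Subtype.ext h
    rw [← ha', this, map_zero]
  have hred : RedV A π FL Fk (algebraMap L ↥FL (a' : L)) (cb : Fk) := by
    rw [hca, ← ha']
    exact redV_const a'
  have hne : algebraMap L ↥FL (a' : L) ≠ 0 := (map_ne_zero _).2 ha'0
  have hu : Units.mk0 (algebraMap L ↥FL (a' : L)) hne ∈ RU A π N :=
    ⟨(cb : Fk), cb.ne_zero, hred⟩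
  have huC : Units.mk0 (algebraMap L ↥FL (a' : L)) hne ∈ KM.CK L N :=
    (KM.mem_CK_iff L N).2 ⟨(a' : L), ha'0, rfl⟩
  exact ⟨⟨_, hu⟩, huC, (redU_eq_iff _ _).2 hred⟩

end Fields

theorem CK_le_KPK (K : Type*) [Field K] : KM.CK K N ≤ KM.KPK K N p := by
  intro u hu P
  obtain ⟨c, -, hc⟩ := (KM.mem_CK_iff K N).1 hu
  rw [hc, Fermat.Agent.FF.ord_algebraMap]
  exact dvd_zero _

theorem pow_mem_KPK (K : Type*) [Field K] (w : (↥(modularFunctionFieldFullC K N))ˣ) :
    w ^ p ∈ KM.KPK K N p := by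
  intro P
  rw [Units.val_pow_eq_pow_val, ← zpow_natCast, Place.ord_zpow]
  exact dvd_mul_right _ _

section Hecke

variable (K : Type*) [Field K] (ℓ : ℕ) [NeZero ℓ]

/-- `u ↦ Nm_α (β u)` maps constants to constants. -/
theorem normBeta_algebraMap (c : K) :
    NRM.normBeta K N ℓ (algebraMap K ↥(modularFunctionFieldFullC K N) c) =
      algebraMap K ↥(modularFunctionFieldFullC K N)
        (c ^ @Module.finrank ↥(modularFunctionFieldFullC K N)
          ↥(modularFunctionFieldFullC K (N * ℓ)) _ _ (NRM.algC K N ℓ).toModule) := by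
  letI := NRM.algC K N ℓ
  rw [NRM.normBeta_apply]
  have h1 : NRM.betaC K N ℓ (algebraMap K ↥(modularFunctionFieldFullC K N) c) =
      algebraMap ↥(modularFunctionFieldFullC K N) ↥(modularFunctionFieldFullC K (N * ℓ))
        (algebraMap K ↥(modularFunctionFieldFullC K N) c) := by
    rw [AlgHom.commutes]
    exact ((NRM.alphaC K N ℓ).commutes c).symm
  rw [h1, Algebra.norm_algebraMap, map_pow]

theorem heckeUnits_mem_CK (c : (↥(modularFunctionFieldFullC K N))ˣ) (hc : c ∈ KM.CK K N) :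
    NRM.heckeUnits K N ℓ c ∈ KM.CK K N := by
  obtain ⟨c0, hc0, hcc⟩ := (KM.mem_CK_iff K N).1 hc
  have h1 : ((NRM.heckeUnits K N ℓ c : (↥(modularFunctionFieldFullC K N))ˣ) :
      ↥(modularFunctionFieldFullC K N)) =
      NRM.normBeta K N ℓ (algebraMap K ↥(modularFunctionFieldFullC K N) c0) := by
    rw [← hcc]
    rfl
  rw [normBeta_algebraMap] at h1
  exact (KM.mem_CK_iff K N).2 ⟨_, pow_ne_zero _ hc0, h1⟩

end Hecke

section E1

variable (ℓ : ℕ) [NeZero ℓ]

include hker hsurj in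
/-- **(E1)** on Gauss units. -/
theorem heckeUnits_red (u : RU A π N) :
    ∃ h : NRM.heckeUnits L N ℓ (u : (↥FL)ˣ) ∈ RU A π N,
      redU A π N ⟨_, h⟩ = NRM.heckeUnits k N ℓ (redU A π N u) := by
  have hmemO : ((u : (↥FL)ˣ) : FL) ∈ NRM.OG A π N hker hsurj :=
    ⟨redVal A π N u, redV_redVal u⟩
  obtain ⟨h, he⟩ := NRM.normBeta_red A π N ℓ hker hsurj ⟨_, hmemO⟩
  have h0 : NRM.redG A π N hker hsurj ⟨_, hmemO⟩ = redVal A π N u :=
    (gaussRed_eq_iff (modularHypC A π hker hsurj N) ⟨_, hmemO⟩ _).2 (redV_redVal u)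
  rw [h0] at he
  have h1 : RedV A π FL Fk (NRM.normBeta L N ℓ ((u : (↥FL)ˣ) : FL))
      (NRM.normBeta k N ℓ (redVal A π N u)) :=
    (gaussRed_eq_iff (modularHypC A π hker hsurj N) ⟨_, h⟩ _).1 he
  have h2 : RedV A π FL Fk ((NRM.heckeUnits L N ℓ (u : (↥FL)ˣ) : (↥FL)ˣ) : FL)
      ((NRM.heckeUnits k N ℓ (redU A π N u) : (↥Fk)ˣ) : Fk) := h1
  have hmem : NRM.heckeUnits L N ℓ (u : (↥FL)ˣ) ∈ RU A π N :=
    ⟨_, (NRM.heckeUnits k N ℓ (redU A π N u)).ne_zero, h2⟩
  exact ⟨hmem, (redU_eq_iff _ _).2 h2⟩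

end E1

section Step

variable [IsAlgClosed L] [IsAlgClosed k]

/-- **the reduction step of the modular pair** over a rank one place, from `CT.WireData`. -/
def stepMod (hp : p ≠ 0) {g : ℕ} {r : Place L ↥FL → Place k ↥Fk}
    (W : CT.WireData g (modularHypC A π hker hsurj N) r (MInf.qPlaceBar L N)
      (MInf.qPlaceBar k N)) :
    Step (↥FL)ˣ (↥Fk)ˣ p (KM.CK L N) (KM.KPK L N p) (KM.CK k N) (KM.KPK k N p)
      (KM.HK L N p) (KM.HK k N p) where
  R := RU A π N
  red := redU A π N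
  scale := scale A π hker hsurj N
  onto := onto A π hker hsurj N
  red_const := red_const A π hker hsurj N
  const_onto := const_onto A π hker hsurj N
  CL_le := CK_le_KPK N p L
  pow_mem := pow_mem_KPK N p L
  kp := fun u hu Q =>
    WireAsm.kp_of_compat A π hker hsurj N W.hK r W.hr (p : ℤ) _ _ (redV_redVal u)
      (redVal_ne_zero u) hu Q
  ct := fun u hu h1 => by
    have hred : RedV A π FL Fk ((u : (↥FL)ˣ) : FL) 1 := by
      have := (redU_eq_iff u 1).1 h1
      rwa [Units.val_one] at this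
    obtain ⟨h, hh⟩ := WireAsm.ct_of_wire A π hker hsurj N W _ p hp hred hu
    have h0 : h ≠ 0 := by
      rintro rfl
      rw [zero_pow hp] at hh
      exact (u : (↥FL)ˣ).ne_zero hh.symm
    exact ⟨Units.mk0 h h0, Units.ext hh⟩
  HL_const := fun i c hc =>
    haveI : NeZero i.1 := ⟨i.2.1.ne_zero⟩
    heckeUnits_mem_CK N L i.1 c hc
  e1 := fun i u =>
    haveI : NeZero i.1 := ⟨i.2.1.ne_zero⟩
    heckeUnits_red A π hker hsurj N i.1 u

/-- **`WireData` of the modular pair over a rank one place** (unconditional). -/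
theorem exists_wireData (harch : Gauss.IsArch A)
    (hnt : ∃ π₀ : L, π₀ ≠ 0 ∧ A.valuation π₀ < 1)
    (ι : k →+* L) (hι : ∀ c : k, ∃ h : ι c ∈ A, π ⟨ι c, h⟩ = c) :
    ∃ (g : ℕ) (r : Place L ↥FL → Place k ↥Fk),
      CT.WireData g (modularHypC A π hker hsurj N) r (MInf.qPlaceBar L N)
        (MInf.qPlaceBar k N) := by
  obtain ⟨g, hK, hk⟩ := GenusC.exists_genus_of_place A π hker hsurj N harch ι
  obtain ⟨r, hr, hF3⟩ := WireAsm.exists_r A π hker hsurj N harch hK hk
  exact ⟨g, r, WireAsm.wireData_of_disc A π hker hsurj N harch hnt hK hk r hr hF3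
    (WireC.r_inf_eq A π hker hsurj N ι hι hK hk r hr)
    (WireC.qIntegrality A π hker hsurj N ι hι hK hk r hr)
    (WireC.exists_r_ne A π hker hsurj N ι hι hK hk r hr)⟩

include hker hsurj in
/-- **the reduction step of the modular pair exists** for every rank one place `(A, π)` of `L`
onto `k ⊂ L` (`π ∘ ι = id`). -/
theorem exists_stepMod (hp : p ≠ 0) (harch : Gauss.IsArch A)
    (hnt : ∃ π₀ : L, π₀ ≠ 0 ∧ A.valuation π₀ < 1)
    (ι : k →+* L) (hι : ∀ c : k, ∃ h : ι c ∈ A, π ⟨ι c, h⟩ = c) :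
    Nonempty (Step (↥FL)ˣ (↥Fk)ˣ p (KM.CK L N) (KM.KPK L N p) (KM.CK k N) (KM.KPK k N p)
      (KM.HK L N p) (KM.HK k N p)) := by
  obtain ⟨g, r, W⟩ := exists_wireData A π hker hsurj N harch hnt ι hι
  exact ⟨stepMod A π hker hsurj N p hp W⟩

include hker hsurj in
/-- **one descent step for Kummer systems of the modular pair.** -/
theorem exists_descend (hp : p ≠ 0) (harch : Gauss.IsArch A)
    (hnt : ∃ π₀ : L, π₀ ≠ 0 ∧ A.valuation π₀ < 1)
    (ι : k →+* L) (hι : ∀ c : k, ∃ h : ι c ∈ A, π ⟨ι c, h⟩ = c)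
    (S : KM.KSysMod L N p) : Nonempty (KM.KSysMod k N p) := by
  obtain ⟨St⟩ := exists_stepMod A π hker hsurj N p hp harch hnt ι hι
  exact ⟨KSys.descend St S⟩

end Step

end Fermat.Agent.S29.StepMod
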