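import Mathlib
import Fermat.Agent.S29.StepMod
import Fermat.Agent.S29.PlaceRank
import Fermat.Agent.S29.ChainFields

/-!
# S29 (item 90), descent chain: the one-step descent in the form needed by `Chain.chain'`

* `chain_step` : for algebraically closed fields `k ⊂ L` of characteristic `0` with `L`
  algebraic over `k(t)`, `t` transcendental: a Kummer system over `L` gives one over `k`
  (rank one place of `PlaceC.exists_place_rank_one` + `StepMod.exists_descend`);
* `descend_to_base` : for `K0 ⊂ E` algebraically closed of characteristic `0` and a finite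
  `S ⊂ E`, there is an algebraically closed subfield `T ⊇ S ∪ K0` of `E` such that a Kummer
  system over `T` gives one over `K0`.
-/

set_option autoImplicit false
set_option linter.unusedSectionVars false
set_option linter.style.haveILetI false

open AlgebraicCurve Module ModularCurve Polynomial

noncomputable section

namespace Fermat.Agent.S29.ChainStep

open Fermat.Agent.S18 Fermat.Agent.S29.DStep

/-- the property descended along the chain. -/
def PK (N : ℕ) [NeZero N] (p : ℕ) (K : Type) [Field K] : Prop := Nonempty (KM.KSysMod K N p)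

/-- **the one-step descent.** -/
theorem chain_step (N : ℕ) [NeZero N] (p : ℕ) (hp : p ≠ 0)
    (k L : Type) [Field k] [Field L] [Algebra k L] [IsAlgClosed k] [IsAlgClosed L]
    [CharZero k] [CharZero L] (t : L) (ht : Transcendental k t)
    (halg : ∀ y : L, ∃ Q : k[X][X], Q ≠ 0 ∧
      Polynomial.eval₂ (Polynomial.aeval t : k[X] →ₐ[k] L).toRingHom y Q = 0) :
    PK N p L → PK N p k := by
  rintro ⟨S⟩
  obtain ⟨B, π, hK, hkerIff, ⟨ht', hπt⟩, harch⟩ := PlaceC.exists_place_rank_one t ht halg
  have hker : ∀ a : B, ¬ IsUnit a → π a = 0 := fun a ha =>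
    (hkerIff a).2 ((IsLocalRing.mem_maximalIdeal a).2 ha)
  have hsurj : Function.Surjective π := fun c => ⟨⟨_, (hK c).1⟩, (hK c).2⟩
  have ht0 : t ≠ 0 := by
    rintro rfl
    exact ht (isAlgebraic_zero)
  have hnt : ∃ π₀ : L, π₀ ≠ 0 ∧ B.valuation π₀ < 1 := by
    refine ⟨t, ht0, ?_⟩
    have h1 : (⟨t, ht'⟩ : B) ∈ IsLocalRing.maximalIdeal B := (hkerIff _).1 hπt
    have h2 : ¬ IsUnit (⟨t, ht'⟩ : B) := (IsLocalRing.mem_maximalIdeal _).1 h1
    by_contra hcon
    apply h2
    have hle : B.valuation t ≤ 1 := (B.valuation_le_one_iff t).2 ht'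
    have heq : B.valuation t = 1 := le_antisymm hle (not_lt.1 hcon)
    exact (B.valuation_eq_one_iff (⟨t, ht'⟩ : B)).2 heq
  exact StepMod.exists_descend B π hker hsurj N p hp harch hnt (algebraMap k L) hK S

/-- **CHAIN for Kummer systems.** -/
theorem descend_to_base (N : ℕ) [NeZero N] (p : ℕ) (hp : p ≠ 0)
    {E : Type} [Field E] [IsAlgClosed E]
    {K0 : Type} [Field K0] [IsAlgClosed K0] [CharZero K0] [Algebra K0 E]
    (ht0 : ∃ t0 : E, Transcendental K0 t0) (S : Finset E) :
    ∃ T : Subfield E, (↑S : Set E) ⊆ (T : Set E) ∧ IsAlgClosed ↥T ∧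
      (Nonempty (KM.KSysMod ↥T N p) → Nonempty (KM.KSysMod K0 N p)) ∧
      ∀ a : K0, algebraMap K0 E a ∈ T :=
  Chain.chain' (fun K _ => PK N p K)
    (fun k L _ _ _ _ _ _ _ t ht halg => chain_step N p hp k L t ht halg) ht0 S

end Fermat.Agent.S29.ChainStep
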