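import Mathlib
import Fermat.Agent.FF.ModRealEv
import Fermat.Agent.FF.ModField

/-!
# S29 (item 90), piece R1(e): the field of meromorphic functions on `ℍ` and the Kummer relation

* `Hol` : the ring of holomorphic functions on `ℍ` (a domain), `MerH := FractionRing Hol`;
* `sigmaH γ : MerH →+* MerH` : composition with `γ ∈ SL(2,ℤ)`;
* `embL N : LN N →+* MerH`, `embF N : F_N →+* MerH` (`F_N` the function field over `ℚ̄`),
  `sigmaH_embF` : `embF N f` is `Γ₀(N)`-invariant;
* `Rel N n χ u` : `u ∈ F_N` is the `n`-th power of a meromorphic function `h ≠ 0` on `ℍ` with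
  `h ∘ γ = χ(γ) h` for `γ ∈ Γ₀(N)`;
* `Rel.mul`, `Rel.inj` (`u = c • w ^ n` forces `χ = 1`).
-/

set_option autoImplicit false
set_option linter.unusedSectionVars false

open UpperHalfPlane hiding I
open Function Complex
open scoped Real MatrixGroups Manifold

noncomputable section

namespace Fermat.Agent.S29.Mer

open Fermat.Agent.FF

/-- the ring of holomorphic functions on `ℍ`. -/
def holRing : Subring (ℍ → ℂ) where
  carrier := {h | MDiff h}
  mul_mem' := fun hf hg => hf.mul hg
  one_mem' := mdifferentiable_const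
  add_mem' := fun hf hg => hf.add hg
  zero_mem' := mdifferentiable_const
  neg_mem' := fun hf => hf.neg

/-- the carrier type of `holRing`. -/
abbrev Hol : Type := ↥holRing

theorem Hol.mdiff (h : Hol) : MDiff (h : ℍ → ℂ) := h.2

theorem Hol.ext {f g : Hol} (h : ∀ τ, (f : ℍ → ℂ) τ = (g : ℍ → ℂ) τ) : f = g :=
  Subtype.ext (funext h)

instance : IsDomain Hol :=
  isDomain_of_ev holRing.subtype Subtype.val_injective (fun r => r.2)

/-- constants. -/
def constH : ℂ →+* Hol where
  toFun c := ⟨fun _ => c, mdifferentiable_const⟩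
  map_one' := rfl
  map_mul' _ _ := rfl
  map_zero' := rfl
  map_add' _ _ := rfl

instance : Algebra ℂ Hol := constH.toAlgebra

theorem algebraMap_Hol_apply (c : ℂ) (τ : ℍ) : ((algebraMap ℂ Hol c : Hol) : ℍ → ℂ) τ = c := rfl

/-- the field of meromorphic functions on `ℍ` (quotients of holomorphic functions). -/
abbrev MerH : Type := FractionRing Hol

/-- composition with `γ ∈ SL(2,ℤ)`. -/
def compH (γ : SL(2, ℤ)) : Hol →+* Hol where
  toFun h := ⟨fun τ => (h : ℍ → ℂ) (γ • τ), by
    have hγ : 0 < ((γ : GL (Fin 2) ℝ)).det.val := by simp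
    exact h.mdiff.comp (UpperHalfPlane.mdifferentiable_smul hγ)⟩
  map_one' := rfl
  map_mul' _ _ := rfl
  map_zero' := rfl
  map_add' _ _ := rfl

@[simp] theorem compH_apply (γ : SL(2, ℤ)) (h : Hol) (τ : ℍ) :
    ((compH γ h : Hol) : ℍ → ℂ) τ = (h : ℍ → ℂ) (γ • τ) := rfl

theorem compH_one (h : Hol) : compH 1 h = h := by
  apply Hol.ext; intro τ; simp

theorem compH_mul (γ δ : SL(2, ℤ)) (h : Hol) :
    compH (γ * δ) h = compH δ (compH γ h) := by
  apply Hol.ext; intro τ; simp [mul_smul]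

theorem compH_algebraMap (γ : SL(2, ℤ)) (c : ℂ) :
    compH γ (algebraMap ℂ Hol c) = algebraMap ℂ Hol c := rfl

theorem compH_injective (γ : SL(2, ℤ)) : Function.Injective (compH γ) := by
  intro a b hab
  have h1 := congrArg (compH γ⁻¹) hab
  rwa [← compH_mul, ← compH_mul, mul_inv_cancel, compH_one, compH_one] at h1

/-- composition with `γ` on meromorphic functions. -/
def sigmaH (γ : SL(2, ℤ)) : MerH →+* MerH :=
  IsFractionRing.lift (g := (algebraMap Hol MerH).comp (compH γ))
    ((IsFractionRing.injective Hol MerH).comp (compH_injective γ))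

theorem sigmaH_algebraMap (γ : SL(2, ℤ)) (r : Hol) :
    sigmaH γ (algebraMap Hol MerH r) = algebraMap Hol MerH (compH γ r) := by
  simp [sigmaH]

theorem sigmaH_const (γ : SL(2, ℤ)) (c : ℂ) :
    sigmaH γ (algebraMap ℂ MerH c) = algebraMap ℂ MerH c := by
  rw [IsScalarTower.algebraMap_apply ℂ Hol MerH, sigmaH_algebraMap, compH_algebraMap]

theorem sigmaH_smul (γ : SL(2, ℤ)) (c : ℂ) (x : MerH) :
    sigmaH γ (c • x) = c • sigmaH γ x := by
  rw [Algebra.smul_def, map_mul, sigmaH_const, ← Algebra.smul_def]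

section Emb

variable (N : ℕ)

/-- `modRing N ⊆ Hol`. -/
def inclR : RN N →+* Hol where
  toFun h := ⟨(h : ℍ → ℂ), h.mdiff⟩
  map_one' := rfl
  map_mul' _ _ := rfl
  map_zero' := rfl
  map_add' _ _ := rfl

theorem inclR_injective : Function.Injective (inclR N) := by
  intro a b hab
  apply Subtype.ext
  exact congrArg (fun x : Hol => (x : ℍ → ℂ)) hab

theorem inclR_compSL (γ : SL(2, ℤ)) (r : RN N) :
    inclR N (compSL N γ r) = compH γ (inclR N r) := rfl

theorem inclR_const (c : Kbar) :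
    inclR N (algebraMap Kbar (RN N) c) = algebraMap ℂ Hol (iotaK c) := rfl

/-- `L_N = Frac (modRing N) → MerH`. -/
def embL : LN N →+* MerH :=
  IsFractionRing.lift (g := (algebraMap Hol MerH).comp (inclR N))
    ((IsFractionRing.injective Hol MerH).comp (inclR_injective N))

theorem embL_algebraMap (r : RN N) :
    embL N (algebraMap (RN N) (LN N) r) = algebraMap Hol MerH (inclR N r) := by
  simp [embL]

theorem embL_injective : Function.Injective (embL N) := (embL N).injective

theorem sigmaH_embL (γ : SL(2, ℤ)) (x : LN N) :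
    sigmaH γ (embL N x) = embL N (sigmaL N γ x) := by
  obtain ⟨a, b, hb, rfl⟩ := IsFractionRing.div_surjective (A := RN N) x
  rw [map_div₀, map_div₀, map_div₀, map_div₀, embL_algebraMap, embL_algebraMap,
    sigmaH_algebraMap, sigmaH_algebraMap, sigmaL_algebraMap, sigmaL_algebraMap,
    embL_algebraMap, embL_algebraMap, inclR_compSL, inclR_compSL]

theorem embL_const (c : Kbar) :
    embL N (algebraMap Kbar (LN N) c) = algebraMap ℂ MerH (iotaK c) := by
  rw [IsScalarTower.algebraMap_apply Kbar (RN N) (LN N), embL_algebraMap, inclR_const,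
    ← IsScalarTower.algebraMap_apply ℂ Hol MerH]

variable [NeZero N]

/-- the function field `F_N` (over `ℚ̄`) inside the meromorphic functions on `ℍ`. -/
def embF : FN N →+* MerH := (embL N).comp (PhiN N)

theorem embF_apply (f : FN N) : embF N f = embL N (PhiN N f) := rfl

theorem embF_injective : Function.Injective (embF N) := (embF N).injective

/-- elements of `F_N` are `Γ₀(N)`-invariant. -/
theorem sigmaH_embF (γ : SL(2, ℤ)) (hγ : γ ∈ CongruenceSubgroup.Gamma0 N) (f : FN N) :
    sigmaH γ (embF N f) = embF N f := by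
  rw [embF_apply, sigmaH_embL, PhiN_invariant N γ hγ f]

theorem embF_const (c : Kbar) :
    embF N (algebraMap Kbar (FN N) c) = algebraMap ℂ MerH (iotaK c) := by
  rw [embF_apply, PhiN_map_const N c, embL_const]

theorem embF_smul (c : Kbar) (f : FN N) : embF N (c • f) = iotaK c • embF N f := by
  rw [Algebra.smul_def, map_mul, embF_const, ← Algebra.smul_def]

end Emb

section Rel

variable (N : ℕ) [NeZero N] (n : ℕ)

/-- **the Kummer relation**: `u ∈ F_N` is the `n`-th power of a meromorphic function on `ℍ`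
with character `χ` on `Γ₀(N)`. -/
def Rel (χ : CongruenceSubgroup.Gamma0 N →* ℂˣ) (u : FN N) : Prop :=
  ∃ h : MerH, h ≠ 0 ∧
    (∀ γ : CongruenceSubgroup.Gamma0 N, sigmaH (γ : SL(2, ℤ)) h = ((χ γ : ℂˣ) : ℂ) • h) ∧
    h ^ n = embF N u

variable {N n}

theorem Rel.ne_zero (hn : n ≠ 0) {χ : CongruenceSubgroup.Gamma0 N →* ℂˣ} {u : FN N}
    (h : Rel N n χ u) : u ≠ 0 := by
  obtain ⟨h, h0, -, hu⟩ := h
  rintro rfl
  rw [map_zero] at hu
  exact h0 (pow_eq_zero_iff hn |>.mp hu)

theorem Rel.mul {χ χ' : CongruenceSubgroup.Gamma0 N →* ℂˣ} {u u' : FN N}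
    (h : Rel N n χ u) (h' : Rel N n χ' u') : Rel N n (χ * χ') (u * u') := by
  obtain ⟨h, h0, hχ, hu⟩ := h
  obtain ⟨h', h0', hχ', hu'⟩ := h'
  refine ⟨h * h', mul_ne_zero h0 h0', fun γ => ?_, ?_⟩
  · rw [map_mul, hχ γ, hχ' γ, MonoidHom.mul_apply, Units.val_mul, smul_mul_smul_comm]
  · rw [mul_pow, hu, hu', map_mul]

/-- an element of `MerH` whose `n`-th power is constant is constant. -/
theorem exists_const_of_pow_eq (hn : n ≠ 0) {y : MerH} {c : ℂ}
    (hy : y ^ n = algebraMap ℂ MerH c) : ∃ z : ℂ, y = algebraMap ℂ MerH z := by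
  have hint : IsIntegral ℂ y :=
    IsIntegral.of_pow (Nat.pos_of_ne_zero hn) (hy ▸ isIntegral_algebraMap)
  have hdeg : (minpoly ℂ y).degree = 1 :=
    IsAlgClosed.degree_eq_one_of_irreducible ℂ (minpoly.irreducible hint)
  obtain ⟨z, hz⟩ := minpoly.mem_range_of_degree_eq_one ℂ y hdeg
  exact ⟨z, hz.symm⟩

/-- **injectivity**: if `u = c • w ^ n` then `χ = 1`. -/
theorem Rel.inj (hn : n ≠ 0) {χ : CongruenceSubgroup.Gamma0 N →* ℂˣ} {w : FN N} {c : Kbar}
    (hw : w ≠ 0) (h : Rel N n χ (c • w ^ n)) : χ = 1 := by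
  obtain ⟨h, h0, hχ, hu⟩ := h
  have hw' : embF N w ≠ 0 := by
    rw [Ne, map_eq_zero_iff _ (embF_injective N)]
    exact hw
  have hy : (h / embF N w) ^ n = algebraMap ℂ MerH (iotaK c) := by
    rw [div_pow, hu, embF_smul, map_pow, Algebra.smul_def, mul_div_assoc,
      div_self (pow_ne_zero _ hw'), mul_one]
  obtain ⟨z, hz⟩ := exists_const_of_pow_eq hn hy
  have hh : h = z • embF N w := by
    rw [Algebra.smul_def, ← hz, div_mul_cancel₀ _ hw']
  ext γ
  have h1 := hχ γ
  rw [hh, sigmaH_smul, sigmaH_embF N _ γ.2, ← hh] at h1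
  have h2 : algebraMap ℂ MerH ((1 : ℂ) - ((χ γ : ℂˣ) : ℂ)) * h = 0 := by
    rw [map_sub, map_one, sub_mul, one_mul, ← Algebra.smul_def, ← h1, sub_self]
  rcases mul_eq_zero.mp h2 with h3 | h3
  · rw [MonoidHom.one_apply, Units.val_one]
    have h4 : (1 : ℂ) - ((χ γ : ℂˣ) : ℂ) = 0 :=
      (map_eq_zero_iff _ (algebraMap ℂ MerH).injective).mp h3
    exact (sub_eq_zero.mp h4).symm
  · exact absurd h3 h0

end Rel

end Fermat.Agent.S29.Mer
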