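import Mathlib
import Fermat.Agent.S29.MerField
import Fermat.Agent.S16.HeckeHomT

/-!
# S29 (item 90), piece R1(e): the Hecke operator on functions with character

* `sigmaG g hg : MerH →+* MerH` : composition with `g ∈ GL₂(ℝ)`, `det g > 0`;
* `heckeFun ℓ h = ∏_{x ∈ P¹(𝔽_ℓ)} h ∘ rep_x` (`rep_x` the representatives of `T_ℓ`);
* `Tchar N ℓ hℓN χ` : the Hecke operator `τ_ℓ` of `S16` on characters `χ : Γ₀(N) →* ℂˣ`;
* `sigmaH_heckeFun` : if `h ∘ γ = χ(γ) h` then `(heckeFun h) ∘ γ = (τ_ℓ χ)(γ) heckeFun h`;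
* `Rel.hecke` : `Rel χ u → Rel (τ_ℓ χ) u'` as soon as `embF u' = ∏_x (embF u) ∘ rep_x`.
-/

set_option autoImplicit false
set_option linter.unusedSectionVars false

open UpperHalfPlane hiding I
open Function Complex Matrix.SpecialLinearGroup CongruenceSubgroup
open scoped Real MatrixGroups Manifold

noncomputable section

namespace Fermat.Agent.S29.Mer

open Fermat.Agent.FF Fermat.Agent.S16
open P2MW.S_ModularForm_heckeT_slash_eq_self_of_mem_Gamma0.ModularForm.HeckeSlashInvariance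

/-- composition with `g ∈ GL₂(ℝ)`, `det g > 0`. -/
def compG (g : GL (Fin 2) ℝ) (hg : 0 < g.det.val) : Hol →+* Hol where
  toFun h := ⟨fun τ => (h : ℍ → ℂ) (g • τ),
    h.mdiff.comp (UpperHalfPlane.mdifferentiable_smul hg)⟩
  map_one' := rfl
  map_mul' _ _ := rfl
  map_zero' := rfl
  map_add' _ _ := rfl

@[simp] theorem compG_apply (g : GL (Fin 2) ℝ) (hg : 0 < g.det.val) (h : Hol) (τ : ℍ) :
    ((compG g hg h : Hol) : ℍ → ℂ) τ = (h : ℍ → ℂ) (g • τ) := rfl

theorem det_inv_pos {g : GL (Fin 2) ℝ} (hg : 0 < g.det.val) : 0 < (g⁻¹).det.val := by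
  rw [map_inv, Units.val_inv_eq_inv_val]
  exact inv_pos.mpr hg

theorem det_mul_pos {g g' : GL (Fin 2) ℝ} (hg : 0 < g.det.val) (hg' : 0 < g'.det.val) :
    0 < (g * g').det.val := by
  rw [map_mul, Units.val_mul]
  exact mul_pos hg hg'

theorem compG_mul (g g' : GL (Fin 2) ℝ) (hg : 0 < g.det.val) (hg' : 0 < g'.det.val)
    (h : Hol) :
    compG (g * g') (det_mul_pos hg hg') h = compG g' hg' (compG g hg h) := by
  apply Hol.ext; intro τ
  simp [mul_smul]

theorem compG_congr {g g' : GL (Fin 2) ℝ} (hgg : g = g') (hg : 0 < g.det.val)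
    (hg' : 0 < g'.det.val) (h : Hol) : compG g hg h = compG g' hg' h := by
  subst hgg; rfl

theorem compG_injective (g : GL (Fin 2) ℝ) (hg : 0 < g.det.val) :
    Function.Injective (compG g hg) := by
  intro a b hab
  apply Hol.ext; intro τ
  have h1 := congrArg (fun x : Hol => (x : ℍ → ℂ) (g⁻¹ • τ)) hab
  simpa using h1

theorem compG_algebraMap (g : GL (Fin 2) ℝ) (hg : 0 < g.det.val) (c : ℂ) :
    compG g hg (algebraMap ℂ Hol c) = algebraMap ℂ Hol c := rfl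

/-- composition with `g` on meromorphic functions. -/
def sigmaG (g : GL (Fin 2) ℝ) (hg : 0 < g.det.val) : MerH →+* MerH :=
  IsFractionRing.lift (g := (algebraMap Hol MerH).comp (compG g hg))
    ((IsFractionRing.injective Hol MerH).comp (compG_injective g hg))

theorem sigmaG_algebraMap (g : GL (Fin 2) ℝ) (hg : 0 < g.det.val) (r : Hol) :
    sigmaG g hg (algebraMap Hol MerH r) = algebraMap Hol MerH (compG g hg r) := by
  simp [sigmaG]

theorem sigmaG_const (g : GL (Fin 2) ℝ) (hg : 0 < g.det.val) (c : ℂ) :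
    sigmaG g hg (algebraMap ℂ MerH c) = algebraMap ℂ MerH c := by
  rw [IsScalarTower.algebraMap_apply ℂ Hol MerH, sigmaG_algebraMap, compG_algebraMap]

theorem sigmaG_smul (g : GL (Fin 2) ℝ) (hg : 0 < g.det.val) (c : ℂ) (x : MerH) :
    sigmaG g hg (c • x) = c • sigmaG g hg x := by
  rw [Algebra.smul_def, map_mul, sigmaG_const, ← Algebra.smul_def]

theorem sigmaG_mul (g g' : GL (Fin 2) ℝ) (hg : 0 < g.det.val) (hg' : 0 < g'.det.val)
    (x : MerH) :
    sigmaG (g * g') (det_mul_pos hg hg') x = sigmaG g' hg' (sigmaG g hg x) := by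
  obtain ⟨a, b, hb, rfl⟩ := IsFractionRing.div_surjective (A := Hol) x
  simp only [map_div₀, sigmaG_algebraMap, compG_mul g g' hg hg']

theorem sigmaG_congr {g g' : GL (Fin 2) ℝ} (hgg : g = g') (hg : 0 < g.det.val)
    (hg' : 0 < g'.det.val) (x : MerH) : sigmaG g hg x = sigmaG g' hg' x := by
  subst hgg; rfl

theorem det_mapGL_pos (γ : SL(2, ℤ)) : 0 < (mapGL ℝ γ).det.val := by simp

theorem compH_eq_compG (γ : SL(2, ℤ)) (h : Hol) :
    compH γ h = compG (mapGL ℝ γ) (det_mapGL_pos γ) h := by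
  apply Hol.ext; intro τ
  rfl

theorem sigmaH_eq_sigmaG (γ : SL(2, ℤ)) (x : MerH) :
    sigmaH γ x = sigmaG (mapGL ℝ γ) (det_mapGL_pos γ) x := by
  obtain ⟨a, b, hb, rfl⟩ := IsFractionRing.div_surjective (A := Hol) x
  simp only [map_div₀, sigmaG_algebraMap, sigmaH_algebraMap, compH_eq_compG]

section Hecke

variable (N : ℕ) (ℓ : ℕ) [Fact ℓ.Prime]

theorem det_heckeRep_pos (x : OnePoint (ZMod ℓ)) : 0 < (heckeRep ℓ x).det.val := by
  induction x using OnePoint.rec with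
  | infty => exact ModularForm.det_heckeDiagMatrix_pos ℓ
  | coe j => exact ModularForm.det_heckeMatrix_pos ℓ j.val

/-- **the Hecke operator on functions**, multiplicative version. -/
def heckeFun (h : MerH) : MerH :=
  ∏ x : OnePoint (ZMod ℓ), sigmaG (heckeRep ℓ x) (det_heckeRep_pos ℓ x) h

theorem heckeFun_ne_zero {h : MerH} (h0 : h ≠ 0) : heckeFun ℓ h ≠ 0 := by
  unfold heckeFun
  rw [Finset.prod_ne_zero_iff]
  intro x _
  rw [Ne, map_eq_zero_iff _ (sigmaG _ _).injective]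
  exact h0

theorem heckeFun_pow (h : MerH) (n : ℕ) : heckeFun ℓ h ^ n = heckeFun ℓ (h ^ n) := by
  unfold heckeFun
  rw [← Finset.prod_pow]
  refine Finset.prod_congr rfl fun x _ => ?_
  rw [map_pow]

variable {N ℓ}

/-- **the Hecke operator on characters** (`τ_ℓ` of `S16`, multiplicative notation). -/
def Tchar (hℓN : ¬ ℓ ∣ N) (χ : Gamma0 N →* ℂˣ) : Gamma0 N →* ℂˣ :=
  MonoidHom.toAdditive.symm ((datumT N ℓ hℓN).tau (MonoidHom.toAdditive χ))

theorem Tchar_apply (hℓN : ¬ ℓ ∣ N) (χ : Gamma0 N →* ℂˣ) (γ : Gamma0 N) :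
    Tchar hℓN χ γ = ∏ x : OnePoint (ZMod ℓ), χ ((datumT N ℓ hℓN).coc γ x) := by
  have h := (datumT N ℓ hℓN).tau_apply (MonoidHom.toAdditive χ) γ
  have h2 : Tchar hℓN χ γ =
      Additive.toMul ((datumT N ℓ hℓN).tau (MonoidHom.toAdditive χ) (Additive.ofMul γ)) := rfl
  rw [h2, h, toMul_sum]
  rfl

/-- the transformation law of `heckeFun h`. -/
theorem sigmaH_heckeFun (hℓN : ¬ ℓ ∣ N) {χ : Gamma0 N →* ℂˣ} {h : MerH}
    (hχ : ∀ γ : Gamma0 N, sigmaH (γ : SL(2, ℤ)) h = ((χ γ : ℂˣ) : ℂ) • h) (γ : Gamma0 N) :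
    sigmaH (γ : SL(2, ℤ)) (heckeFun ℓ h) = ((Tchar hℓN χ γ : ℂˣ) : ℂ) • heckeFun ℓ h := by
  have key : ∀ x : OnePoint (ZMod ℓ),
      sigmaH (γ : SL(2, ℤ)) (sigmaG (heckeRep ℓ x) (det_heckeRep_pos ℓ x) h) =
        ((χ ((datumT N ℓ hℓN).coc γ x) : ℂˣ) : ℂ) •
          sigmaG (heckeRep ℓ ((datumT N ℓ hℓN).next γ x))
            (det_heckeRep_pos ℓ _) h := by
    intro x
    rw [sigmaH_eq_sigmaG, ← sigmaG_mul (heckeRep ℓ x) (mapGL ℝ (γ : SL(2, ℤ)))
      (det_heckeRep_pos ℓ x) (det_mapGL_pos _),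
      sigmaG_congr (datumT_spec ℓ hℓN γ x) _
        (det_mul_pos (det_mapGL_pos _) (det_heckeRep_pos ℓ _)),
      sigmaG_mul _ _ (det_mapGL_pos _) (det_heckeRep_pos ℓ _), ← sigmaH_eq_sigmaG,
      hχ, sigmaG_smul]
  unfold heckeFun
  rw [map_prod, Finset.prod_congr rfl (fun x _ => key x)]
  simp only [Algebra.smul_def]
  rw [Finset.prod_mul_distrib, Tchar_apply, Units.coe_prod, map_prod]
  congr 1
  exact Equiv.prod_comp ((datumT N ℓ hℓN).perm γ)
    (fun y => sigmaG (heckeRep ℓ y) (det_heckeRep_pos ℓ y) h)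

variable [NeZero N]

/-- **Hecke stability of the Kummer relation**, given the function `u'` whose realisation is
the product of the `ℓ + 1` transforms of `u`. -/
theorem Rel.hecke (hℓN : ¬ ℓ ∣ N) {n : ℕ} {χ : Gamma0 N →* ℂˣ} {u u' : FN N}
    (h : Rel N n χ u) (hu' : embF N u' = heckeFun ℓ (embF N u)) :
    Rel N n (Tchar hℓN χ) u' := by
  obtain ⟨h, h0, hχ, hu⟩ := h
  exact ⟨heckeFun ℓ h, heckeFun_ne_zero ℓ h0, sigmaH_heckeFun hℓN hχ,
    by rw [heckeFun_pow, hu, hu']⟩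

end Hecke

end Fermat.Agent.S29.Mer
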