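import Mathlib
import Fermat.Agent.S29.HeckeFun
import Fermat.Agent.S37.KronNorm

/-!
# S29 (item 90), piece R1(e), NormProd part A: compatibility of `embF` with `α`, `β`

* `embF_alpha` : `embF (Nℓ) (α y) = embF N y`;
* `embF_beta`  : `embF (Nℓ) (β y) = (embF N y) ∘ diag(ℓ, 1)`.
-/

set_option autoImplicit false
set_option linter.unusedSectionVars false
set_option linter.style.haveILetI false

open UpperHalfPlane hiding I
open Function Complex Matrix.SpecialLinearGroup CongruenceSubgroup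
open scoped Real MatrixGroups Manifold

noncomputable section

namespace Fermat.Agent.S29.Mer

open Fermat.Agent.FF Fermat.Agent.S16 Fermat.Agent.S37.Kron ModularCurve
open P2MW.S_ModularForm_heckeT_slash_eq_self_of_mem_Gamma0.ModularForm.HeckeSlashInvariance

/-- the function `j(dτ)`. -/
def jdHol (d : ℕ) [NeZero d] : Hol :=
  ⟨fun τ => jFun (scaleH d τ), mdiff_jFun_scale d (scaleH d) (fun _ => rfl)⟩

theorem inclR_jR (N : ℕ) [NeZero N] (d : ℕ) [NeZero d] (hd : d ∣ N) :
    inclR N (jR N d hd) = jdHol d := rfl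

theorem embF_JdF (N : ℕ) [NeZero N] (d : ℕ) [NeZero d] (hd : d ∣ N) :
    embF N (JdF N d hd) = algebraMap Hol MerH (jdHol d) := by
  rw [embF_apply, PhiN_Jd N d hd _ (JdF_coe N d hd), embL_algebraMap, inclR_jR]

variable (N ℓ : ℕ) [NeZero N] [NeZero ℓ]

theorem embF_alpha (y : FN N) :
    embF (N * ℓ) (heckeAlphaBar Kbar N ℓ y) = embF N y := by
  have h : (embF (N * ℓ)).comp (heckeAlphaBar Kbar N ℓ).toRingHom = embF N := by
    apply ringHom_ext_FN
    · intro c
      show embF (N * ℓ) (heckeAlphaBar Kbar N ℓ (algebraMap Kbar (FN N) c)) =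
        embF N (algebraMap Kbar (FN N) c)
      rw [AlgHom.commutes, embF_const, embF_const]
    · intro d _ hd
      show embF (N * ℓ) (heckeAlphaBar Kbar N ℓ (JdF N d hd)) = embF N (JdF N d hd)
      rw [alpha_JdF, embF_JdF, embF_JdF]
  exact DFunLike.congr_fun h y

theorem det_heckeDiag_pos : 0 < (ModularForm.heckeDiagMatrix ℓ).det.val :=
  ModularForm.det_heckeDiagMatrix_pos ℓ

theorem compG_diag_jdHol (d : ℕ) [NeZero d] :
    haveI : NeZero (ℓ * d) := ⟨mul_ne_zero (NeZero.ne ℓ) (NeZero.ne d)⟩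
    compG (ModularForm.heckeDiagMatrix ℓ) (det_heckeDiag_pos ℓ) (jdHol d) = jdHol (ℓ * d) := by
  haveI : NeZero (ℓ * d) := ⟨mul_ne_zero (NeZero.ne ℓ) (NeZero.ne d)⟩
  apply Hol.ext
  intro τ
  show jFun (scaleH d (ModularForm.heckeDiagMatrix ℓ • τ)) = jFun (scaleH (ℓ * d) τ)
  congr 1
  apply UpperHalfPlane.ext
  rw [coe_scaleH, coe_scaleH, ModularForm.coe_heckeDiagMatrix_smul (NeZero.ne ℓ)]
  push_cast
  ring

theorem embF_beta (y : FN N) :
    embF (N * ℓ) (heckeBetaBar Kbar N ℓ y) =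
      sigmaG (ModularForm.heckeDiagMatrix ℓ) (det_heckeDiag_pos ℓ) (embF N y) := by
  have h : (embF (N * ℓ)).comp (heckeBetaBar Kbar N ℓ).toRingHom =
      (sigmaG (ModularForm.heckeDiagMatrix ℓ) (det_heckeDiag_pos ℓ)).comp (embF N) := by
    apply ringHom_ext_FN
    · intro c
      show embF (N * ℓ) (heckeBetaBar Kbar N ℓ (algebraMap Kbar (FN N) c)) =
        sigmaG _ _ (embF N (algebraMap Kbar (FN N) c))
      rw [AlgHom.commutes, embF_const, embF_const, sigmaG_const]
    · intro d _ hd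
      show embF (N * ℓ) (heckeBetaBar Kbar N ℓ (JdF N d hd)) =
        sigmaG _ _ (embF N (JdF N d hd))
      haveI : NeZero (ℓ * d) := ⟨mul_ne_zero (NeZero.ne ℓ) (NeZero.ne d)⟩
      rw [beta_JdF, embF_JdF, embF_JdF, sigmaG_algebraMap, compG_diag_jdHol]
  exact DFunLike.congr_fun h y

end Fermat.Agent.S29.Mer
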