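/-
S29 (item 90), piece R1(c3) (helper2): the algebraic core of
"invariant functions lie in the function field".

`mem_adjoin_simple_of_bounded`: `E ⊂ L` fields of characteristic `0`, `E = Frac (φ R)`,
`S ⊂ L` a subring containing `φ R` in which every element is a root of a nonzero polynomial
of degree `≤ n` over `E`; `θ ∈ S` of degree `≥ n` over `E`.  Then `S ⊂ E(θ)`.
(Primitive element of `E(θ, s)` + clearing denominators.)
-/
import Mathlib

set_option autoImplicit false

open IntermediateField

noncomputable section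

namespace Fermat.Agent.S29.InvAlg

variable {R E L : Type*} [CommRing R] [Field E] [Field L] [Algebra E L]

/-- clearing denominators: every element of `E[θ, s]` is in `S` after multiplication by a
nonzero element of `φ R`. -/
theorem exists_mul_mem_of_mem_adjoin (φ : R →+* E)
    (hfrac : ∀ e : E, ∃ a b : R, φ b ≠ 0 ∧ e * φ b = φ a)
    (S : Subring L) (hRS : ∀ r : R, algebraMap E L (φ r) ∈ S)
    (T : Set L) (hT : T ⊆ S) (y : L) (hy : y ∈ Algebra.adjoin E T) :
    ∃ d : R, φ d ≠ 0 ∧ algebraMap E L (φ d) * y ∈ S := by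
  induction hy using Algebra.adjoin_induction with
  | mem x hx =>
    refine ⟨1, by rw [map_one]; exact one_ne_zero, ?_⟩
    rw [map_one, map_one, one_mul]
    exact hT hx
  | algebraMap e =>
    obtain ⟨a, b, hb, hab⟩ := hfrac e
    refine ⟨b, hb, ?_⟩
    rw [← map_mul, mul_comm, hab]
    exact hRS a
  | add x y _ _ hx hy =>
    obtain ⟨d1, hd1, h1⟩ := hx
    obtain ⟨d2, hd2, h2⟩ := hy
    refine ⟨d1 * d2, by rw [map_mul]; exact mul_ne_zero hd1 hd2, ?_⟩
    have e : algebraMap E L (φ (d1 * d2)) * (x + y) =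
        algebraMap E L (φ d2) * (algebraMap E L (φ d1) * x) +
          algebraMap E L (φ d1) * (algebraMap E L (φ d2) * y) := by
      rw [map_mul, map_mul]; ring
    rw [e]
    exact S.add_mem (S.mul_mem (hRS d2) h1) (S.mul_mem (hRS d1) h2)
  | mul x y _ _ hx hy =>
    obtain ⟨d1, hd1, h1⟩ := hx
    obtain ⟨d2, hd2, h2⟩ := hy
    refine ⟨d1 * d2, by rw [map_mul]; exact mul_ne_zero hd1 hd2, ?_⟩
    have e : algebraMap E L (φ (d1 * d2)) * (x * y) =
        (algebraMap E L (φ d1) * x) * (algebraMap E L (φ d2) * y) := by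
      rw [map_mul, map_mul]; ring
    rw [e]
    exact S.mul_mem h1 h2

/-- the degree of a simple extension does not change under scaling by a nonzero constant. -/
theorem adjoin_simple_mul_eq (c : E) (hc : c ≠ 0) (γ : L) :
    E⟮algebraMap E L c * γ⟯ = E⟮γ⟯ := by
  apply le_antisymm
  · rw [adjoin_simple_le_iff]
    exact mul_mem (IntermediateField.algebraMap_mem _ c) (mem_adjoin_simple_self E γ)
  · rw [adjoin_simple_le_iff]
    have h1 : algebraMap E L c * γ ∈ E⟮algebraMap E L c * γ⟯ := mem_adjoin_simple_self E _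
    have h2 : algebraMap E L c⁻¹ ∈ E⟮algebraMap E L c * γ⟯ :=
      IntermediateField.algebraMap_mem _ _
    have h3 := mul_mem h2 h1
    have e : algebraMap E L c⁻¹ * (algebraMap E L c * γ) = γ := by
      rw [← mul_assoc, ← map_mul, inv_mul_cancel₀ hc, map_one, one_mul]
    rwa [e] at h3

variable [CharZero E]

/-- **(c3)** the algebraic core. -/
theorem mem_adjoin_simple_of_bounded (φ : R →+* E)
    (hfrac : ∀ e : E, ∃ a b : R, φ b ≠ 0 ∧ e * φ b = φ a)
    (S : Subring L) (hRS : ∀ r : R, algebraMap E L (φ r) ∈ S)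
    (n : ℕ) (hS : ∀ s ∈ S, ∃ P : Polynomial E, P ≠ 0 ∧ P.natDegree ≤ n ∧
      Polynomial.aeval s P = 0)
    (θ : L) (hθ : θ ∈ S) (hdeg : n ≤ Module.finrank E E⟮θ⟯) (s : L) (hs : s ∈ S) :
    s ∈ E⟮θ⟯ := by
  have halg : ∀ t ∈ S, IsAlgebraic E t := fun t ht => by
    obtain ⟨P, hP0, -, hP⟩ := hS t ht
    exact ⟨P, hP0, hP⟩
  have hint : ∀ t ∈ S, IsIntegral E t := fun t ht => (halg t ht).isIntegral
  have hdegle : ∀ t ∈ S, Module.finrank E E⟮t⟯ ≤ n := fun t ht => by
    obtain ⟨P, hP0, hPn, hP⟩ := hS t ht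
    rw [IntermediateField.adjoin.finrank (hint t ht)]
    exact (Polynomial.natDegree_le_natDegree (minpoly.degree_le_of_ne_zero E t hP0 hP)).trans hPn
  -- the field `A = E(θ, s)`
  let A : IntermediateField E L := IntermediateField.adjoin E {θ, s}
  have hTS : ({θ, s} : Set L) ⊆ S := by
    rintro x (rfl | rfl)
    · exact hθ
    · exact hs
  have hfin : FiniteDimensional E A :=
    IntermediateField.finiteDimensional_adjoin (fun x hx => hint x (hTS hx))
  obtain ⟨α, hα⟩ := Field.exists_primitive_element E A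
  set γ : L := (α : L) with hγ
  have hγint : IsIntegral E γ := by
    have : IsIntegral E α := IsIntegral.of_finite E α
    exact (isIntegral_algebraMap_iff (algebraMap A L).injective).2 this
  -- `[E(γ) : E] = [A : E]`
  have hfinγ : Module.finrank E E⟮γ⟯ = Module.finrank E A := by
    have h1 : Module.finrank E E⟮α⟯ = Module.finrank E A := by
      rw [hα]
      exact IntermediateField.finrank_top'
    rw [← h1, IntermediateField.adjoin.finrank hγint,
      IntermediateField.adjoin.finrank (IsIntegral.of_finite E α)]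
    congr 1
    exact (minpoly.algebraMap_eq (algebraMap A L).injective α)
  -- `γ ∈ E[θ, s]`
  have hγA : γ ∈ Algebra.adjoin E ({θ, s} : Set L) := by
    have h1 : (IntermediateField.adjoin E ({θ, s} : Set L)).toSubalgebra =
        Algebra.adjoin E ({θ, s} : Set L) :=
      IntermediateField.adjoin_toSubalgebra_of_isAlgebraic (fun x hx => halg x (hTS hx))
    rw [← h1]
    exact α.2
  obtain ⟨d, hd, hdγ⟩ := exists_mul_mem_of_mem_adjoin φ hfrac S hRS _ hTS γ hγA
  have h2 : Module.finrank E A ≤ n := by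
    rw [← hfinγ, ← adjoin_simple_mul_eq (φ d) hd γ]
    exact hdegle _ hdγ
  have hle : E⟮θ⟯ ≤ A := by
    rw [adjoin_simple_le_iff]
    exact IntermediateField.subset_adjoin E _ (Set.mem_insert _ _)
  have heq : E⟮θ⟯ = A :=
    IntermediateField.eq_of_le_of_finrank_le hle (h2.trans hdeg)
  rw [heq]
  exact IntermediateField.subset_adjoin E _ (Set.mem_insert_of_mem _ rfl)

end Fermat.Agent.S29.InvAlg
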