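import Mathlib
import Fermat.Agent.S29.MerField
import Fermat.Agent.S29.InvAlg
import Fermat.Agent.FF.ModInv
import Fermat.Agent.FF.ModReal
import Fermat.Agent.FF.CosetIndex

/-!
# S29 (item 90), piece R1(c1): modular functions over `ℂ`, the norm polynomial

* `modRingC N` : the ring of holomorphic functions on `ℍ` with convergent Laurent expansions in
  `exp (2πiτ/N)` (complex coefficients) at all cusps; `RC N` its carrier;
* `compC N γ` : composition with `γ ∈ SL(2,ℤ)`;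
* `exists_poly_of_invariantC` : `SL(2,ℤ)`-invariant elements of `RC N` are polynomials in `j`
  over `ℂ`;
* `normC N A = ∏_{i ∈ SL2(Z)/Γ0(N)} (X - A ∘ g_i⁻¹)`, monic of degree `ψ(N)`, with coefficients
  polynomials in `j`, and `A` is a root if `A` is `Γ₀(N)`-invariant.
-/

set_option autoImplicit false
set_option linter.unusedSectionVars false
set_option linter.style.haveILetI false

open UpperHalfPlane hiding I
open Function Complex
open scoped Real MatrixGroups Manifold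

noncomputable section

namespace Fermat.Agent.S29.InvC

open Fermat.Agent.FF Fermat.Agent.S29.Mer

/-- The ring of holomorphic functions on `ℍ` which have convergent Laurent expansions in
`exp (2πiτ/N)` at all cusps (complex coefficients). -/
def modRingC (N : ℕ) : Subring (ℍ → ℂ) where
  carrier := {h | MDiff h ∧ ∀ γ : SL(2, ℤ), ∃ x : LaurentSeries ℂ,
    IsExp N x (fun τ => h (γ • τ))}
  mul_mem' := by
    rintro f g ⟨hf, hf'⟩ ⟨hg, hg'⟩
    refine ⟨hf.mul hg, fun γ => ?_⟩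
    obtain ⟨x, hx⟩ := hf' γ
    obtain ⟨y, hy⟩ := hg' γ
    exact ⟨x * y, IsExp.mul hx hy⟩
  one_mem' := ⟨mdifferentiable_const, fun _ => ⟨1, isExp_one N⟩⟩
  add_mem' := by
    rintro f g ⟨hf, hf'⟩ ⟨hg, hg'⟩
    refine ⟨hf.add hg, fun γ => ?_⟩
    obtain ⟨x, hx⟩ := hf' γ
    obtain ⟨y, hy⟩ := hg' γ
    exact ⟨x + y, IsExp.add hx hy⟩
  zero_mem' := ⟨mdifferentiable_const, fun _ => ⟨0, isExp_zero N⟩⟩
  neg_mem' := by
    rintro f ⟨hf, hf'⟩
    refine ⟨hf.neg, fun γ => ?_⟩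
    obtain ⟨x, hx⟩ := hf' γ
    exact ⟨-x, IsExp.neg hx⟩

/-- the carrier type of `modRingC N` -/
abbrev RC (N : ℕ) : Type := ↥(modRingC N)

theorem RC.mdiff {N : ℕ} (h : RC N) : MDiff (h : ℍ → ℂ) := h.2.1

theorem RC.exists_exp {N : ℕ} (h : RC N) (γ : SL(2, ℤ)) :
    ∃ x : LaurentSeries ℂ, IsExp N x (fun τ => (h : ℍ → ℂ) (γ • τ)) := h.2.2 γ

theorem RC.ext {N : ℕ} {f g : RC N} (h : ∀ τ, (f : ℍ → ℂ) τ = (g : ℍ → ℂ) τ) : f = g :=
  Subtype.ext (funext h)

/-- composition with `γ ∈ SL(2,ℤ)` -/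
def compC (N : ℕ) (γ : SL(2, ℤ)) : RC N →+* RC N where
  toFun h := ⟨fun τ => (h : ℍ → ℂ) (γ • τ), by
    refine ⟨?_, fun γ' => ?_⟩
    · have hγ : 0 < ((γ : GL (Fin 2) ℝ)).det.val := by simp
      exact h.mdiff.comp (UpperHalfPlane.mdifferentiable_smul hγ)
    · obtain ⟨x, hx⟩ := h.exists_exp (γ * γ')
      refine ⟨x, hx.congr fun τ => ?_⟩
      rw [mul_smul]⟩
  map_one' := by apply RC.ext; intro τ; rfl
  map_mul' a b := by apply RC.ext; intro τ; rfl
  map_zero' := by apply RC.ext; intro τ; rfl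
  map_add' a b := by apply RC.ext; intro τ; rfl

@[simp] theorem compC_apply {N : ℕ} (γ : SL(2, ℤ)) (h : RC N) (τ : ℍ) :
    ((compC N γ h : RC N) : ℍ → ℂ) τ = (h : ℍ → ℂ) (γ • τ) := rfl

theorem compC_one {N : ℕ} (h : RC N) : compC N 1 h = h := by
  apply RC.ext; intro τ; simp

theorem compC_mul {N : ℕ} (γ δ : SL(2, ℤ)) (h : RC N) :
    compC N (γ * δ) h = compC N δ (compC N γ h) := by
  apply RC.ext; intro τ; simp [mul_smul]

/-- the inclusion `RC N → Hol` -/
def inclC (N : ℕ) : RC N →+* Hol where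
  toFun h := ⟨(h : ℍ → ℂ), h.mdiff⟩
  map_one' := rfl
  map_mul' _ _ := rfl
  map_zero' := rfl
  map_add' _ _ := rfl

@[simp] theorem inclC_apply {N : ℕ} (h : RC N) (τ : ℍ) :
    ((inclC N h : Hol) : ℍ → ℂ) τ = (h : ℍ → ℂ) τ := rfl

theorem inclC_injective (N : ℕ) : Function.Injective (inclC N) := by
  intro a b hab
  apply RC.ext
  intro τ
  have := congrArg (fun d : Hol => (d : ℍ → ℂ) τ) hab
  simpa using this

theorem inclC_compC {N : ℕ} (γ : SL(2, ℤ)) (r : RC N) :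
    inclC N (compC N γ r) = compH γ (inclC N r) := rfl

/-- the inclusion of the `ℚ̄`-rational ring -/
def ofRN (N : ℕ) : RN N →+* RC N where
  toFun h := ⟨(h : ℍ → ℂ), h.mdiff, fun γ => by
    obtain ⟨x, hx⟩ := h.exists_exp γ
    exact ⟨iotaL x, hx⟩⟩
  map_one' := rfl
  map_mul' _ _ := rfl
  map_zero' := rfl
  map_add' _ _ := rfl

@[simp] theorem ofRN_apply {N : ℕ} (h : RN N) (τ : ℍ) :
    ((ofRN N h : RC N) : ℍ → ℂ) τ = (h : ℍ → ℂ) τ := rfl

theorem inclC_ofRN {N : ℕ} (h : RN N) : inclC N (ofRN N h) = inclR N h := rfl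

/-- membership criterion -/
def mkC (N : ℕ) (h : Hol)
    (hexp : ∀ γ : SL(2, ℤ), ∃ x : LaurentSeries ℂ, IsExp N x (fun τ => (h : ℍ → ℂ) (γ • τ))) :
    RC N := ⟨(h : ℍ → ℂ), h.mdiff, hexp⟩

@[simp] theorem inclC_mkC (N : ℕ) (h : Hol)
    (hexp : ∀ γ : SL(2, ℤ), ∃ x : LaurentSeries ℂ, IsExp N x (fun τ => (h : ℍ → ℂ) (γ • τ))) :
    inclC N (mkC N h hexp) = h := rfl

section inv

variable {N : ℕ} [NeZero N]

/-- `SL(2,ℤ)`-invariant elements of `RC N` are polynomials in `jFun` over `ℂ`. -/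
theorem exists_poly_of_invariantC (c : RC N) (hc : ∀ γ : SL(2, ℤ), compC N γ c = c) :
    ∃ p : Polynomial ℂ, ∀ τ : ℍ, (c : ℍ → ℂ) τ = p.eval (jFun τ) := by
  obtain ⟨x, hx⟩ := c.exists_exp 1
  have hx' : IsExp N (ModularCurve.coeffMap (RingHom.id ℂ) x) (c : ℍ → ℂ) := by
    rw [ModularCurve.coeffMap_id]
    exact hx.congr fun τ => by rw [one_smul]
  obtain ⟨p, -, hp⟩ := pole_killing_level (RingHom.id ℂ) N (c : ℍ → ℂ) c.mdiff (fun γ τ => by
    have := congrArg (fun d : RC N => (d : ℍ → ℂ) τ) (hc γ)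
    simpa using this) x hx'
  refine ⟨p, fun τ => ?_⟩
  rw [hp τ, Polynomial.map_id]

/-- `∏_{i ∈ SL2(Z)/Γ0(N)} (X - A_i)`, `A_i = A ∘ g_i⁻¹`, `g_i` a representative of the coset
`i`. -/
def normC (N : ℕ) [NeZero N] (A : RC N) : Polynomial (RC N) :=
  letI : Fintype (X N) := Fintype.ofFinite _
  ∏ i : X N, (Polynomial.X - Polynomial.C (compC N (Quotient.out i)⁻¹ A))

theorem normC_monic (A : RC N) : (normC N A).Monic := by
  letI : Fintype (X N) := Fintype.ofFinite _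
  unfold normC
  exact Polynomial.monic_prod_of_monic _ _ fun i _ => Polynomial.monic_X_sub_C _

theorem normC_natDegree (A : RC N) : (normC N A).natDegree = Nat.card (X N) := by
  letI : Fintype (X N) := Fintype.ofFinite _
  haveI : Nontrivial (RC N) := ⟨⟨0, 1, fun h => by
    have := congrArg (fun d : RC N => (d : ℍ → ℂ) UpperHalfPlane.I) h
    simp at this⟩⟩
  unfold normC
  rw [Polynomial.natDegree_prod_of_monic _ _ fun i _ => Polynomial.monic_X_sub_C _]
  simp [Nat.card_eq_fintype_card]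

/-- translation of the representative: `compC γ (A ∘ g_i⁻¹) = A ∘ g_j⁻¹`, `j = γ⁻¹ • i`. -/
theorem compC_out_inv (A : RC N)
    (hA : ∀ γ0 ∈ CongruenceSubgroup.Gamma0 N, compC N γ0 A = A) (γ : SL(2, ℤ)) (i : X N) :
    compC N γ (compC N (Quotient.out i)⁻¹ A) =
      compC N (Quotient.out (γ⁻¹ • i))⁻¹ A := by
  rw [← compC_mul]
  set g := Quotient.out i with hg
  set g' := Quotient.out (γ⁻¹ • i) with hg'
  have hmem : g'⁻¹ * (γ⁻¹ * g) ∈ CongruenceSubgroup.Gamma0 N := by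
    rw [← QuotientGroup.eq]
    have h1 : ((g' : SL(2, ℤ)) : X N) = γ⁻¹ • i := Quotient.out_eq' _
    have h2 : ((g : SL(2, ℤ)) : X N) = i := Quotient.out_eq' _
    rw [h1, ← h2]
    rfl
  have hinv := hA _ (inv_mem hmem)
  have e : g⁻¹ * γ = (g'⁻¹ * (γ⁻¹ * g))⁻¹ * g'⁻¹ := by group
  rw [e, compC_mul, hinv]

/-- the norm polynomial of a `Γ₀(N)`-invariant element is `SL(2,ℤ)`-invariant. -/
theorem normC_map_compC (A : RC N)
    (hA : ∀ γ0 ∈ CongruenceSubgroup.Gamma0 N, compC N γ0 A = A) (γ : SL(2, ℤ)) :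
    (normC N A).map (compC N γ) = normC N A := by
  classical
  letI : Fintype (X N) := Fintype.ofFinite _
  unfold normC
  rw [Polynomial.map_prod]
  refine Fintype.prod_equiv (MulAction.toPerm γ⁻¹) _ _ fun i => ?_
  rw [Polynomial.map_sub, Polynomial.map_C, Polynomial.map_X, compC_out_inv A hA γ i]
  rfl

/-- every coefficient of the norm polynomial is a polynomial in `jFun` over `ℂ` -/
theorem normC_coeff_eq_poly (A : RC N)
    (hA : ∀ γ0 ∈ CongruenceSubgroup.Gamma0 N, compC N γ0 A = A) (k : ℕ) :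
    ∃ p : Polynomial ℂ, ∀ τ : ℍ,
      ((normC N A).coeff k : ℍ → ℂ) τ = p.eval (jFun τ) := by
  refine exists_poly_of_invariantC _ fun γ => ?_
  rw [← Polynomial.coeff_map, normC_map_compC A hA γ]

/-- a `Γ₀(N)`-invariant element is a root of its norm polynomial. -/
theorem normC_eval_self (A : RC N)
    (hA : ∀ γ0 ∈ CongruenceSubgroup.Gamma0 N, compC N γ0 A = A) :
    (normC N A).eval A = 0 := by
  classical
  letI : Fintype (X N) := Fintype.ofFinite _
  unfold normC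
  rw [Polynomial.eval_prod]
  set i0 : X N := ((1 : SL(2, ℤ)) : X N) with hi0
  refine Finset.prod_eq_zero (Finset.mem_univ i0) ?_
  have hmem : (Quotient.out i0)⁻¹ ∈ CongruenceSubgroup.Gamma0 N := by
    have h1 : ((Quotient.out i0 : SL(2, ℤ)) : X N) = ((1 : SL(2, ℤ)) : X N) := Quotient.out_eq' _
    have h2 := QuotientGroup.eq.mp h1
    simpa using h2
  simp [hA _ hmem]

end inv

end Fermat.Agent.S29.InvC
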