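import Mathlib
import Fermat.Agent.S29.MerField
import Fermat.Agent.FF.ModDist

/-!
# S29 (item 90), R1 (c2) (helper3): the degree of `j(Nτ)` over `ℂ(j)` is at least `ψ(N)`

The `ψ(N) = [SL(2,ℤ) : Γ₀(N)]` functions `τ ↦ j(N g⁻¹ τ)`, `g ∈ SL(2,ℤ) ⧸ Γ₀(N)`, are pairwise
distinct roots of every polynomial `P(j, X)`, `P ∈ ℂ[Y][X]`, killing `j(Nτ)`.  Hence every
nonzero such `P` has `X`-degree at least `ψ(N)`.

* `card_le_natDegree_of_fun` : the statement for functions on `ℍ`;
* `card_le_natDegree_of_laurent` : the statement for the `q`-expansions in `ℂ((q))`;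
* `card_le_natDegree_of_aeval` : the statement for polynomials over `ℂ(J) ⊆ ℂ((q))`;
* `card_le_finrank` : `ψ(N) ≤ [ℂ(J)(J_N) : ℂ(J)]`.
-/

set_option autoImplicit false
set_option linter.unusedSectionVars false
set_option linter.style.haveILetI false

open UpperHalfPlane hiding I
open Function Complex Polynomial
open scoped Real MatrixGroups Manifold

noncomputable section

namespace Fermat.Agent.S29.InvCDeg

open Fermat.Agent.FF Fermat.Agent.S29.Mer

/-- `j` as a holomorphic function on `ℍ` -/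
def jHol : Hol := ⟨jFun, mdiff_jFun⟩

@[simp] theorem jHol_apply (τ : ℍ) : ((jHol : Hol) : ℍ → ℂ) τ = jFun τ := rfl

/-- `τ ↦ j(Nτ)` as a holomorphic function on `ℍ` -/
def jNHol (N : ℕ) [NeZero N] : Hol :=
  ⟨fun τ => jFun (scaleH N τ), mdiff_jFun_scale N (scaleH N) (fun _ => rfl)⟩

@[simp] theorem jNHol_apply (N : ℕ) [NeZero N] (τ : ℍ) :
    ((jNHol N : Hol) : ℍ → ℂ) τ = jFun (scaleH N τ) := rfl

theorem compH_apply (γ : SL(2, ℤ)) (h : Hol) (τ : ℍ) :
    ((compH γ h : Hol) : ℍ → ℂ) τ = (h : ℍ → ℂ) (γ • τ) := rfl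

theorem compH_jHol (γ : SL(2, ℤ)) : compH γ jHol = jHol := by
  apply Hol.ext
  intro τ
  show jFun (γ • τ) = jFun τ
  exact jFun_smul γ τ

/-- evaluation of a polynomial at `j`, pointwise -/
theorem aeval_jHol_apply (c : ℂ[X]) (τ : ℍ) :
    ((Polynomial.aeval jHol c : Hol) : ℍ → ℂ) τ = c.eval (jFun τ) := by
  induction c using Polynomial.induction_on' with
  | add p q hp hq =>
      rw [map_add, Polynomial.eval_add, ← hp, ← hq]
      rfl
  | monomial n a =>
      rw [Polynomial.aeval_monomial, Polynomial.eval_monomial]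
      rfl

/-- `j` is transcendental over `ℂ` -/
theorem aeval_jHol_injective : Function.Injective (Polynomial.aeval jHol : ℂ[X] →ₐ[ℂ] Hol) := by
  rw [injective_iff_map_eq_zero]
  intro c hc
  apply Polynomial.funext
  intro z
  obtain ⟨τ, rfl⟩ := jFun_surjective z
  rw [← aeval_jHol_apply, hc, Polynomial.eval_zero]
  rfl

/-- the evaluation homomorphism `ℂ[Y] → Hol`, `Y ↦ j` -/
def evJ : ℂ[X] →+* Hol := (Polynomial.aeval jHol : ℂ[X] →ₐ[ℂ] Hol).toRingHom

theorem evJ_apply (c : ℂ[X]) (τ : ℍ) : ((evJ c : Hol) : ℍ → ℂ) τ = c.eval (jFun τ) :=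
  aeval_jHol_apply c τ

theorem evJ_injective : Function.Injective evJ := aeval_jHol_injective

theorem compH_evJ (γ : SL(2, ℤ)) (c : ℂ[X]) : compH γ (evJ c) = evJ c := by
  apply Hol.ext
  intro τ
  rw [compH_apply, evJ_apply, evJ_apply, jFun_smul]

variable (N : ℕ) [NeZero N]

/-- the conjugates `τ ↦ j(N g⁻¹ τ)` of `j(Nτ)` -/
def conjJN (i : X N) : Hol := compH (Quotient.out i)⁻¹ (jNHol N)

theorem conjJN_injective : Function.Injective (conjJN N) := by
  intro i k hik
  have h1 : ∀ τ, jFun (scaleH N (((Quotient.out i)⁻¹ * Quotient.out k) • τ)) =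
      jFun (scaleH N τ) := by
    intro τ
    have h2 := congrArg (fun r : Hol => (r : ℍ → ℂ) (Quotient.out k • τ)) hik
    simp only [conjJN, compH_apply, jNHol_apply] at h2
    rw [← mul_smul, ← mul_smul, inv_mul_cancel, one_smul] at h2
    exact h2
  have h3 : (Quotient.out i)⁻¹ * Quotient.out k ∈ CongruenceSubgroup.Gamma0 N :=
    mem_Gamma0_of_jFun_scale_eq N _ (fun τ => scaleH N (((Quotient.out i)⁻¹ * Quotient.out k) • τ))
      (scaleH N) (fun τ => rfl) (fun τ => rfl) h1
  have h4 : (QuotientGroup.mk (Quotient.out i) : X N) = QuotientGroup.mk (Quotient.out k) :=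
    QuotientGroup.eq.mpr h3
  rwa [QuotientGroup.out_eq', QuotientGroup.out_eq'] at h4

/-- every conjugate is a root -/
theorem eval_conjJN_eq_zero (P : Polynomial ℂ[X])
    (hroot : (P.map evJ).eval (jNHol N) = 0) (i : X N) :
    (P.map evJ).eval (conjJN N i) = 0 := by
  have h1 := congrArg (compH (Quotient.out i)⁻¹) hroot
  rw [map_zero, ← Polynomial.eval₂_at_apply, Polynomial.eval₂_map] at h1
  rw [Polynomial.eval_map]
  have h2 : (compH (Quotient.out i)⁻¹).comp evJ = evJ :=
    RingHom.ext fun c => compH_evJ _ c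
  rw [h2] at h1
  exact h1

/-- **(c2), function form.**  A nonzero `P ∈ ℂ[Y][X]` with `P(j(τ), j(Nτ)) = 0` in the ring of
holomorphic functions has `X`-degree at least `ψ(N)`. -/
theorem card_le_natDegree_of_hol (P : Polynomial ℂ[X]) (hP : P ≠ 0)
    (hroot : (P.map evJ).eval (jNHol N) = 0) : Nat.card (X N) ≤ P.natDegree := by
  classical
  letI : Fintype (X N) := Fintype.ofFinite _
  have hQ : P.map evJ ≠ 0 := (Polynomial.map_ne_zero_iff evJ_injective).mpr hP
  have hcard : (Finset.univ.image (conjJN N)).card = Nat.card (X N) := by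
    rw [Finset.card_image_of_injective _ (conjJN_injective N), Finset.card_univ,
      Nat.card_eq_fintype_card]
  calc Nat.card (X N) = (Finset.univ.image (conjJN N)).card := hcard.symm
    _ ≤ (P.map evJ).natDegree := by
        apply Polynomial.card_le_degree_of_subset_roots
        intro x hx
        rw [Finset.mem_val, Finset.mem_image] at hx
        obtain ⟨i, -, rfl⟩ := hx
        exact (Polynomial.mem_roots hQ).mpr (eval_conjJN_eq_zero N P hroot i)
    _ ≤ P.natDegree := Polynomial.natDegree_map_le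

/-- **(c2), pointwise form.** -/
theorem card_le_natDegree_of_fun (P : Polynomial ℂ[X]) (hP : P ≠ 0)
    (hroot : ∀ τ : ℍ, (P.map (Polynomial.evalRingHom (jFun τ))).eval (jFun (scaleH N τ)) = 0) :
    Nat.card (X N) ≤ P.natDegree := by
  apply card_le_natDegree_of_hol N P hP
  apply Hol.ext
  intro τ
  have h1 : ∀ (Q : Polynomial ℂ[X]) (h : Hol), (((Q.map evJ).eval h : Hol) : ℍ → ℂ) τ =
      (Q.map (Polynomial.evalRingHom (jFun τ))).eval ((h : ℍ → ℂ) τ) := by
    intro Q h
    induction Q using Polynomial.induction_on' with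
    | add p q hp hq =>
        rw [Polynomial.map_add, Polynomial.eval_add, Polynomial.map_add, Polynomial.eval_add,
          ← hp, ← hq]
        rfl
    | monomial n a =>
        rw [Polynomial.map_monomial, Polynomial.eval_monomial, Polynomial.map_monomial,
          Polynomial.eval_monomial, Polynomial.coe_evalRingHom, ← evJ_apply]
        rfl
  rw [h1, jNHol_apply, hroot]
  rfl

end Fermat.Agent.S29.InvCDeg
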