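import Mathlib
import Fermat.Agent.S29.InvCDeg

/-!
# S29 (item 90), R1 (c2) (helper3): `ψ(N) ≤ [ℂ(j)(j_N) : ℂ(j)]` inside `MerH`

Field form of `InvCDeg`: in the field `MerH = Frac Hol` of meromorphic functions on `ℍ`, with
`jM = j` and `jNM N = j(N ·)`:

* `sigmaH_eq_of_mem` : `sigmaH γ` fixes `ℂ⟮jM⟯` pointwise;
* `card_le_natDegree_of_aeval` : a nonzero `Q ∈ ℂ⟮jM⟯[X]` killing `jNM N` has degree `≥ ψ(N)`;
* `card_le_finrank` : `IsAlgebraic ℂ⟮jM⟯ (jNM N) → Nat.card (X N) ≤ finrank ℂ⟮jM⟯ ℂ⟮jM⟯⟮jNM N⟯`.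
-/

set_option autoImplicit false
set_option linter.unusedSectionVars false
set_option linter.style.haveILetI false

open UpperHalfPlane hiding I
open Function Complex Polynomial IntermediateField
open scoped Real MatrixGroups Manifold

noncomputable section

namespace Fermat.Agent.S29.InvCDeg

open Fermat.Agent.FF Fermat.Agent.S29.Mer

/-- `j` as a meromorphic function -/
def jM : MerH := algebraMap Hol MerH jHol

/-- `τ ↦ j(Nτ)` as a meromorphic function -/
def jNM (N : ℕ) [NeZero N] : MerH := algebraMap Hol MerH (jNHol N)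

theorem sigmaH_jM (γ : SL(2, ℤ)) : sigmaH γ jM = jM := by
  rw [jM, sigmaH_algebraMap, compH_jHol]

/-- the subfield of `MerH` fixed by `sigmaH γ` -/
def fixedBy (γ : SL(2, ℤ)) : IntermediateField ℂ MerH where
  carrier := {x | sigmaH γ x = x}
  mul_mem' := fun {a b} ha hb => by
    show sigmaH γ (a * b) = a * b
    rw [RingHom.map_mul, ha, hb]
  add_mem' := fun {a b} ha hb => by
    show sigmaH γ (a + b) = a + b
    rw [RingHom.map_add, ha, hb]
  algebraMap_mem' := fun c => sigmaH_const γ c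
  inv_mem' := fun a ha => by
    show sigmaH γ a⁻¹ = a⁻¹
    have ha' : sigmaH γ a = a := ha
    rw [map_inv₀ (sigmaH γ) a, ha']

theorem mem_fixedBy (γ : SL(2, ℤ)) (x : MerH) : x ∈ fixedBy γ ↔ sigmaH γ x = x := Iff.rfl

/-- `sigmaH γ` fixes `ℂ(j)` pointwise -/
theorem sigmaH_eq_of_mem (γ : SL(2, ℤ)) {x : MerH} (hx : x ∈ ℂ⟮jM⟯) : sigmaH γ x = x := by
  have h1 : ℂ⟮jM⟯ ≤ fixedBy γ := by
    rw [adjoin_simple_le_iff]
    exact sigmaH_jM γ
  exact h1 hx

variable (N : ℕ) [NeZero N]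

/-- the conjugates of `jNM N` in `MerH` -/
def conjJNM (i : X N) : MerH := algebraMap Hol MerH (conjJN N i)

theorem conjJNM_injective : Function.Injective (conjJNM N) :=
  (IsFractionRing.injective Hol MerH).comp (conjJN_injective N)

theorem conjJNM_eq (i : X N) : conjJNM N i = sigmaH (Quotient.out i)⁻¹ (jNM N) := by
  rw [conjJNM, conjJN, jNM, sigmaH_algebraMap]

/-- every conjugate of `jNM N` is a root of every polynomial over `ℂ(j)` killing `jNM N` -/
theorem aeval_conjJNM_eq_zero (Q : Polynomial ℂ⟮jM⟯) (h : Polynomial.aeval (jNM N) Q = 0)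
    (i : X N) : Polynomial.aeval (conjJNM N i) Q = 0 := by
  have h1 := congrArg (sigmaH (Quotient.out i)⁻¹) h
  rw [RingHom.map_zero, Polynomial.aeval_def, Polynomial.hom_eval₂] at h1
  rw [Polynomial.aeval_def, conjJNM_eq]
  have h2 : (sigmaH (Quotient.out i)⁻¹).comp (algebraMap ℂ⟮jM⟯ MerH) = algebraMap ℂ⟮jM⟯ MerH :=
    RingHom.ext fun c => sigmaH_eq_of_mem _ c.2
  rw [h2] at h1
  exact h1

/-- **(c2), field form.**  A nonzero polynomial over `ℂ(j)` killing `j(Nτ)` has degree at least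
`ψ(N)`. -/
theorem card_le_natDegree_of_aeval (Q : Polynomial ℂ⟮jM⟯) (hQ : Q ≠ 0)
    (h : Polynomial.aeval (jNM N) Q = 0) : Nat.card (X N) ≤ Q.natDegree := by
  classical
  letI : Fintype (X N) := Fintype.ofFinite _
  have hQ' : Q.map (algebraMap ℂ⟮jM⟯ MerH) ≠ 0 :=
    (Polynomial.map_ne_zero_iff (algebraMap ℂ⟮jM⟯ MerH).injective).mpr hQ
  have hcard : (Finset.univ.image (conjJNM N)).card = Nat.card (X N) := by
    rw [Finset.card_image_of_injective _ (conjJNM_injective N), Finset.card_univ,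
      Nat.card_eq_fintype_card]
  calc Nat.card (X N) = (Finset.univ.image (conjJNM N)).card := hcard.symm
    _ ≤ (Q.map (algebraMap ℂ⟮jM⟯ MerH)).natDegree := by
        apply Polynomial.card_le_degree_of_subset_roots
        intro x hx
        rw [Finset.mem_val, Finset.mem_image] at hx
        obtain ⟨i, -, rfl⟩ := hx
        rw [Polynomial.mem_roots hQ', Polynomial.IsRoot, Polynomial.eval_map,
          ← Polynomial.aeval_def]
        exact aeval_conjJNM_eq_zero N Q h i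
    _ = Q.natDegree := Polynomial.natDegree_map _

/-- **(c2).**  `ψ(N) ≤ [ℂ(j)(j_N) : ℂ(j)]`. -/
theorem card_le_finrank (halg : IsAlgebraic ℂ⟮jM⟯ (jNM N)) :
    Nat.card (X N) ≤ Module.finrank ℂ⟮jM⟯ ℂ⟮jM⟯⟮jNM N⟯ := by
  have hint : IsIntegral ℂ⟮jM⟯ (jNM N) := halg.isIntegral
  rw [IntermediateField.adjoin.finrank hint]
  exact card_le_natDegree_of_aeval N _ (minpoly.ne_zero hint) (minpoly.aeval _ _)

/-- the same bound for the minimal polynomial -/
theorem card_le_natDegree_minpoly (halg : IsAlgebraic ℂ⟮jM⟯ (jNM N)) :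
    Nat.card (X N) ≤ (minpoly ℂ⟮jM⟯ (jNM N)).natDegree :=
  card_le_natDegree_of_aeval N _ (minpoly.ne_zero halg.isIntegral) (minpoly.aeval _ _)

end Fermat.Agent.S29.InvCDeg
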