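import Mathlib
import Fermat.Agent.S29.InvC
import Fermat.Agent.S29.InvCDegM

/-!
# S29 (item 90), piece R1(c3): `Γ₀(N)`-invariant modular functions lie in `ℂ(j, j_N)`

(`jM`, `jNM N : MerH` are the functions `j`, `j(N·)` of `InvCDegM`.)

* `invC N : Subring (RC N)` : the `Γ₀(N)`-invariant elements of `RC N`;
* `exists_poly_root` : every element of `invC N` is a root of a nonzero polynomial of degree
  `≤ ψ(N)` over `ℂ(j)`;
* `isAlgebraic_jNM` : `j_N` is algebraic over `ℂ(j)`;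
* `mem_of_invC` : if `ψ(N) ≤ [ℂ(j)(j_N) : ℂ(j)]` then every element of `invC N` lies in
  `ℂ(j)(j_N)`;
* `mem_adjoin_of_invC` : unconditionally, every `Γ₀(N)`-invariant element of `RC N` lies in
  `ℂ(j)(j_N)`; `mem_fieldC_of_invC`, `mem_fieldC_of_div` : the same for the subfield
  `fieldC N = ℂ(j, j_N)` of `MerH` and for quotients.
-/

set_option autoImplicit false
set_option linter.unusedSectionVars false
set_option linter.style.haveILetI false

open UpperHalfPlane hiding I
open Function Complex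
open scoped Real MatrixGroups Manifold IntermediateField Polynomial

noncomputable section

namespace Fermat.Agent.S29.InvC

open Fermat.Agent.FF Fermat.Agent.S29.Mer Fermat.Agent.S29.InvCDeg

variable (N : ℕ) [NeZero N]

/-- the `Γ₀(N)`-invariant elements of `RC N` -/
def invC : Subring (RC N) where
  carrier := {a | ∀ γ ∈ CongruenceSubgroup.Gamma0 N, compC N γ a = a}
  mul_mem' := fun ha hb γ hγ => by rw [map_mul, ha γ hγ, hb γ hγ]
  one_mem' := fun γ _ => map_one _
  add_mem' := fun ha hb γ hγ => by rw [map_add, ha γ hγ, hb γ hγ]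
  zero_mem' := fun γ _ => map_zero _
  neg_mem' := fun ha γ hγ => by rw [map_neg, ha γ hγ]

theorem mem_invC {a : RC N} :
    a ∈ invC N ↔ ∀ γ ∈ CongruenceSubgroup.Gamma0 N, compC N γ a = a := Iff.rfl

/-- `RC N → MerH` -/
def toMer : RC N →+* MerH := (algebraMap Hol MerH).comp (inclC N)

theorem toMer_apply (a : RC N) : toMer N a = algebraMap Hol MerH (inclC N a) := rfl

theorem toMer_injective : Function.Injective (toMer N) :=
  (IsFractionRing.injective Hol MerH).comp (inclC_injective N)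

/-- the image of the invariant ring in `MerH` -/
def invM : Subring MerH := (invC N).map (toMer N)

/-- constants in `RC N` -/
def constC : ℂ →+* RC N where
  toFun c := ⟨fun _ => c, mdifferentiable_const, fun _ => ⟨HahnSeries.C c, isExp_const N c⟩⟩
  map_one' := by apply RC.ext; intro τ; rfl
  map_mul' a b := by apply RC.ext; intro τ; rfl
  map_zero' := by apply RC.ext; intro τ; rfl
  map_add' a b := by apply RC.ext; intro τ; rfl

@[simp] theorem constC_apply (c : ℂ) (τ : ℍ) : ((constC N c : RC N) : ℍ → ℂ) τ = c := rfl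

/-- `j` in `RC N` -/
def jC : RC N := ofRN N (jR N 1 (one_dvd N))

theorem scaleH_one (τ : ℍ) : scaleH 1 τ = τ := by
  apply UpperHalfPlane.ext
  simp

@[simp] theorem jC_apply (τ : ℍ) : ((jC N : RC N) : ℍ → ℂ) τ = jFun τ := by
  show jFun (scaleH 1 τ) = jFun τ
  rw [scaleH_one]

/-- `j(N·)` in `RC N` -/
def jNC : RC N := ofRN N (jR N N dvd_rfl)

@[simp] theorem jNC_apply (τ : ℍ) : ((jNC N : RC N) : ℍ → ℂ) τ = jFun (scaleH N τ) := rfl

theorem inclC_jC : inclC N (jC N) = jHol := by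
  apply Hol.ext; intro τ; simp

theorem inclC_jNC : inclC N (jNC N) = jNHol N := by
  apply Hol.ext; intro τ; simp

theorem toMer_jC : toMer N (jC N) = jM := by
  rw [toMer_apply, inclC_jC]; rfl

theorem toMer_jNC : toMer N (jNC N) = jNM N := by
  rw [toMer_apply, inclC_jNC]; rfl

theorem jNC_mem_invC : jNC N ∈ invC N := by
  intro γ hγ
  apply RC.ext
  intro τ
  show jFun (scaleH N (γ • τ)) = jFun (scaleH N τ)
  exact jFun_scale_eq_of_mem_Gamma0 N N dvd_rfl γ hγ (fun τ => scaleH N (γ • τ)) (scaleH N)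
    (fun τ => rfl) (fun τ => rfl) τ

theorem jNM_mem_invM : jNM N ∈ invM N :=
  ⟨jNC N, jNC_mem_invC N, toMer_jNC N⟩

/-- `p ↦ p(j)` as a ring homomorphism `ℂ[X] → RC N` -/
def polyC : ℂ[X] →+* RC N := Polynomial.eval₂RingHom (constC N) (jC N)

theorem polyC_apply (p : ℂ[X]) (τ : ℍ) : ((polyC N p : RC N) : ℍ → ℂ) τ = p.eval (jFun τ) := by
  induction p using Polynomial.induction_on' with
  | add p q hp hq =>
      rw [map_add, Polynomial.eval_add, ← hp, ← hq]
      rfl
  | monomial n a =>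
      show ((Polynomial.eval₂ (constC N) (jC N) (Polynomial.monomial n a) : RC N) : ℍ → ℂ) τ = _
      rw [Polynomial.eval₂_monomial, Polynomial.eval_monomial]
      show a * ((jC N ^ n : RC N) : ℍ → ℂ) τ = _
      congr 1
      show (((jC N : RC N) : ℍ → ℂ) ^ n) τ = _
      rw [Pi.pow_apply, jC_apply]

theorem inclC_polyC (p : ℂ[X]) : inclC N (polyC N p) = evJ p := by
  apply Hol.ext
  intro τ
  rw [inclC_apply, polyC_apply, evJ_apply]

theorem polyC_mem_invC (p : ℂ[X]) : polyC N p ∈ invC N := by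
  intro γ _
  apply RC.ext
  intro τ
  rw [compC_apply, polyC_apply, polyC_apply, jFun_smul]

/-- `p ↦ p(j)` as a ring homomorphism `ℂ[X] → ℂ(j)` -/
def phiJ : ℂ[X] →+* ↥(ℂ⟮jM⟯) :=
  (Polynomial.aeval (IntermediateField.AdjoinSimple.gen ℂ jM)).toRingHom

theorem coe_phiJ (p : ℂ[X]) : ((phiJ p : ↥(ℂ⟮jM⟯)) : MerH) = Polynomial.aeval jM p := by
  show ((Polynomial.aeval (IntermediateField.AdjoinSimple.gen ℂ jM) p : ↥(ℂ⟮jM⟯)) : MerH) = _
  rw [← IntermediateField.aeval_coe, IntermediateField.AdjoinSimple.coe_gen]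

theorem aeval_jM (p : ℂ[X]) : Polynomial.aeval jM p = algebraMap Hol MerH (evJ p) := by
  show Polynomial.aeval (algebraMap Hol MerH jHol) p = algebraMap Hol MerH (Polynomial.aeval jHol p)
  rw [Polynomial.aeval_algebraMap_apply]

theorem coe_phiJ' (p : ℂ[X]) : ((phiJ p : ↥(ℂ⟮jM⟯)) : MerH) = toMer N (polyC N p) := by
  rw [coe_phiJ, aeval_jM, toMer_apply, inclC_polyC]

theorem algebraMap_comp_phiJ :
    (algebraMap ↥(ℂ⟮jM⟯) MerH).comp phiJ = (toMer N).comp (polyC N) := by
  refine RingHom.ext fun p => ?_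
  exact coe_phiJ' N p

theorem phiJ_frac (e : ↥(ℂ⟮jM⟯)) : ∃ a b : ℂ[X], phiJ b ≠ 0 ∧ e * phiJ b = phiJ a := by
  obtain ⟨r, s, hrs⟩ := (IntermediateField.mem_adjoin_simple_iff ℂ (e : MerH)).mp e.2
  by_cases hs : Polynomial.aeval jM s = 0
  · refine ⟨0, 1, by simp, ?_⟩
    apply Subtype.ext
    simp [hrs, hs]
  · refine ⟨r, s, fun h0 => hs ?_, ?_⟩
    · rw [← coe_phiJ, h0]; rfl
    · apply Subtype.ext
      show (e : MerH) * ((phiJ s : ↥(ℂ⟮jM⟯)) : MerH) = ((phiJ r : ↥(ℂ⟮jM⟯)) : MerH)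
      rw [coe_phiJ, coe_phiJ, hrs, div_mul_cancel₀ _ hs]

/-- every `Γ₀(N)`-invariant element of `RC N` is a root of a nonzero polynomial of degree
`≤ ψ(N)` over `ℂ(j)`. -/
theorem exists_poly_root (A : RC N) (hA : A ∈ invC N) :
    ∃ P : Polynomial ↥(ℂ⟮jM⟯), P ≠ 0 ∧ P.natDegree ≤ Nat.card (X N) ∧
      Polynomial.aeval (toMer N A) P = 0 := by
  classical
  set n := Nat.card (X N) with hn
  choose p hp using fun k => normC_coeff_eq_poly A hA k
  set P₀ : Polynomial ℂ[X] := ∑ k ∈ Finset.range (n + 1), Polynomial.monomial k (p k) with hP₀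
  have hcoeff : ∀ k, P₀.coeff k = if k ∈ Finset.range (n + 1) then p k else 0 := by
    intro k
    rw [hP₀, Polynomial.finsetSum_coeff]
    simp only [Polynomial.coeff_monomial]
    rw [Finset.sum_ite_eq' (Finset.range (n + 1)) k]
  have hmap : P₀.map (polyC N) = normC N A := by
    ext1 k
    rw [Polynomial.coeff_map, hcoeff]
    split_ifs with hk
    · apply RC.ext
      intro τ
      rw [polyC_apply, hp k τ]
    · rw [map_zero]
      symm
      apply Polynomial.coeff_eq_zero_of_natDegree_lt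
      rw [normC_natDegree]
      rw [Finset.mem_range] at hk
      omega
  have hdeg : P₀.natDegree ≤ n := by
    rw [Polynomial.natDegree_le_iff_coeff_eq_zero]
    intro k hk
    rw [hcoeff, if_neg]
    rw [Finset.mem_range]
    omega
  refine ⟨P₀.map phiJ, ?_, (Polynomial.natDegree_map_le).trans hdeg, ?_⟩
  · intro h0
    have h1 : (P₀.map phiJ).coeff n = 0 := by rw [h0]; rfl
    rw [Polynomial.coeff_map] at h1
    have h2 : toMer N (polyC N (P₀.coeff n)) = 0 := by
      rw [← coe_phiJ' N, h1]; rfl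
    have h3 : polyC N (P₀.coeff n) = 0 := toMer_injective N (by rw [h2, map_zero])
    have h4 : (normC N A).coeff n = 1 := by
      have := (normC_monic (N := N) A).coeff_natDegree
      rwa [normC_natDegree] at this
    rw [← hmap, Polynomial.coeff_map, h3] at h4
    have := congrArg (fun d : RC N => (d : ℍ → ℂ) UpperHalfPlane.I) h4
    simp at this
  · rw [Polynomial.aeval_def, Polynomial.eval₂_map, algebraMap_comp_phiJ N,
      ← Polynomial.eval₂_map, hmap, Polynomial.eval₂_at_apply, normC_eval_self A hA, map_zero]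

/-- `j(N·)` is algebraic over `ℂ(j)`. -/
theorem isAlgebraic_jNM : IsAlgebraic ↥(ℂ⟮jM⟯) (jNM N) := by
  obtain ⟨P, hP0, -, hP⟩ := exists_poly_root N (jNC N) (jNC_mem_invC N)
  rw [toMer_jNC] at hP
  exact ⟨P, hP0, hP⟩

/-- **R1(c)**, conditional on the degree bound: every `Γ₀(N)`-invariant element of `RC N` lies
in `ℂ(j)(j_N)`. -/
theorem mem_of_invC
    (hdeg : Nat.card (X N) ≤ Module.finrank ↥(ℂ⟮jM⟯) ↥((ℂ⟮jM⟯)⟮jNM N⟯))
    (A : RC N) (hA : A ∈ invC N) : toMer N A ∈ (ℂ⟮jM⟯)⟮jNM N⟯ := by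
  refine InvAlg.mem_adjoin_simple_of_bounded phiJ phiJ_frac (invM N) (fun r => ?_)
    (Nat.card (X N)) (fun s hs => ?_) (jNM N) (jNM_mem_invM N) hdeg (toMer N A) ⟨A, hA, rfl⟩
  · refine ⟨polyC N r, polyC_mem_invC N r, ?_⟩
    exact (coe_phiJ' N r).symm
  · obtain ⟨B, hB, rfl⟩ := hs
    exact exists_poly_root N B hB

/-- **R1(c)**: every `Γ₀(N)`-invariant element of `RC N` lies in `ℂ(j)(j_N)`. -/
theorem mem_adjoin_of_invC (A : RC N) (hA : A ∈ invC N) : toMer N A ∈ (ℂ⟮jM⟯)⟮jNM N⟯ :=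
  mem_of_invC N (card_le_finrank N (isAlgebraic_jNM N)) A hA

/-- the field `ℂ(j, j_N)` of modular functions of level `Γ₀(N)` over `ℂ`, inside `MerH` -/
def fieldC : IntermediateField ℂ MerH := IntermediateField.adjoin ℂ {jM, jNM N}

theorem jM_mem_fieldC : jM ∈ fieldC N :=
  IntermediateField.subset_adjoin ℂ _ (Set.mem_insert _ _)

theorem jNM_mem_fieldC : jNM N ∈ fieldC N :=
  IntermediateField.subset_adjoin ℂ _ (Set.mem_insert_of_mem _ rfl)

theorem adjoin_le_fieldC :
    ((ℂ⟮jM⟯)⟮jNM N⟯).restrictScalars ℂ ≤ fieldC N := by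
  intro x hx
  have hx' : x ∈ (ℂ⟮jM⟯)⟮jNM N⟯ := hx
  have h1 : ℂ⟮jM⟯ ≤ fieldC N := by
    rw [IntermediateField.adjoin_simple_le_iff]
    exact jM_mem_fieldC N
  -- the intermediate field over `ℂ(j)` with carrier `fieldC N`
  let G : IntermediateField ↥(ℂ⟮jM⟯) MerH :=
    { (fieldC N).toSubfield with
      algebraMap_mem' := fun c => h1 c.2 }
  have h2 : (ℂ⟮jM⟯)⟮jNM N⟯ ≤ G := by
    rw [IntermediateField.adjoin_simple_le_iff]
    exact jNM_mem_fieldC N
  exact h2 hx'

/-- **R1(c)**, subfield form: every `Γ₀(N)`-invariant element of `RC N` lies in `ℂ(j, j_N)`. -/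
theorem mem_fieldC_of_invC (A : RC N) (hA : A ∈ invC N) : toMer N A ∈ fieldC N :=
  adjoin_le_fieldC N (mem_adjoin_of_invC N A hA)

/-- **R1(c)**, quotient form. -/
theorem mem_fieldC_of_div (t : MerH) (a b : RC N) (ha : a ∈ invC N) (hb : b ∈ invC N)
    (hb0 : b ≠ 0) (h : t * toMer N b = toMer N a) : t ∈ fieldC N := by
  have hb' : toMer N b ≠ 0 := fun h0 => hb0 (toMer_injective N (by rw [h0, map_zero]))
  have : t = toMer N a / toMer N b := by
    rw [eq_div_iff hb', h]
  rw [this]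
  exact div_mem (mem_fieldC_of_invC N a ha) (mem_fieldC_of_invC N b hb)

/-- **R1(c)**, function form: a holomorphic `Γ₀(N)`-invariant function with Laurent expansions in
`exp(2πiτ/N)` at all cusps lies in `ℂ(j, j_N)`. -/
theorem mem_fieldC_of_hol (h : Hol)
    (hinv : ∀ γ ∈ CongruenceSubgroup.Gamma0 N, compH γ h = h)
    (hexp : ∀ γ : SL(2, ℤ), ∃ x : LaurentSeries ℂ, IsExp N x (fun τ => (h : ℍ → ℂ) (γ • τ))) :
    algebraMap Hol MerH h ∈ fieldC N := by
  have hA : mkC N h hexp ∈ invC N := by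
    intro γ hγ
    apply inclC_injective N
    rw [inclC_compC, inclC_mkC, hinv γ hγ]
  have := mem_fieldC_of_invC N (mkC N h hexp) hA
  rwa [toMer_apply, inclC_mkC] at this

end Fermat.Agent.S29.InvC
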