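import Mathlib
import Fermat.Agent.S29.InvCField
import Fermat.Agent.FF.ModField
import Fermat.Agent.FF.ModCusp

/-!
# S29 (item 90), W1: the field `LC N = Frac (modRingC N)` and its order functions

Port of `FF/ModField.lean` from `ℚ̄`-rational expansions to complex expansions:
`LC N`, `sigmaC N γ`, `ordFinC N τ₀`, `expInfC N`, `ordCuspC N`, `ordFinC_sigmaC`,
`ordCuspC_sigmaC_T`, `dvd_ordCuspC_of_invariant`, elliptic divisibility.
-/

set_option autoImplicit false
set_option linter.unusedSectionVars false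
set_option linter.style.haveILetI false

open UpperHalfPlane hiding I
open Function Complex
open scoped Real MatrixGroups Manifold

noncomputable section

namespace Fermat.Agent.S29.MFC

open Fermat.Agent.FF Fermat.Agent.S29.Mer Fermat.Agent.S29.InvC

section ring

variable (N : ℕ) [NeZero N]

instance instNontrivialRC : Nontrivial (RC N) := ⟨⟨0, 1, fun h => by
  have := congrArg (fun d : RC N => (d : ℍ → ℂ) UpperHalfPlane.I) h
  simp at this⟩⟩

/-- evaluation `RC N →+* (ℍ → ℂ)` -/
def evC : RC N →+* (ℍ → ℂ) := (modRingC N).subtype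

theorem evC_apply (h : RC N) : evC N h = (h : ℍ → ℂ) := rfl

theorem evC_injective : Function.Injective (evC N) := Subtype.val_injective

instance instIsDomainRC : IsDomain (RC N) :=
  isDomain_of_ev (evC N) (evC_injective N) (fun r => r.mdiff)

instance instAlgebraRC : Algebra ℂ (RC N) := (constC N).toAlgebra

theorem algebraMap_RC_apply (c : ℂ) (τ : ℍ) :
    ((algebraMap ℂ (RC N) c : RC N) : ℍ → ℂ) τ = c := rfl

theorem evC_const (c : ℂ) : ∃ z : ℂ, evC N (algebraMap ℂ (RC N) c) = fun _ => z := ⟨c, rfl⟩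

theorem compC_algebraMap (γ : SL(2, ℤ)) (c : ℂ) :
    compC N γ (algebraMap ℂ (RC N) c) = algebraMap ℂ (RC N) c := by
  apply RC.ext; intro τ; rfl

theorem compC_injective (γ : SL(2, ℤ)) : Function.Injective (compC N γ) := by
  intro a b hab
  have h1 := congrArg (compC N γ⁻¹) hab
  rwa [← compC_mul, ← compC_mul, mul_inv_cancel, compC_one, compC_one] at h1

/-- the fraction field of `RC N` -/
abbrev LC : Type := FractionRing (RC N)

/-- the endomorphism of `LC N` induced by composition with `γ` -/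
def sigmaC (γ : SL(2, ℤ)) : LC N →+* LC N :=
  IsFractionRing.lift (g := (algebraMap (RC N) (LC N)).comp (compC N γ))
    ((IsFractionRing.injective (RC N) (LC N)).comp (compC_injective N γ))

variable {N}

theorem sigmaC_algebraMap (γ : SL(2, ℤ)) (r : RC N) :
    sigmaC N γ (algebraMap (RC N) (LC N) r) = algebraMap (RC N) (LC N) (compC N γ r) := by
  simp [sigmaC]

theorem sigmaC_one (x : LC N) : sigmaC N 1 x = x := by
  obtain ⟨a, b, hb, rfl⟩ := IsFractionRing.div_surjective (A := RC N) x
  rw [map_div₀, sigmaC_algebraMap, sigmaC_algebraMap, compC_one, compC_one]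

theorem sigmaC_mul (γ δ : SL(2, ℤ)) (x : LC N) :
    sigmaC N (γ * δ) x = sigmaC N δ (sigmaC N γ x) := by
  obtain ⟨a, b, hb, rfl⟩ := IsFractionRing.div_surjective (A := RC N) x
  simp only [map_div₀, sigmaC_algebraMap, compC_mul]

theorem sigmaC_const (γ : SL(2, ℤ)) (c : ℂ) :
    sigmaC N γ (algebraMap ℂ (LC N) c) = algebraMap ℂ (LC N) c := by
  rw [IsScalarTower.algebraMap_apply ℂ (RC N) (LC N), sigmaC_algebraMap, compC_algebraMap]

end ring

section orders

variable (N : ℕ) [NeZero N]

/-- the order at a point `τ₀ ∈ ℍ`, on `LC N` -/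
def ordFinC (τ₀ : ℍ) : OrdFn ℂ (LC N) :=
  ordFrac (K := ℂ) (L := LC N) (evC N) (evC_injective N) (fun r => r.mdiff) (evC_const N) τ₀

variable {N}

theorem ordFinC_algebraMap (τ₀ : ℍ) {r : RC N} (hr : r ≠ 0) :
    ordFinC N τ₀ (algebraMap (RC N) (LC N) r) = ordAt τ₀ (r : ℍ → ℂ) :=
  ordFrac_algebraMap _ _ _ _ τ₀ hr

theorem ordFinC_sigmaC (γ : SL(2, ℤ)) (τ₀ : ℍ) (x : LC N) :
    ordFinC N τ₀ (sigmaC N γ x) = ordFinC N (γ • τ₀) x := by
  have hγ : 0 < ((γ : GL (Fin 2) ℝ)).det.val := by simp
  exact ordFrac_comp (K := ℂ) (evC N) (evC_injective N) (fun r => r.mdiff) (evC_const N)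
    hγ (sigmaC N γ) (compC N γ) (sigmaC_algebraMap γ) (fun r τ => rfl) τ₀ x

/-- elliptic divisibility at a fixed point of `S` -/
theorem two_dvd_ordFinC {τ₀ : ℍ} (hτ₀ : ModularGroup.S • τ₀ = τ₀) {x : LC N} (hx : x ≠ 0)
    (hfix : sigmaC N ModularGroup.S x = x) : (2 : ℤ) ∣ ordFinC N τ₀ x :=
  ordFrac_elliptic_S (K := ℂ) (evC N) (evC_injective N) (fun r => r.mdiff)
    (evC_const N) (sigmaC N ModularGroup.S) (compC N ModularGroup.S) (sigmaC_algebraMap _)
    (fun r τ => rfl) hτ₀ hx hfix

/-- elliptic divisibility at a fixed point of `S * T` -/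
theorem three_dvd_ordFinC {τ₀ : ℍ} (hτ₀ : (ModularGroup.S * ModularGroup.T) • τ₀ = τ₀)
    {x : LC N} (hx : x ≠ 0)
    (hfix : sigmaC N (ModularGroup.S * ModularGroup.T) x = x) : (3 : ℤ) ∣ ordFinC N τ₀ x :=
  ordFrac_elliptic_ST (K := ℂ) (evC N) (evC_injective N) (fun r => r.mdiff)
    (evC_const N) (sigmaC N (ModularGroup.S * ModularGroup.T))
    (compC N (ModularGroup.S * ModularGroup.T)) (sigmaC_algebraMap _)
    (fun r τ => rfl) hτ₀ hx hfix

end orders

section expansion

variable (N : ℕ) [NeZero N]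

/-- the expansion at `∞` of an element of `RC N` -/
def expInfCFun (h : RC N) : LaurentSeries ℂ := (h.exists_exp 1).choose

theorem isExp_expInfCFun (h : RC N) : IsExp N (expInfCFun N h) (h : ℍ → ℂ) := by
  have := (h.exists_exp 1).choose_spec
  exact this.congr fun τ => by rw [one_smul]

variable {N} in
theorem expInfCFun_eq {h : RC N} {x : LaurentSeries ℂ} (hx : IsExp N x (h : ℍ → ℂ)) :
    expInfCFun N h = x :=
  IsExp.unique (Nat.pos_of_ne_zero (NeZero.ne N)) (isExp_expInfCFun N h) hx

/-- the expansion at `∞`, as a ring homomorphism -/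
def expInfC : RC N →+* LaurentSeries ℂ where
  toFun := expInfCFun N
  map_one' := expInfCFun_eq (isExp_one N)
  map_mul' a b := expInfCFun_eq (IsExp.mul (isExp_expInfCFun N a) (isExp_expInfCFun N b))
  map_zero' := expInfCFun_eq (isExp_zero N)
  map_add' a b := expInfCFun_eq (IsExp.add (isExp_expInfCFun N a) (isExp_expInfCFun N b))

theorem isExp_expInfC (h : RC N) : IsExp N (expInfC N h) (h : ℍ → ℂ) := isExp_expInfCFun N h

variable {N} in
theorem expInfC_eq {h : RC N} {x : LaurentSeries ℂ} (hx : IsExp N x (h : ℍ → ℂ)) :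
    expInfC N h = x := expInfCFun_eq hx

theorem expInfC_injective : Function.Injective (expInfC N) := by
  intro a b hab
  apply RC.ext
  intro τ
  have h1 := isExp_expInfC N a τ
  have h2 := isExp_expInfC N b τ
  rw [hab] at h1
  exact h1.unique h2

theorem expInfC_algebraMap (c : ℂ) : expInfC N (algebraMap ℂ (RC N) c) = HahnSeries.C c :=
  expInfC_eq (isExp_const N c)

/-- the order at the cusp `∞` (in the parameter `exp (2πiτ/N)`), on `LC N` -/
def ordCuspC : OrdFn ℂ (LC N) :=
  OrdFn.ofOrd (fun r : RC N => (expInfC N r).order)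
    (by simp)
    (fun a b ha hb => by
      rw [map_mul]
      exact HahnSeries.order_mul
        (fun h => ha (expInfC_injective N (by rw [h, map_zero])))
        (fun h => hb (expInfC_injective N (by rw [h, map_zero]))))
    (fun a b _ _ hab => by
      rw [map_add]
      exact HahnSeries.min_order_le_order_add
        (fun h => hab (expInfC_injective N (by rw [map_add, h, map_zero]))))
    (fun c _ => by
      show (expInfC N (algebraMap ℂ (RC N) c)).order = 0
      rw [expInfC_algebraMap]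
      exact HahnSeries.order_C)

variable {N}

theorem ordCuspC_algebraMap {r : RC N} (hr : r ≠ 0) :
    ordCuspC N (algebraMap (RC N) (LC N) r) = (expInfC N r).order :=
  OrdFn.ofOrd_algebraMap _ _ _ _ _ hr

theorem ordCuspC_div {a b : RC N} (ha : a ≠ 0) (hb : b ≠ 0) :
    ordCuspC N (algebraMap (RC N) (LC N) a / algebraMap (RC N) (LC N) b) =
      (expInfC N a).order - (expInfC N b).order :=
  OrdFn.ofOrd_div _ _ _ _ _ ha hb

/-- the order at `∞` of `r ∘ T^k` equals that of `r` -/
theorem order_expInfC_compC_T (k : ℤ) (r : RC N) :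
    (expInfC N (compC N (ModularGroup.T ^ k) r)).order = (expInfC N r).order := by
  have h1 : IsExp N (expInfC N r) (r : ℍ → ℂ) := isExp_expInfC N r
  have h2 := h1.comp_affine 1 1 k (fun τ => ModularGroup.T ^ k • τ) (fun τ => by
    rw [ModularGroup.coe_T_zpow_smul_eq]; simp)
  have h3 : IsExp N (expInfC N (compC N (ModularGroup.T ^ k) r))
      (fun τ => (r : ℍ → ℂ) (ModularGroup.T ^ k • τ)) := isExp_expInfC N _
  rw [mul_one, ModularCurve.qExpand_one_apply] at h2
  have h4 := IsExp.unique (Nat.pos_of_ne_zero (NeZero.ne N)) h3 h2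
  rw [h4, order_dmul]
  intro n
  exact zpow_ne_zero _ (Complex.exp_ne_zero _)

theorem ordCuspC_sigmaC_T (k : ℤ) (x : LC N) :
    ordCuspC N (sigmaC N (ModularGroup.T ^ k) x) = ordCuspC N x := by
  by_cases hx : x = 0
  · rw [hx, map_zero]
  obtain ⟨a, b, hb, rfl⟩ := IsFractionRing.div_surjective (A := RC N) x
  have hb0 : b ≠ 0 := nonZeroDivisors.ne_zero hb
  have ha0 : a ≠ 0 := by
    rintro rfl
    exact hx (by simp)
  have ha' : compC N (ModularGroup.T ^ k) a ≠ 0 := fun h =>
    ha0 (compC_injective N _ (by rw [h, map_zero]))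
  have hb' : compC N (ModularGroup.T ^ k) b ≠ 0 := fun h =>
    hb0 (compC_injective N _ (by rw [h, map_zero]))
  rw [map_div₀, sigmaC_algebraMap, sigmaC_algebraMap, ordCuspC_div ha' hb', ordCuspC_div ha0 hb0,
    order_expInfC_compC_T, order_expInfC_compC_T]

/-- divisibility of the order at `∞` for `T^k`-invariant elements, `N = k * r` -/
theorem dvd_ordCuspC_of_invariant {k r : ℕ} (hk : 0 < k) (hkr : N = k * r) {y : LC N}
    (hy : y ≠ 0) (hfix : sigmaC N (ModularGroup.T ^ k) y = y) : (r : ℤ) ∣ ordCuspC N y := by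
  have hN : 0 < N := Nat.pos_of_ne_zero (NeZero.ne N)
  obtain ⟨A, B, hB, rfl⟩ := IsFractionRing.div_surjective (A := RC N) y
  have hB0 : B ≠ 0 := nonZeroDivisors.ne_zero hB
  have hA0 : A ≠ 0 := by
    rintro rfl
    exact hy (by simp)
  have hinv := ev_invariant_of_fixed
    (γ := ((ModularGroup.T ^ k : SL(2, ℤ)) : GL (Fin 2) ℝ)) (evC N)
    (sigmaC N (ModularGroup.T ^ k)) (compC N (ModularGroup.T ^ k)) (sigmaC_algebraMap _)
    (fun r τ => rfl) hB0 hfix
  have hxA : expInfC N A ≠ 0 := fun h =>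
    hA0 (expInfC_injective N (by rw [h, map_zero]))
  have hxB : expInfC N B ≠ 0 := fun h =>
    hB0 (expInfC_injective N (by rw [h, map_zero]))
  have key := dvd_order_sub_of_translate_invariant hN k (isExp_expInfC N A) (isExp_expInfC N B)
    hxA hxB (fun τ => (ModularGroup.T ^ k : SL(2, ℤ)) • τ) (fun τ => by
      have := ModularGroup.coe_T_zpow_smul_eq (z := τ) (n := (k : ℤ))
      rw [zpow_natCast] at this
      rw [this]
      push_cast
      ring) hinv
  rw [ordCuspC_div hA0 hB0]
  have hk' : (k : ℤ) ≠ 0 := by exact_mod_cast hk.ne'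
  have hN' : (N : ℤ) = (k : ℤ) * r := by exact_mod_cast hkr
  rw [hN'] at key
  exact (mul_dvd_mul_iff_left hk').mp key

end expansion

end Fermat.Agent.S29.MFC
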