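import Mathlib
import Fermat.Agent.S29.ModFieldC
import Fermat.Agent.FF.ModDeg

/-!
# S29 (item 90), W1 over `ℂ`, piece F3 (helper9): the realisation `PhiC : ℂ(j, j_N) → Frac (RC N)`

* `merC N : LC N →+* MerH` (injective), `merC_sigmaC`, `merC_const`;
* `PhiC N : ↥(fieldC N) →+* LC N` with `merC_PhiC : merC N (PhiC N f) = f`;
  `PhiC_const`, `PhiC_xC`, `PhiC_invariant`;
* `conjC N i = sigmaC N (g_i)⁻¹ ∘ PhiC N`;
* `hcoefC` : the characteristic polynomial `∏_i (X - conjC N i f)` has coefficients in `ℂ(j)`.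
-/

set_option autoImplicit false
set_option linter.unusedSectionVars false
set_option linter.style.haveILetI false

open UpperHalfPlane hiding I
open Function Complex
open scoped Real MatrixGroups Manifold IntermediateField Polynomial

noncomputable section

namespace Fermat.Agent.S29.W1R

open Fermat.Agent.FF Fermat.Agent.S29.Mer Fermat.Agent.S29.InvC Fermat.Agent.S29.InvCDeg
  Fermat.Agent.S29.MFC

variable (N : ℕ) [NeZero N]

/-- `Frac (RC N) → MerH` -/
def merC : LC N →+* MerH := IsFractionRing.lift (toMer_injective N)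

variable {N}

theorem merC_algebraMap (r : RC N) : merC N (algebraMap (RC N) (LC N) r) = toMer N r :=
  IsFractionRing.lift_algebraMap _ _

theorem merC_injective : Function.Injective (merC N) := (merC N).injective

theorem toMer_constC (c : ℂ) : toMer N (constC N c) = algebraMap ℂ MerH c := by
  rw [toMer_apply, IsScalarTower.algebraMap_apply ℂ Hol MerH]
  congr 1

theorem merC_const (c : ℂ) : merC N (algebraMap ℂ (LC N) c) = algebraMap ℂ MerH c := by
  rw [IsScalarTower.algebraMap_apply ℂ (RC N) (LC N), merC_algebraMap]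
  exact toMer_constC c

theorem toMer_compC (γ : SL(2, ℤ)) (r : RC N) : toMer N (compC N γ r) = sigmaH γ (toMer N r) := by
  rw [toMer_apply, toMer_apply, sigmaH_algebraMap, inclC_compC]

theorem merC_sigmaC (γ : SL(2, ℤ)) (y : LC N) : merC N (sigmaC N γ y) = sigmaH γ (merC N y) := by
  obtain ⟨a, b, hb, rfl⟩ := IsFractionRing.div_surjective (A := RC N) y
  rw [map_div₀, sigmaC_algebraMap, sigmaC_algebraMap, map_div₀, merC_algebraMap, merC_algebraMap,
    map_div₀, map_div₀, merC_algebraMap, merC_algebraMap, toMer_compC, toMer_compC]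

variable (N)

/-- `merC` as a `ℂ`-algebra homomorphism -/
def merCAlg : LC N →ₐ[ℂ] MerH :=
  { merC N with commutes' := merC_const }

theorem merCAlg_apply (y : LC N) : merCAlg N y = merC N y := rfl

theorem fieldC_le_fieldRange : fieldC N ≤ (merCAlg N).fieldRange := by
  unfold fieldC
  rw [IntermediateField.adjoin_le_iff]
  rintro x (rfl | rfl)
  · refine ⟨algebraMap (RC N) (LC N) (jC N), ?_⟩
    show merC N _ = _
    rw [merC_algebraMap, toMer_jC]
  · refine ⟨algebraMap (RC N) (LC N) (jNC N), ?_⟩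
    show merC N _ = _
    rw [merC_algebraMap, toMer_jNC]

theorem exists_merC_eq (f : ↥(fieldC N)) : ∃ y : LC N, merC N y = (f : MerH) :=
  fieldC_le_fieldRange N f.2

/-- the realisation of `ℂ(j, j_N)` in `Frac (RC N)`, as a function -/
def PhiCFun (f : ↥(fieldC N)) : LC N := (exists_merC_eq N f).choose

theorem merC_PhiCFun (f : ↥(fieldC N)) : merC N (PhiCFun N f) = (f : MerH) :=
  (exists_merC_eq N f).choose_spec

/-- **the realisation** `Φ : ℂ(j, j_N) → Frac (RC N)` -/
def PhiC : ↥(fieldC N) →+* LC N where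
  toFun := PhiCFun N
  map_one' := merC_injective (by rw [merC_PhiCFun, RingHom.map_one]; rfl)
  map_mul' a b := merC_injective (by
    rw [merC_PhiCFun, RingHom.map_mul, merC_PhiCFun, merC_PhiCFun]; rfl)
  map_zero' := merC_injective (by rw [merC_PhiCFun, RingHom.map_zero]; rfl)
  map_add' a b := merC_injective (by
    rw [merC_PhiCFun, RingHom.map_add, merC_PhiCFun, merC_PhiCFun]; rfl)

variable {N}

theorem merC_PhiC (f : ↥(fieldC N)) : merC N (PhiC N f) = (f : MerH) := merC_PhiCFun N f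

theorem PhiC_eq {f : ↥(fieldC N)} {y : LC N} (h : merC N y = (f : MerH)) : PhiC N f = y :=
  merC_injective (by rw [merC_PhiC, h])

theorem PhiC_const (c : ℂ) : PhiC N (algebraMap ℂ ↥(fieldC N) c) = algebraMap ℂ (LC N) c :=
  PhiC_eq (by rw [merC_const]; rfl)

variable (N)

/-- `j` as an element of `ℂ(j, j_N)` -/
def xC : ↥(fieldC N) := ⟨jM, jM_mem_fieldC N⟩

/-- `j_N` as an element of `ℂ(j, j_N)` -/
def xNC : ↥(fieldC N) := ⟨jNM N, jNM_mem_fieldC N⟩

variable {N}

theorem PhiC_xC : PhiC N (xC N) = algebraMap (RC N) (LC N) (jC N) :=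
  PhiC_eq (by rw [merC_algebraMap, toMer_jC]; rfl)

theorem PhiC_xNC : PhiC N (xNC N) = algebraMap (RC N) (LC N) (jNC N) :=
  PhiC_eq (by rw [merC_algebraMap, toMer_jNC]; rfl)

theorem sigmaH_jNM (γ0 : SL(2, ℤ)) (hγ : γ0 ∈ CongruenceSubgroup.Gamma0 N) :
    sigmaH γ0 (jNM N) = jNM N := by
  rw [← toMer_jNC, ← toMer_compC, jNC_mem_invC N γ0 hγ]

theorem sigmaH_eq_of_mem_fieldC (γ0 : SL(2, ℤ)) (hγ : γ0 ∈ CongruenceSubgroup.Gamma0 N)
    {x : MerH} (hx : x ∈ fieldC N) : sigmaH γ0 x = x := by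
  have hle : fieldC N ≤ fixedBy γ0 := by
    unfold fieldC
    rw [IntermediateField.adjoin_le_iff]
    rintro y (rfl | rfl)
    · exact sigmaH_jM γ0
    · exact sigmaH_jNM γ0 hγ
  exact hle hx

theorem PhiC_invariant (γ0 : SL(2, ℤ)) (hγ : γ0 ∈ CongruenceSubgroup.Gamma0 N)
    (f : ↥(fieldC N)) : sigmaC N γ0 (PhiC N f) = PhiC N f :=
  merC_injective (by rw [merC_sigmaC, merC_PhiC, sigmaH_eq_of_mem_fieldC γ0 hγ f.2])

variable (N)

/-- the conjugate realisations -/
def conjC (i : X N) : ↥(fieldC N) →+* LC N := (sigmaC N (Quotient.out i)⁻¹).comp (PhiC N)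

theorem conjC_apply (i : X N) (f : ↥(fieldC N)) :
    conjC N i f = sigmaC N (Quotient.out i)⁻¹ (PhiC N f) := rfl


/-! ### quotients of invariant elements -/

variable {N}

theorem exists_toMer_div {x : MerH} (hx : x ∈ fieldC N) :
    ∃ A B : RC N, B ≠ 0 ∧ A ∈ invC N ∧ B ∈ invC N ∧ x = toMer N A / toMer N B := by
  have hne : ∀ {B : RC N}, B ≠ 0 → toMer N B ≠ 0 := fun hB h0 =>
    hB (toMer_injective N (by rw [h0, map_zero]))
  unfold fieldC at hx
  induction hx using IntermediateField.adjoin_induction with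
  | mem y hy =>
    rcases hy with rfl | rfl
    · have e : polyC N Polynomial.X = jC N := by
        unfold polyC
        simp
      have h := polyC_mem_invC N Polynomial.X
      rw [e] at h
      exact ⟨jC N, 1, one_ne_zero, h, (invC N).one_mem, by rw [map_one, div_one, toMer_jC]⟩
    · exact ⟨jNC N, 1, one_ne_zero, jNC_mem_invC N, (invC N).one_mem, by
        rw [map_one, div_one, toMer_jNC]⟩
  | algebraMap c =>
    refine ⟨constC N c, 1, one_ne_zero, ?_, (invC N).one_mem, by
      rw [map_one, div_one, toMer_constC]⟩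
    intro γ _
    apply RC.ext
    intro τ
    rfl
  | add y z _ _ hy hz =>
    obtain ⟨A1, B1, hB1, hA1, hB1i, rfl⟩ := hy
    obtain ⟨A2, B2, hB2, hA2, hB2i, rfl⟩ := hz
    refine ⟨A1 * B2 + A2 * B1, B1 * B2, mul_ne_zero hB1 hB2,
      (invC N).add_mem ((invC N).mul_mem hA1 hB2i) ((invC N).mul_mem hA2 hB1i),
      (invC N).mul_mem hB1i hB2i, ?_⟩
    rw [map_add, map_mul, map_mul, map_mul, div_add_div _ _ (hne hB1) (hne hB2)]
    ring
  | inv y _ hy =>
    obtain ⟨A, B, hB, hA, hBi, rfl⟩ := hy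
    by_cases hA0 : A = 0
    · refine ⟨0, 1, one_ne_zero, (invC N).zero_mem, (invC N).one_mem, ?_⟩
      rw [hA0, map_zero, zero_div, inv_zero, zero_div]
    · exact ⟨B, A, hA0, hBi, hA, by rw [inv_div]⟩
  | mul y z _ _ hy hz =>
    obtain ⟨A1, B1, hB1, hA1, hB1i, rfl⟩ := hy
    obtain ⟨A2, B2, hB2, hA2, hB2i, rfl⟩ := hz
    refine ⟨A1 * A2, B1 * B2, mul_ne_zero hB1 hB2, (invC N).mul_mem hA1 hA2,
      (invC N).mul_mem hB1i hB2i, ?_⟩
    rw [map_mul, map_mul, div_mul_div_comm]

/-- every value of `Φ` is a quotient of `Γ₀(N)`-invariant elements of `RC N` -/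
theorem exists_PhiC_eq_div (f : ↥(fieldC N)) :
    ∃ A B : RC N, B ≠ 0 ∧ A ∈ invC N ∧ B ∈ invC N ∧
      PhiC N f = algebraMap (RC N) (LC N) A / algebraMap (RC N) (LC N) B := by
  obtain ⟨A, B, hB, hA, hBi, h⟩ := exists_toMer_div f.2
  refine ⟨A, B, hB, hA, hBi, PhiC_eq ?_⟩
  rw [map_div₀, merC_algebraMap, merC_algebraMap, h]


/-! ### the norm polynomial -/

variable (N)

/-- `Q A B = ∏_{i ∈ SL2(Z)/Γ0(N)} (B_i X - A_i)`, `A_i = A ∘ g_i⁻¹`. -/
def normPolyC (A B : RC N) : Polynomial (RC N) :=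
  letI : Fintype (X N) := Fintype.ofFinite _
  ∏ i : X N, (Polynomial.C (compC N (Quotient.out i)⁻¹ B) * Polynomial.X
    - Polynomial.C (compC N (Quotient.out i)⁻¹ A))

variable {N}

/-- the norm polynomial of a `Γ₀(N)`-invariant pair is `SL(2,ℤ)`-invariant. -/
theorem normPolyC_map_compC (A B : RC N) (hA : A ∈ invC N) (hB : B ∈ invC N) (γ : SL(2, ℤ)) :
    (normPolyC N A B).map (compC N γ) = normPolyC N A B := by
  classical
  letI : Fintype (X N) := Fintype.ofFinite _
  unfold normPolyC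
  rw [Polynomial.map_prod]
  refine Fintype.prod_equiv (MulAction.toPerm γ⁻¹) _ _ fun i => ?_
  rw [Polynomial.map_sub, Polynomial.map_mul, Polynomial.map_C, Polynomial.map_C,
    Polynomial.map_X, compC_out_inv A hA γ i, compC_out_inv B hB γ i]
  rfl

theorem exists_polyC_eq_of_invariant (c : RC N) (hc : ∀ γ : SL(2, ℤ), compC N γ c = c) :
    ∃ p : Polynomial ℂ, c = polyC N p := by
  obtain ⟨p, hp⟩ := exists_poly_of_invariantC c hc
  exact ⟨p, RC.ext fun τ => by rw [hp τ, polyC_apply]⟩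

variable (N)

/-- the element of `ℂ(j)` attached to a polynomial -/
def polyJC (p : Polynomial ℂ) : ↥ℂ⟮xC N⟯ :=
  ⟨Polynomial.aeval (xC N) p,
    IntermediateField.algebra_adjoin_le_adjoin ℂ _
      (Polynomial.aeval_mem_adjoin_singleton ℂ (xC N))⟩

variable {N}

theorem PhiC_aeval_xC (p : Polynomial ℂ) :
    PhiC N (Polynomial.aeval (xC N) p) = algebraMap (RC N) (LC N) (polyC N p) := by
  have h1 : polyC N p = Polynomial.eval₂ (constC N) (jC N) p := rfl
  rw [Polynomial.aeval_def, Polynomial.hom_eval₂, PhiC_xC, h1, Polynomial.hom_eval₂]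
  congr 1
  ext c
  show PhiC N (algebraMap ℂ _ c) = algebraMap (RC N) (LC N) (constC N c)
  rw [PhiC_const, IsScalarTower.algebraMap_apply ℂ (RC N) (LC N)]
  rfl

theorem conj_polyJC (i0 : X N) (p : Polynomial ℂ) :
    conjC N i0 (algebraMap ↥ℂ⟮xC N⟯ ↥(fieldC N) (polyJC N p)) =
      algebraMap (RC N) (LC N) (polyC N p) := by
  show sigmaC N (Quotient.out i0)⁻¹ (PhiC N (Polynomial.aeval (xC N) p)) = _
  rw [PhiC_aeval_xC, sigmaC_algebraMap]
  congr 1
  apply RC.ext
  intro τ
  rw [compC_apply, polyC_apply, polyC_apply, jFun_smul]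

/-- the norm polynomial over `LC N` is `u • ∏ (X - f_i)` -/
theorem normPolyC_map_eq [Fintype (X N)] (A B : RC N) (hB : B ≠ 0) (x : LC N)
    (hx : x = algebraMap (RC N) (LC N) A / algebraMap (RC N) (LC N) B) :
    (normPolyC N A B).map (algebraMap (RC N) (LC N)) =
      Polynomial.C (∏ i : X N, algebraMap (RC N) (LC N) (compC N (Quotient.out i)⁻¹ B)) *
        ∏ i : X N, (Polynomial.X - Polynomial.C (sigmaC N (Quotient.out i)⁻¹ x)) := by
  classical
  subst hx
  have hinst : (inferInstance : Fintype (X N)) = Fintype.ofFinite (X N) := Subsingleton.elim _ _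
  unfold normPolyC
  rw [← hinst, Polynomial.map_prod, map_prod, ← Finset.prod_mul_distrib]
  refine Finset.prod_congr rfl fun i _ => ?_
  have hb : algebraMap (RC N) (LC N) (compC N (Quotient.out i)⁻¹ B) ≠ 0 := by
    intro h0
    apply hB
    apply compC_injective N (Quotient.out i)⁻¹
    rw [map_zero]
    exact IsFractionRing.injective (RC N) (LC N) (h0.trans (map_zero _).symm)
  rw [Polynomial.map_sub, Polynomial.map_mul, Polynomial.map_C, Polynomial.map_C,
    Polynomial.map_X, map_div₀, sigmaC_algebraMap, sigmaC_algebraMap, mul_sub, ← Polynomial.C_mul,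
    mul_div_cancel₀ _ hb]

/-- **hcoef over `ℂ`**: the characteristic polynomial of `f` over the conjugates has
coefficients in `ℂ(j)`. -/
theorem hcoefC [Fintype (X N)] (f : ↥(fieldC N)) :
    ∃ P : Polynomial ↥ℂ⟮xC N⟯, P.Monic ∧ ∀ i0 : X N,
      P.map ((conjC N i0).comp (algebraMap ↥ℂ⟮xC N⟯ ↥(fieldC N))) =
        ∏ i : X N, (Polynomial.X - Polynomial.C (conjC N i f)) := by
  classical
  obtain ⟨A, B, hB0, hA, hB, hf⟩ := exists_PhiC_eq_div f
  have hcoeff : ∀ k : ℕ, ∃ p : Polynomial ℂ, (normPolyC N A B).coeff k = polyC N p := fun k =>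
    exists_polyC_eq_of_invariant _ fun γ => by
      rw [← Polynomial.coeff_map, normPolyC_map_compC A B hA hB γ]
  choose p hp using hcoeff
  have hMmonic : (∏ i : X N, (Polynomial.X - Polynomial.C (conjC N i f))).Monic :=
    Polynomial.monic_prod_of_monic _ _ fun i _ => Polynomial.monic_X_sub_C _
  have hu0 : (∏ i : X N, algebraMap (RC N) (LC N) (compC N (Quotient.out i)⁻¹ B)) ≠ 0 := by
    refine Finset.prod_ne_zero_iff.mpr fun i _ h0 => hB0 ?_
    apply compC_injective N (Quotient.out i)⁻¹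
    rw [map_zero]
    exact IsFractionRing.injective (RC N) (LC N) (h0.trans (map_zero _).symm)
  have hQL : (normPolyC N A B).map (algebraMap (RC N) (LC N)) =
      Polynomial.C (∏ i : X N, algebraMap (RC N) (LC N) (compC N (Quotient.out i)⁻¹ B)) *
        ∏ i : X N, (Polynomial.X - Polynomial.C (conjC N i f)) :=
    normPolyC_map_eq A B hB0 (PhiC N f) hf
  have key : ∀ i0 : X N, (Polynomial.C (polyJC N (p
        (∏ i : X N, (Polynomial.X - Polynomial.C (conjC N i f))).natDegree))⁻¹ *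
      ∑ k ∈ Finset.range
        ((∏ i : X N, (Polynomial.X - Polynomial.C (conjC N i f))).natDegree + 1),
        Polynomial.C (polyJC N (p k)) * Polynomial.X ^ k).map
        ((conjC N i0).comp (algebraMap ↥ℂ⟮xC N⟯ ↥(fieldC N))) =
      ∏ i : X N, (Polynomial.X - Polynomial.C (conjC N i f)) := fun i0 =>
    descend_poly _ _ _ _ hu0 hMmonic hQL (fun k => polyJC N (p k)) fun k => by
      rw [RingHom.comp_apply, conj_polyJC, ← hp k, Polynomial.coeff_map]
  refine ⟨_, ?_, key⟩
  have i0 : X N := QuotientGroup.mk 1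
  refine Polynomial.monic_of_injective
    ((conjC N i0).comp (algebraMap ↥ℂ⟮xC N⟯ ↥(fieldC N))).injective ?_
  rw [key i0]
  exact hMmonic

end Fermat.Agent.S29.W1R
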