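/-
S29 (item 90), wall, piece BRIDGE (helper6): the complex twin of `FF.PhiN` / `Mer.embF`.

`F_ℂ(N) := modularFunctionFieldFullC ℂ N ⊂ ℂ((q))` is realised in the field `MerH` of meromorphic
functions on the upper half plane:

* `PhiFC N : F_ℂ(N) →+* LC N`, `embFC N : F_ℂ(N) →+* MerH` (`q`-expansion inverted);
* `embFC_const`, `embFC_Jd` (values on the constants and on the generators `j(dτ)`, `d ∣ N`);
* `ringHom_ext_FC` : ring homomorphisms on `F_ℂ(N)` are determined by these values;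
* `expLC_PhiFC` : the expansion at `∞` of `PhiFC N f` is `f(q^N)`.
-/
import Mathlib
import Fermat.Agent.S29.W1Real
import Fermat.Agent.S29.NormProdA
import Fermat.Agent.FF.ModRealEv

set_option autoImplicit false
set_option linter.unusedSectionVars false

open UpperHalfPlane hiding I
open Function Complex
open scoped Real MatrixGroups Manifold

noncomputable section

namespace Fermat.Agent.S29.BrC

open Fermat.Agent.FF Fermat.Agent.S29.Mer Fermat.Agent.S29.InvC Fermat.Agent.S29.MFC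
  Fermat.Agent.S29.W1R ModularCurve

/-- the function field over `ℂ`. -/
abbrev FC (N : ℕ) [NeZero N] : Type := ↥(modularFunctionFieldFullC ℂ N)

/-- the generators over `ℂ`: the `q`-expansion of `j(dτ)`. -/
def JdC (d : ℕ) [NeZero d] : LaurentSeries ℂ := qExpand ℂ d (jqModC ℂ)

theorem iotaL_qExpand (n : ℕ) [NeZero n] (x : LaurentSeries Kbar) :
    iotaL (qExpand Kbar n x) = qExpand ℂ n (iotaL x) :=
  coeffMap_qExpand iotaK n x

theorem coeffEmb_jq : coeffEmb ℂ jq = jqModC ℂ := by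
  rw [← jqModC_rat]
  exact map_jqModC (algebraMap ℚ ℂ)

theorem iotaL_Jd (d : ℕ) [NeZero d] : iotaL (Jd d) = JdC d := by
  rw [Jd, iotaL_coeffEmb, JdC, coeffEmb, coeffMap_qExpand]
  congr 1
  exact coeffEmb_jq

section real

variable (N : ℕ) [NeZero N]

/-- `Γ₀(N)`-invariance of an element of `RC N` -/
def IsInv0C (r : RC N) : Prop :=
  ∀ γ0 ∈ CongruenceSubgroup.Gamma0 N, compC N γ0 r = r

theorem expInfC_ofRN' (r : RN N) : expInfC N (ofRN N r) = iotaL (expInf N r) :=
  expInfC_eq (isExpK_expInf N r)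

/-- `j(dτ)` in `RC N`. -/
def jdC (d : ℕ) [NeZero d] (hd : d ∣ N) : RC N := ofRN N (jR N d hd)

theorem expInfC_jdC (d : ℕ) [NeZero d] (hd : d ∣ N) :
    expInfC N (jdC N d hd) = qExpand ℂ N (JdC d) := by
  rw [jdC, expInfC_ofRN', expInf_jR, iotaL_qExpand, iotaL_Jd]

theorem compC_jdC (d : ℕ) [NeZero d] (hd : d ∣ N) (γ0 : SL(2, ℤ))
    (hγ : γ0 ∈ CongruenceSubgroup.Gamma0 N) : compC N γ0 (jdC N d hd) = jdC N d hd := by
  apply RC.ext
  intro τ
  have h := congrArg (fun r : RN N => (r : ℍ → ℂ) τ) (compSL_jR N d hd γ0 hγ)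
  exact h

theorem inclC_jdC (d : ℕ) [NeZero d] (hd : d ∣ N) : inclC N (jdC N d hd) = jdHol d := rfl

/-- the subalgebra of Laurent series which are `q`-expansions of `Γ₀(N)`-invariant elements
of `RC N` -/
def realSubC : Subalgebra ℂ (LaurentSeries ℂ) where
  carrier := {s | ∃ r : RC N, expInfC N r = qExpand ℂ N s ∧ IsInv0C N r}
  mul_mem' := by
    rintro a b ⟨r, hr, hri⟩ ⟨t, ht, hti⟩
    exact ⟨r * t, by rw [map_mul, map_mul, hr, ht],
      fun γ hγ => by rw [map_mul, hri γ hγ, hti γ hγ]⟩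
  one_mem' := ⟨1, by rw [map_one, map_one], fun γ _ => map_one _⟩
  add_mem' := by
    rintro a b ⟨r, hr, hri⟩ ⟨t, ht, hti⟩
    exact ⟨r + t, by rw [map_add, map_add, hr, ht],
      fun γ hγ => by rw [map_add, hri γ hγ, hti γ hγ]⟩
  zero_mem' := ⟨0, by rw [map_zero, map_zero], fun γ _ => map_zero _⟩
  algebraMap_mem' := fun c => ⟨algebraMap ℂ (RC N) c, by
    rw [expInfC_algebraMap, algebraMap_laurentSeries_eq_single]
    exact (qExpand_C (R := ℂ) (N := N) c).symm,
    fun γ _ => compC_algebraMap N γ c⟩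

theorem mem_realSubC_iff {s : LaurentSeries ℂ} :
    s ∈ realSubC N ↔ ∃ r : RC N, expInfC N r = qExpand ℂ N s ∧ IsInv0C N r :=
  Iff.rfl

/-- the function attached to an element of `realSubC N` -/
def evSCFun (s : realSubC N) : RC N := s.2.choose

theorem expInfC_evSCFun (s : realSubC N) :
    expInfC N (evSCFun N s) = qExpand ℂ N (s : LaurentSeries ℂ) :=
  s.2.choose_spec.1

theorem isInv0C_evSCFun (s : realSubC N) : IsInv0C N (evSCFun N s) := s.2.choose_spec.2

theorem evSCFun_eq {s : realSubC N} {r : RC N}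
    (h : expInfC N r = qExpand ℂ N (s : LaurentSeries ℂ)) :
    evSCFun N s = r :=
  expInfC_injective N (by rw [expInfC_evSCFun, h])

/-- the evaluation `realSubC N → RC N` -/
def evSC : realSubC N →+* RC N where
  toFun := evSCFun N
  map_one' := evSCFun_eq N (by rw [map_one]; exact (map_one _).symm)
  map_mul' a b := evSCFun_eq N (by
    rw [map_mul, expInfC_evSCFun, expInfC_evSCFun]; exact (map_mul _ _ _).symm)
  map_zero' := evSCFun_eq N (by rw [map_zero]; exact (map_zero _).symm)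
  map_add' a b := evSCFun_eq N (by
    rw [map_add, expInfC_evSCFun, expInfC_evSCFun]; exact (map_add _ _ _).symm)

theorem expInfC_evSC (s : realSubC N) :
    expInfC N (evSC N s) = qExpand ℂ N (s : LaurentSeries ℂ) :=
  expInfC_evSCFun N s

theorem isInv0C_evSC (s : realSubC N) : IsInv0C N (evSC N s) := isInv0C_evSCFun N s

theorem evSC_eq {s : realSubC N} {r : RC N}
    (h : expInfC N r = qExpand ℂ N (s : LaurentSeries ℂ)) :
    evSC N s = r := evSCFun_eq N h

theorem evSC_injective : Injective (evSC N) := by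
  intro a b hab
  apply Subtype.ext
  apply qExpand_injective (R := ℂ) (N := N)
  rw [← expInfC_evSC, ← expInfC_evSC, hab]

theorem evSC_algebraMap (c : ℂ) :
    evSC N (algebraMap ℂ (realSubC N) c) = algebraMap ℂ (RC N) c := by
  apply evSC_eq
  rw [expInfC_algebraMap]
  show _ = qExpand ℂ N (algebraMap ℂ (LaurentSeries ℂ) c)
  rw [algebraMap_laurentSeries_eq_single]
  exact (qExpand_C (R := ℂ) (N := N) c).symm

theorem JdC_mem_realSubC (d : ℕ) [NeZero d] (hd : d ∣ N) : JdC d ∈ realSubC N :=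
  ⟨jdC N d hd, expInfC_jdC N d hd, fun γ hγ => compC_jdC N d hd γ hγ⟩

theorem evSC_JdC (d : ℕ) [NeZero d] (hd : d ∣ N) :
    evSC N ⟨JdC d, JdC_mem_realSubC N d hd⟩ = jdC N d hd :=
  evSC_eq N (expInfC_jdC N d hd)

theorem genSetC_subset : divisorExpansionsC ℂ N ⊆ realSubC N := by
  rintro x ⟨d, hd, hdN, rfl⟩
  exact JdC_mem_realSubC N d hdN

theorem adjoin_le_realSubC : Algebra.adjoin ℂ (divisorExpansionsC ℂ N) ≤ realSubC N :=
  Algebra.adjoin_le (genSetC_subset N)

/-- the evaluation on the algebra generated by the `j(dτ)` -/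
def evAC : Algebra.adjoin ℂ (divisorExpansionsC ℂ N) →+* LC N :=
  ((algebraMap (RC N) (LC N)).comp (evSC N)).comp
    (Subalgebra.inclusion (adjoin_le_realSubC N)).toRingHom

theorem evAC_apply (a : Algebra.adjoin ℂ (divisorExpansionsC ℂ N)) :
    evAC N a = algebraMap (RC N) (LC N)
      (evSC N ⟨(a : LaurentSeries ℂ), adjoin_le_realSubC N a.2⟩) := rfl

theorem evAC_injective : Injective (evAC N) := by
  intro a b hab
  rw [evAC_apply, evAC_apply] at hab
  have h1 := evSC_injective N (IsFractionRing.injective (RC N) (LC N) hab)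
  exact Subtype.ext (congrArg (fun s : realSubC N => (s : LaurentSeries ℂ)) h1)

open scoped IntermediateField.algebraAdjoinAdjoin in
/-- the realisation on `ℂ(j(dτ), d ∣ N)` -/
def PhiAdjC : ↥(IntermediateField.adjoin ℂ (divisorExpansionsC ℂ N)) →+* LC N :=
  IsFractionRing.lift (A := Algebra.adjoin ℂ (divisorExpansionsC ℂ N)) (evAC_injective N)

open scoped IntermediateField.algebraAdjoinAdjoin in
theorem PhiAdjC_algebraMap (a : Algebra.adjoin ℂ (divisorExpansionsC ℂ N)) :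
    PhiAdjC N (algebraMap (Algebra.adjoin ℂ (divisorExpansionsC ℂ N))
      (IntermediateField.adjoin ℂ (divisorExpansionsC ℂ N)) a) = evAC N a :=
  IsFractionRing.lift_algebraMap _ _

/-- the realisation `F_ℂ(N) → LC N`. -/
def PhiFC : FC N →+* LC N := PhiAdjC N

theorem PhiFC_algebraMap (a : Algebra.adjoin ℂ (divisorExpansionsC ℂ N)) :
    PhiFC N (⟨(a : LaurentSeries ℂ),
      IntermediateField.algebra_adjoin_le_adjoin _ _ a.2⟩ : FC N) = evAC N a :=
  PhiAdjC_algebraMap N a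

/-- value of `PhiFC` on an element of the algebra `ℂ[j(dτ), d ∣ N]` -/
theorem PhiFC_of_mem (f : FC N)
    (hf : (f : LaurentSeries ℂ) ∈ Algebra.adjoin ℂ (divisorExpansionsC ℂ N)) :
    PhiFC N f = algebraMap (RC N) (LC N)
      (evSC N ⟨(f : LaurentSeries ℂ), adjoin_le_realSubC N hf⟩) := by
  have := PhiFC_algebraMap N ⟨(f : LaurentSeries ℂ), hf⟩
  rw [evAC_apply] at this
  rw [← this]

/-- every element of `F_ℂ(N)` is a quotient of two elements of the algebra `ℂ[j(dτ), d ∣ N]` -/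
theorem exists_div_of_FC (f : FC N) :
    ∃ a ∈ Algebra.adjoin ℂ (divisorExpansionsC ℂ N),
      ∃ b ∈ Algebra.adjoin ℂ (divisorExpansionsC ℂ N),
      b ≠ 0 ∧ (f : LaurentSeries ℂ) = a / b := by
  obtain ⟨a, ha, b, hb, hab⟩ := IntermediateField.mem_adjoin_iff_div.mp f.2
  by_cases hb0 : b = 0
  · refine ⟨0, zero_mem _, 1, one_mem _, one_ne_zero, ?_⟩
    rw [hab, hb0, div_zero, zero_div]
  · exact ⟨a, ha, b, hb, hb0, hab⟩

theorem mem_FC_of_mem_adjoin {a : LaurentSeries ℂ}
    (ha : a ∈ Algebra.adjoin ℂ (divisorExpansionsC ℂ N)) :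
    a ∈ modularFunctionFieldFullC ℂ N :=
  IntermediateField.algebra_adjoin_le_adjoin _ _ ha

/-- value of `PhiFC` on a quotient -/
theorem PhiFC_div (f : FC N) (a b : LaurentSeries ℂ)
    (ha : a ∈ Algebra.adjoin ℂ (divisorExpansionsC ℂ N))
    (hb : b ∈ Algebra.adjoin ℂ (divisorExpansionsC ℂ N))
    (hab : (f : LaurentSeries ℂ) = a / b) :
    PhiFC N f = algebraMap (RC N) (LC N) (evSC N ⟨a, adjoin_le_realSubC N ha⟩) /
      algebraMap (RC N) (LC N) (evSC N ⟨b, adjoin_le_realSubC N hb⟩) := by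
  have haF := mem_FC_of_mem_adjoin N ha
  have hbF := mem_FC_of_mem_adjoin N hb
  have e : f = (⟨a, haF⟩ : FC N) / ⟨b, hbF⟩ := Subtype.ext (by rw [hab]; rfl)
  rw [e, map_div₀, PhiFC_of_mem N ⟨a, haF⟩ ha, PhiFC_of_mem N ⟨b, hbF⟩ hb]

theorem PhiFC_map_const (c : ℂ) :
    PhiFC N (algebraMap ℂ (FC N) c) = algebraMap ℂ (LC N) c := by
  have hc : ((algebraMap ℂ (FC N) c : FC N) : LaurentSeries ℂ) ∈
      Algebra.adjoin ℂ (divisorExpansionsC ℂ N) := Subalgebra.algebraMap_mem _ c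
  rw [PhiFC_of_mem N _ hc, IsScalarTower.algebraMap_apply ℂ (RC N) (LC N)]
  congr 1
  exact evSC_algebraMap N c

/-- the generator `j(dτ)` of `F_ℂ(N)`. -/
def JdFC (d : ℕ) [NeZero d] (hd : d ∣ N) : FC N := ⟨JdC d, jqModCd_mem_full ℂ N hd⟩

@[simp] theorem JdFC_coe (d : ℕ) [NeZero d] (hd : d ∣ N) :
    ((JdFC N d hd : FC N) : LaurentSeries ℂ) = qExpand ℂ d (jqModC ℂ) := rfl

theorem PhiFC_JdFC (d : ℕ) [NeZero d] (hd : d ∣ N) :
    PhiFC N (JdFC N d hd) = algebraMap (RC N) (LC N) (jdC N d hd) := by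
  have hmem : ((JdFC N d hd : FC N) : LaurentSeries ℂ) ∈
      Algebra.adjoin ℂ (divisorExpansionsC ℂ N) :=
    Algebra.subset_adjoin ⟨d, inferInstance, hd, rfl⟩
  rw [PhiFC_of_mem N _ hmem]
  congr 1
  exact evSC_eq N (expInfC_jdC N d hd)

/-- every value of `PhiFC` is a quotient of `Γ₀(N)`-invariant elements of `RC N` -/
theorem exists_PhiFC_eq_div (f : FC N) :
    ∃ A B : RC N, B ≠ 0 ∧ IsInv0C N A ∧ IsInv0C N B ∧
      PhiFC N f = algebraMap (RC N) (LC N) A / algebraMap (RC N) (LC N) B ∧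
      qExpand ℂ N (f : LaurentSeries ℂ) = expInfC N A / expInfC N B := by
  obtain ⟨a, ha, b, hb, hb0, hab⟩ := exists_div_of_FC N f
  refine ⟨evSC N ⟨a, adjoin_le_realSubC N ha⟩, evSC N ⟨b, adjoin_le_realSubC N hb⟩, ?_,
    isInv0C_evSC N _, isInv0C_evSC N _, PhiFC_div N f a b ha hb hab, ?_⟩
  · intro h0
    apply hb0
    have := evSC_injective N (h0.trans (map_zero (evSC N)).symm)
    exact congrArg Subtype.val this
  · rw [expInfC_evSC, expInfC_evSC, hab, map_div₀]

theorem PhiFC_invariant (γ0 : SL(2, ℤ)) (hγ : γ0 ∈ CongruenceSubgroup.Gamma0 N) (f : FC N) :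
    sigmaC N γ0 (PhiFC N f) = PhiFC N f := by
  obtain ⟨A, B, -, hA, hB, hf, -⟩ := exists_PhiFC_eq_div N f
  rw [hf, map_div₀, sigmaC_algebraMap, sigmaC_algebraMap, hA γ0 hγ, hB γ0 hγ]

/-- the expansion at `∞` on the fraction field `LC N` -/
def expLC : LC N →+* LaurentSeries ℂ :=
  IsFractionRing.lift (expInfC_injective N)

theorem expLC_algebraMap (r : RC N) : expLC N (algebraMap (RC N) (LC N) r) = expInfC N r :=
  IsFractionRing.lift_algebraMap _ _

theorem expLC_PhiFC (f : FC N) : expLC N (PhiFC N f) = qExpand ℂ N (f : LaurentSeries ℂ) := by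
  obtain ⟨A, B, -, -, -, hf, hq⟩ := exists_PhiFC_eq_div N f
  rw [hf, map_div₀, expLC_algebraMap, expLC_algebraMap, hq]

/-! ### the embedding into `MerH` -/

/-- **the bridge**: `F_ℂ(N) → MerH`. -/
def embFC : FC N →+* MerH := (merC N).comp (PhiFC N)

theorem embFC_apply (f : FC N) : embFC N f = merC N (PhiFC N f) := rfl

theorem embFC_injective : Injective (embFC N) := (embFC N).injective

theorem embFC_const (c : ℂ) : embFC N (algebraMap ℂ (FC N) c) = algebraMap ℂ MerH c := by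
  rw [embFC_apply, PhiFC_map_const, merC_const]

theorem embFC_smul (c : ℂ) (f : FC N) : embFC N (c • f) = c • embFC N f := by
  rw [Algebra.smul_def, map_mul, embFC_const, ← Algebra.smul_def]

theorem embFC_JdFC (d : ℕ) [NeZero d] (hd : d ∣ N) :
    embFC N (JdFC N d hd) = algebraMap Hol MerH (jdHol d) := by
  rw [embFC_apply, PhiFC_JdFC, merC_algebraMap, toMer_apply, inclC_jdC]

theorem sigmaH_embFC (γ : SL(2, ℤ)) (hγ : γ ∈ CongruenceSubgroup.Gamma0 N) (f : FC N) :
    sigmaH γ (embFC N f) = embFC N f := by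
  rw [embFC_apply, ← merC_sigmaC, PhiFC_invariant N γ hγ]

end real

end Fermat.Agent.S29.BrC
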