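/-
S29 (item 90), wall, piece BRIDGE, part 2 (helper6).

* `ringHom_ext_FC` : ring homomorphisms on `F_ℂ(N)` are determined by their values on the
  constants and on the generators `j(dτ)`, `d ∣ N`;
* `embFC_of_le` (`α`), `embFC_qExpand` (`β`) : compatibility of `embFC` with the two degeneracy maps;
* `embFC_mem_fieldC`, `exists_embFC_eq` : the image of `embFC N` is `fieldC N = ℂ(j, j_N) ⊂ MerH`;
* `bridge N : fieldC N ≃ₐ[ℂ] F_ℂ(N)`;
* `placeComap`, `ord_placeComap` : transport of places along an isomorphism;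
  `exists_place_bridge`, `dvd_ord_of_fieldC`.
-/
import Mathlib
import Fermat.Agent.S29.BridgeC

set_option autoImplicit false
set_option linter.unusedSectionVars false

open UpperHalfPlane hiding I
open Function Complex
open scoped Real MatrixGroups Manifold

noncomputable section

namespace Fermat.Agent.S29.BrC

open Fermat.Agent.FF Fermat.Agent.S29.Mer Fermat.Agent.S29.InvC Fermat.Agent.S29.MFC
  Fermat.Agent.S29.W1R Fermat.Agent.S29.InvCDeg ModularCurve AlgebraicCurve

section ext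

variable (N : ℕ) [NeZero N]

/-- two ring homomorphisms on `F_ℂ(N)` which agree on the constants and on the generators are
equal -/
theorem ringHom_ext_FC {E : Type*} [DivisionRing E] (φ₁ φ₂ : FC N →+* E)
    (hc : ∀ c : ℂ, φ₁ (algebraMap ℂ (FC N) c) = φ₂ (algebraMap ℂ (FC N) c))
    (hg : ∀ (d : ℕ) [NeZero d] (hd : d ∣ N), φ₁ (JdFC N d hd) = φ₂ (JdFC N d hd)) :
    φ₁ = φ₂ := by
  have key : ∀ (x : LaurentSeries ℂ)
      (_ : x ∈ IntermediateField.adjoin ℂ (divisorExpansionsC ℂ N))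
      (hx' : x ∈ modularFunctionFieldFullC ℂ N),
      φ₁ ⟨x, hx'⟩ = φ₂ ⟨x, hx'⟩ := by
    intro x hx
    induction hx using IntermediateField.adjoin_induction with
    | mem x hx =>
      intro hx'
      obtain ⟨d, hd0, hd, rfl⟩ := hx
      exact hg d hd
    | algebraMap c =>
      intro hx'
      exact hc c
    | add x y hx hy ihx ihy =>
      intro hx'
      have e : (⟨x + y, hx'⟩ : FC N) = ⟨x, hx⟩ + ⟨y, hy⟩ := rfl
      rw [e, map_add, map_add, ihx hx, ihy hy]
    | inv x hx ihx =>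
      intro hx'
      have e : (⟨x⁻¹, hx'⟩ : FC N) = (⟨x, hx⟩ : FC N)⁻¹ := rfl
      rw [e, map_inv₀, map_inv₀, ihx hx]
    | mul x y hx hy ihx ihy =>
      intro hx'
      have e : (⟨x * y, hx'⟩ : FC N) = ⟨x, hx⟩ * ⟨y, hy⟩ := rfl
      rw [e, map_mul, map_mul, ihx hx, ihy hy]
  ext f
  exact key f.1 f.2 f.2

end ext

section degeneracy

variable (N : ℕ) [NeZero N]

/-- the inclusion `F_ℂ(N) ⊂ F_ℂ(M)`, `N ∣ M`. -/
def inclFC {M : ℕ} [NeZero M] (h : N ∣ M) : FC N →+* FC M :=
  (IntermediateField.inclusion (full_degeneracyC_le ℂ h)).toRingHom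

theorem inclFC_apply {M : ℕ} [NeZero M] (h : N ∣ M) (x : FC N) :
    inclFC N h x = IntermediateField.inclusion (full_degeneracyC_le ℂ h) x := rfl

theorem coe_inclFC {M : ℕ} [NeZero M] (h : N ∣ M) (x : FC N) :
    ((inclFC N h x : FC M) : LaurentSeries ℂ) = (x : LaurentSeries ℂ) := by
  rw [inclFC_apply]
  exact IntermediateField.coe_inclusion (full_degeneracyC_le ℂ h) x

theorem inclFC_const {M : ℕ} [NeZero M] (h : N ∣ M) (c : ℂ) :
    inclFC N h (algebraMap ℂ (FC N) c) = algebraMap ℂ (FC M) c := by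
  rw [inclFC_apply]
  exact (IntermediateField.inclusion (full_degeneracyC_le ℂ h)).commutes c

theorem inclFC_JdFC {M : ℕ} [NeZero M] (h : N ∣ M) (d : ℕ) [NeZero d] (hd : d ∣ N) :
    inclFC N h (JdFC N d hd) = JdFC M d (hd.trans h) := by
  apply Subtype.ext
  rw [coe_inclFC, JdFC_coe, JdFC_coe]

/-- **(α)**: `embFC` is compatible with the inclusions. -/
theorem embFC_inclFC {M : ℕ} [NeZero M] (h : N ∣ M) (x : FC N) :
    embFC M (inclFC N h x) = embFC N x := by
  have e : (embFC M).comp (inclFC N h) = embFC N := by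
    apply ringHom_ext_FC
    · intro c
      rw [RingHom.comp_apply, inclFC_const, embFC_const, embFC_const]
    · intro d _ hd
      rw [RingHom.comp_apply, inclFC_JdFC, embFC_JdFC, embFC_JdFC]
  rw [← e, RingHom.comp_apply]

/-- **(α)** for `IntermediateField.inclusion`. -/
theorem embFC_inclusion {M : ℕ} [NeZero M] (h : N ∣ M) (x : FC N) :
    embFC M (IntermediateField.inclusion (full_degeneracyC_le ℂ h) x) = embFC N x := by
  rw [← inclFC_apply]
  exact embFC_inclFC N h x

/-- **(α)**, proof-irrelevant form. -/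
theorem embFC_of_le {M : ℕ} [NeZero M] (h : N ∣ M) (x : FC N)
    (hx : (x : LaurentSeries ℂ) ∈ modularFunctionFieldFullC ℂ M) :
    embFC M ⟨(x : LaurentSeries ℂ), hx⟩ = embFC N x := by
  have e : (⟨(x : LaurentSeries ℂ), hx⟩ : FC M) = inclFC N h x :=
    Subtype.ext (coe_inclFC N h x).symm
  rw [e]
  exact embFC_inclFC N h x

/-- the map `q ↦ q^ℓ`, `F_ℂ(N) → F_ℂ(N ℓ)`. -/
def betaFC (ℓ : ℕ) [NeZero ℓ] : FC N →+* FC (N * ℓ) where
  toFun x := ⟨qExpand ℂ ℓ (x : LaurentSeries ℂ),
    full_degeneracyC_map_le ℂ N ℓ ⟨(x : LaurentSeries ℂ), x.2, rfl⟩⟩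
  map_one' := Subtype.ext (map_one _)
  map_mul' _ _ := Subtype.ext (map_mul _ _ _)
  map_zero' := Subtype.ext (map_zero _)
  map_add' _ _ := Subtype.ext (map_add _ _ _)

@[simp] theorem coe_betaFC (ℓ : ℕ) [NeZero ℓ] (x : FC N) :
    ((betaFC N ℓ x : FC (N * ℓ)) : LaurentSeries ℂ) = qExpand ℂ ℓ (x : LaurentSeries ℂ) := rfl

theorem betaFC_const (ℓ : ℕ) [NeZero ℓ] (c : ℂ) :
    betaFC N ℓ (algebraMap ℂ (FC N) c) = algebraMap ℂ (FC (N * ℓ)) c := by
  apply Subtype.ext
  rw [coe_betaFC, IntermediateField.coe_algebraMap_apply, IntermediateField.coe_algebraMap_apply,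
    algebraMap_laurentSeries_eq_single]
  exact qExpand_C (R := ℂ) (N := ℓ) c

theorem betaFC_JdFC (ℓ : ℕ) [NeZero ℓ] (d : ℕ) [NeZero d] (hd : d ∣ N) :
    haveI : NeZero (ℓ * d) := ⟨mul_ne_zero (NeZero.ne ℓ) (NeZero.ne d)⟩
    betaFC N ℓ (JdFC N d hd) =
      JdFC (N * ℓ) (ℓ * d) ((mul_dvd_mul_left ℓ hd).trans (dvd_of_eq (mul_comm ℓ N))) := by
  haveI : NeZero (ℓ * d) := ⟨mul_ne_zero (NeZero.ne ℓ) (NeZero.ne d)⟩
  apply Subtype.ext
  rw [coe_betaFC, JdFC_coe, JdFC_coe]
  exact qExpand_qExpand (R := ℂ) d ℓ (jqModC ℂ)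

/-- **(β)**: `embFC` and `q ↦ q^ℓ`. -/
theorem embFC_betaFC (ℓ : ℕ) [NeZero ℓ] (x : FC N) :
    embFC (N * ℓ) (betaFC N ℓ x) =
      sigmaG (ModularForm.heckeDiagMatrix ℓ) (det_heckeDiag_pos ℓ) (embFC N x) := by
  have e : (embFC (N * ℓ)).comp (betaFC N ℓ) =
      (sigmaG (ModularForm.heckeDiagMatrix ℓ) (det_heckeDiag_pos ℓ)).comp (embFC N) := by
    apply ringHom_ext_FC
    · intro c
      rw [RingHom.comp_apply, RingHom.comp_apply, betaFC_const, embFC_const, embFC_const,
        sigmaG_const]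
    · intro d _ hd
      haveI : NeZero (ℓ * d) := ⟨mul_ne_zero (NeZero.ne ℓ) (NeZero.ne d)⟩
      rw [RingHom.comp_apply, RingHom.comp_apply, betaFC_JdFC, embFC_JdFC, embFC_JdFC,
        sigmaG_algebraMap, compG_diag_jdHol]
  have h := DFunLike.congr_fun e x
  rwa [RingHom.comp_apply, RingHom.comp_apply] at h

/-- **(β)**, proof-irrelevant form. -/
theorem embFC_qExpand (ℓ : ℕ) [NeZero ℓ] (x : FC N)
    (hx : qExpand ℂ ℓ (x : LaurentSeries ℂ) ∈ modularFunctionFieldFullC ℂ (N * ℓ)) :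
    embFC (N * ℓ) ⟨qExpand ℂ ℓ (x : LaurentSeries ℂ), hx⟩ =
      sigmaG (ModularForm.heckeDiagMatrix ℓ) (det_heckeDiag_pos ℓ) (embFC N x) := by
  have e : (⟨qExpand ℂ ℓ (x : LaurentSeries ℂ), hx⟩ : FC (N * ℓ)) = betaFC N ℓ x :=
    Subtype.ext (coe_betaFC N ℓ x).symm
  rw [e]
  exact embFC_betaFC N ℓ x

end degeneracy

section range

variable (N : ℕ) [NeZero N]

theorem jdC_mem_invC (d : ℕ) [NeZero d] (hd : d ∣ N) : jdC N d hd ∈ invC N :=
  fun γ hγ => compC_jdC N d hd γ hγ

/-- the image of `embFC` lies in `fieldC N`. -/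
theorem embFC_mem_fieldC (f : FC N) : embFC N f ∈ fieldC N := by
  obtain ⟨A, B, -, hA, hB, hf, -⟩ := exists_PhiFC_eq_div N f
  rw [embFC_apply, hf, map_div₀, merC_algebraMap, merC_algebraMap]
  exact div_mem (mem_fieldC_of_invC N A hA) (mem_fieldC_of_invC N B hB)

theorem jdHol_one : jdHol 1 = jHol := by
  apply Hol.ext
  intro τ
  show jFun (scaleH 1 τ) = jFun τ
  rw [scaleH_one]

theorem embFC_JdFC_one : embFC N (JdFC N 1 (one_dvd N)) = jM := by
  rw [embFC_JdFC, jdHol_one]; rfl

theorem embFC_JdFC_self : embFC N (JdFC N N dvd_rfl) = jNM N := by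
  rw [embFC_JdFC]; rfl

/-- every element of `fieldC N` is in the image of `embFC`. -/
theorem exists_embFC_eq {x : MerH} (hx : x ∈ fieldC N) : ∃ w : FC N, embFC N w = x := by
  unfold fieldC at hx
  induction hx using IntermediateField.adjoin_induction with
  | mem x hx =>
    rcases hx with rfl | hx
    · exact ⟨_, embFC_JdFC_one N⟩
    · rw [Set.mem_singleton_iff] at hx
      subst hx
      exact ⟨_, embFC_JdFC_self N⟩
  | algebraMap c => exact ⟨_, embFC_const N c⟩
  | add x y _ _ ihx ihy =>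
    obtain ⟨a, rfl⟩ := ihx
    obtain ⟨b, rfl⟩ := ihy
    exact ⟨a + b, (embFC N).map_add a b⟩
  | inv x _ ihx =>
    obtain ⟨a, rfl⟩ := ihx
    exact ⟨a⁻¹, map_inv₀ (embFC N) a⟩
  | mul x y _ _ ihx ihy =>
    obtain ⟨a, rfl⟩ := ihx
    obtain ⟨b, rfl⟩ := ihy
    exact ⟨a * b, (embFC N).map_mul a b⟩

/-- `embFC` as a `ℂ`-algebra homomorphism into `fieldC N`. -/
def embFCAlg : FC N →ₐ[ℂ] ↥(fieldC N) where
  toFun f := ⟨embFC N f, embFC_mem_fieldC N f⟩
  map_one' := Subtype.ext ((embFC N).map_one)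
  map_mul' a b := Subtype.ext ((embFC N).map_mul a b)
  map_zero' := Subtype.ext ((embFC N).map_zero)
  map_add' a b := Subtype.ext ((embFC N).map_add a b)
  commutes' c := Subtype.ext (embFC_const N c)

@[simp] theorem coe_embFCAlg (f : FC N) : ((embFCAlg N f : ↥(fieldC N)) : MerH) = embFC N f := rfl

theorem embFCAlg_bijective : Bijective (embFCAlg N) := by
  constructor
  · intro a b hab
    exact embFC_injective N (congrArg Subtype.val hab)
  · rintro ⟨x, hx⟩
    obtain ⟨w, hw⟩ := exists_embFC_eq N hx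
    exact ⟨w, Subtype.ext hw⟩

/-- **the bridge** `fieldC N ≃ₐ[ℂ] F_ℂ(N)` (`q`-expansion). -/
def bridge : ↥(fieldC N) ≃ₐ[ℂ] FC N :=
  (AlgEquiv.ofBijective (embFCAlg N) (embFCAlg_bijective N)).symm

theorem embFC_bridge (f : ↥(fieldC N)) : embFC N (bridge N f) = (f : MerH) := by
  have h := (AlgEquiv.ofBijective (embFCAlg N) (embFCAlg_bijective N)).apply_symm_apply f
  exact congrArg Subtype.val h

theorem bridge_embFC (w : FC N) : bridge N ⟨embFC N w, embFC_mem_fieldC N w⟩ = w :=
  (AlgEquiv.ofBijective (embFCAlg N) (embFCAlg_bijective N)).symm_apply_apply w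

theorem bridge_symm_apply (w : FC N) :
    (((bridge N).symm w : ↥(fieldC N)) : MerH) = embFC N w := rfl

end range

section PlaceEquiv

variable {K F F' : Type*} [Field K] [Field F] [Field F'] [Algebra K F] [Algebra K F']

/-- the ring isomorphism between a valuation ring and its preimage under an isomorphism. -/
def comapRingEquiv (e : F ≃ₐ[K] F') (A : ValuationSubring F') :
    ↥(A.comap (e : F →+* F')) ≃+* ↥A where
  toFun x := ⟨e x, x.2⟩
  invFun y := ⟨e.symm y, by
    show e (e.symm y) ∈ A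
    rw [e.apply_symm_apply]
    exact y.2⟩
  left_inv x := Subtype.ext (e.symm_apply_apply _)
  right_inv y := Subtype.ext (e.apply_symm_apply _)
  map_mul' x y := Subtype.ext (map_mul e _ _)
  map_add' x y := Subtype.ext (map_add e _ _)

@[simp] theorem coe_comapRingEquiv (e : F ≃ₐ[K] F') (A : ValuationSubring F')
    (x : ↥(A.comap (e : F →+* F'))) : ((comapRingEquiv e A x : ↥A) : F') = e (x : F) := rfl

/-- the pullback of a place along an isomorphism. -/
def placeComap (e : F ≃ₐ[K] F') (P : Place K F') : Place K F where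
  toValuationSubring := P.toValuationSubring.comap (e : F →+* F')
  algebraMap_mem' a := by
    show e (algebraMap K F a) ∈ P.toValuationSubring
    rw [e.commutes]
    exact P.algebraMap_mem' a
  ne_top' h := P.ne_top' (by
    refine SetLike.ext fun y => ⟨fun _ => ValuationSubring.mem_top y, fun _ => ?_⟩
    have h1 : e.symm y ∈ P.toValuationSubring.comap (e : F →+* F') := by
      rw [h]; exact ValuationSubring.mem_top _
    have h2 : e (e.symm y) ∈ P.toValuationSubring := h1
    rwa [e.apply_symm_apply] at h2)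
  isPrincipalIdealRing' :=
    haveI := P.isPrincipalIdealRing'
    IsPrincipalIdealRing.of_surjective
      ((comapRingEquiv e P.toValuationSubring).symm : _ ≃+* _)
      (comapRingEquiv e P.toValuationSubring).symm.surjective

theorem ord_placeComap (e : F ≃ₐ[K] F') (P : Place K F') (f : F) :
    (placeComap e P).ord f = P.ord (e f) := by
  rcases eq_or_ne f 0 with rfl | hf
  · simp
  set v := placeComap e P with hv
  obtain ⟨ϖ, hϖ⟩ := IsDiscreteValuationRing.exists_irreducible v.toValuationSubring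
  obtain ⟨u, hu⟩ := v.exists_unit_mul_zpow hf hϖ
  set n := v.ord f with hn
  let ε : ↥v.toValuationSubring ≃+* ↥P.toValuationSubring :=
    comapRingEquiv e P.toValuationSubring
  have hϖ' : Irreducible (ε ϖ) := (MulEquiv.irreducible_iff ε).mpr hϖ
  have hu' : IsUnit (ε (u : v.toValuationSubring)) := u.isUnit.map ε
  have hcoeu : ((hu'.unit : P.toValuationSubring) : F') = e ((u : v.toValuationSubring) : F) := by
    rw [IsUnit.unit_spec]
    rfl
  have hcoeϖ : ((ε ϖ : P.toValuationSubring) : F') = e (ϖ : F) := rfl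
  have key : e f = ((hu'.unit : P.toValuationSubring) : F')
      * (((ε ϖ : P.toValuationSubring) : F') ^ n) := by
    rw [hcoeu, hcoeϖ, hu, map_mul, map_zpow₀]
  rw [key, P.ord_unit_smul_zpow hu'.unit hϖ' n]

end PlaceEquiv

section places

variable (N : ℕ) [NeZero N]

/-- every place of `F_ℂ(N)` comes from a place of `fieldC N`, with the same orders. -/
theorem exists_place_bridge (P : Place ℂ (FC N)) :
    ∃ P' : Place ℂ ↥(fieldC N), ∀ f : ↥(fieldC N), P'.ord f = P.ord (bridge N f) :=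
  ⟨placeComap (bridge N) P, fun f => ord_placeComap (bridge N) P f⟩

/-- **transfer of W1**: divisibility of all orders on `fieldC N` gives divisibility of all orders
on `F_ℂ(N)`. -/
theorem dvd_ord_of_fieldC {p : ℤ} {y : MerH} (hy : y ∈ fieldC N)
    (h : ∀ P' : Place ℂ ↥(fieldC N), p ∣ P'.ord ⟨y, hy⟩)
    (w : FC N) (hw : embFC N w = y) (P : Place ℂ (FC N)) : p ∣ P.ord w := by
  have h1 := h (placeComap (bridge N) P)
  rw [ord_placeComap] at h1
  have h2 : bridge N ⟨y, hy⟩ = w := by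
    have := bridge_embFC N w
    rw [← this]
    congr 1
    exact Subtype.ext hw.symm
  rwa [h2] at h1

/-- every place of `F_ℂ(N)` comes from a place of `fieldC N` (the form used by TOP). -/
theorem exists_place_of_embFC (P : Place ℂ (FC N)) :
    ∃ P' : Place ℂ ↥(fieldC N), ∀ (w : FC N) (f : ↥(fieldC N)),
      embFC N w = (f : MerH) → P.ord w = P'.ord f := by
  refine ⟨placeComap (bridge N) P, fun w f hwf => ?_⟩
  rw [ord_placeComap]
  have h2 : bridge N f = w := by
    have := bridge_embFC N w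
    rw [← this]
    congr 1
    exact Subtype.ext hwf.symm
  rw [h2]

end places

end Fermat.Agent.S29.BrC
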