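import Mathlib
import Fermat.Agent.S29.MerField
import Fermat.Agent.S29.DescentStep

/-!
# S29 (item 90), TOP: the Kummer system over `ℂ`, abstract form

`TopHyp` collects what is needed of a field `F` realised in `MerH` by `e : F →+* MerH`
(`F = F_ℂ(N)` with the realisation of `q`-expansions, or `F = fieldC N` with the inclusion):

* functions `h x ∈ MerH` with character `chi x` on `Γ₀(N)`, `h x ^ p ∈ e F`;
* the ratios `h (x + y) / (h x * h y)` and `h (T i x) / Hf i (h x)` lie in `e F`;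
* `e (H i u) = Hf i (e u)` (NormProd).

`TopHyp.ksys` : the Kummer system `U x := e⁻¹ (h x ^ p)`.
-/

set_option autoImplicit false
set_option linter.unusedSectionVars false

open CongruenceSubgroup
open scoped MatrixGroups

noncomputable section

namespace Fermat.Agent.S29.Top

open Fermat.Agent.S29.Mer Fermat.Agent.S29.DStep

theorem e_unit_ne_zero {F : Type*} [Field F] (e : F →+* MerH) (v : Fˣ) : e (v : F) ≠ 0 := by
  rw [Ne, map_eq_zero_iff e e.injective]
  exact v.ne_zero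

/-- a unit whose image is a `p`-th power of an element of `e F` is a `p`-th power. -/
theorem eq_pow_of_e_eq {F : Type*} [Field F] (e : F →+* MerH) {p : ℕ} (hp : p ≠ 0)
    (v : Fˣ) (w : F) (t : MerH) (hw : e w = t) (hv : e (v : F) = t ^ p) :
    ∃ W : Fˣ, v = W ^ p := by
  have hw0 : w ≠ 0 := by
    rintro rfl
    rw [map_zero] at hw
    rw [← hw, zero_pow hp] at hv
    exact e_unit_ne_zero e v hv
  refine ⟨Units.mk0 w hw0, ?_⟩
  apply Units.ext
  apply e.injective
  rw [Units.val_pow_eq_pow_val, map_pow, Units.val_mk0, hw, hv]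

/-- the hypotheses of the top Kummer system. -/
structure TopHyp (N p : ℕ) {X ι : Type*} [AddCommGroup X] {F : Type*} [Field F]
    (T : ι → X →+ X) (e : F →+* MerH) (C KP : Subgroup Fˣ) (H : ι → Fˣ →* Fˣ) where
  /-- the Hecke operators on functions -/
  Hf : ι → MerH → MerH
  /-- the functions with character -/
  h : X → MerH
  /-- the characters -/
  chi : X → (Gamma0 N →* ℂˣ)
  hp : p ≠ 0
  hinv : ∀ (γ : Gamma0 N) (w : F), sigmaH (γ : SL(2, ℤ)) (e w) = e w
  hC : ∀ u : Fˣ, u ∈ C → ∃ c : ℂ, e (u : F) = algebraMap ℂ MerH c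
  hH : ∀ (i : ι) (u : Fˣ), e ((H i u : Fˣ) : F) = Hf i (e (u : F))
  hHf_pow : ∀ (i : ι) (y : MerH), Hf i (y ^ p) = Hf i y ^ p
  h0 : ∀ x, h x ≠ 0
  hchi : ∀ (x : X) (γ : Gamma0 N), sigmaH (γ : SL(2, ℤ)) (h x) = ((chi x γ : ℂˣ) : ℂ) • h x
  chi_inj : ∀ x, chi x = 1 → x = 0
  hpow : ∀ x, ∃ w : F, e w = h x ^ p
  hkp : ∀ (x : X) (u : Fˣ), e (u : F) = h x ^ p → u ∈ KP
  hadd : ∀ x y, ∃ w : F, e w = h (x + y) / (h x * h y)
  hhk : ∀ (i : ι) (x : X), ∃ w : F, e w = h (T i x) / Hf i (h x)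

namespace TopHyp

variable {N p : ℕ} {X ι : Type*} [AddCommGroup X] {F : Type*} [Field F]
  {T : ι → X →+ X} {e : F →+* MerH} {C KP : Subgroup Fˣ} {H : ι → Fˣ →* Fˣ}
  (D : TopHyp N p T e C KP H)

/-- the function `u_x ∈ F` with `e u_x = h x ^ p`. -/
def u (x : X) : F := (D.hpow x).choose

theorem e_u (x : X) : e (D.u x) = D.h x ^ p := (D.hpow x).choose_spec

theorem u_ne_zero (x : X) : D.u x ≠ 0 := by
  intro h
  have h1 := D.e_u x
  rw [h, map_zero] at h1
  exact pow_ne_zero p (D.h0 x) h1.symm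

/-- the Kummer element of `x`. -/
def U (x : X) : Fˣ := Units.mk0 (D.u x) (D.u_ne_zero x)

theorem e_U (x : X) : e ((D.U x : Fˣ) : F) = D.h x ^ p := D.e_u x

theorem Hf_ne_zero (i : ι) (x : X) : D.Hf i (D.h x) ≠ 0 := by
  intro h
  have h1 := D.hH i (D.U x)
  rw [D.e_U, D.hHf_pow, h, zero_pow D.hp] at h1
  exact e_unit_ne_zero e _ h1

/-- **the top Kummer system.** -/
def ksys : KSys T Fˣ C KP H p where
  U := D.U
  kp x := D.hkp x (D.U x) (D.e_U x)
  add x y := by
    obtain ⟨w, hw⟩ := D.hadd x y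
    obtain ⟨W, hW⟩ := eq_pow_of_e_eq e D.hp (D.U (x + y) / (D.U x * D.U y)) w _ hw (by
      rw [Units.val_div_eq_div_val, Units.val_mul, map_div₀, map_mul, D.e_U, D.e_U, D.e_U,
        div_pow, mul_pow])
    rw [hW]
    exact pow_mem_Triv C p W
  inj x hx := by
    obtain ⟨c, hc, w, hU⟩ := mem_Triv_iff.1 hx
    obtain ⟨c₀, hc₀⟩ := D.hC c hc
    have hw0 : e (w : F) ≠ 0 := e_unit_ne_zero e w
    have h1 : D.h x ^ p = algebraMap ℂ MerH c₀ * e (w : F) ^ p := by
      rw [← D.e_U, hU, Units.val_mul, Units.val_pow_eq_pow_val, map_mul, map_pow, hc₀]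
    have hy : (D.h x / e (w : F)) ^ p = algebraMap ℂ MerH c₀ := by
      rw [div_pow, h1, mul_div_assoc, div_self (pow_ne_zero _ hw0), mul_one]
    obtain ⟨z, hz⟩ := exists_const_of_pow_eq D.hp hy
    have hh : D.h x = z • e (w : F) := by
      rw [Algebra.smul_def, ← hz, div_mul_cancel₀ _ hw0]
    apply D.chi_inj
    ext γ
    have h2 := D.hchi x γ
    rw [hh, sigmaH_smul, D.hinv γ, ← hh] at h2
    have h3 : algebraMap ℂ MerH ((1 : ℂ) - ((D.chi x γ : ℂˣ) : ℂ)) * D.h x = 0 := by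
      rw [map_sub, map_one, sub_mul, one_mul, ← Algebra.smul_def, ← h2, sub_self]
    rcases mul_eq_zero.mp h3 with h4 | h4
    · rw [MonoidHom.one_apply, Units.val_one]
      have h5 : (1 : ℂ) - ((D.chi x γ : ℂˣ) : ℂ) = 0 :=
        (map_eq_zero_iff _ (algebraMap ℂ MerH).injective).mp h4
      exact (sub_eq_zero.mp h5).symm
    · exact absurd h4 (D.h0 x)
  hk i x := by
    obtain ⟨w, hw⟩ := D.hhk i x
    obtain ⟨W, hW⟩ := eq_pow_of_e_eq e D.hp (D.U (T i x) / H i (D.U x)) w _ hw (by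
      rw [Units.val_div_eq_div_val, map_div₀, D.hH, D.e_U, D.e_U, D.hHf_pow, div_pow])
    rw [hW]
    exact pow_mem_Triv C p W

@[simp] theorem ksys_U (x : X) : D.ksys.U x = D.U x := rfl

end TopHyp

end Fermat.Agent.S29.Top
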