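import Mathlib
import Fermat.Agent.S29.NormProdA
import Fermat.Agent.S37.KronNorm
import Fermat.Agent.S37.ESFun

/-!
# S29 (item 90), piece R1(e), NormProd: the norm along `α` of `β u` is the Hecke product

* `next_eq_smul`      : the permutation of `P¹(𝔽_ℓ)` of the coset datum of `T_ℓ` is the
                        Möbius action of the reduction;
* `exists_gamma_next` : `Γ₀(N)` is transitive on `P¹(𝔽_ℓ)`;
* `tauFam`            : the `ℓ + 1` embeddings `F_{Nℓ} → MerH` over `F_N`;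
* `embF_norm`         : `embF N (Nm_α (β u)) = heckeFun ℓ (embF N u)`.
-/

set_option autoImplicit false
set_option linter.unusedSectionVars false
set_option linter.style.haveILetI false

open UpperHalfPlane hiding I
open Function Complex Matrix.SpecialLinearGroup CongruenceSubgroup
open scoped Real MatrixGroups Manifold

noncomputable section

namespace Fermat.Agent.S29.Mer

open Fermat.Agent.FF Fermat.Agent.S16 Fermat.Agent.S37.Kron Fermat.Agent.S37 ModularCurve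
open Fermat.Agent.S28 Fermat.Agent.S18.CuspL Fermat.Agent.S37.E3 AlgebraicCurve
open P2MW.S_ModularForm_heckeT_slash_eq_self_of_mem_Gamma0.ModularForm.HeckeSlashInvariance

theorem sigmaH_one (x : MerH) : sigmaH 1 x = x := by
  obtain ⟨a, b, hb, rfl⟩ := IsFractionRing.div_surjective (A := Hol) x
  simp only [map_div₀, sigmaH_algebraMap, compH_one]

theorem sigmaH_mul (γ δ : SL(2, ℤ)) (x : MerH) :
    sigmaH (γ * δ) x = sigmaH δ (sigmaH γ x) := by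
  obtain ⟨a, b, hb, rfl⟩ := IsFractionRing.div_surjective (A := Hol) x
  simp only [map_div₀, sigmaH_algebraMap, compH_mul]

section Trans

variable (N ℓ : ℕ) [Fact ℓ.Prime]

/-- the permutation of `P¹(𝔽_ℓ)` given by `γ ∈ Γ₀(N)` is the Möbius action of its reduction. -/
theorem next_eq_smul (hℓN : ¬ ℓ ∣ N) (γ : Gamma0 N) (x : OnePoint (ZMod ℓ)) :
    (datumT N ℓ hℓN).next γ x = redMatrix ℓ (γ : SL(2, ℤ)) • x := by
  have hγ : (N : ℤ) ∣ (γ : SL(2, ℤ)) 1 0 :=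
    (ZMod.intCast_zmod_eq_zero_iff_dvd _ _).mp (Gamma0_mem.mp γ.2)
  obtain ⟨g', hg', hmul⟩ := heckeRep_mul hℓN (γ : SL(2, ℤ)) hγ x
  exact ((datumT N ℓ hℓN).unique
    (γ' := ⟨g', Gamma0_mem.mpr ((ZMod.intCast_zmod_eq_zero_iff_dvd _ _).mpr hg')⟩) hmul).1.symm

/-- elements of `Γ₀(Nℓ)` fix `∞ ∈ P¹(𝔽_ℓ)`. -/
theorem next_infty_of_mem (hℓN : ¬ ℓ ∣ N) (γ : Gamma0 N)
    (hγ : (γ : SL(2, ℤ)) ∈ Gamma0 (N * ℓ)) :
    (datumT N ℓ hℓN).next γ OnePoint.infty = OnePoint.infty := by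
  rw [next_eq_smul, OnePoint.smul_infty_eq_ite, if_pos]
  rw [redMatrix_apply_one_zero, ZMod.intCast_zmod_eq_zero_iff_dvd]
  have h1 : ((N * ℓ : ℕ) : ℤ) ∣ (γ : SL(2, ℤ)) 1 0 :=
    (ZMod.intCast_zmod_eq_zero_iff_dvd _ _).mp (Gamma0_mem.mp hγ)
  exact dvd_trans (by push_cast; exact dvd_mul_left _ _) h1

/-- **transitivity** of `Γ₀(N)` on `P¹(𝔽_ℓ)`. -/
theorem exists_gamma_next (hℓN : ¬ ℓ ∣ N) (x : OnePoint (ZMod ℓ)) :
    ∃ γ : Gamma0 N, (datumT N ℓ hℓN).next γ OnePoint.infty = x := by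
  induction x using OnePoint.rec with
  | infty => exact ⟨1, (datumT N ℓ hℓN).next_one _⟩
  | coe j =>
    have hℓ : ℓ.Prime := Fact.out
    have h1 : IsCoprime (ℓ : ℤ) (N : ℤ) :=
      Nat.isCoprime_iff_coprime.mpr ((Nat.Prime.coprime_iff_not_dvd hℓ).mpr hℓN)
    have hcop : IsCoprime ((ℓ : ℤ) + (N : ℤ) * (j.val : ℤ)) (N : ℤ) :=
      h1.add_mul_left_left (j.val : ℤ)
    obtain ⟨a, b, hab⟩ := hcop
    have hdet : (!![a, -b; (N : ℤ), (ℓ : ℤ) + (N : ℤ) * (j.val : ℤ)]).det = 1 := by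
      rw [Matrix.det_fin_two_of]; linear_combination hab
    set γ : SL(2, ℤ) := ⟨!![a, -b; (N : ℤ), (ℓ : ℤ) + (N : ℤ) * (j.val : ℤ)], hdet⟩ with hγdef
    have hγ10 : γ 1 0 = (N : ℤ) := rfl
    have hγ11 : γ 1 1 = (ℓ : ℤ) + (N : ℤ) * (j.val : ℤ) := rfl
    have hγmem : γ ∈ Gamma0 N := by
      rw [Gamma0_mem, hγ10]; simp
    have hN0 : ((N : ℤ) : ZMod ℓ) ≠ 0 := by
      rw [Ne, ZMod.intCast_zmod_eq_zero_iff_dvd]
      intro h
      exact hℓN (by exact_mod_cast h)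
    refine ⟨⟨γ, hγmem⟩, ?_⟩
    rw [next_eq_smul, OnePoint.smul_infty_eq_ite, if_neg]
    · congr 1
      rw [redMatrix_apply_zero_zero, redMatrix_apply_one_zero]
      show ((γ 1 1 : ℤ) : ZMod ℓ) / ((γ 1 0 : ℤ) : ZMod ℓ) = j
      rw [hγ11, hγ10, div_eq_iff hN0]
      push_cast
      rw [ZMod.natCast_self, ZMod.natCast_zmod_val]
      ring
    · rw [redMatrix_apply_one_zero]
      exact hN0

end Trans

section Fam

variable (N ℓ : ℕ) [NeZero N] [Fact ℓ.Prime]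

/-- the chosen element of `Γ₀(N)` sending `∞` to `x`. -/
def gamX (hℓN : ¬ ℓ ∣ N) (x : OnePoint (ZMod ℓ)) : Gamma0 N :=
  (exists_gamma_next N ℓ hℓN x).choose

theorem gamX_spec (hℓN : ¬ ℓ ∣ N) (x : OnePoint (ZMod ℓ)) :
    (datumT N ℓ hℓN).next (gamX N ℓ hℓN x) OnePoint.infty = x :=
  (exists_gamma_next N ℓ hℓN x).choose_spec

/-- **the `ℓ + 1` embeddings** of `F_{Nℓ}` into `MerH`. -/
def tauFam (hℓN : ¬ ℓ ∣ N) (x : OnePoint (ZMod ℓ)) : FN (N * ℓ) →+* MerH :=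
  (sigmaH ((gamX N ℓ hℓN x : Gamma0 N) : SL(2, ℤ))).comp (embF (N * ℓ))

theorem tauFam_apply (hℓN : ¬ ℓ ∣ N) (x : OnePoint (ZMod ℓ)) (f : FN (N * ℓ)) :
    tauFam N ℓ hℓN x f = sigmaH ((gamX N ℓ hℓN x : Gamma0 N) : SL(2, ℤ)) (embF (N * ℓ) f) := rfl

theorem tauFam_alpha (hℓN : ¬ ℓ ∣ N) (x : OnePoint (ZMod ℓ)) (y : FN N) :
    tauFam N ℓ hℓN x (heckeAlphaBar Kbar N ℓ y) = embF N y := by
  rw [tauFam_apply, embF_alpha, sigmaH_embF N _ (gamX N ℓ hℓN x).2]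

theorem sigmaH_sigmaG_diag (hℓN : ¬ ℓ ∣ N) (γ : Gamma0 N) {h : MerH}
    (hinv : ∀ δ : Gamma0 N, sigmaH (δ : SL(2, ℤ)) h = h) :
    sigmaH (γ : SL(2, ℤ)) (sigmaG (ModularForm.heckeDiagMatrix ℓ) (det_heckeDiag_pos ℓ) h) =
      sigmaG (heckeRep ℓ ((datumT N ℓ hℓN).next γ OnePoint.infty)) (det_heckeRep_pos ℓ _) h := by
  have hspec : ModularForm.heckeDiagMatrix ℓ * mapGL ℝ (γ : SL(2, ℤ)) =
      mapGL ℝ (((datumT N ℓ hℓN).coc γ OnePoint.infty : Gamma0 N) : SL(2, ℤ)) *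
        heckeRep ℓ ((datumT N ℓ hℓN).next γ OnePoint.infty) :=
    datumT_spec ℓ hℓN γ OnePoint.infty
  rw [sigmaH_eq_sigmaG, ← sigmaG_mul (ModularForm.heckeDiagMatrix ℓ) (mapGL ℝ (γ : SL(2, ℤ)))
      (det_heckeDiag_pos ℓ) (det_mapGL_pos _),
    sigmaG_congr hspec _ (det_mul_pos (det_mapGL_pos _) (det_heckeRep_pos ℓ _)),
    sigmaG_mul _ _ (det_mapGL_pos _) (det_heckeRep_pos ℓ _), ← sigmaH_eq_sigmaG, hinv]

theorem tauFam_beta (hℓN : ¬ ℓ ∣ N) (x : OnePoint (ZMod ℓ)) (y : FN N) :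
    tauFam N ℓ hℓN x (heckeBetaBar Kbar N ℓ y) =
      sigmaG (heckeRep ℓ x) (det_heckeRep_pos ℓ x) (embF N y) := by
  rw [tauFam_apply, embF_beta,
    sigmaH_sigmaG_diag N ℓ hℓN (gamX N ℓ hℓN x) (fun δ => sigmaH_embF N _ δ.2 y)]
  exact sigmaG_congr (congrArg (heckeRep ℓ) (gamX_spec N ℓ hℓN x)) _ _ _

/-- an element of `Γ₀(N)` fixing (the image of) `F_{Nℓ}` pointwise lies in `Γ₀(Nℓ)`. -/
theorem mem_Gamma0_mul_of_fix (hℓN : ¬ ℓ ∣ N) (g : SL(2, ℤ)) (hg : g ∈ Gamma0 N)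
    (hfix : ∀ f : FN (N * ℓ), sigmaH g (embF (N * ℓ) f) = embF (N * ℓ) f) :
    g ∈ Gamma0 (N * ℓ) := by
  by_contra hg'
  have hℓ : ℓ.Prime := Fact.out
  obtain ⟨ζ, hζ, -, hβ⟩ := conjExp_beta N ℓ hℓ hℓN g hg hg'
  have hN0 : 0 < N := Nat.pos_of_ne_zero (NeZero.ne N)
  set θ : FN N := jBar N with hθ
  have hθc : ((θ : FN N) : LaurentSeries Kbar) = Jd 1 := jBar_coe N
  have h1 : conjExp (N * ℓ) g (heckeBetaBar Kbar N ℓ θ) =
      qExpand Kbar (N * ℓ) ((heckeBetaBar Kbar N ℓ θ : FN (N * ℓ)) : LaurentSeries Kbar) := by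
    rw [conjExp_apply, ← expL_PhiN]
    congr 1
    apply embL_injective (N * ℓ)
    rw [← sigmaH_embL]
    exact hfix _
  rw [hβ θ, coe_heckeBetaBar] at h1
  have hL : (qExpand Kbar N (twHom ζ hζ (θ : LaurentSeries Kbar))).coeff (-(N : ℤ)) = ζ⁻¹ := by
    rw [hθc]
    have : (-(N : ℤ)) = (N : ℤ) * (-1) := by ring
    rw [this, qExpand_coeff_mul, twHom_coeff, coeff_Jd_one_neg_one, mul_one, zpow_neg_one]
  have hR : (qExpand Kbar (N * ℓ)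
      (qExpand Kbar ℓ (θ : LaurentSeries Kbar))).coeff (-(N : ℤ)) = 0 := by
    rw [qExpand_qExpand]
    apply qExpand_coeff_of_not_dvd
    rintro ⟨c, hc⟩
    have h1 : (N : ℤ) * (-1) = (N : ℤ) * ((ℓ : ℤ) * ℓ * c) := by
      rw [mul_neg_one, hc]; push_cast; ring
    have h2 := mul_left_cancel₀ (by exact_mod_cast hN0.ne' : (N : ℤ) ≠ 0) h1
    have h3 : (ℓ : ℤ) ∣ 1 := ⟨-(ℓ * c), by linarith⟩
    have h4 : ℓ ∣ 1 := by exact_mod_cast h3
    exact hℓ.one_lt.ne' (Nat.dvd_one.mp h4)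
  rw [h1, hR] at hL
  exact inv_ne_zero hζ hL.symm

theorem tauFam_injective (hℓN : ¬ ℓ ∣ N) : Function.Injective (tauFam N ℓ hℓN) := by
  intro x x' hxx
  have hfix : ∀ f : FN (N * ℓ),
      sigmaH (((gamX N ℓ hℓN x' * (gamX N ℓ hℓN x)⁻¹ : Gamma0 N)) : SL(2, ℤ))
        (embF (N * ℓ) f) = embF (N * ℓ) f := by
    intro f
    have h1 : sigmaH ((gamX N ℓ hℓN x : Gamma0 N) : SL(2, ℤ)) (embF (N * ℓ) f) =
        sigmaH ((gamX N ℓ hℓN x' : Gamma0 N) : SL(2, ℤ)) (embF (N * ℓ) f) :=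
      DFunLike.congr_fun hxx f
    rw [Subgroup.coe_mul, Subgroup.coe_inv, sigmaH_mul, ← h1, ← sigmaH_mul, mul_inv_cancel,
      sigmaH_one]
  have hmem := mem_Gamma0_mul_of_fix N ℓ hℓN _
    (gamX N ℓ hℓN x' * (gamX N ℓ hℓN x)⁻¹).2 hfix
  have h2 := next_infty_of_mem N ℓ hℓN (gamX N ℓ hℓN x' * (gamX N ℓ hℓN x)⁻¹) hmem
  have h3 : gamX N ℓ hℓN x' = (gamX N ℓ hℓN x' * (gamX N ℓ hℓN x)⁻¹) * gamX N ℓ hℓN x := by
    group
  calc x = (datumT N ℓ hℓN).next (gamX N ℓ hℓN x) OnePoint.infty := (gamX_spec N ℓ hℓN x).symm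
    _ = (datumT N ℓ hℓN).next (gamX N ℓ hℓN x)
          ((datumT N ℓ hℓN).next (gamX N ℓ hℓN x' * (gamX N ℓ hℓN x)⁻¹) OnePoint.infty) := by
        rw [h2]
    _ = (datumT N ℓ hℓN).next
          ((gamX N ℓ hℓN x' * (gamX N ℓ hℓN x)⁻¹) * gamX N ℓ hℓN x) OnePoint.infty :=
        ((datumT N ℓ hℓN).next_mul _ _ _).symm
    _ = (datumT N ℓ hℓN).next (gamX N ℓ hℓN x') OnePoint.infty := by rw [← h3]
    _ = x' := gamX_spec N ℓ hℓN x'

/-- **NormProd**: the norm along `α` of `β u` is the product of the `ℓ + 1` Hecke transforms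
of `u`. -/
theorem embF_norm (hℓN : ¬ ℓ ∣ N) (u : FN N) :
    embF N (normAlong (heckeAlphaBar Kbar N ℓ) (heckeBetaBar Kbar N ℓ u)) =
      heckeFun ℓ (embF N u) := by
  have hℓ : ℓ.Prime := Fact.out
  letI := algebraAlong (heckeAlphaBar Kbar N ℓ)
  haveI : Module.Finite (FN N) (FN (N * ℓ)) := E0M.finiteAlong_alpha N ℓ
  have hcard : Fintype.card (OnePoint (ZMod ℓ)) = ℓ + 1 := by
    have h := Fintype.card_option (α := ZMod ℓ)
    rw [ZMod.card] at h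
    rw [← h]
    exact Fintype.card_congr (Equiv.refl (Option (ZMod ℓ)))
  let e : Fin (ℓ + 1) ≃ OnePoint (ZMod ℓ) := (Fintype.equivFinOfCardEq hcard).symm
  have hinj : Function.Injective (fun i : Fin (ℓ + 1) => tauFam N ℓ hℓN (e i)) :=
    (tauFam_injective N ℓ hℓN).comp e.injective
  have hcomp : ∀ i : Fin (ℓ + 1),
      (tauFam N ℓ hℓN (e i)).comp (algebraMap (FN N) (FN (N * ℓ))) = embF N := by
    intro i
    ext1 y
    exact tauFam_alpha N ℓ hℓN (e i) y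
  have h := KronEmb.norm_eq_prod_of_embeddings (embF N) (fun i => tauFam N ℓ hℓN (e i))
    hinj hcomp (Kron.finrank_along N ℓ hℓ hℓN).le (heckeBetaBar Kbar N ℓ u)
  have h0 : normAlong (heckeAlphaBar Kbar N ℓ) (heckeBetaBar Kbar N ℓ u) =
      Algebra.norm (FN N) (heckeBetaBar Kbar N ℓ u) := rfl
  rw [h0, h]
  unfold heckeFun
  rw [← Equiv.prod_comp e]
  exact Finset.prod_congr rfl fun i _ => tauFam_beta N ℓ hℓN (e i) u

/-- **Hecke stability of the Kummer relation** (unconditional form). -/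
theorem Rel.hecke_norm (hℓN : ¬ ℓ ∣ N) {n : ℕ} {χ : Gamma0 N →* ℂˣ} {u : FN N}
    (h : Rel N n χ u) :
    Rel N n (Tchar hℓN χ)
      (normAlong (heckeAlphaBar Kbar N ℓ) (heckeBetaBar Kbar N ℓ u)) :=
  h.hecke hℓN (embF_norm N ℓ hℓN u)

end Fam

end Fermat.Agent.S29.Mer
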