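import Mathlib
import Fermat.Agent.S29.NormProd
import Fermat.Agent.S29.InvCField

/-!
# S29 (item 90), TOP, NormProd in abstract form

For ANY pair of fields `F ⊂ F'` realised in `MerH` by `e`, `e'` (e.g. `fieldC N ⊂ fieldC (N ℓ)`
with the inclusions, or `F_ℂ(N) ⊂ F_ℂ(N ℓ)` with the realisation of `q`-expansions), with a map
`β : F → F'` realising `h ↦ h ∘ diag(ℓ, 1)`:

`norm_eq_heckeFun` : `e (Nm_{F'/F} (β u)) = heckeFun ℓ (e u)`

as soon as `[F' : F] ≤ ℓ + 1`, `e F` is `Γ₀(N)`-invariant and `j ∈ e F`.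
-/

set_option autoImplicit false
set_option linter.unusedSectionVars false
set_option linter.style.haveILetI false

open UpperHalfPlane hiding I
open Function Complex Matrix.SpecialLinearGroup CongruenceSubgroup
open scoped Real MatrixGroups Manifold

noncomputable section

namespace Fermat.Agent.S29.Mer

open Fermat.Agent.FF Fermat.Agent.S16 Fermat.Agent.S37.Kron Fermat.Agent.S37 ModularCurve
open Fermat.Agent.S28 Fermat.Agent.S18.CuspL Fermat.Agent.S37.E3 AlgebraicCurve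
open Fermat.Agent.S29.InvCDeg Fermat.Agent.S29.InvC
open P2MW.S_ModularForm_heckeT_slash_eq_self_of_mem_Gamma0.ModularForm.HeckeSlashInvariance

theorem jdHol_one : jdHol 1 = jHol := by
  apply Hol.ext
  intro τ
  show jFun (scaleH 1 τ) = jFun τ
  rw [scaleH_one]

variable (N ℓ : ℕ) [NeZero N] [Fact ℓ.Prime]

theorem embF_jBar : embF N (jBar N) = jM := by
  rw [embF_apply, PhiN_map_jBar, embL_algebraMap, inclR_jR, jdHol_one]
  rfl

/-- the function `j(ℓτ)` in `MerH`. -/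
def jEll : MerH := sigmaG (ModularForm.heckeDiagMatrix ℓ) (det_heckeDiag_pos ℓ) jM

theorem embF_beta_jBar :
    embF (N * ℓ) (heckeBetaBar Kbar N ℓ (jBar N)) = jEll ℓ := by
  rw [embF_beta, embF_jBar]
  rfl

/-- an element of `Γ₀(N)` fixing `j(ℓτ)` lies in `Γ₀(Nℓ)`. -/
theorem mem_Gamma0_mul_of_fix_jEll (hℓN : ¬ ℓ ∣ N) (g : SL(2, ℤ)) (hg : g ∈ Gamma0 N)
    (hfix : sigmaH g (jEll ℓ) = jEll ℓ) :
    g ∈ Gamma0 (N * ℓ) := by
  by_contra hg'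
  have hℓ : ℓ.Prime := Fact.out
  obtain ⟨ζ, hζ, -, hβ⟩ := conjExp_beta N ℓ hℓ hℓN g hg hg'
  have hN0 : 0 < N := Nat.pos_of_ne_zero (NeZero.ne N)
  set θ : FN N := jBar N with hθ
  have hθc : ((θ : FN N) : LaurentSeries Kbar) = Jd 1 := jBar_coe N
  have h1 : conjExp (N * ℓ) g (heckeBetaBar Kbar N ℓ θ) =
      qExpand Kbar (N * ℓ) ((heckeBetaBar Kbar N ℓ θ : FN (N * ℓ)) : LaurentSeries Kbar) := by
    rw [conjExp_apply, ← expL_PhiN]
    congr 1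
    apply embL_injective (N * ℓ)
    rw [← sigmaH_embL, ← embF_apply, embF_beta_jBar]
    exact hfix
  rw [hβ θ, coe_heckeBetaBar] at h1
  have hL : (qExpand Kbar N (twHom ζ hζ (θ : LaurentSeries Kbar))).coeff (-(N : ℤ)) = ζ⁻¹ := by
    rw [hθc]
    have : (-(N : ℤ)) = (N : ℤ) * (-1) := by ring
    rw [this, qExpand_coeff_mul, twHom_coeff, coeff_Jd_one_neg_one, mul_one, zpow_neg_one]
  have hR : (qExpand Kbar (N * ℓ)
      (qExpand Kbar ℓ (θ : LaurentSeries Kbar))).coeff (-(N : ℤ)) = 0 := by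
    rw [qExpand_qExpand]
    apply qExpand_coeff_of_not_dvd
    rintro ⟨c, hc⟩
    have h1 : (N : ℤ) * (-1) = (N : ℤ) * ((ℓ : ℤ) * ℓ * c) := by
      rw [mul_neg_one, hc]; push_cast; ring
    have h2 := mul_left_cancel₀ (by exact_mod_cast hN0.ne' : (N : ℤ) ≠ 0) h1
    have h3 : (ℓ : ℤ) ∣ 1 := ⟨-(ℓ * c), by linarith⟩
    have h4 : ℓ ∣ 1 := by exact_mod_cast h3
    exact hℓ.one_lt.ne' (Nat.dvd_one.mp h4)
  rw [h1, hR] at hL
  exact inv_ne_zero hζ hL.symm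

section Abs

variable {F F' : Type*} [Field F] [Field F'] [Algebra F F']
  (e : F →+* MerH) (e' : F' →+* MerH) (β : F →+* F')

/-- the `ℓ + 1` embeddings of `F'`. -/
def tauAbs (hℓN : ¬ ℓ ∣ N) (x : OnePoint (ZMod ℓ)) : F' →+* MerH :=
  (sigmaH ((gamX N ℓ hℓN x : Gamma0 N) : SL(2, ℤ))).comp e'

variable {e e' β}

theorem tauAbs_alpha (hℓN : ¬ ℓ ∣ N) (hα : ∀ y, e' (algebraMap F F' y) = e y)
    (hinv : ∀ (γ : Gamma0 N) (y : F), sigmaH (γ : SL(2, ℤ)) (e y) = e y)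
    (x : OnePoint (ZMod ℓ)) (y : F) :
    tauAbs N ℓ e' hℓN x (algebraMap F F' y) = e y := by
  show sigmaH _ (e' (algebraMap F F' y)) = e y
  rw [hα, hinv]

theorem tauAbs_beta (hℓN : ¬ ℓ ∣ N)
    (hβ : ∀ y, e' (β y) = sigmaG (ModularForm.heckeDiagMatrix ℓ) (det_heckeDiag_pos ℓ) (e y))
    (hinv : ∀ (γ : Gamma0 N) (y : F), sigmaH (γ : SL(2, ℤ)) (e y) = e y)
    (x : OnePoint (ZMod ℓ)) (y : F) :
    tauAbs N ℓ e' hℓN x (β y) = sigmaG (heckeRep ℓ x) (det_heckeRep_pos ℓ x) (e y) := by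
  show sigmaH _ (e' (β y)) = _
  rw [hβ, sigmaH_sigmaG_diag N ℓ hℓN (gamX N ℓ hℓN x) (fun δ => hinv δ y)]
  exact sigmaG_congr (congrArg (heckeRep ℓ) (gamX_spec N ℓ hℓN x)) _ _ _

theorem tauAbs_injective (hℓN : ¬ ℓ ∣ N) (hj : ∃ f₀ : F', e' f₀ = jEll ℓ) :
    Function.Injective (tauAbs N ℓ e' hℓN) := by
  obtain ⟨f₀, hf₀⟩ := hj
  intro x x' hxx
  have hfix : sigmaH (((gamX N ℓ hℓN x' * (gamX N ℓ hℓN x)⁻¹ : Gamma0 N)) : SL(2, ℤ))
      (jEll ℓ) = jEll ℓ := by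
    have h1 : sigmaH ((gamX N ℓ hℓN x : Gamma0 N) : SL(2, ℤ)) (e' f₀) =
        sigmaH ((gamX N ℓ hℓN x' : Gamma0 N) : SL(2, ℤ)) (e' f₀) :=
      DFunLike.congr_fun hxx f₀
    rw [hf₀] at h1
    rw [Subgroup.coe_mul, Subgroup.coe_inv, sigmaH_mul, ← h1, ← sigmaH_mul, mul_inv_cancel,
      sigmaH_one]
  have hmem := mem_Gamma0_mul_of_fix_jEll N ℓ hℓN _
    (gamX N ℓ hℓN x' * (gamX N ℓ hℓN x)⁻¹).2 hfix
  have h2 := next_infty_of_mem N ℓ hℓN (gamX N ℓ hℓN x' * (gamX N ℓ hℓN x)⁻¹) hmem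
  have h3 : gamX N ℓ hℓN x' = (gamX N ℓ hℓN x' * (gamX N ℓ hℓN x)⁻¹) * gamX N ℓ hℓN x := by
    group
  calc x = (datumT N ℓ hℓN).next (gamX N ℓ hℓN x) OnePoint.infty := (gamX_spec N ℓ hℓN x).symm
    _ = (datumT N ℓ hℓN).next (gamX N ℓ hℓN x)
          ((datumT N ℓ hℓN).next (gamX N ℓ hℓN x' * (gamX N ℓ hℓN x)⁻¹) OnePoint.infty) := by
        rw [h2]
    _ = (datumT N ℓ hℓN).next
          ((gamX N ℓ hℓN x' * (gamX N ℓ hℓN x)⁻¹) * gamX N ℓ hℓN x) OnePoint.infty :=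
        ((datumT N ℓ hℓN).next_mul _ _ _).symm
    _ = (datumT N ℓ hℓN).next (gamX N ℓ hℓN x') OnePoint.infty := by rw [← h3]
    _ = x' := gamX_spec N ℓ hℓN x'

/-- **NormProd, abstract form.** -/
theorem norm_eq_heckeFun [FiniteDimensional F F'] [Algebra.IsSeparable F F'] (hℓN : ¬ ℓ ∣ N)
    (hα : ∀ y, e' (algebraMap F F' y) = e y)
    (hβ : ∀ y, e' (β y) = sigmaG (ModularForm.heckeDiagMatrix ℓ) (det_heckeDiag_pos ℓ) (e y))
    (hinv : ∀ (γ : Gamma0 N) (y : F), sigmaH (γ : SL(2, ℤ)) (e y) = e y)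
    (hj : ∃ f₀ : F', e' f₀ = jEll ℓ)
    (hdeg : Module.finrank F F' ≤ ℓ + 1) (u : F) :
    e (Algebra.norm F (β u)) = heckeFun ℓ (e u) := by
  have hcard : Fintype.card (OnePoint (ZMod ℓ)) = ℓ + 1 := by
    have h := Fintype.card_option (α := ZMod ℓ)
    rw [ZMod.card] at h
    rw [← h]
    exact Fintype.card_congr (Equiv.refl (Option (ZMod ℓ)))
  let eq : Fin (ℓ + 1) ≃ OnePoint (ZMod ℓ) := (Fintype.equivFinOfCardEq hcard).symm
  have hinj : Function.Injective (fun i : Fin (ℓ + 1) => tauAbs N ℓ e' hℓN (eq i)) :=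
    (tauAbs_injective N ℓ hℓN hj).comp eq.injective
  have hcomp : ∀ i : Fin (ℓ + 1),
      (tauAbs N ℓ e' hℓN (eq i)).comp (algebraMap F F') = e := by
    intro i
    ext1 y
    exact tauAbs_alpha N ℓ hℓN hα hinv (eq i) y
  have h := KronEmb.norm_eq_prod_of_embeddings e (fun i => tauAbs N ℓ e' hℓN (eq i))
    hinj hcomp hdeg (β u)
  rw [h]
  unfold heckeFun
  rw [← Equiv.prod_comp eq]
  exact Finset.prod_congr rfl fun i _ => tauAbs_beta N ℓ hℓN hβ hinv (eq i) u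

end Abs

end Fermat.Agent.S29.Mer
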