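import Mathlib
import Fermat.Agent.S29.BridgeC
import Fermat.Agent.S29.NormProdAbs
import Fermat.Agent.S29.NormRedMod

/-!
# S29 (item 90), TOP, instantiation part A: NormProd over `ℂ`

For `F_ℂ(N) = modularFunctionFieldFullC ℂ N` with helper6's realisation `embFC` and the lead's
canonical maps `NRM.alphaC`, `NRM.betaC`, `NRM.normBeta`:

* `embFC_alphaC` : `embFC (Nℓ) (α y) = embFC N y`;
* `embFC_betaC`  : `embFC (Nℓ) (β y) = (embFC N y) ∘ diag(ℓ, 1)`;
* `finrank_algC_le` : `[F_ℂ(Nℓ) : F_ℂ(N)] ≤ ℓ + 1`;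
* `embFC_normBeta` : `embFC N (Nm_α (β u)) = heckeFun ℓ (embFC N u)`.
-/

set_option autoImplicit false
set_option linter.unusedSectionVars false
set_option linter.style.haveILetI false

open UpperHalfPlane hiding I
open Function Complex Matrix.SpecialLinearGroup CongruenceSubgroup
open scoped Real MatrixGroups Manifold

noncomputable section

namespace Fermat.Agent.S29.Top

open Fermat.Agent.FF Fermat.Agent.S16 ModularCurve
open Fermat.Agent.S29.Mer Fermat.Agent.S29.BrC Fermat.Agent.S29.NRM Fermat.Agent.S29.InvCDeg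
open Fermat.Agent.S29.GaussC
open P2MW.S_ModularForm_heckeT_slash_eq_self_of_mem_Gamma0.ModularForm.HeckeSlashInvariance

section ext

variable (N : ℕ) [NeZero N]

/-- two ring homomorphisms on `F_ℂ(N)` which agree on the constants and on the generators are
equal -/
theorem ringHom_ext_FC {E : Type*} [DivisionRing E] (φ₁ φ₂ : FC N →+* E)
    (hc : ∀ c : ℂ, φ₁ (algebraMap ℂ (FC N) c) = φ₂ (algebraMap ℂ (FC N) c))
    (hg : ∀ (d : ℕ) [NeZero d] (hd : d ∣ N), φ₁ (JdFC N d hd) = φ₂ (JdFC N d hd)) :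
    φ₁ = φ₂ := by
  have key : ∀ (x : LaurentSeries ℂ) (hx : x ∈ IntermediateField.adjoin ℂ (divisorExpansionsC ℂ N))
      (hx' : x ∈ modularFunctionFieldFullC ℂ N),
      φ₁ ⟨x, hx'⟩ = φ₂ ⟨x, hx'⟩ := by
    intro x hx
    induction hx using IntermediateField.adjoin_induction with
    | mem x hx =>
      intro hx'
      obtain ⟨d, hd0, hd, rfl⟩ := hx
      exact hg d hd
    | algebraMap c =>
      intro hx'
      exact hc c
    | add x y hx hy ihx ihy =>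
      intro hx'
      have e : (⟨x + y, hx'⟩ : FC N) = ⟨x, hx⟩ + ⟨y, hy⟩ := rfl
      rw [e, map_add, map_add, ihx hx, ihy hy]
    | inv x hx ihx =>
      intro hx'
      have e : (⟨x⁻¹, hx'⟩ : FC N) = (⟨x, hx⟩ : FC N)⁻¹ := rfl
      rw [e, map_inv₀, map_inv₀, ihx hx]
    | mul x y hx hy ihx ihy =>
      intro hx'
      have e : (⟨x * y, hx'⟩ : FC N) = ⟨x, hx⟩ * ⟨y, hy⟩ := rfl
      rw [e, map_mul, map_mul, ihx hx, ihy hy]
  ext f
  exact key f.1 f.2 f.2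

end ext

variable (N ℓ : ℕ) [NeZero N] [NeZero ℓ]

theorem alphaC_JdFC (d : ℕ) [NeZero d] (hd : d ∣ N) :
    alphaC ℂ N ℓ (JdFC N d hd) = JdFC (N * ℓ) d (hd.trans (dvd_mul_right N ℓ)) := by
  apply Subtype.ext
  rw [coe_alphaC]
  rfl

theorem betaC_JdFC (d : ℕ) [NeZero d] (hd : d ∣ N) :
    haveI : NeZero (ℓ * d) := ⟨mul_ne_zero (NeZero.ne ℓ) (NeZero.ne d)⟩
    betaC ℂ N ℓ (JdFC N d hd) =
      JdFC (N * ℓ) (ℓ * d) ((mul_dvd_mul_left ℓ hd).trans (dvd_of_eq (mul_comm ℓ N))) := by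
  haveI : NeZero (ℓ * d) := ⟨mul_ne_zero (NeZero.ne ℓ) (NeZero.ne d)⟩
  apply Subtype.ext
  rw [coe_betaC, JdFC_coe, JdFC_coe, qExpand_qExpand]

theorem embFC_alphaC (y : FC N) :
    embFC (N * ℓ) (alphaC ℂ N ℓ y) = embFC N y := by
  have h : (embFC (N * ℓ)).comp (alphaC ℂ N ℓ).toRingHom = embFC N := by
    apply ringHom_ext_FC
    · intro c
      show embFC (N * ℓ) (alphaC ℂ N ℓ (algebraMap ℂ (FC N) c)) =
        embFC N (algebraMap ℂ (FC N) c)
      rw [AlgHom.commutes, embFC_const, embFC_const]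
    · intro d _ hd
      show embFC (N * ℓ) (alphaC ℂ N ℓ (JdFC N d hd)) = embFC N (JdFC N d hd)
      rw [alphaC_JdFC, embFC_JdFC, embFC_JdFC]
  exact DFunLike.congr_fun h y

theorem embFC_betaC (y : FC N) :
    embFC (N * ℓ) (betaC ℂ N ℓ y) =
      sigmaG (ModularForm.heckeDiagMatrix ℓ) (det_heckeDiag_pos ℓ) (embFC N y) := by
  have h : (embFC (N * ℓ)).comp (betaC ℂ N ℓ).toRingHom =
      (sigmaG (ModularForm.heckeDiagMatrix ℓ) (det_heckeDiag_pos ℓ)).comp (embFC N) := by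
    apply ringHom_ext_FC
    · intro c
      show embFC (N * ℓ) (betaC ℂ N ℓ (algebraMap ℂ (FC N) c)) =
        sigmaG _ _ (embFC N (algebraMap ℂ (FC N) c))
      rw [AlgHom.commutes, embFC_const, embFC_const, sigmaG_const]
    · intro d _ hd
      show embFC (N * ℓ) (betaC ℂ N ℓ (JdFC N d hd)) =
        sigmaG _ _ (embFC N (JdFC N d hd))
      haveI : NeZero (ℓ * d) := ⟨mul_ne_zero (NeZero.ne ℓ) (NeZero.ne d)⟩
      rw [betaC_JdFC, embFC_JdFC, embFC_JdFC, sigmaG_algebraMap, compG_diag_jdHol]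
  exact DFunLike.congr_fun h y

theorem compG_diag_jHol :
    compG (ModularForm.heckeDiagMatrix ℓ) (det_heckeDiag_pos ℓ) jHol = jdHol ℓ := by
  apply Hol.ext
  intro τ
  show jFun (ModularForm.heckeDiagMatrix ℓ • τ) = jFun (scaleH ℓ τ)
  congr 1
  apply UpperHalfPlane.ext
  rw [coe_scaleH, ModularForm.coe_heckeDiagMatrix_smul (NeZero.ne ℓ)]

theorem finrank_algC_le (hℓ : ℓ.Prime) (hℓN : ¬ ℓ ∣ N) :
    @Module.finrank (FC N) (FC (N * ℓ)) _ _ (algC ℂ N ℓ).toModule ≤ ℓ + 1 := by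
  have h1 := finrank_toAlgebra_mul ℂ (dvd_mul_right N ℓ) (alphaC ℂ N ℓ).toRingHom
    (fun x => coe_alphaC ℂ N ℓ x)
  rw [dedekindPsi_mul_of_not_dvd N ℓ (NeZero.ne N) hℓ hℓN] at h1
  have hpos : 0 < dedekindPsi N := Fermat.Agent.S28.dedekindPsi_pos N
  exact le_of_eq (Nat.eq_of_mul_eq_mul_right hpos h1)

section prime

variable (N ℓ : ℕ) [NeZero N] [Fact ℓ.Prime]

theorem jEll_eq : jEll ℓ = algebraMap Hol MerH (jdHol ℓ) := by
  unfold jEll
  rw [show jM = algebraMap Hol MerH jHol from rfl, sigmaG_algebraMap, compG_diag_jHol]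

theorem exists_embFC_eq_jEll : ∃ f₀ : FC (N * ℓ), embFC (N * ℓ) f₀ = jEll ℓ :=
  ⟨JdFC (N * ℓ) ℓ (dvd_mul_left ℓ N), by rw [embFC_JdFC, jEll_eq]⟩

/-- **NormProd over `ℂ`** for the canonical Hecke map of the descent chain. -/
theorem embFC_normBeta (hℓN : ¬ ℓ ∣ N) (u : FC N) :
    embFC N (normBeta ℂ N ℓ u) = heckeFun ℓ (embFC N u) := by
  have hℓ : ℓ.Prime := Fact.out
  letI := algC ℂ N ℓ
  haveI : FiniteDimensional (FC N) (FC (N * ℓ)) := finite_algC (N := N) (ℓ := ℓ) ℂ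
  rw [normBeta_apply]
  exact norm_eq_heckeFun N ℓ (e := embFC N) (e' := embFC (N * ℓ))
    (β := (betaC ℂ N ℓ).toRingHom) hℓN (fun y => embFC_alphaC N ℓ y)
    (fun y => embFC_betaC N ℓ y) (fun γ y => sigmaH_embFC N γ γ.2 y)
    (exists_embFC_eq_jEll N ℓ) (finrank_algC_le N ℓ hℓ hℓN) u

end prime

end Fermat.Agent.S29.Top
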