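import Fermat.Agent.S29.EisChiLim
import Fermat.Agent.S29.MerField

/-!
# A meromorphic function on `ℍ` with prescribed character (S29 chain, R1 (b))

For a character `χ : Γ₀(N) →* ℂˣ` with `|χ| = 1`, `χ T = 1`, `χ (-1) = 1` the quotient
`hChi χ = eisChi χ 4 / eisChi 1 4 ∈ MerH` is nonzero and satisfies
`sigmaH γ (hChi χ) = χ γ • hChi χ` for all `γ ∈ Γ₀(N)`.
-/

set_option linter.style.haveILetI false
set_option linter.unusedSectionVars false

namespace Fermat.Agent.S29.EisChi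

open ModularForm UpperHalfPlane Complex Matrix CongruenceSubgroup EisensteinSeries Filter Topology
  Manifold

open scoped MatrixGroups

open Fermat.Agent.S29.Mer

noncomputable section

variable {N : ℕ}

/-- The hypotheses on a character of `Γ₀(N)`: unitary, trivial on `T` and on `-1`. -/
structure IsCuspChar (χ : Gamma0 N →* ℂˣ) : Prop where
  norm_eq : ∀ γ, ‖((χ γ : ℂˣ) : ℂ)‖ = 1
  map_T : χ (TGamma0 N) = 1
  map_neg_one : χ (negOneGamma0 N) = 1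

lemma isCuspChar_one : IsCuspChar (1 : Gamma0 N →* ℂˣ) :=
  ⟨fun _ => by simp, rfl, rfl⟩

/-- A character of finite order is unitary. -/
lemma isCuspChar_of_pow_eq_one {χ : Gamma0 N →* ℂˣ} {n : ℕ} (hn : n ≠ 0) (hχn : χ ^ n = 1)
    (hT : χ (TGamma0 N) = 1) (hneg : χ (negOneGamma0 N) = 1) : IsCuspChar χ := by
  refine ⟨fun γ => ?_, hT, hneg⟩
  have h1 : (χ γ) ^ n = 1 := by
    have := congrArg (fun ψ : Gamma0 N →* ℂˣ => ψ γ) hχn
    simpa using this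
  have h2 : (((χ γ : ℂˣ) : ℂ)) ^ n = 1 := by
    rw [← Units.val_pow_eq_pow_val, h1, Units.val_one]
  exact Complex.norm_eq_one_of_pow_eq_one h2 hn

/-- The twisted Eisenstein series of weight `4` as a holomorphic function. -/
def eisChiHol (χ : Gamma0 N →* ℂˣ) (hχ : IsCuspChar χ) : Hol :=
  ⟨eisChi χ 4, eisChi_mdifferentiable hχ.norm_eq (by norm_num)⟩

@[simp] lemma eisChiHol_apply (χ : Gamma0 N →* ℂˣ) (hχ : IsCuspChar χ) (z : ℍ) :
    ((eisChiHol χ hχ : Hol) : ℍ → ℂ) z = eisChi χ 4 z := rfl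

lemma eisChiHol_ne_zero (χ : Gamma0 N →* ℂˣ) (hχ : IsCuspChar χ) : eisChiHol χ hχ ≠ 0 := by
  intro h
  apply eisChi_ne_zero hχ.norm_eq hχ.map_T hχ.map_neg_one (k := 4) (by norm_num)
    (by decide)
  exact congrArg (fun x : Hol => (x : ℍ → ℂ)) h

/-- The automorphy factor `(c z + d) ^ k` as a holomorphic function. -/
def denomHol (γ : SL(2, ℤ)) (k : ℤ) : Hol :=
  ⟨fun z => denom (γ : SL(2, ℤ)) z ^ k, mdifferentiable_denom_zpow _ k⟩

@[simp] lemma denomHol_apply (γ : SL(2, ℤ)) (k : ℤ) (z : ℍ) :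
    ((denomHol γ k : Hol) : ℍ → ℂ) z = denom (γ : SL(2, ℤ)) z ^ k := rfl

lemma denomHol_ne_zero (γ : SL(2, ℤ)) (k : ℤ) : denomHol γ k ≠ 0 := by
  intro h
  have h1 := congrArg (fun x : Hol => (x : ℍ → ℂ) UpperHalfPlane.I) h
  exact zpow_ne_zero _ (denom_ne_zero _ _) h1

lemma compH_eisChiHol (χ : Gamma0 N →* ℂˣ) (hχ : IsCuspChar χ) (γ : Gamma0 N) :
    compH (γ : SL(2, ℤ)) (eisChiHol χ hχ)
      = algebraMap ℂ Hol ((χ γ : ℂˣ) : ℂ) * (denomHol (γ : SL(2, ℤ)) 4 * eisChiHol χ hχ) := by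
  apply Hol.ext
  intro z
  rw [compH_apply, eisChiHol_apply, eisChi_smul_apply hχ.map_T]
  show _ = (algebraMap ℂ Hol ((χ γ : ℂˣ) : ℂ) : ℍ → ℂ) z
    * ((denomHol (γ : SL(2, ℤ)) 4 : ℍ → ℂ) z * (eisChiHol χ hχ : ℍ → ℂ) z)
  rw [algebraMap_Hol_apply, denomHol_apply, eisChiHol_apply]
  ring

/-- The meromorphic function with character `χ`. -/
def hChi (χ : Gamma0 N →* ℂˣ) (hχ : IsCuspChar χ) : MerH :=
  algebraMap Hol MerH (eisChiHol χ hχ) /
    algebraMap Hol MerH (eisChiHol (1 : Gamma0 N →* ℂˣ) isCuspChar_one)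

lemma hChi_ne_zero (χ : Gamma0 N →* ℂˣ) (hχ : IsCuspChar χ) : hChi χ hχ ≠ 0 := by
  unfold hChi
  refine div_ne_zero ?_ ?_
  · exact (map_ne_zero_iff _ (IsFractionRing.injective Hol MerH)).mpr (eisChiHol_ne_zero χ hχ)
  · exact (map_ne_zero_iff _ (IsFractionRing.injective Hol MerH)).mpr
      (eisChiHol_ne_zero (1 : Gamma0 N →* ℂˣ) isCuspChar_one)

/-- **The transformation law** of `hChi χ`. -/
theorem sigmaH_hChi (χ : Gamma0 N →* ℂˣ) (hχ : IsCuspChar χ) (γ : Gamma0 N) :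
    sigmaH (γ : SL(2, ℤ)) (hChi χ hχ) = ((χ γ : ℂˣ) : ℂ) • hChi χ hχ := by
  have hJ : algebraMap Hol MerH (denomHol (γ : SL(2, ℤ)) 4) ≠ 0 :=
    (map_ne_zero_iff _ (IsFractionRing.injective Hol MerH)).mpr (denomHol_ne_zero _ _)
  have hE : algebraMap Hol MerH (eisChiHol (1 : Gamma0 N →* ℂˣ) isCuspChar_one) ≠ 0 :=
    (map_ne_zero_iff _ (IsFractionRing.injective Hol MerH)).mpr
      (eisChiHol_ne_zero (1 : Gamma0 N →* ℂˣ) isCuspChar_one)
  unfold hChi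
  rw [map_div₀, sigmaH_algebraMap, sigmaH_algebraMap, compH_eisChiHol, compH_eisChiHol,
    MonoidHom.one_apply, Units.val_one, map_one, one_mul, map_mul, map_mul, map_mul,
    ← IsScalarTower.algebraMap_apply ℂ Hol MerH, Algebra.smul_def]
  field_simp

/-- **Existence** of a nonzero meromorphic function on `ℍ` with character `χ`. -/
theorem exists_merH_of_isCuspChar (χ : Gamma0 N →* ℂˣ) (hχ : IsCuspChar χ) :
    ∃ h : MerH, h ≠ 0 ∧
      ∀ γ : Gamma0 N, sigmaH (γ : SL(2, ℤ)) h = ((χ γ : ℂˣ) : ℂ) • h :=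
  ⟨hChi χ hχ, hChi_ne_zero χ hχ, sigmaH_hChi χ hχ⟩

end

end Fermat.Agent.S29.EisChi
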