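import Mathlib
import Fermat.Agent.S29.R2
import Fermat.Agent.S29.HeckeFun
import Fermat.Agent.S29.EisChiMer

/-!
# S29 (item 90), bridge `XP N p → characters` (helper3)

`chiOf ψ : Γ₀(N) →* ℂˣ`, `chiOf ψ γ = exp (2πi ψ(γ) / p)`, for `ψ ∈ XP N p`:

* `chiOf_zero`, `chiOf_add`, `chiOf_pow : chiOf ψ ^ p = 1`;
* `chiOf_eq_one_iff : chiOf ψ = 1 ↔ ψ = 0`, `chiOf_injective`;
* `chiOf_smallTrace : γ ∈ smallTrace N → chiOf ψ γ = 1`, `isCuspChar_chiOf`;
* `Tchar_chiOf : Tchar hℓN (chiOf ψ) = chiOf (TXP N p ℓ hℓN ψ)`.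
-/

set_option autoImplicit false
set_option linter.unusedSectionVars false
set_option linter.style.haveILetI false

open CongruenceSubgroup ModularCurve ModularCurve.Period
open scoped MatrixGroups

noncomputable section

namespace Fermat.Agent.S29.R2

open Fermat.Agent.S16 Fermat.Agent.S29.Mer Fermat.Agent.S29.EisChi

variable {N : ℕ} [NeZero N] {p : ℕ} [NeZero p]

/-- the standard character `ZMod p → ℂˣ`, `x ↦ exp (2πi x / p)`, written additively -/
def stdE (p : ℕ) [NeZero p] : ZMod p →+ Additive ℂˣ :=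
  MonoidHom.toAdditiveRight ((ZMod.stdAddChar (N := p)).toMonoidHom.toHomUnits)

theorem coe_stdE (x : ZMod p) :
    ((Additive.toMul (stdE p x) : ℂˣ) : ℂ) = ZMod.stdAddChar (N := p) x := rfl

theorem stdE_eq_zero_iff (x : ZMod p) : stdE p x = 0 ↔ x = 0 := by
  constructor
  · intro h
    have h1 : ((Additive.toMul (stdE p x) : ℂˣ) : ℂ) = 1 := by
      rw [h]
      rfl
    rw [coe_stdE] at h1
    apply ZMod.injective_stdAddChar (N := p)
    rw [h1, AddChar.map_zero_eq_one]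
  · rintro rfl
    exact map_zero _

/-- **the character attached to `ψ ∈ XP N p`** -/
def chiOf (ψ : XP N p) : Gamma0 N →* ℂˣ :=
  MonoidHom.toAdditive.symm ((stdE p).comp (ψ : Additive (Gamma0 N) →+ ZMod p))

theorem toAdditive_chiOf (ψ : XP N p) :
    MonoidHom.toAdditive (chiOf ψ) = (stdE p).comp (ψ : Additive (Gamma0 N) →+ ZMod p) :=
  Equiv.apply_symm_apply _ _

theorem chiOf_apply (ψ : XP N p) (γ : Gamma0 N) :
    chiOf ψ γ = Additive.toMul (stdE p ((ψ : Additive (Gamma0 N) →+ ZMod p) (Additive.ofMul γ))) :=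
  rfl

theorem coe_chiOf (ψ : XP N p) (γ : Gamma0 N) :
    ((chiOf ψ γ : ℂˣ) : ℂ) =
      ZMod.stdAddChar (N := p) ((ψ : Additive (Gamma0 N) →+ ZMod p) (Additive.ofMul γ)) := rfl

theorem chiOf_zero : chiOf (0 : XP N p) = 1 := by
  ext γ
  rw [coe_chiOf]
  simp

theorem chiOf_add (ψ ψ' : XP N p) : chiOf (ψ + ψ') = chiOf ψ * chiOf ψ' := by
  ext γ
  rw [MonoidHom.mul_apply, Units.val_mul, coe_chiOf, coe_chiOf, coe_chiOf]
  have h1 : ((ψ + ψ' : XP N p) : Additive (Gamma0 N) →+ ZMod p) (Additive.ofMul γ) =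
      (ψ : Additive (Gamma0 N) →+ ZMod p) (Additive.ofMul γ) +
        (ψ' : Additive (Gamma0 N) →+ ZMod p) (Additive.ofMul γ) := rfl
  rw [h1, AddChar.map_add_eq_mul]

theorem chiOf_pow (ψ : XP N p) : chiOf ψ ^ p = 1 := by
  ext γ
  rw [MonoidHom.pow_apply, Units.val_pow_eq_pow_val, coe_chiOf, ← AddChar.map_nsmul_eq_pow,
    nsmul_eq_mul, ZMod.natCast_self, zero_mul, AddChar.map_zero_eq_one]
  rfl

theorem chiOf_eq_one_iff (ψ : XP N p) : chiOf ψ = 1 ↔ ψ = 0 := by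
  constructor
  · intro h
    apply Subtype.ext
    apply AddMonoidHom.ext
    intro x
    have h1 := congrArg (fun χ : Gamma0 N →* ℂˣ => ((χ (Additive.toMul x) : ℂˣ) : ℂ)) h
    simp only [coe_chiOf, MonoidHom.one_apply, Units.val_one] at h1
    apply ZMod.injective_stdAddChar (N := p)
    have h2 : ((0 : XP N p) : Additive (Gamma0 N) →+ ZMod p) x = 0 := rfl
    rw [h2, AddChar.map_zero_eq_one]
    exact h1
  · rintro rfl
    exact chiOf_zero

theorem chiOf_injective : Function.Injective (chiOf : XP N p → (Gamma0 N →* ℂˣ)) := by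
  intro ψ ψ' h
  apply Subtype.ext
  apply AddMonoidHom.ext
  intro x
  have h1 := congrArg (fun χ : Gamma0 N →* ℂˣ => ((χ (Additive.toMul x) : ℂˣ) : ℂ)) h
  simp only [coe_chiOf] at h1
  exact ZMod.injective_stdAddChar (N := p) h1

theorem chiOf_smallTrace (ψ : XP N p) (γ : Gamma0 N) (hγ : γ ∈ smallTrace N) :
    chiOf ψ γ = 1 := by
  apply Units.ext
  rw [coe_chiOf, ψ.2 γ hγ, AddChar.map_zero_eq_one]
  rfl

theorem TGamma0_mem_smallTrace : TGamma0 N ∈ smallTrace N := by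
  show ((ModularGroup.T : SL(2, ℤ)) : Matrix (Fin 2) (Fin 2) ℤ).trace ^ 2 ≤ 4
  simp [ModularGroup.T]

theorem negOneGamma0_mem_smallTrace : negOneGamma0 N ∈ smallTrace N := by
  show (((-1 : SL(2, ℤ)) : SL(2, ℤ)) : Matrix (Fin 2) (Fin 2) ℤ).trace ^ 2 ≤ 4
  simp

theorem isCuspChar_chiOf (ψ : XP N p) : IsCuspChar (chiOf ψ) :=
  isCuspChar_of_pow_eq_one (NeZero.ne p) (chiOf_pow ψ)
    (chiOf_smallTrace ψ _ TGamma0_mem_smallTrace)
    (chiOf_smallTrace ψ _ negOneGamma0_mem_smallTrace)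

/-- **the Hecke operators correspond** -/
theorem Tchar_chiOf (ℓ : ℕ) [Fact ℓ.Prime] (hℓN : ¬ ℓ ∣ N) (ψ : XP N p) :
    Tchar hℓN (chiOf ψ) = chiOf (TXP N p ℓ hℓN ψ) := by
  apply MonoidHom.toAdditive.injective
  rw [toAdditive_chiOf, coe_TXP]
  show (datumT N ℓ hℓN).tau (MonoidHom.toAdditive (chiOf ψ)) = _
  rw [toAdditive_chiOf, CosetDatum.tau_comp]
  rfl

end Fermat.Agent.S29.R2
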