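import Mathlib
import Fermat.Agent.S16.TwoCuspAn
import Fermat.Agent.FF.DictQ
import Fermat.Agent.FF.AnalyticJ

/-!
# S29 (item 90), piece R1(c) B1: Laurent expansions from periodicity and moderate growth

* `isExp_of_periodic_of_bounded` : a holomorphic `N`-periodic function on `ℍ` which is bounded
  at `i∞` has a convergent expansion in `exp (2πiτ/N)`;
* `exists_isExp_of_bounded` : a holomorphic `N`-periodic function `f` with `Δ ^ M * f` bounded at
  `i∞` has a convergent Laurent expansion in `exp (2πiτ/N)`.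
-/

set_option autoImplicit false
set_option linter.unusedSectionVars false
set_option linter.style.haveILetI false

open UpperHalfPlane hiding I
open Function Complex
open scoped Real MatrixGroups Manifold

noncomputable section

namespace Fermat.Agent.S29.InvCExp

open Fermat.Agent.FF Fermat.Agent.S16

local notation "Δ" => ModularForm.discriminant

theorem periodic_comp_ofComplex_of_vadd {N : ℕ} {g : ℍ → ℂ}
    (hper : ∀ τ : ℍ, g ((N : ℝ) +ᵥ τ) = g τ) : Periodic (g ∘ ofComplex) (N : ℝ) := by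
  intro w
  by_cases! hw : 0 < im w
  · have : 0 < im (w + (N : ℝ)) := by simp [hw]
    simp only [comp_apply, ofComplex_apply_of_im_pos this, ofComplex_apply_of_im_pos hw]
    rw [← hper ⟨w, hw⟩]
    congr 1
    ext
    simp [add_comm]
  · have : im (w + ((N : ℝ) : ℂ)) ≤ 0 := by simpa using hw
    show g (ofComplex (w + ((N : ℝ) : ℂ))) = g (ofComplex w)
    rw [ofComplex_apply_of_im_nonpos this, ofComplex_apply_of_im_nonpos hw]

/-- A holomorphic, `N`-periodic function bounded at `i∞` has a convergent power series expansion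
in `exp (2πiτ/N)`. -/
theorem isExp_of_periodic_of_bounded (N : ℕ) [NeZero N] (g : ℍ → ℂ) (hg : MDiff g)
    (hper : ∀ τ : ℍ, g ((N : ℝ) +ᵥ τ) = g τ) (hb : IsBoundedAtImInfty g) :
    IsExp N ((qExpansion (N : ℝ) g : PowerSeries ℂ) : LaurentSeries ℂ) g := by
  apply isExp_of_hasSum_nat
  intro τ
  have hN : (0 : ℝ) < N := by exact_mod_cast Nat.pos_of_ne_zero (NeZero.ne N)
  have h := UpperHalfPlane.hasSum_qExpansion hN (periodic_comp_ofComplex_of_vadd hper) hg hb τ
  refine h.congr_fun ?_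
  intro m
  simp [uPar]

theorem discriminant_vadd_nat (N : ℕ) (τ : ℍ) : Δ ((N : ℝ) +ᵥ τ) = Δ τ := by
  have h1 : (N : ℝ) ∈ (𝒮ℒ).strictPeriods := by
    have := AddSubgroup.nsmul_mem (𝒮ℒ).strictPeriods _root_.one_mem_strictPeriods_SL N
    simpa using this
  exact SlashInvariantForm.vAdd_apply_of_mem_strictPeriods CuspForm.discriminant τ h1

/-- **B1**: a holomorphic `N`-periodic function `f` such that `Δ ^ M * f` is bounded at `i∞` has
a convergent Laurent expansion in `exp (2πiτ/N)`. -/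
theorem exists_isExp_of_bounded (N : ℕ) [NeZero N] (f : ℍ → ℂ) (hf : MDiff f)
    (hper : ∀ τ : ℍ, f ((N : ℝ) +ᵥ τ) = f τ) (M : ℕ)
    (hb : IsBoundedAtImInfty (fun τ => Δ τ ^ M * f τ)) :
    ∃ x : LaurentSeries ℂ, IsExp N x f := by
  have hg : MDiff (fun τ : ℍ => Δ τ ^ M * f τ) := (mdiff_discriminant.pow M).mul hf
  have hgper : ∀ τ : ℍ, (fun τ : ℍ => Δ τ ^ M * f τ) ((N : ℝ) +ᵥ τ)
      = (fun τ : ℍ => Δ τ ^ M * f τ) τ := by
    intro τ
    simp only
    rw [discriminant_vadd_nat, hper]
  have h1 := isExp_of_periodic_of_bounded N _ hg hgper hb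
  have h2 := (isExp_discriminant_inv_level N).pow M
  refine ⟨_, (h1.mul h2).congr fun τ => ?_⟩
  have hΔ : Δ τ ≠ 0 := ModularForm.discriminant_ne_zero τ
  show Δ τ ^ M * f τ * (Δ τ)⁻¹ ^ M = f τ
  rw [mul_right_comm, ← mul_pow, mul_inv_cancel₀ hΔ, one_pow, one_mul]

end Fermat.Agent.S29.InvCExp
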