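import Fermat.Agent.S29.EisChiMer
import Fermat.Agent.S29.InvCExp
import Fermat.Agent.S29.InvCField

/-!
# S29 (item 90), piece R1(c) B2: the bridge from twisted Eisenstein series to `ℂ(j, j_N)`

For a character `χ` of `Γ₀(N)` (`IsCuspChar`), `hDelta χ = eisChi χ 12 / Δ` is a nonzero
*holomorphic* function on `ℍ` with `hDelta χ ∘ γ = χ γ • hDelta χ` for `γ ∈ Γ₀(N)`.
If `χ ^ n = 1` then `(hDelta χ) ^ n` is `Γ₀(N)`-invariant with Laurent expansions at all cusps,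
hence lies in `fieldC N = ℂ(j, j_N)`.
-/

set_option autoImplicit false
set_option linter.style.haveILetI false
set_option linter.unusedSectionVars false

namespace Fermat.Agent.S29.EisChi

open ModularForm UpperHalfPlane Complex Matrix CongruenceSubgroup EisensteinSeries Filter Topology
  Manifold

open scoped MatrixGroups

open Fermat.Agent.S29.Mer Fermat.Agent.FF Fermat.Agent.S16 Fermat.Agent.S29.InvC
  Fermat.Agent.S29.InvCExp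

noncomputable section

local notation "Δ" => ModularForm.discriminant

variable {N : ℕ}

/-- The transformation law of `Δ` under `SL(2, ℤ)`. -/
lemma discriminant_smul_SL (γ : SL(2, ℤ)) (τ : ℍ) :
    Δ (γ • τ) = denom (γ : SL(2, ℤ)) τ ^ (12 : ℤ) * Δ τ := by
  have hγ : (Matrix.SpecialLinearGroup.mapGL ℝ γ) ∈ 𝒮ℒ := ⟨γ, rfl⟩
  exact SlashInvariantForm.slash_action_eqn'' CuspForm.discriminant hγ τ

/-- The twisted Eisenstein series of weight `12` divided by `Δ`, a holomorphic function. -/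
def hDelta (χ : Gamma0 N →* ℂˣ) (hχ : IsCuspChar χ) : Hol :=
  ⟨fun τ => eisChi χ 12 τ * (Δ τ)⁻¹,
    (eisChi_mdifferentiable hχ.norm_eq (by norm_num)).mul mdiff_discriminant_inv⟩

@[simp] lemma hDelta_apply (χ : Gamma0 N →* ℂˣ) (hχ : IsCuspChar χ) (τ : ℍ) :
    ((hDelta χ hχ : Hol) : ℍ → ℂ) τ = eisChi χ 12 τ * (Δ τ)⁻¹ := rfl

lemma hDelta_ne_zero (χ : Gamma0 N →* ℂˣ) (hχ : IsCuspChar χ) : hDelta χ hχ ≠ 0 := by
  intro h
  obtain ⟨z, hz⟩ := exists_eisChi_ne_zero hχ.norm_eq hχ.map_T hχ.map_neg_one (k := 12)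
    (by norm_num) (by decide)
  have h1 := congrArg (fun x : Hol => (x : ℍ → ℂ) z) h
  simp only [hDelta_apply] at h1
  have h2 : eisChi χ 12 z * (Δ z)⁻¹ = 0 := h1
  rcases mul_eq_zero.mp h2 with h3 | h3
  · exact hz h3
  · exact ModularForm.discriminant_ne_zero z (inv_eq_zero.mp h3)

/-- The value of `hDelta χ` at `γ • τ` for any `γ ∈ SL(2, ℤ)`. -/
lemma hDelta_smul_SL (χ : Gamma0 N →* ℂˣ) (hχ : IsCuspChar χ) (γ : SL(2, ℤ)) (τ : ℍ) :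
    ((hDelta χ hχ : Hol) : ℍ → ℂ) (γ • τ)
      = (eisChi χ 12 ∣[(12 : ℤ)] γ) τ * (Δ τ)⁻¹ := by
  have hd : denom (γ : SL(2, ℤ)) τ ≠ 0 := denom_ne_zero _ _
  have hΔ : Δ τ ≠ 0 := ModularForm.discriminant_ne_zero τ
  rw [hDelta_apply, discriminant_smul_SL, SL_slash_apply, _root_.zpow_neg, mul_inv]
  ring

/-- The transformation law of `hDelta χ` under `Γ₀(N)`. -/
lemma hDelta_smul (χ : Gamma0 N →* ℂˣ) (hχ : IsCuspChar χ) (γ : Gamma0 N) (τ : ℍ) :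
    ((hDelta χ hχ : Hol) : ℍ → ℂ) ((γ : SL(2, ℤ)) • τ)
      = ((χ γ : ℂˣ) : ℂ) * ((hDelta χ hχ : Hol) : ℍ → ℂ) τ := by
  rw [hDelta_smul_SL, eisChi_slash hχ.map_T, Pi.smul_apply, smul_eq_mul, hDelta_apply, mul_assoc]

lemma compH_hDelta (χ : Gamma0 N →* ℂˣ) (hχ : IsCuspChar χ) (γ : Gamma0 N) :
    compH (γ : SL(2, ℤ)) (hDelta χ hχ) = algebraMap ℂ Hol ((χ γ : ℂˣ) : ℂ) * hDelta χ hχ := by
  apply Hol.ext
  intro τ
  rw [compH_apply, hDelta_smul]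
  rfl

/-- `hDelta χ` as a meromorphic function. -/
def hDeltaM (χ : Gamma0 N →* ℂˣ) (hχ : IsCuspChar χ) : MerH := algebraMap Hol MerH (hDelta χ hχ)

lemma hDeltaM_ne_zero (χ : Gamma0 N →* ℂˣ) (hχ : IsCuspChar χ) : hDeltaM χ hχ ≠ 0 :=
  (map_ne_zero_iff _ (IsFractionRing.injective Hol MerH)).mpr (hDelta_ne_zero χ hχ)

theorem sigmaH_hDeltaM (χ : Gamma0 N →* ℂˣ) (hχ : IsCuspChar χ) (γ : Gamma0 N) :
    sigmaH (γ : SL(2, ℤ)) (hDeltaM χ hχ) = ((χ γ : ℂˣ) : ℂ) • hDeltaM χ hχ := by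
  unfold hDeltaM
  rw [sigmaH_algebraMap, compH_hDelta, map_mul, ← IsScalarTower.algebraMap_apply ℂ Hol MerH,
    Algebra.smul_def]

/-! ### The `n`-th power -/

lemma compH_hDelta_pow (χ : Gamma0 N →* ℂˣ) (hχ : IsCuspChar χ) {n : ℕ} (hχn : χ ^ n = 1)
    (γ : SL(2, ℤ)) (hγ : γ ∈ Gamma0 N) :
    compH γ (hDelta χ hχ ^ n) = hDelta χ hχ ^ n := by
  have h1 : (χ ⟨γ, hγ⟩) ^ n = 1 := by
    have := congrArg (fun ψ : Gamma0 N →* ℂˣ => ψ ⟨γ, hγ⟩) hχn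
    simpa using this
  have h2 : (((χ ⟨γ, hγ⟩ : ℂˣ) : ℂ)) ^ n = 1 := by
    rw [← Units.val_pow_eq_pow_val, h1, Units.val_one]
  have h3 := compH_hDelta χ hχ ⟨γ, hγ⟩
  rw [map_pow, h3, mul_pow, ← map_pow, h2, map_one, one_mul]

lemma conj_T_pow_mem_Gamma0 (N : ℕ) (γ : SL(2, ℤ)) :
    γ * ModularGroup.T ^ (N : ℤ) * γ⁻¹ ∈ Gamma0 N := by
  have h1 : ModularGroup.T ^ (N : ℤ) ∈ CongruenceSubgroup.Gamma N :=
    ModularGroup_T_pow_mem_Gamma N N dvd_rfl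
  have h2 : γ * ModularGroup.T ^ (N : ℤ) * γ⁻¹ ∈ CongruenceSubgroup.Gamma N :=
    (Gamma_normal (N := N)).conj_mem _ h1 γ
  rw [Gamma_mem] at h2
  rw [Gamma0_mem]
  exact h2.2.2.1

/-- `(hDelta χ ^ n) ∘ γ` is `N`-periodic. -/
lemma hDelta_pow_periodic (χ : Gamma0 N →* ℂˣ) (hχ : IsCuspChar χ) {n : ℕ} (hχn : χ ^ n = 1)
    (γ : SL(2, ℤ)) (τ : ℍ) :
    ((hDelta χ hχ ^ n : Hol) : ℍ → ℂ) (γ • ((N : ℝ) +ᵥ τ))
      = ((hDelta χ hχ ^ n : Hol) : ℍ → ℂ) (γ • τ) := by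
  have h1 : (N : ℝ) +ᵥ τ = ModularGroup.T ^ (N : ℤ) • τ := by
    rw [modular_T_zpow_smul]
    simp
  have h2 : γ • (ModularGroup.T ^ (N : ℤ) • τ)
      = (γ * ModularGroup.T ^ (N : ℤ) * γ⁻¹) • (γ • τ) := by
    rw [← mul_smul, ← mul_smul, inv_mul_cancel_right]
  have h3 := compH_hDelta_pow χ hχ hχn _ (conj_T_pow_mem_Gamma0 N γ)
  have h4 := congrArg (fun x : Hol => (x : ℍ → ℂ) (γ • τ)) h3
  simp only [compH_apply] at h4
  rw [h1, h2]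
  exact h4

lemma hDelta_pow_apply (χ : Gamma0 N →* ℂˣ) (hχ : IsCuspChar χ) (n : ℕ) (τ : ℍ) :
    ((hDelta χ hχ ^ n : Hol) : ℍ → ℂ) τ = (((hDelta χ hχ : Hol) : ℍ → ℂ) τ) ^ n := rfl

/-- `Δ ^ n * (hDelta χ ^ n) ∘ γ` is bounded at `i∞`. -/
lemma isBoundedAtImInfty_discriminant_pow_mul (χ : Gamma0 N →* ℂˣ) (hχ : IsCuspChar χ) (n : ℕ)
    (γ : SL(2, ℤ)) :
    IsBoundedAtImInfty (fun τ : ℍ => Δ τ ^ n * ((hDelta χ hχ ^ n : Hol) : ℍ → ℂ) (γ • τ)) := by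
  have h1 : IsBoundedAtImInfty (eisChi χ 12 ∣[(12 : ℤ)] γ) :=
    isBoundedAtImInfty_eisChi_slash hχ.norm_eq (by norm_num) γ
  have h2 : IsBoundedAtImInfty (fun τ : ℍ => ((eisChi χ 12 ∣[(12 : ℤ)] γ) τ) ^ n) := by
    have h : (fun τ : ℍ => ((eisChi χ 12 ∣[(12 : ℤ)] γ) τ) ^ n)
        =O[atImInfty] (fun τ : ℍ => ((1 : ℍ → ℝ) τ) ^ n) := Asymptotics.IsBigO.pow h1 n
    have e1 : (fun τ : ℍ => ((1 : ℍ → ℝ) τ) ^ n) = (1 : ℍ → ℝ) := by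
      funext τ
      simp
    rw [e1] at h
    exact h
  have e : (fun τ : ℍ => Δ τ ^ n * ((hDelta χ hχ ^ n : Hol) : ℍ → ℂ) (γ • τ))
      = fun τ : ℍ => ((eisChi χ 12 ∣[(12 : ℤ)] γ) τ) ^ n := by
    funext τ
    have hΔ : Δ τ ≠ 0 := ModularForm.discriminant_ne_zero τ
    rw [hDelta_pow_apply, hDelta_smul_SL, ← mul_pow, mul_comm (Δ τ), mul_assoc,
      inv_mul_cancel₀ hΔ, mul_one]
  rw [e]
  exact h2

/-- **B2**: Laurent expansions of `(hDelta χ) ^ n` at all cusps. -/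
theorem exists_isExp_hDelta_pow [NeZero N] (χ : Gamma0 N →* ℂˣ) (hχ : IsCuspChar χ) {n : ℕ}
    (hχn : χ ^ n = 1) (γ : SL(2, ℤ)) :
    ∃ x : LaurentSeries ℂ,
      IsExp N x (fun τ => ((hDelta χ hχ ^ n : Hol) : ℍ → ℂ) (γ • τ)) := by
  have hmd : MDiff (fun τ : ℍ => ((hDelta χ hχ ^ n : Hol) : ℍ → ℂ) (γ • τ)) :=
    (compH γ (hDelta χ hχ ^ n)).mdiff
  exact exists_isExp_of_bounded N _ hmd (fun τ => hDelta_pow_periodic χ hχ hχn γ τ) n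
    (isBoundedAtImInfty_discriminant_pow_mul χ hχ n γ)

/-- **R1(c) for characters**: `(hDelta χ) ^ n ∈ ℂ(j, j_N)` when `χ ^ n = 1`. -/
theorem hDeltaM_pow_mem_fieldC [NeZero N] (χ : Gamma0 N →* ℂˣ) (hχ : IsCuspChar χ) {n : ℕ}
    (hχn : χ ^ n = 1) : hDeltaM χ hχ ^ n ∈ fieldC N := by
  have h := mem_fieldC_of_hol N (hDelta χ hχ ^ n)
    (fun γ hγ => compH_hDelta_pow χ hχ hχn γ hγ)
    (fun γ => exists_isExp_hDelta_pow χ hχ hχn γ)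
  rwa [map_pow] at h

/-- Summary: for every character `χ` of `Γ₀(N)` with `χ ^ n = 1`, `χ T = 1`, `χ (-1) = 1` there
is a nonzero meromorphic (indeed holomorphic) function `h` on `ℍ` with character `χ` whose `n`-th
power lies in `ℂ(j, j_N)`. -/
theorem exists_merH_pow_mem_fieldC [NeZero N] (χ : Gamma0 N →* ℂˣ) {n : ℕ} (hn : n ≠ 0)
    (hχn : χ ^ n = 1) (hT : χ (TGamma0 N) = 1) (hneg : χ (negOneGamma0 N) = 1) :
    ∃ h : MerH, h ≠ 0 ∧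
      (∀ γ : Gamma0 N, sigmaH (γ : SL(2, ℤ)) h = ((χ γ : ℂˣ) : ℂ) • h) ∧
      h ^ n ∈ fieldC N :=
  ⟨hDeltaM χ (isCuspChar_of_pow_eq_one hn hχn hT hneg),
    hDeltaM_ne_zero χ _, sigmaH_hDeltaM χ _, hDeltaM_pow_mem_fieldC χ _ hχn⟩

end

end Fermat.Agent.S29.EisChi
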