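import Mathlib
import Fermat.Agent.S29.InvCBridge
import Fermat.Agent.S29.HeckeFun

/-!
# S29 (item 90), TOP (A): moderate growth and the ratio lemma

* `IsMG f` : `f = O(exp (A · Im τ))` at `i∞` for some `A`;
* `IsMGAll h` : `h ∘ γ` has moderate growth for every `γ ∈ SL(2, ℤ)`;
* `isMGAll_mul`, `isMGAll_pow`, `isMGAll_prod`, `isMGAll_hDelta`, `isMGAll_compG_heckeRep`;
* `mem_fieldC_of_isMGAll` : a holomorphic `Γ₀(N)`-invariant function of moderate growth at all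
  cusps lies in `ℂ(j, j_N)`;
* `div_mem_fieldC` : the ratio of two holomorphic functions of moderate growth with the same
  character of `Γ₀(N)` lies in `ℂ(j, j_N)`.
-/

set_option autoImplicit false
set_option linter.style.haveILetI false
set_option linter.unusedSectionVars false
set_option linter.unusedVariables false

namespace Fermat.Agent.S29.TopMG

open ModularForm UpperHalfPlane Complex Matrix CongruenceSubgroup Filter Topology
  Manifold Asymptotics

open scoped MatrixGroups Real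

open Fermat.Agent.S29.Mer Fermat.Agent.FF Fermat.Agent.S29.InvC
  Fermat.Agent.S29.InvCExp Fermat.Agent.S29.EisChi
open P2MW.S_ModularForm_heckeT_slash_eq_self_of_mem_Gamma0.ModularForm.HeckeSlashInvariance

noncomputable section

local notation "Δ" => ModularForm.discriminant

/-- moderate growth at `i∞` -/
def IsMG (f : ℍ → ℂ) : Prop := ∃ A : ℝ, f =O[atImInfty] fun τ => Real.exp (A * τ.im)

/-- moderate growth at all cusps -/
def IsMGAll (h : Hol) : Prop := ∀ γ : SL(2, ℤ), IsMG (fun τ => (h : ℍ → ℂ) (γ • τ))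

theorem IsMG.mul {f g : ℍ → ℂ} (hf : IsMG f) (hg : IsMG g) : IsMG (fun τ => f τ * g τ) := by
  obtain ⟨A, hA⟩ := hf
  obtain ⟨B, hB⟩ := hg
  refine ⟨A + B, (hA.mul hB).congr_right fun τ => ?_⟩
  rw [← Real.exp_add]
  congr 1
  ring

theorem isMG_of_isBoundedAtImInfty {f : ℍ → ℂ} (hf : IsBoundedAtImInfty f) : IsMG f := by
  refine ⟨0, ?_⟩
  have h : f =O[atImInfty] (1 : ℍ → ℝ) := hf
  refine h.congr_right fun τ => ?_
  simp

theorem isMG_const (c : ℂ) : IsMG (fun _ : ℍ => c) := by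
  refine ⟨0, ?_⟩
  have h : (fun _ : ℍ => c) =O[atImInfty] (fun _ : ℍ => (1 : ℝ)) :=
    isBigO_const_const c one_ne_zero _
  refine h.congr_right fun τ => ?_
  simp

theorem IsMG.pow {f : ℍ → ℂ} (hf : IsMG f) (n : ℕ) : IsMG (fun τ => f τ ^ n) := by
  induction n with
  | zero => simpa using isMG_const 1
  | succ n ih =>
    have := ih.mul hf
    simpa [pow_succ] using this

theorem isMG_discriminant_inv : IsMG (fun τ => (Δ τ)⁻¹) := by
  refine ⟨2 * π, ?_⟩
  have h := ModularForm.exp_isBigO_discriminant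
  have h2 := h.inv_rev (Eventually.of_forall fun τ h0 => absurd h0 (Real.exp_pos _).ne')
  refine h2.congr_right fun τ => ?_
  rw [← Real.exp_neg]
  congr 1
  ring

theorem discriminant_isBigO_exp :
    (fun τ : ℍ => Δ τ) =O[atImInfty] fun τ => Real.exp (-(2 * π) * τ.im) := by
  have h := CuspFormClass.exp_decay_atImInfty (h := 1) CuspForm.discriminant one_pos
    _root_.one_mem_strictPeriods_SL
  refine (h.congr_left ?_).congr_right fun τ => ?_
  · intro τ
    rfl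
  · congr 1
    ring

/-- moderate growth is killed by a power of `Δ` -/
theorem IsMG.exists_bounded {f : ℍ → ℂ} (hf : IsMG f) :
    ∃ M : ℕ, IsBoundedAtImInfty (fun τ => Δ τ ^ M * f τ) := by
  obtain ⟨A, hA⟩ := hf
  obtain ⟨M, hM⟩ := exists_nat_ge (A / (2 * π))
  refine ⟨M, ?_⟩
  have hπ : 0 < 2 * π := by positivity
  have hM' : A ≤ 2 * π * M := by
    have := (div_le_iff₀ hπ).mp hM
    linarith
  have h1 : (fun τ : ℍ => Δ τ ^ M) =O[atImInfty] fun τ => Real.exp (-(2 * π) * τ.im) ^ M :=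
    discriminant_isBigO_exp.pow M
  have h2 := h1.mul hA
  have h3 : (fun τ : ℍ => Real.exp (-(2 * π) * τ.im) ^ M * Real.exp (A * τ.im))
      =O[atImInfty] (1 : ℍ → ℝ) := by
    refine IsBigO.of_bound 1 ?_
    have hmem : {τ : ℍ | 0 ≤ τ.im} ∈ atImInfty := by
      refine Filter.mem_of_superset univ_mem fun τ _ => τ.im_pos.le
    filter_upwards [hmem] with τ hτ
    rw [← Real.exp_nat_mul, ← Real.exp_add, Real.norm_of_nonneg (Real.exp_pos _).le]
    simp only [Pi.one_apply, norm_one, mul_one]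
    rw [Real.exp_le_one_iff]
    have hτ0 : 0 < τ.im := τ.im_pos
    have : (A - 2 * π * M) * τ.im ≤ 0 :=
      mul_nonpos_of_nonpos_of_nonneg (by linarith) hτ0.le
    nlinarith
  exact h2.trans h3

/-! ### closure properties of `IsMGAll` -/

theorem isMGAll_one : IsMGAll (1 : Hol) := fun γ => isMG_const 1

theorem isMGAll_const (c : ℂ) : IsMGAll (algebraMap ℂ Hol c) := fun γ => isMG_const c

theorem isMGAll_mul {a b : Hol} (ha : IsMGAll a) (hb : IsMGAll b) : IsMGAll (a * b) :=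
  fun γ => (ha γ).mul (hb γ)

theorem isMGAll_pow {a : Hol} (ha : IsMGAll a) (n : ℕ) : IsMGAll (a ^ n) :=
  fun γ => (ha γ).pow n

theorem isMGAll_prod {ι : Type*} (s : Finset ι) (a : ι → Hol) (ha : ∀ i ∈ s, IsMGAll (a i)) :
    IsMGAll (∏ i ∈ s, a i) := by
  classical
  induction s using Finset.induction_on with
  | empty => simpa using isMGAll_one
  | insert i s hi ih =>
    rw [Finset.prod_insert hi]
    exact isMGAll_mul (ha i (Finset.mem_insert_self i s))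
      (ih fun j hj => ha j (Finset.mem_insert_of_mem hj))

theorem isMGAll_compH {a : Hol} (ha : IsMGAll a) (γ : SL(2, ℤ)) : IsMGAll (compH γ a) := by
  intro γ'
  have h := ha (γ * γ')
  have e : (fun τ : ℍ => ((compH γ a : Hol) : ℍ → ℂ) (γ' • τ))
      = fun τ : ℍ => (a : ℍ → ℂ) ((γ * γ') • τ) := by
    funext τ
    rw [compH_apply, mul_smul]
  rw [e]
  exact h

/-- `hDelta χ` has moderate growth at all cusps -/
theorem isMGAll_hDelta {N : ℕ} (χ : Gamma0 N →* ℂˣ) (hχ : IsCuspChar χ) :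
    IsMGAll (hDelta χ hχ) := by
  intro γ
  have h1 : IsBoundedAtImInfty (eisChi χ 12 ∣[(12 : ℤ)] γ) :=
    isBoundedAtImInfty_eisChi_slash hχ.norm_eq (by norm_num) γ
  have h2 := (isMG_of_isBoundedAtImInfty h1).mul isMG_discriminant_inv
  have e : (fun τ : ℍ => ((hDelta χ hχ : Hol) : ℍ → ℂ) (γ • τ))
      = fun τ : ℍ => (eisChi χ 12 ∣[(12 : ℤ)] γ) τ * (Δ τ)⁻¹ := by
    funext τ
    exact hDelta_smul_SL χ hχ γ τ
  rw [e]
  exact h2

/-! ### composition with upper triangular matrices -/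

theorem im_smul_of_lower_zero (g : GL (Fin 2) ℝ) (hg : 0 < g.det.val) (h10 : g 1 0 = 0) (τ : ℍ) :
    (g • τ).im = g.det.val / (g 1 1) ^ 2 * τ.im := by
  rw [UpperHalfPlane.im_smul_eq_div_normSq, abs_of_pos hg]
  have hd : denom g τ = ((g 1 1 : ℝ) : ℂ) := by
    simp [denom, h10]
  rw [hd, Complex.normSq_ofReal]
  ring

theorem coeff_pos_of_lower_zero (g : GL (Fin 2) ℝ) (hg : 0 < g.det.val) (h10 : g 1 0 = 0) :
    0 < g.det.val / (g 1 1) ^ 2 := by
  have h11 : g 1 1 ≠ 0 := by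
    intro h
    have hdet : g.det.val = g 0 0 * g 1 1 - g 0 1 * g 1 0 := by
      rw [Matrix.GeneralLinearGroup.val_det_apply, Matrix.det_fin_two]
    rw [hdet, h, h10] at hg
    simp at hg
  positivity

theorem tendsto_smul_atImInfty (g : GL (Fin 2) ℝ) (hg : 0 < g.det.val) (h10 : g 1 0 = 0) :
    Tendsto (fun τ : ℍ => g • τ) atImInfty atImInfty := by
  rw [atImInfty, tendsto_comap_iff]
  have e : (UpperHalfPlane.im ∘ fun τ : ℍ => g • τ)
      = fun τ : ℍ => g.det.val / (g 1 1) ^ 2 * τ.im := by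
    funext τ
    exact im_smul_of_lower_zero g hg h10 τ
  rw [e]
  exact Tendsto.const_mul_atTop (coeff_pos_of_lower_zero g hg h10) tendsto_comap

theorem IsMG.comp_smul {f : ℍ → ℂ} (hf : IsMG f) (g : GL (Fin 2) ℝ) (hg : 0 < g.det.val)
    (h10 : g 1 0 = 0) : IsMG (fun τ => f (g • τ)) := by
  obtain ⟨A, hA⟩ := hf
  refine ⟨A * (g.det.val / (g 1 1) ^ 2), ?_⟩
  have h := hA.comp_tendsto (tendsto_smul_atImInfty g hg h10)
  refine (h.congr_left fun τ => rfl).congr_right fun τ => ?_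
  show Real.exp (A * (g • τ).im) = _
  rw [im_smul_of_lower_zero g hg h10, mul_assoc]

theorem heckeRep_lower_zero (ℓ : ℕ) [Fact ℓ.Prime] (x : OnePoint (ZMod ℓ)) :
    (heckeRep ℓ x) 1 0 = 0 := by
  induction x using OnePoint.rec with
  | infty =>
    show ((heckeRep ℓ (OnePoint.infty : OnePoint (ZMod ℓ)) : GL (Fin 2) ℝ) :
      Matrix (Fin 2) (Fin 2) ℝ) 1 0 = 0
    rw [Fermat.Agent.S16.val_heckeRep_infty]
    simp
  | coe j =>
    show ((heckeRep ℓ (j : OnePoint (ZMod ℓ)) : GL (Fin 2) ℝ) :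
      Matrix (Fin 2) (Fin 2) ℝ) 1 0 = 0
    rw [Fermat.Agent.S16.val_heckeRep_coe]
    simp

/-- moderate growth at all cusps is preserved by the Hecke representatives -/
theorem isMGAll_compG_heckeRep {h : Hol} (hmg : IsMGAll h) (ℓ : ℕ) [Fact ℓ.Prime]
    (x : OnePoint (ZMod ℓ)) :
    IsMGAll (compG (heckeRep ℓ x) (det_heckeRep_pos ℓ x) h) := by
  intro γ
  have hℓ1 : ¬ ℓ ∣ 1 := (Fact.out : ℓ.Prime).not_dvd_one
  obtain ⟨g', -, hmul⟩ := heckeRep_mul (N := 1) hℓ1 γ (by simp) x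
  set x' := redMatrix ℓ γ • x with hx'
  have e : (fun τ : ℍ => ((compG (heckeRep ℓ x) (det_heckeRep_pos ℓ x) h : Hol) : ℍ → ℂ) (γ • τ))
      = fun τ : ℍ => (fun τ' : ℍ => (h : ℍ → ℂ) (g' • τ')) (heckeRep ℓ x' • τ) := by
    funext τ
    rw [compG_apply]
    show (h : ℍ → ℂ) (heckeRep ℓ x • (Matrix.SpecialLinearGroup.mapGL ℝ γ • τ))
      = (h : ℍ → ℂ) (Matrix.SpecialLinearGroup.mapGL ℝ g' • (heckeRep ℓ x' • τ))
    rw [← mul_smul, ← mul_smul, hmul]
  rw [e]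
  exact (hmg g').comp_smul (heckeRep ℓ x') (det_heckeRep_pos ℓ x') (heckeRep_lower_zero ℓ x')

/-! ### membership in `ℂ(j, j_N)` -/

/-- a holomorphic `Γ₀(N)`-invariant function of moderate growth at all cusps lies in
`ℂ(j, j_N)` -/
theorem mem_fieldC_of_isMGAll {N : ℕ} [NeZero N] (h : Hol)
    (hinv : ∀ γ ∈ Gamma0 N, compH γ h = h) (hmg : IsMGAll h) :
    algebraMap Hol MerH h ∈ fieldC N := by
  refine mem_fieldC_of_hol N h hinv fun γ => ?_
  obtain ⟨M, hM⟩ := (hmg γ).exists_bounded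
  have hmd : MDiff (fun τ : ℍ => (h : ℍ → ℂ) (γ • τ)) := (compH γ h).mdiff
  refine exists_isExp_of_bounded N _ hmd (fun τ => ?_) M hM
  show (h : ℍ → ℂ) (γ • ((N : ℝ) +ᵥ τ)) = (h : ℍ → ℂ) (γ • τ)
  have h1 : (N : ℝ) +ᵥ τ = ModularGroup.T ^ (N : ℤ) • τ := by
    rw [modular_T_zpow_smul]
    simp
  have h2 : γ • (ModularGroup.T ^ (N : ℤ) • τ)
      = (γ * ModularGroup.T ^ (N : ℤ) * γ⁻¹) • (γ • τ) := by
    rw [← mul_smul, ← mul_smul, inv_mul_cancel_right]
  have h3 := hinv _ (conj_T_pow_mem_Gamma0 N γ)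
  have h4 := congrArg (fun x : Hol => (x : ℍ → ℂ) (γ • τ)) h3
  simp only [compH_apply] at h4
  rw [h1, h2]
  exact h4

theorem isCuspChar_inv {N : ℕ} {χ : Gamma0 N →* ℂˣ} (hχ : IsCuspChar χ) : IsCuspChar χ⁻¹ := by
  refine ⟨fun γ => ?_, ?_, ?_⟩
  · rw [MonoidHom.inv_apply, Units.val_inv_eq_inv_val, norm_inv, hχ.norm_eq, inv_one]
  · rw [MonoidHom.inv_apply, hχ.map_T, inv_one]
  · rw [MonoidHom.inv_apply, hχ.map_neg_one, inv_one]

/-- **the ratio lemma**: the ratio of two holomorphic functions of moderate growth at all cusps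
with the same character `χ` of `Γ₀(N)` lies in `ℂ(j, j_N)`. -/
theorem div_mem_fieldC {N : ℕ} [NeZero N] (χ : Gamma0 N →* ℂˣ) (hχ : IsCuspChar χ) (a b : Hol)
    (ha : ∀ γ : Gamma0 N, compH (γ : SL(2, ℤ)) a = algebraMap ℂ Hol ((χ γ : ℂˣ) : ℂ) * a)
    (hb : ∀ γ : Gamma0 N, compH (γ : SL(2, ℤ)) b = algebraMap ℂ Hol ((χ γ : ℂˣ) : ℂ) * b)
    (hamg : IsMGAll a) (hbmg : IsMGAll b) :
    algebraMap Hol MerH a / algebraMap Hol MerH b ∈ fieldC N := by
  set e := hDelta χ⁻¹ (isCuspChar_inv hχ) with he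
  have he0 : e ≠ 0 := hDelta_ne_zero _ _
  have hemg : IsMGAll e := isMGAll_hDelta _ _
  have hinv : ∀ c : Hol,
      (∀ γ : Gamma0 N, compH (γ : SL(2, ℤ)) c = algebraMap ℂ Hol ((χ γ : ℂˣ) : ℂ) * c) →
      ∀ γ ∈ Gamma0 N, compH γ (c * e) = c * e := by
    intro c hc γ hγ
    have h1 := hc ⟨γ, hγ⟩
    have h2 := compH_hDelta χ⁻¹ (isCuspChar_inv hχ) ⟨γ, hγ⟩
    have h3 : algebraMap ℂ Hol ((χ ⟨γ, hγ⟩ : ℂˣ) : ℂ)
        * algebraMap ℂ Hol ((χ⁻¹ ⟨γ, hγ⟩ : ℂˣ) : ℂ) = 1 := by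
      rw [← map_mul, MonoidHom.inv_apply, ← Units.val_mul, mul_inv_cancel, Units.val_one,
        map_one]
    simp only at h1 h2
    rw [map_mul, h1, h2]
    calc algebraMap ℂ Hol ((χ ⟨γ, hγ⟩ : ℂˣ) : ℂ) * c
          * (algebraMap ℂ Hol ((χ⁻¹ ⟨γ, hγ⟩ : ℂˣ) : ℂ) * e)
        = (algebraMap ℂ Hol ((χ ⟨γ, hγ⟩ : ℂˣ) : ℂ)
          * algebraMap ℂ Hol ((χ⁻¹ ⟨γ, hγ⟩ : ℂˣ) : ℂ)) * (c * e) := by ring
      _ = c * e := by rw [h3, one_mul]
  have hA := mem_fieldC_of_isMGAll (a * e) (hinv a ha) (isMGAll_mul hamg hemg)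
  have hB := mem_fieldC_of_isMGAll (b * e) (hinv b hb) (isMGAll_mul hbmg hemg)
  have heM : algebraMap Hol MerH e ≠ 0 :=
    (map_ne_zero_iff _ (IsFractionRing.injective Hol MerH)).mpr he0
  have key : algebraMap Hol MerH a / algebraMap Hol MerH b
      = algebraMap Hol MerH (a * e) / algebraMap Hol MerH (b * e) := by
    rw [map_mul, map_mul, mul_div_mul_right _ _ heM]
  rw [key]
  exact div_mem hA hB

end

end Fermat.Agent.S29.TopMG
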