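import Fermat.Agent.S29.CountingStrong
import Fermat.Agent.FF.CountingFinal
import Fermat.Agent.FF.ModPoly

/-!
# S29 (item 90), W1: divisibility of the orders of a function at ALL places, abstract form

`K` algebraically closed of characteristic zero, `F / K` a function field, `x : F` transcendental
with `F / K(x)` finite.  `FibreData x a p u` packages, for the fibre of `x` over `a`, a finite
family of embeddings `Φ i : F →+* L` into a field carrying an order function `ν` which satisfies
the hypotheses of the counting lemma, together with the divisibility `p * r ∣ ν (Φ i u)`.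

* `dvd_ord_fibre` : `FibreData x a p u → ∀ v ∈ placesOver x a, p ∣ v.ord u`;
* `dvd_ord_all` : fibre data over every `a : K` and over `∞` ⟹ `p ∣ v.ord u` for EVERY place.
-/

set_option autoImplicit false
set_option linter.unusedVariables false
set_option linter.unusedSectionVars false
set_option linter.style.haveILetI false

open AlgebraicCurve IntermediateField

namespace Fermat.Agent.S29.W1

open Fermat.Agent.FF Fermat.Agent.FF.H6 Fermat.Agent.S29.CountS

variable {K F : Type*} [Field K] [Field F] [Algebra K F] [IsAlgClosed K] [CharZero K]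

/-- The analytic data of the fibre of `x` over `a`, with the divisibility of the orders of `u`. -/
def FibreData (x : F) (a : K) (p : ℕ) (u : F) : Prop :=
  ∃ (I : Type) (_ : Fintype I) (H : Type) (_ : Group H) (_ : MulAction H I) (m : ℕ)
    (L : Type) (_ : Field L) (_ : Algebra K L) (Φ : I → (F →+* L)) (ν : OrdFn K L),
    0 < m ∧
    Nat.card I = Module.finrank K⟮x⟯ F ∧
    (∀ i (c : K), c ≠ 0 → ν (Φ i (algebraMap K F c)) = 0) ∧
    (∀ i, ν (Φ i (x - algebraMap K F a)) = m) ∧
    (∀ (h : H) (i : I) (f : F), ν (Φ (h • i) f) = ν (Φ i f)) ∧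
    (∀ i, ∃ r : ℕ, r * Nat.card (MulAction.orbit H i) = m ∧
      ∀ f : F, f ≠ 0 → (r : ℤ) ∣ ν (Φ i f)) ∧
    (∀ f : F, ∃ P : Polynomial ↥K⟮x⟯, P.Monic ∧
      ∀ i0 : I, P.map ((Φ i0).comp (algebraMap ↥K⟮x⟯ F)) =
        ∏ i : I, (Polynomial.X - Polynomial.C (Φ i f))) ∧
    (∀ i, ∀ r : ℕ, r * Nat.card (MulAction.orbit H i) = m → ((p * r : ℕ) : ℤ) ∣ ν (Φ i u))

/-- **W1 at one fibre.** -/
theorem dvd_ord_fibre (x : F) (hx : Transcendental K x) (hfd : FiniteDimensional K⟮x⟯ F)
    (a : K) (p : ℕ) (u : F) (hu0 : u ≠ 0) (hD : FibreData x a p u) :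
    ∀ v ∈ placesOver x a, (p : ℤ) ∣ v.ord u := by
  classical
  obtain ⟨I, hI, H, hH, hHI, m, L, hL, hKL, Φ, ν, hm, hcard, hΦK, h1, h2, h3, hcoef, hu⟩ := hD
  letI := hI
  letI := hH
  letI := hHI
  letI := hL
  letI := hKL
  obtain ⟨hfin, hsum⟩ := fibres_finite_sum x hx hfd a
  have hne : Nonempty I := by
    have hpos : 0 < Module.finrank K⟮x⟯ F := Module.finrank_pos
    have : 0 < Nat.card I := by rw [hcard]; exact hpos
    exact (Nat.card_pos_iff.mp this).1
  refine dvd_ord_of_dvd x hx hfd a hfin hsum I H m (fun i => ν.comapRingHom (Φ i) (hΦK i)) hcard hm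
    h1 ?_ h3 ?_ p u hu0 hu
  · intro h i
    exact OrdFn.ext' (fun f => h2 h i f)
  · intro f hf h0
    exact poly_clause_of_conjugates K⟮x⟯ Φ ν hcoef f hf h0

/-- **W1, abstract form**: fibre data over every finite value and over `∞` give the divisibility
of the order of `u` at every place of `F`. -/
theorem dvd_ord_all (x : F) (hx : Transcendental K x) (hfd : FiniteDimensional K⟮x⟯ F)
    (p : ℕ) (u : F) (hu0 : u ≠ 0)
    (hfin : ∀ a : K, FibreData x a p u) (hinf : FibreData x⁻¹ (0 : K) p u) :
    ∀ v : Place K F, (p : ℤ) ∣ v.ord u := by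
  intro v
  haveI := hfd
  rcases mem_placesOverInf_or_exists x hx v with h | ⟨a, ha⟩
  · rw [placesOverInf_eq] at h
    have hx' : Transcendental K x⁻¹ := by
      intro halg
      apply hx
      have := halg.inv
      rwa [inv_inv] at this
    have hfd' : FiniteDimensional K⟮x⁻¹⟯ F :=
      finiteDimensional_congr_intermediateField (adjoin_simple_inv_eq (K := K) x).symm hfd
    exact dvd_ord_fibre x⁻¹ hx' hfd' 0 p u hu0 hinf v h
  · exact dvd_ord_fibre x hx hfd a p u hu0 (hfin a) v ha

end Fermat.Agent.S29.W1
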