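import Mathlib
import Fermat.Agent.S29.ModFieldC
import Fermat.Agent.S29.W1Abs
import Fermat.Agent.FF.ModFin

/-!
# S29 (item 90), W1 (F4): the fibre data of a complex realisation

`RealC N F` : a realisation of a function field `F / ℂ` inside `LC N = Frac (modRingC N)`
(embedding `Φ`, `x ↦ j`, `Γ₀(N)`-invariance, degree `ψ(N)`, descent of characteristic
polynomials).  For `u : F` with `Φ u = h ^ p`, where `h : LC N` is fixed by `σ_δ` for all
`δ ∈ Γ₀(N)` of small trace (elliptic and parabolic), we verify `W1.FibreData` at every finite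
value and at `∞`, hence `p ∣ v.ord u` at every place `v` of `F`.
-/

set_option autoImplicit false
set_option linter.unusedVariables false
set_option linter.unusedSectionVars false
set_option linter.style.haveILetI false

open UpperHalfPlane hiding I
open IntermediateField CongruenceSubgroup AlgebraicCurve
open scoped MatrixGroups Manifold

noncomputable section

namespace Fermat.Agent.S29.W1

open Fermat.Agent.FF Fermat.Agent.S29.Mer Fermat.Agent.S29.InvC Fermat.Agent.S29.MFC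

variable (N : ℕ) [NeZero N] (F : Type) [Field F] [Algebra ℂ F]

/-- A realisation of `F / ℂ` inside `LC N`. -/
structure RealC [Fintype (X N)] where
  /-- the embedding -/
  Φ : F →+* LC N
  /-- the coordinate -/
  x : F
  map_const : ∀ c : ℂ, Φ (algebraMap ℂ F c) = algebraMap ℂ (LC N) c
  map_x : Φ x = algebraMap (RC N) (LC N) (jC N)
  invariant : ∀ γ0 ∈ Gamma0 N, ∀ f : F, sigmaC N γ0 (Φ f) = Φ f
  hx : Transcendental ℂ x
  hfd : FiniteDimensional ℂ⟮x⟯ F
  hcard : Nat.card (X N) = Module.finrank ℂ⟮x⟯ F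
  hcoef : ∀ f : F, ∃ P : Polynomial ↥ℂ⟮x⟯, P.Monic ∧
    ∀ i0 : X N, P.map (((sigmaC N (Quotient.out i0)⁻¹).comp Φ).comp (algebraMap ↥ℂ⟮x⟯ F)) =
      ∏ i : X N, (Polynomial.X - Polynomial.C ((sigmaC N (Quotient.out i)⁻¹).comp Φ f))

namespace RealC

variable {N F} [Fintype (X N)] (R : RealC N F)

/-- the conjugate embeddings -/
def conj (i : X N) : F →+* LC N := (sigmaC N (Quotient.out i)⁻¹).comp R.Φ

theorem conj_apply (i : X N) (f : F) : R.conj i f = sigmaC N (Quotient.out i)⁻¹ (R.Φ f) := rfl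

theorem conj_mk (g : SL(2, ℤ)) (f : F) :
    R.conj (QuotientGroup.mk g : X N) f = sigmaC N g⁻¹ (R.Φ f) := by
  rw [R.conj_apply]
  set g' := Quotient.out (QuotientGroup.mk g : X N) with hg'
  have h1 : (QuotientGroup.mk g' : X N) = QuotientGroup.mk g := Quotient.out_eq _
  have h2 : g⁻¹ * g' ∈ CongruenceSubgroup.Gamma0 N := by
    rw [← QuotientGroup.eq]
    exact h1.symm
  have h3 : g'⁻¹ = (g⁻¹ * g')⁻¹ * g⁻¹ := by group
  rw [h3, sigmaC_mul, R.invariant _ (inv_mem h2)]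

theorem conj_smul (h : SL(2, ℤ)) (i : X N) (f : F) :
    R.conj (h • i) f = sigmaC N h⁻¹ (R.conj i f) := by
  obtain ⟨g, rfl⟩ := QuotientGroup.mk_surjective i
  have : h • (QuotientGroup.mk g : X N) = QuotientGroup.mk (h * g) := rfl
  rw [this, R.conj_mk, R.conj_mk, ← sigmaC_mul, mul_inv_rev]

theorem conj_const (i : X N) (c : ℂ) :
    R.conj i (algebraMap ℂ F c) = algebraMap ℂ (LC N) c := by
  rw [R.conj_apply, R.map_const, sigmaC_const]

theorem compC_jC (γ : SL(2, ℤ)) : compC N γ (jC N) = jC N := by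
  apply RC.ext
  intro τ
  rw [compC_apply, jC_apply, jC_apply, jFun_smul]

theorem conj_x (i : X N) : R.conj i R.x = algebraMap (RC N) (LC N) (jC N) := by
  rw [R.conj_apply, R.map_x, sigmaC_algebraMap, compC_jC]

theorem sigmaC_conj_of_smul_eq {h : SL(2, ℤ)} {i : X N} (hi : h • i = i) (f : F) :
    sigmaC N h (R.conj i f) = R.conj i f := by
  have h1 := R.conj_smul h i f
  rw [hi] at h1
  conv_lhs => rw [h1]
  rw [← sigmaC_mul, inv_mul_cancel, sigmaC_one]

theorem conj_ne_zero (i : X N) {f : F} (hf : f ≠ 0) : R.conj i f ≠ 0 :=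
  (map_ne_zero (R.conj i)).mpr hf

theorem coe_jC_sub (a : ℂ) :
    ((jC N - algebraMap ℂ (RC N) a : RC N) : ℍ → ℂ) = fun τ => jFun τ - a := by
  funext τ
  show ((jC N : RC N) : ℍ → ℂ) τ - ((algebraMap ℂ (RC N) a : RC N) : ℍ → ℂ) τ = _
  rw [jC_apply, algebraMap_RC_apply]

theorem conj_x_sub (i : X N) (a : ℂ) :
    R.conj i (R.x - algebraMap ℂ F a) =
      algebraMap (RC N) (LC N) (jC N - algebraMap ℂ (RC N) a) := by
  rw [map_sub, R.conj_x, R.conj_const, map_sub,
    ← IsScalarTower.algebraMap_apply ℂ (RC N) (LC N)]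

/-- the order of `j - a` at a point `τ₀` over `a`, for every conjugate -/
theorem ordFinC_conj_x_sub (i : X N) (a : ℂ) (τ₀ : ℍ) (m : ℕ)
    (hm : analyticOrderAt (fun z => jFun (ofComplex z) - a) (τ₀ : ℂ) = m) :
    ordFinC N τ₀ (R.conj i (R.x - algebraMap ℂ F a)) = m := by
  have hfun : ((jC N - algebraMap ℂ (RC N) a : RC N) : ℍ → ℂ) ∘ ofComplex =
      fun z => jFun (ofComplex z) - a := by
    rw [coe_jC_sub]
    rfl
  have hne : (jC N - algebraMap ℂ (RC N) a : RC N) ≠ 0 := by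
    intro h0
    have h1 : ((jC N - algebraMap ℂ (RC N) a : RC N) : ℍ → ℂ) = 0 := by
      rw [h0]; rfl
    have h2 : analyticOrderAt (fun z => jFun (ofComplex z) - a) (τ₀ : ℂ) = ⊤ := by
      rw [← hfun, h1, analyticOrderAt_eq_top]
      exact Filter.Eventually.of_forall (fun z => rfl)
    rw [h2] at hm
    exact ENat.top_ne_natCast m hm
  rw [R.conj_x_sub, ordFinC_algebraMap τ₀ hne]
  apply ordAt_eq_of_analyticOrderAt
  rw [hfun]
  exact hm

/-! ### The function `h` with small-trace invariance -/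

/-- `h : LC N` is fixed by all elements of `Γ₀(N)` of small trace (elliptic, parabolic, `±1`). -/
def SmallInv (h : LC N) : Prop :=
  ∀ δ : SL(2, ℤ), δ ∈ Gamma0 N →
    ((δ : SL(2, ℤ)) : Matrix (Fin 2) (Fin 2) ℤ).trace ^ 2 ≤ 4 → sigmaC N δ h = h

omit [Fintype (X N)] in
theorem trace_conj (g γ : SL(2, ℤ)) :
    ((g⁻¹ * (γ * g) : SL(2, ℤ)) : Matrix (Fin 2) (Fin 2) ℤ).trace
      = ((γ : SL(2, ℤ)) : Matrix (Fin 2) (Fin 2) ℤ).trace := by
  rw [Matrix.SpecialLinearGroup.coe_mul, Matrix.SpecialLinearGroup.coe_mul, Matrix.trace_mul_comm,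
    Matrix.mul_assoc]
  have h : ((g : SL(2, ℤ)) : Matrix (Fin 2) (Fin 2) ℤ) * ((g⁻¹ : SL(2, ℤ)) : Matrix _ _ ℤ) = 1 := by
    rw [← Matrix.SpecialLinearGroup.coe_mul, mul_inv_cancel, Matrix.SpecialLinearGroup.coe_one]
  rw [h, Matrix.mul_one]

omit [Fintype (X N)] in
/-- the translate `h ∘ g_i⁻¹` is fixed by every small-trace `γ` fixing the coset `i` -/
theorem sigmaC_translate_of_smul_eq {h : LC N} (hh : SmallInv (N := N) h) {γ : SL(2, ℤ)}
    {i : X N} (hi : γ • i = i)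
    (htr : ((γ : SL(2, ℤ)) : Matrix (Fin 2) (Fin 2) ℤ).trace ^ 2 ≤ 4) :
    sigmaC N γ (sigmaC N (Quotient.out i)⁻¹ h) = sigmaC N (Quotient.out i)⁻¹ h := by
  set g := Quotient.out i with hg
  have hgi : (QuotientGroup.mk g : X N) = i := Quotient.out_eq _
  have hmem : g⁻¹ * (γ * g) ∈ Gamma0 N := by
    rw [← QuotientGroup.eq]
    have h1 : (QuotientGroup.mk (γ * g) : X N) = γ • (QuotientGroup.mk g : X N) := rfl
    rw [h1, hgi, hi]
  have hfix := hh _ hmem (by rw [trace_conj]; exact htr)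
  have e : g⁻¹ * γ = (g⁻¹ * (γ * g)) * g⁻¹ := by group
  rw [← sigmaC_mul, e, sigmaC_mul, hfix]

theorem conj_pow_eq {h : LC N} {u : F} {p : ℕ} (hu : R.Φ u = h ^ p) (i : X N) :
    R.conj i u = (sigmaC N (Quotient.out i)⁻¹ h) ^ p := by
  rw [R.conj_apply, hu, map_pow]

omit [Fintype (X N)] in
theorem translate_ne_zero {h : LC N} (hh0 : h ≠ 0) (g : SL(2, ℤ)) : sigmaC N g h ≠ 0 :=
  (map_ne_zero (sigmaC N g)).mpr hh0

/-! ### Finite fibres -/

/-- **fibre data at a finite point** `τ₀` over `a`, given the orbit/divisibility clauses. -/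
theorem fibreData_fin (a : ℂ) (τ₀ : ℍ) (H : Subgroup SL(2, ℤ)) (m : ℕ) (hm0 : 0 < m)
    (hm : analyticOrderAt (fun z => jFun (ofComplex z) - a) (τ₀ : ℂ) = m)
    (hH : ∀ h ∈ H, h • τ₀ = τ₀)
    (h3 : ∀ i : X N, ∃ r : ℕ, r * Nat.card (MulAction.orbit H i) = m ∧
      ∀ f : F, f ≠ 0 → (r : ℤ) ∣ ordFinC N τ₀ (R.conj i f))
    (p : ℕ) (u : F)
    (hu : ∀ i : X N, ∀ r : ℕ, r * Nat.card (MulAction.orbit H i) = m →
      ((p * r : ℕ) : ℤ) ∣ ordFinC N τ₀ (R.conj i u)) :
    FibreData R.x a p u := by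
  refine ⟨X N, inferInstance, H, inferInstance, inferInstance, m, LC N, inferInstance,
    inferInstance, R.conj, ordFinC N τ₀, hm0, R.hcard, ?_, ?_, ?_, h3, R.hcoef, hu⟩
  · intro i c hc
    rw [R.conj_const]
    exact (ordFinC N τ₀).map_const' c hc
  · intro i
    exact R.ordFinC_conj_x_sub i a τ₀ m hm
  · intro h i f
    have h1 : (h • i : X N) = (h : SL(2, ℤ)) • i := rfl
    rw [h1, R.conj_smul, ordFinC_sigmaC]
    have h2 : (h : SL(2, ℤ))⁻¹ • τ₀ = τ₀ := hH _ (inv_mem h.2)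
    rw [h2]

/-- the order of `conj i u` is `p` times the order of the translate of `h` -/
theorem ordFinC_conj_pow {h : LC N} (hh0 : h ≠ 0) {u : F} {p : ℕ} (hu : R.Φ u = h ^ p)
    (τ₀ : ℍ) (i : X N) :
    ordFinC N τ₀ (R.conj i u) = p * ordFinC N τ₀ (sigmaC N (Quotient.out i)⁻¹ h) := by
  rw [R.conj_pow_eq hu, OrdFn.map_pow _ (translate_ne_zero hh0 _)]

/-- generic points -/
theorem fibreData_generic {h : LC N} (hh0 : h ≠ 0) {u : F} {p : ℕ} (hu : R.Φ u = h ^ p)
    (a : ℂ) (ha0 : a ≠ 0) (ha1 : a ≠ 1728) : FibreData R.x a p u := by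
  obtain ⟨τ₀, hτ⟩ := jFun_surjective a
  refine R.fibreData_fin a τ₀ ⊥ 1 one_pos (by simpa using jFun_order_generic hτ ha0 ha1)
    (fun h hh => by rw [Subgroup.mem_bot.mp hh, one_smul])
    (fun i => ⟨1, by rw [Realisation.card_orbit_bot], fun f _ => one_dvd _⟩) p u ?_
  intro i r hr
  rw [Realisation.card_orbit_bot, mul_one] at hr
  subst hr
  rw [R.ordFinC_conj_pow hh0 hu, mul_one]
  exact Dvd.intro _ rfl

omit [Fintype (X N)] in
theorem trace_S_sq : ((ModularGroup.S : SL(2, ℤ)) : Matrix (Fin 2) (Fin 2) ℤ).trace ^ 2 ≤ 4 := by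
  simp [ModularGroup.S, Matrix.trace_fin_two]

omit [Fintype (X N)] in
theorem trace_ST_sq :
    ((ModularGroup.S * ModularGroup.T : SL(2, ℤ)) : Matrix (Fin 2) (Fin 2) ℤ).trace ^ 2 ≤ 4 := by
  simp [ModularGroup.S, ModularGroup.T, Matrix.trace_fin_two]

omit [Fintype (X N)] in
theorem trace_T_pow_sq (k : ℕ) :
    ((ModularGroup.T ^ k : SL(2, ℤ)) : Matrix (Fin 2) (Fin 2) ℤ).trace ^ 2 ≤ 4 := by
  have h := ModularGroup.coe_T_zpow (k : ℤ)
  rw [zpow_natCast] at h
  rw [h]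
  simp [Matrix.trace_fin_two]

/-- the point `ρ` over `0` -/
theorem fibreData_zero {h : LC N} (hh0 : h ≠ 0) (hh : SmallInv (N := N) h) {u : F} {p : ℕ}
    (hu : R.Φ u = h ^ p) : FibreData R.x (0 : ℂ) p u := by
  obtain ⟨τ₀, hfix, -, hord⟩ := exists_ST_fixed_order_three
  have hH : ∀ h ∈ Subgroup.zpowers (ModularGroup.S * ModularGroup.T), h • τ₀ = τ₀ := by
    intro h hh
    have : Subgroup.zpowers (ModularGroup.S * ModularGroup.T) ≤
        MulAction.stabilizer SL(2, ℤ) τ₀ :=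
      Subgroup.zpowers_le.mpr (MulAction.mem_stabilizer_iff.mpr hfix)
    exact MulAction.mem_stabilizer_iff.mp (this hh)
  refine R.fibreData_fin (0 : ℂ) τ₀ _ 3 (by norm_num) (by simpa using hord) hH (fun i => ?_) p u ?_
  · rcases orbit_ST N i with h | ⟨h, hi⟩
    · exact ⟨1, by rw [h], fun f _ => one_dvd _⟩
    · refine ⟨3, by rw [h], fun f hf => ?_⟩
      exact three_dvd_ordFinC hfix (R.conj_ne_zero i hf) (R.sigmaC_conj_of_smul_eq hi f)
  · intro i r hr
    rw [R.ordFinC_conj_pow hh0 hu]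
    rcases orbit_ST N i with h | ⟨h, hi⟩
    · rw [h] at hr
      have hr1 : r = 1 := by omega
      subst hr1
      rw [mul_one]
      exact Dvd.intro _ rfl
    · rw [h, mul_one] at hr
      subst hr
      have h3 := three_dvd_ordFinC hfix (translate_ne_zero hh0 (Quotient.out i)⁻¹)
        (sigmaC_translate_of_smul_eq hh hi trace_ST_sq)
      push_cast
      exact mul_dvd_mul_left _ h3

/-- the point `i` over `1728` -/
theorem fibreData_1728 {h : LC N} (hh0 : h ≠ 0) (hh : SmallInv (N := N) h) {u : F} {p : ℕ}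
    (hu : R.Φ u = h ^ p) : FibreData R.x (1728 : ℂ) p u := by
  obtain ⟨τ₀, hfix, -, hord⟩ := exists_S_fixed_order_two
  have hH : ∀ h ∈ Subgroup.zpowers ModularGroup.S, h • τ₀ = τ₀ := by
    intro h hh
    have : Subgroup.zpowers ModularGroup.S ≤ MulAction.stabilizer SL(2, ℤ) τ₀ :=
      Subgroup.zpowers_le.mpr (MulAction.mem_stabilizer_iff.mpr hfix)
    exact MulAction.mem_stabilizer_iff.mp (this hh)
  refine R.fibreData_fin (1728 : ℂ) τ₀ _ 2 (by norm_num) hord hH (fun i => ?_) p u ?_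
  · rcases orbit_S N i with h | ⟨h, hi⟩
    · exact ⟨1, by rw [h], fun f _ => one_dvd _⟩
    · refine ⟨2, by rw [h], fun f hf => ?_⟩
      exact two_dvd_ordFinC hfix (R.conj_ne_zero i hf) (R.sigmaC_conj_of_smul_eq hi f)
  · intro i r hr
    rw [R.ordFinC_conj_pow hh0 hu]
    rcases orbit_S N i with h | ⟨h, hi⟩
    · rw [h] at hr
      have hr1 : r = 1 := by omega
      subst hr1
      rw [mul_one]
      exact Dvd.intro _ rfl
    · rw [h, mul_one] at hr
      subst hr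
      have h3 := two_dvd_ordFinC hfix (translate_ne_zero hh0 (Quotient.out i)⁻¹)
        (sigmaC_translate_of_smul_eq hh hi trace_S_sq)
      push_cast
      exact mul_dvd_mul_left _ h3

/-- **all finite fibres** -/
theorem fibreData_finite {h : LC N} (hh0 : h ≠ 0) (hh : SmallInv (N := N) h) {u : F} {p : ℕ}
    (hu : R.Φ u = h ^ p) (a : ℂ) : FibreData R.x a p u := by
  by_cases ha0 : a = 0
  · subst ha0
    exact R.fibreData_zero hh0 hh hu
  by_cases ha1 : a = 1728
  · subst ha1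
    exact R.fibreData_1728 hh0 hh hu
  exact R.fibreData_generic hh0 hu a ha0 ha1

/-! ### The cusp -/

omit [Fintype (X N)] in
theorem expInfC_ofRN (r : RN N) : expInfC N (ofRN N r) = iotaL (expInf N r) :=
  expInfC_eq (isExpK_expInf N r)

omit [Fintype (X N)] in
theorem order_expInfC_jC : (expInfC N (jC N)).order = -(N : ℤ) := by
  rw [jC, expInfC_ofRN, iotaL_order, Realisation.order_expInf_jR_one]

omit [Fintype (X N)] in
theorem jC_ne_zero : jC N ≠ 0 := by
  intro h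
  have h1 := order_expInfC_jC (N := N)
  rw [h, map_zero, HahnSeries.order_zero] at h1
  have : (N : ℤ) ≠ 0 := by exact_mod_cast NeZero.ne N
  omega

theorem ordCuspC_conj_x (i : X N) : ordCuspC N (R.conj i R.x) = -(N : ℤ) := by
  rw [R.conj_x, ordCuspC_algebraMap jC_ne_zero, order_expInfC_jC]

theorem x_ne_zero : R.x ≠ 0 := by
  intro h
  have h1 := R.hx
  rw [h] at h1
  exact h1 isAlgebraic_zero

theorem ordCuspC_conj_x_inv (i : X N) :
    ordCuspC N (R.conj i (R.x⁻¹ - algebraMap ℂ F 0)) = (N : ℤ) := by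
  rw [map_zero, sub_zero, map_inv₀, OrdFn.map_inv _ (R.conj_ne_zero i R.x_ne_zero),
    R.ordCuspC_conj_x, neg_neg]

omit [Fintype (X N)] in
theorem hcoef_transportC {K₀ F₀ L₀ : Type*} [Field K₀] [Field F₀] [Field L₀] [Algebra K₀ F₀]
    {I : Type*} [Fintype I] (Ψ : I → (F₀ →+* L₀)) {E₁ E₂ : IntermediateField K₀ F₀}
    (h : E₁ = E₂)
    (hc : ∀ f : F₀, ∃ P : Polynomial ↥E₁, P.Monic ∧
      ∀ i0 : I, P.map ((Ψ i0).comp (algebraMap ↥E₁ F₀)) =
        ∏ i : I, (Polynomial.X - Polynomial.C (Ψ i f))) :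
    ∀ f : F₀, ∃ P : Polynomial ↥E₂, P.Monic ∧
      ∀ i0 : I, P.map ((Ψ i0).comp (algebraMap ↥E₂ F₀)) =
        ∏ i : I, (Polynomial.X - Polynomial.C (Ψ i f)) := by
  subst h
  exact hc

/-- the order of `conj i u` at the cusp is `p` times the order of the translate of `h` -/
theorem ordCuspC_conj_pow {h : LC N} (hh0 : h ≠ 0) {u : F} {p : ℕ} (hu : R.Φ u = h ^ p)
    (i : X N) :
    ordCuspC N (R.conj i u) = p * ordCuspC N (sigmaC N (Quotient.out i)⁻¹ h) := by
  rw [R.conj_pow_eq hu, OrdFn.map_pow _ (translate_ne_zero hh0 _)]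

/-- the cusp `∞` -/
theorem fibreData_inf {h : LC N} (hh0 : h ≠ 0) (hh : SmallInv (N := N) h) {u : F} {p : ℕ}
    (hu : R.Φ u = h ^ p) : FibreData R.x⁻¹ (0 : ℂ) p u := by
  have hN : 0 < N := Nat.pos_of_ne_zero (NeZero.ne N)
  refine ⟨X N, inferInstance, Subgroup.zpowers ModularGroup.T, inferInstance, inferInstance, N,
    LC N, inferInstance, inferInstance, R.conj, ordCuspC N, hN, ?_, ?_, ?_, ?_, ?_, ?_, ?_⟩
  · rw [R.hcard]
    exact (finrank_congr_intermediateField (adjoin_simple_inv_eq (K := ℂ) R.x)).symm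
  · intro i c hc
    rw [R.conj_const]
    exact (ordCuspC N).map_const' c hc
  · intro i
    exact R.ordCuspC_conj_x_inv i
  · rintro ⟨h, hh⟩ i f
    obtain ⟨k, rfl⟩ := Subgroup.mem_zpowers_iff.mp hh
    have h1 : ((⟨ModularGroup.T ^ k, hh⟩ : Subgroup.zpowers ModularGroup.T) • i : X N) =
        (ModularGroup.T ^ k : SL(2, ℤ)) • i := rfl
    rw [h1, R.conj_smul, ← _root_.zpow_neg, ordCuspC_sigmaC_T]
  · intro i
    obtain ⟨k, hk0, ⟨r, hr⟩, hcard, hfix⟩ := orbit_T N i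
    refine ⟨r, by rw [hcard, hr, mul_comm], fun f hf => ?_⟩
    exact dvd_ordCuspC_of_invariant hk0 hr (R.conj_ne_zero i hf)
      (R.sigmaC_conj_of_smul_eq hfix f)
  · exact hcoef_transportC R.conj (adjoin_simple_inv_eq (K := ℂ) R.x).symm R.hcoef
  · intro i r hr
    obtain ⟨k, hk0, ⟨r', hr'⟩, hcard, hfix⟩ := orbit_T N i
    rw [hcard] at hr
    have hrr : r = r' := by
      have h1 : k * r = k * r' := by rw [← hr', mul_comm, hr]
      exact Nat.eq_of_mul_eq_mul_left hk0 h1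
    subst hrr
    rw [R.ordCuspC_conj_pow hh0 hu]
    have h3 := dvd_ordCuspC_of_invariant hk0 hr' (translate_ne_zero hh0 (Quotient.out i)⁻¹)
      (sigmaC_translate_of_smul_eq hh hfix (trace_T_pow_sq k))
    push_cast
    exact mul_dvd_mul_left _ h3

/-- **W1 for a complex realisation**: if `Φ u = h ^ p` with `h ≠ 0` fixed by all small-trace
elements of `Γ₀(N)`, then `p` divides the order of `u` at every place of `F`. -/
theorem dvd_ord_of_realC {h : LC N} (hh0 : h ≠ 0) (hh : SmallInv (N := N) h) {u : F} {p : ℕ}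
    (hu : R.Φ u = h ^ p) : ∀ v : Place ℂ F, (p : ℤ) ∣ v.ord u := by
  have hu0 : u ≠ 0 := by
    intro h0
    rw [h0, map_zero] at hu
    exact hh0 (eq_zero_of_pow_eq_zero hu.symm)
  exact dvd_ord_all R.x R.hx R.hfd p u hu0 (R.fibreData_finite hh0 hh hu)
    (R.fibreData_inf hh0 hh hu)

end RealC

end Fermat.Agent.S29.W1
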