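import Mathlib
import Fermat.Agent.S29.W1Fibre
import Fermat.Agent.S29.W1Real
import Fermat.Agent.S29.InvCBridge
import Fermat.Agent.S16.LiftBound

/-!
# S29 (item 90), W1 over `ℂ` (F5, first half): the function `hDelta χ` inside `Frac (RC N)`

For a character `χ` of `Γ₀(N)` killing the elements of small trace (`S16.smallTrace N`), the
holomorphic function `hDelta χ = eisChi χ 12 / Δ` has Laurent expansions in `exp (2πiτ/N)` at all
cusps, so it defines `hL χ : LC N = Frac (RC N)`, which is fixed by `σ_δ` for all `δ ∈ Γ₀(N)` of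
small trace.  If `χ ^ p = 1`, then `PhiC ((hDeltaM χ) ^ p) = (hL χ) ^ p`.

`W1C_of_deg` : given the degree data of `ℂ(j, j_N) / ℂ(j)` (piece F2), `p` divides the order of
`(hDeltaM χ) ^ p` at every place of `fieldC N = ℂ(j, j_N)`.
-/

set_option autoImplicit false
set_option linter.unusedVariables false
set_option linter.unusedSectionVars false
set_option linter.style.haveILetI false

open UpperHalfPlane hiding I
open IntermediateField CongruenceSubgroup AlgebraicCurve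
open scoped MatrixGroups Manifold

noncomputable section

namespace Fermat.Agent.S29.W1C

open Fermat.Agent.FF Fermat.Agent.S29.Mer Fermat.Agent.S29.InvC Fermat.Agent.S29.MFC
  Fermat.Agent.S29.EisChi Fermat.Agent.S29.W1 Fermat.Agent.S29.W1R Fermat.Agent.S29.InvCExp

local notation "Δ" => ModularForm.discriminant

variable {N : ℕ}

/-- the hypothesis: `χ` kills the elements of small trace -/
def KillsSmall (χ : Gamma0 N →* ℂˣ) : Prop :=
  ∀ γ : Gamma0 N, γ ∈ Fermat.Agent.S16.smallTrace N → χ γ = 1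

theorem TGamma0_mem_smallTrace (N : ℕ) : TGamma0 N ∈ Fermat.Agent.S16.smallTrace N := by
  show ((ModularGroup.T : SL(2, ℤ)) : Matrix (Fin 2) (Fin 2) ℤ).trace ^ 2 ≤ 4
  simp [ModularGroup.T, Matrix.trace_fin_two]

theorem negOneGamma0_mem_smallTrace (N : ℕ) :
    negOneGamma0 N ∈ Fermat.Agent.S16.smallTrace N := by
  show (((-1 : SL(2, ℤ)) : SL(2, ℤ)) : Matrix (Fin 2) (Fin 2) ℤ).trace ^ 2 ≤ 4
  simp

/-- a character of finite order killing the small-trace elements is a cusp character -/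
theorem isCuspChar_of_killsSmall {χ : Gamma0 N →* ℂˣ} {p : ℕ} (hp : p ≠ 0) (hχp : χ ^ p = 1)
    (hst : KillsSmall χ) : IsCuspChar χ :=
  isCuspChar_of_pow_eq_one hp hχp (hst _ (TGamma0_mem_smallTrace N))
    (hst _ (negOneGamma0_mem_smallTrace N))

theorem conj_T_pow_mem_smallTrace (N : ℕ) (γ : SL(2, ℤ)) :
    (⟨γ * ModularGroup.T ^ (N : ℤ) * γ⁻¹, conj_T_pow_mem_Gamma0 N γ⟩ : Gamma0 N) ∈
      Fermat.Agent.S16.smallTrace N := by
  show ((γ * ModularGroup.T ^ (N : ℤ) * γ⁻¹ : SL(2, ℤ)) : Matrix (Fin 2) (Fin 2) ℤ).trace ^ 2 ≤ 4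
  have e : γ * ModularGroup.T ^ (N : ℤ) * γ⁻¹ = (γ⁻¹)⁻¹ * (ModularGroup.T ^ N * γ⁻¹) := by
    rw [zpow_natCast]
    group
  rw [e, RealC.trace_conj]
  exact RealC.trace_T_pow_sq N

variable [NeZero N]

/-- `hDelta χ ∘ γ` is `N`-periodic when `χ` kills the parabolic elements. -/
theorem hDelta_periodic (χ : Gamma0 N →* ℂˣ) (hχ : IsCuspChar χ) (hst : KillsSmall χ)
    (γ : SL(2, ℤ)) (τ : ℍ) :
    ((hDelta χ hχ : Hol) : ℍ → ℂ) (γ • ((N : ℝ) +ᵥ τ))
      = ((hDelta χ hχ : Hol) : ℍ → ℂ) (γ • τ) := by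
  have h1 : (N : ℝ) +ᵥ τ = ModularGroup.T ^ (N : ℤ) • τ := by
    rw [modular_T_zpow_smul]
    simp
  have h2 : γ • (ModularGroup.T ^ (N : ℤ) • τ)
      = (γ * ModularGroup.T ^ (N : ℤ) * γ⁻¹) • (γ • τ) := by
    rw [← mul_smul, ← mul_smul, inv_mul_cancel_right]
  have h3 := hDelta_smul χ hχ ⟨_, conj_T_pow_mem_Gamma0 N γ⟩ (γ • τ)
  rw [hst _ (conj_T_pow_mem_smallTrace N γ), Units.val_one, one_mul] at h3
  rw [h1, h2]
  exact h3

/-- Laurent expansions of `hDelta χ` at all cusps -/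
theorem exists_isExp_hDelta (χ : Gamma0 N →* ℂˣ) (hχ : IsCuspChar χ) (hst : KillsSmall χ)
    (γ : SL(2, ℤ)) :
    ∃ x : LaurentSeries ℂ, IsExp N x (fun τ => ((hDelta χ hχ : Hol) : ℍ → ℂ) (γ • τ)) := by
  have hmd : MDiff (fun τ : ℍ => ((hDelta χ hχ : Hol) : ℍ → ℂ) (γ • τ)) :=
    (compH γ (hDelta χ hχ)).mdiff
  have hb : IsBoundedAtImInfty
      (fun τ : ℍ => Δ τ ^ 1 * ((hDelta χ hχ : Hol) : ℍ → ℂ) (γ • τ)) := by
    have h := isBoundedAtImInfty_discriminant_pow_mul χ hχ 1 γ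
    have e : (hDelta χ hχ ^ 1 : Hol) = hDelta χ hχ := pow_one _
    rw [e] at h
    exact h
  exact exists_isExp_of_bounded N _ hmd (fun τ => hDelta_periodic χ hχ hst γ τ) 1 hb

/-- `hDelta χ` as an element of `RC N` -/
def hDeltaC (χ : Gamma0 N →* ℂˣ) (hχ : IsCuspChar χ) (hst : KillsSmall χ) : RC N :=
  mkC N (hDelta χ hχ) (exists_isExp_hDelta χ hχ hst)

theorem inclC_hDeltaC (χ : Gamma0 N →* ℂˣ) (hχ : IsCuspChar χ) (hst : KillsSmall χ) :
    inclC N (hDeltaC χ hχ hst) = hDelta χ hχ := rfl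

theorem toMer_hDeltaC (χ : Gamma0 N →* ℂˣ) (hχ : IsCuspChar χ) (hst : KillsSmall χ) :
    toMer N (hDeltaC χ hχ hst) = hDeltaM χ hχ := by
  rw [toMer_apply, inclC_hDeltaC]
  rfl

/-- `hDelta χ` as an element of `LC N = Frac (RC N)` -/
def hL (χ : Gamma0 N →* ℂˣ) (hχ : IsCuspChar χ) (hst : KillsSmall χ) : LC N :=
  algebraMap (RC N) (LC N) (hDeltaC χ hχ hst)

theorem merC_hL (χ : Gamma0 N →* ℂˣ) (hχ : IsCuspChar χ) (hst : KillsSmall χ) :
    merC N (hL χ hχ hst) = hDeltaM χ hχ := by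
  rw [hL, merC_algebraMap, toMer_hDeltaC]

theorem hL_ne_zero (χ : Gamma0 N →* ℂˣ) (hχ : IsCuspChar χ) (hst : KillsSmall χ) :
    hL χ hχ hst ≠ 0 := by
  intro h
  apply hDeltaM_ne_zero χ hχ
  rw [← merC_hL χ hχ hst, h, map_zero]

theorem smallInv_hL (χ : Gamma0 N →* ℂˣ) (hχ : IsCuspChar χ) (hst : KillsSmall χ) :
    RealC.SmallInv (N := N) (hL χ hχ hst) := by
  intro δ hδ htr
  apply merC_injective
  have h1 : χ ⟨δ, hδ⟩ = 1 := hst ⟨δ, hδ⟩ htr
  rw [merC_sigmaC, merC_hL, sigmaH_hDeltaM χ hχ ⟨δ, hδ⟩, h1, Units.val_one, one_smul]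

theorem PhiC_hDeltaM_pow (χ : Gamma0 N →* ℂˣ) (hχ : IsCuspChar χ) (hst : KillsSmall χ) {p : ℕ}
    (hχp : χ ^ p = 1) :
    PhiC N ⟨hDeltaM χ hχ ^ p, hDeltaM_pow_mem_fieldC χ hχ hχp⟩ = hL χ hχ hst ^ p :=
  PhiC_eq (by rw [map_pow, merC_hL])

/-- the realisation of `fieldC N = ℂ(j, j_N)`, given the degree data (piece F2) -/
def realCOfDeg [Fintype (X N)] (hx : Transcendental ℂ (xC N))
    (hfd : FiniteDimensional ℂ⟮xC N⟯ ↥(fieldC N))
    (hcard : Nat.card (X N) = Module.finrank ℂ⟮xC N⟯ ↥(fieldC N)) :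
    RealC N ↥(fieldC N) where
  Φ := PhiC N
  x := xC N
  map_const := PhiC_const
  map_x := PhiC_xC
  invariant := fun γ0 hγ f => PhiC_invariant γ0 hγ f
  hx := hx
  hfd := hfd
  hcard := hcard
  hcoef := hcoefC

/-- **W1 over `ℂ`, modulo the degree data**: `p ∣ ord_P ((hDeltaM χ) ^ p)` at every place `P` of
`ℂ(j, j_N)`. -/
theorem W1C_of_deg (hx : Transcendental ℂ (xC N))
    (hfd : FiniteDimensional ℂ⟮xC N⟯ ↥(fieldC N))
    (hcard : Nat.card (X N) = Module.finrank ℂ⟮xC N⟯ ↥(fieldC N))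
    (χ : Gamma0 N →* ℂˣ) (hχ : IsCuspChar χ) (hst : KillsSmall χ) {p : ℕ} (hχp : χ ^ p = 1) :
    ∀ P : Place ℂ ↥(fieldC N),
      (p : ℤ) ∣ P.ord ⟨hDeltaM χ hχ ^ p, hDeltaM_pow_mem_fieldC χ hχ hχp⟩ := by
  letI : Fintype (X N) := Fintype.ofFinite _
  exact (realCOfDeg hx hfd hcard).dvd_ord_of_realC (hL_ne_zero χ hχ hst) (smallInv_hL χ hχ hst)
    (PhiC_hDeltaM_pow χ hχ hst hχp)

end Fermat.Agent.S29.W1C
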