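import Mathlib
import Fermat.Agent.S29.InvCField

/-!
# S29 (item 90), W1 over `ℂ`, piece F2 (helper3): `[fieldC N : ℂ(j)] = ψ(N)`

* `xC N : ↥(fieldC N)` : the function `j`; `yC N` : the function `j(N ·)`;
* `transcendental_xC`;
* `adjoin_yC_eq_top : ℂ⟮xC N⟯⟮yC N⟯ = ⊤`;
* `finiteDimensional_xC`, `finrank_xC : finrank ℂ⟮xC N⟯ ↥(fieldC N) = Nat.card (X N)`.
-/

set_option autoImplicit false
set_option linter.unusedSectionVars false
set_option linter.style.haveILetI false

open UpperHalfPlane hiding I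
open Function Complex IntermediateField
open scoped Real MatrixGroups Manifold

noncomputable section

namespace Fermat.Agent.S29.W1Deg

open Fermat.Agent.FF Fermat.Agent.S29.Mer Fermat.Agent.S29.InvCDeg Fermat.Agent.S29.InvC

variable (N : ℕ) [NeZero N]

/-- the function `j`, as an element of `ℂ(j, j_N)` -/
def xC : ↥(fieldC N) := ⟨jM, jM_mem_fieldC N⟩

/-- the function `j(N ·)`, as an element of `ℂ(j, j_N)` -/
def yC : ↥(fieldC N) := ⟨jNM N, jNM_mem_fieldC N⟩

@[simp] theorem coe_xC : ((xC N : ↥(fieldC N)) : MerH) = jM := rfl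

@[simp] theorem coe_yC : ((yC N : ↥(fieldC N)) : MerH) = jNM N := rfl

/-- `j` is transcendental over `ℂ` -/
theorem transcendental_xC : Transcendental ℂ (xC N) := by
  rw [transcendental_iff_injective, injective_iff_map_eq_zero]
  intro c hc
  have h1 : (fieldC N).val (Polynomial.aeval (xC N) c) = 0 := by rw [hc, map_zero]
  rw [← Polynomial.aeval_algHom_apply] at h1
  have h2 : (fieldC N).val (xC N) = jM := rfl
  rw [h2, aeval_jM] at h1
  have h3 : evJ c = 0 := IsFractionRing.injective Hol MerH (by rw [h1, map_zero])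
  exact evJ_injective (by rw [h3, map_zero])

theorem coe_mem_adjoin_jM' (z : ↥(fieldC N)) (hz : z ∈ ℂ⟮xC N⟯) : (z : MerH) ∈ ℂ⟮jM⟯ := by
  induction hz using IntermediateField.adjoin_induction with
  | mem x hx =>
      rw [Set.mem_singleton_iff] at hx
      rw [hx]
      exact IntermediateField.mem_adjoin_simple_self ℂ jM
  | algebraMap c => exact (ℂ⟮jM⟯).algebraMap_mem c
  | add x y _ _ hx hy =>
      rw [IntermediateField.coe_add]
      exact (ℂ⟮jM⟯).add_mem hx hy
  | inv x _ hx =>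
      rw [IntermediateField.coe_inv]
      exact (ℂ⟮jM⟯).inv_mem hx
  | mul x y _ _ hx hy =>
      rw [IntermediateField.coe_mul]
      exact (ℂ⟮jM⟯).mul_mem hx hy

theorem exists_mem_adjoin_xC (y : MerH) (hy : y ∈ ℂ⟮jM⟯) :
    ∃ z : ↥(fieldC N), z ∈ ℂ⟮xC N⟯ ∧ (z : MerH) = y := by
  induction hy using IntermediateField.adjoin_induction with
  | mem x hx =>
      rw [Set.mem_singleton_iff] at hx
      exact ⟨xC N, IntermediateField.mem_adjoin_simple_self ℂ (xC N), hx.symm⟩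
  | algebraMap c =>
      exact ⟨algebraMap ℂ ↥(fieldC N) c, (ℂ⟮xC N⟯).algebraMap_mem c,
        IntermediateField.coe_algebraMap_apply (fieldC N) c⟩
  | add x y _ _ hx hy =>
      obtain ⟨zx, hzx, rfl⟩ := hx
      obtain ⟨zy, hzy, rfl⟩ := hy
      exact ⟨zx + zy, (ℂ⟮xC N⟯).add_mem hzx hzy, IntermediateField.coe_add _ _ _⟩
  | inv x _ hx =>
      obtain ⟨zx, hzx, rfl⟩ := hx
      exact ⟨zx⁻¹, (ℂ⟮xC N⟯).inv_mem hzx, IntermediateField.coe_inv _ _⟩
  | mul x y _ _ hx hy =>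
      obtain ⟨zx, hzx, rfl⟩ := hx
      obtain ⟨zy, hzy, rfl⟩ := hy
      exact ⟨zx * zy, (ℂ⟮xC N⟯).mul_mem hzx hzy, IntermediateField.coe_mul _ _ _⟩

/-- the embedding `ℂ(xC) → MerH` -/
def iota0 : ↥(ℂ⟮xC N⟯) →+* MerH :=
  (algebraMap ↥(fieldC N) MerH).comp (algebraMap ↥(ℂ⟮xC N⟯) ↥(fieldC N))

theorem iota0_mem (z : ↥(ℂ⟮xC N⟯)) : iota0 N z ∈ ℂ⟮jM⟯ := coe_mem_adjoin_jM' N z.1 z.2

theorem sigmaH_iota0 (γ : SL(2, ℤ)) (z : ↥(ℂ⟮xC N⟯)) : sigmaH γ (iota0 N z) = iota0 N z :=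
  sigmaH_eq_of_mem γ (iota0_mem N z)

/-- evaluation at `yC` and at `jNM` correspond -/
theorem coe_aeval_yC (Q : Polynomial ↥(ℂ⟮xC N⟯)) :
    algebraMap ↥(fieldC N) MerH (Polynomial.aeval (yC N) Q) =
      Polynomial.eval₂ (iota0 N) (jNM N) Q := by
  rw [Polynomial.aeval_def, Polynomial.hom_eval₂]
  rfl

/-- **lower bound**: a nonzero polynomial over `ℂ(xC)` killing `j(N·)` has degree `≥ ψ(N)` -/
theorem card_le_natDegree_of_eval₂ (Q : Polynomial ↥(ℂ⟮xC N⟯)) (hQ : Q ≠ 0)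
    (h : Polynomial.eval₂ (iota0 N) (jNM N) Q = 0) : Nat.card (X N) ≤ Q.natDegree := by
  classical
  letI : Fintype (X N) := Fintype.ofFinite _
  have hQ' : Q.map (iota0 N) ≠ 0 := (Polynomial.map_ne_zero_iff (iota0 N).injective).mpr hQ
  have hcard : (Finset.univ.image (conjJNM N)).card = Nat.card (X N) := by
    rw [Finset.card_image_of_injective _ (conjJNM_injective N), Finset.card_univ,
      Nat.card_eq_fintype_card]
  have hroot : ∀ i, Polynomial.eval₂ (iota0 N) (conjJNM N i) Q = 0 := by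
    intro i
    have h1 := congrArg (sigmaH (Quotient.out i)⁻¹) h
    rw [RingHom.map_zero, Polynomial.hom_eval₂] at h1
    have h2 : (sigmaH (Quotient.out i)⁻¹).comp (iota0 N) = iota0 N :=
      RingHom.ext fun c => sigmaH_iota0 N _ c
    rw [h2, ← conjJNM_eq] at h1
    exact h1
  calc Nat.card (X N) = (Finset.univ.image (conjJNM N)).card := hcard.symm
    _ ≤ (Q.map (iota0 N)).natDegree := by
        apply Polynomial.card_le_degree_of_subset_roots
        intro x hx
        rw [Finset.mem_val, Finset.mem_image] at hx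
        obtain ⟨i, -, rfl⟩ := hx
        rw [Polynomial.mem_roots hQ', Polynomial.IsRoot, Polynomial.eval_map]
        exact hroot i
    _ = Q.natDegree := Polynomial.natDegree_map _

/-- **upper bound**: a nonzero polynomial of degree `≤ ψ(N)` over `ℂ(xC)` killing `yC` -/
theorem exists_poly_yC : ∃ Q : Polynomial ↥(ℂ⟮xC N⟯), Q ≠ 0 ∧ Q.natDegree ≤ Nat.card (X N) ∧
    Polynomial.aeval (yC N) Q = 0 := by
  classical
  obtain ⟨P, hP0, hPdeg, hP⟩ := exists_poly_root N (jNC N) (jNC_mem_invC N)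
  rw [toMer_jNC] at hP
  choose z hz hzc using fun k => exists_mem_adjoin_xC N (P.coeff k : MerH) (P.coeff k).2
  let c : ℕ → ↥(ℂ⟮xC N⟯) := fun k => ⟨z k, hz k⟩
  have hc : ∀ k, iota0 N (c k) = algebraMap ↥(ℂ⟮jM⟯) MerH (P.coeff k) := fun k => hzc k
  let Q : Polynomial ↥(ℂ⟮xC N⟯) := ∑ k ∈ Finset.range (P.natDegree + 1), Polynomial.monomial k (c k)
  have hQcoeff : ∀ k, Q.coeff k = if k ∈ Finset.range (P.natDegree + 1) then c k else 0 := by
    intro k
    simp only [Q, Polynomial.finsetSum_coeff, Polynomial.coeff_monomial]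
    rw [Finset.sum_ite_eq' (Finset.range (P.natDegree + 1)) k]
  have hmap : Q.map (iota0 N) = P.map (algebraMap ↥(ℂ⟮jM⟯) MerH) := by
    ext1 k
    rw [Polynomial.coeff_map, Polynomial.coeff_map, hQcoeff]
    split_ifs with hk
    · exact hc k
    · rw [Finset.mem_range, not_lt] at hk
      rw [Polynomial.coeff_eq_zero_of_natDegree_lt (by omega), map_zero, map_zero]
  have hdeg : Q.natDegree = P.natDegree := by
    have h1 := congrArg Polynomial.natDegree hmap
    rwa [Polynomial.natDegree_map, Polynomial.natDegree_map] at h1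
  refine ⟨Q, ?_, hdeg.le.trans hPdeg, ?_⟩
  · intro h0
    rw [h0, Polynomial.map_zero] at hmap
    exact hP0 ((Polynomial.map_eq_zero _).mp hmap.symm)
  · apply (algebraMap ↥(fieldC N) MerH).injective
    rw [coe_aeval_yC, map_zero, ← Polynomial.eval_map, hmap, Polynomial.eval_map,
      ← Polynomial.aeval_def]
    exact hP

theorem isIntegral_yC : IsIntegral ↥(ℂ⟮xC N⟯) (yC N) := by
  obtain ⟨Q, hQ0, -, hQ⟩ := exists_poly_yC N
  exact IsAlgebraic.isIntegral ⟨Q, hQ0, hQ⟩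

theorem natDegree_minpoly_yC : (minpoly ↥(ℂ⟮xC N⟯) (yC N)).natDegree = Nat.card (X N) := by
  apply le_antisymm
  · obtain ⟨Q, hQ0, hQdeg, hQ⟩ := exists_poly_yC N
    exact (Polynomial.natDegree_le_of_dvd (minpoly.dvd _ _ hQ) hQ0).trans hQdeg
  · apply card_le_natDegree_of_eval₂ N _ (minpoly.ne_zero (isIntegral_yC N))
    rw [← coe_aeval_yC, minpoly.aeval, map_zero]

/-- `ℂ(j, j_N) = ℂ(j)(j_N)` -/
theorem adjoin_yC_eq_top : (ℂ⟮xC N⟯)⟮yC N⟯ = ⊤ := by
  have h1 : ((ℂ⟮xC N⟯)⟮yC N⟯).restrictScalars ℂ = ⊤ := by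
    rw [IntermediateField.adjoin_adjoin_left]
    apply IntermediateField.lift_injective (fieldC N)
    rw [IntermediateField.lift_adjoin, IntermediateField.lift_top]
    show IntermediateField.adjoin ℂ ((fieldC N).val '' ({xC N} ∪ {yC N})) = fieldC N
    rw [Set.image_union, Set.image_singleton, Set.image_singleton]
    rfl
  rw [eq_top_iff]
  intro z _
  have h2 : z ∈ ((ℂ⟮xC N⟯)⟮yC N⟯).restrictScalars ℂ := by
    rw [h1]
    exact IntermediateField.mem_top
  exact h2

theorem finiteDimensional_xC : FiniteDimensional ↥(ℂ⟮xC N⟯) ↥(fieldC N) := by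
  have h1 := IntermediateField.adjoin.finiteDimensional (isIntegral_yC N)
  rw [adjoin_yC_eq_top N] at h1
  exact (IntermediateField.topEquiv (F := ↥(ℂ⟮xC N⟯)) (E := ↥(fieldC N))).toLinearEquiv.finiteDimensional

/-- **F2.**  `[ℂ(j, j_N) : ℂ(j)] = ψ(N)`. -/
theorem finrank_xC : Module.finrank ↥(ℂ⟮xC N⟯) ↥(fieldC N) = Nat.card (X N) := by
  rw [← IntermediateField.finrank_top', ← adjoin_yC_eq_top N,
    IntermediateField.adjoin.finrank (isIntegral_yC N), natDegree_minpoly_yC N]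

end Fermat.Agent.S29.W1Deg
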