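import Mathlib
import Fermat.Agent.S29.W1CBridge
import Fermat.Agent.S29.W1Deg

/-!
# S29 (item 90), **W1 over `ℂ`** (F5): the final statement

For a character `χ` of `Γ₀(N)` with `χ ^ p = 1` killing the elements of small trace, the function
`(hDeltaM χ) ^ p ∈ ℂ(j, j_N)` has order divisible by `p` at EVERY place of `ℂ(j, j_N)`.
-/

set_option autoImplicit false
set_option linter.unusedVariables false
set_option linter.unusedSectionVars false
set_option linter.style.haveILetI false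

open UpperHalfPlane hiding I
open IntermediateField CongruenceSubgroup AlgebraicCurve
open scoped MatrixGroups Manifold

noncomputable section

namespace Fermat.Agent.S29.W1C

open Fermat.Agent.FF Fermat.Agent.S29.Mer Fermat.Agent.S29.InvC Fermat.Agent.S29.MFC
  Fermat.Agent.S29.EisChi Fermat.Agent.S29.W1 Fermat.Agent.S29.W1R

variable {N : ℕ} [NeZero N]

theorem xC_eq : Fermat.Agent.S29.W1Deg.xC N = xC N := rfl

/-- **W1 over `ℂ`**: `p ∣ ord_P ((hDeltaM χ) ^ p)` at every place `P` of `ℂ(j, j_N)`. -/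
theorem dvd_ord (χ : Gamma0 N →* ℂˣ) (hχ : IsCuspChar χ) (hst : KillsSmall χ) {p : ℕ}
    (hχp : χ ^ p = 1) :
    ∀ P : Place ℂ ↥(fieldC N),
      (p : ℤ) ∣ P.ord ⟨hDeltaM χ hχ ^ p, hDeltaM_pow_mem_fieldC χ hχ hχp⟩ :=
  W1C_of_deg (Fermat.Agent.S29.W1Deg.transcendental_xC N)
    (Fermat.Agent.S29.W1Deg.finiteDimensional_xC N)
    (Fermat.Agent.S29.W1Deg.finrank_xC N).symm χ hχ hst hχp

/-- **W1 over `ℂ`, packaged**: for every character `χ` of `Γ₀(N)` with `χ ^ p = 1` (`p ≠ 0`)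
killing the small-trace elements there is `h : MerH`, `h ≠ 0`, with character `χ`, such that
`u = h ^ p ∈ ℂ(j, j_N)` and `p ∣ ord_P u` at every place `P` of `ℂ(j, j_N)`. -/
theorem exists_kummer (χ : Gamma0 N →* ℂˣ) {p : ℕ} (hp : p ≠ 0) (hχp : χ ^ p = 1)
    (hst : KillsSmall χ) :
    ∃ h : MerH, h ≠ 0 ∧
      (∀ γ : Gamma0 N, sigmaH (γ : SL(2, ℤ)) h = ((χ γ : ℂˣ) : ℂ) • h) ∧
      ∃ hu : h ^ p ∈ fieldC N, ∀ P : Place ℂ ↥(fieldC N), (p : ℤ) ∣ P.ord ⟨h ^ p, hu⟩ := by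
  have hχ : IsCuspChar χ := isCuspChar_of_killsSmall hp hχp hst
  exact ⟨hDeltaM χ hχ, hDeltaM_ne_zero χ hχ, sigmaH_hDeltaM χ hχ,
    hDeltaM_pow_mem_fieldC χ hχ hχp, dvd_ord χ hχ hst hχp⟩

end Fermat.Agent.S29.W1C
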