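import Mathlib
import Fermat.Agent.S29.TopMG
import Fermat.Agent.S29.R2Char
import Fermat.Agent.S29.W1C

/-!
# S29 (item 90), TOP: the ratios of the functions `hDeltaM χ` lie in `ℂ(j, j_N)`

* `hDeltaM_mul_div_mem` : `hDeltaM (χ χ') / (hDeltaM χ · hDeltaM χ') ∈ fieldC N`;
* `hDeltaM_Tchar_div_mem` : `hDeltaM (τ_ℓ χ) / heckeFun ℓ (hDeltaM χ) ∈ fieldC N`;
* for `ψ ∈ XP N p`, with `hX ψ := hDeltaM (chiOf ψ)`: `hX_ne_zero`, `sigmaH_hX`, `hX_pow_mem`,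
  `hX_dvd_ord` (W1), `hX_add_div_mem`, `hX_TXP_div_mem`.
-/

set_option autoImplicit false
set_option linter.style.haveILetI false
set_option linter.unusedSectionVars false
set_option linter.unusedVariables false

namespace Fermat.Agent.S29.TopMG

open ModularForm UpperHalfPlane Complex Matrix CongruenceSubgroup Filter Topology
  Manifold Asymptotics AlgebraicCurve

open scoped MatrixGroups Real

open Fermat.Agent.S29.Mer Fermat.Agent.FF Fermat.Agent.S29.InvC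
  Fermat.Agent.S29.InvCExp Fermat.Agent.S29.EisChi Fermat.Agent.S29.R2
open P2MW.S_ModularForm_heckeT_slash_eq_self_of_mem_Gamma0.ModularForm.HeckeSlashInvariance

noncomputable section

variable {N : ℕ}

/-- **additivity ratio** -/
theorem hDeltaM_mul_div_mem [NeZero N] (χ χ' χ'' : Gamma0 N →* ℂˣ) (hχ : IsCuspChar χ)
    (hχ' : IsCuspChar χ') (hχ'' : IsCuspChar χ'') (hmul : χ'' = χ * χ') :
    hDeltaM χ'' hχ'' / (hDeltaM χ hχ * hDeltaM χ' hχ') ∈ fieldC N := by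
  have h := div_mem_fieldC χ'' hχ'' (hDelta χ'' hχ'') (hDelta χ hχ * hDelta χ' hχ')
    (fun γ => compH_hDelta χ'' hχ'' γ)
    (fun γ => by
      rw [map_mul, compH_hDelta χ hχ γ, compH_hDelta χ' hχ' γ, hmul, MonoidHom.mul_apply,
        Units.val_mul, map_mul]
      ring)
    (isMGAll_hDelta _ _) (isMGAll_mul (isMGAll_hDelta _ _) (isMGAll_hDelta _ _))
  rw [map_mul] at h
  exact h

section Hecke

variable (ℓ : ℕ) [Fact ℓ.Prime]

/-- the Hecke operator on holomorphic functions, multiplicative version -/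
def heckeHol (h : Hol) : Hol :=
  ∏ x : OnePoint (ZMod ℓ), compG (heckeRep ℓ x) (det_heckeRep_pos ℓ x) h

theorem algebraMap_heckeHol (h : Hol) :
    algebraMap Hol MerH (heckeHol ℓ h) = heckeFun ℓ (algebraMap Hol MerH h) := by
  unfold heckeHol heckeFun
  rw [map_prod]
  refine Finset.prod_congr rfl fun x _ => ?_
  rw [sigmaG_algebraMap]

theorem isMGAll_heckeHol {h : Hol} (hmg : IsMGAll h) : IsMGAll (heckeHol ℓ h) :=
  isMGAll_prod _ _ fun x _ => isMGAll_compG_heckeRep hmg ℓ x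

variable {ℓ}

theorem compH_heckeHol (hℓN : ¬ ℓ ∣ N) {χ : Gamma0 N →* ℂˣ} {h : Hol}
    (hχ : ∀ γ : Gamma0 N, compH (γ : SL(2, ℤ)) h = algebraMap ℂ Hol ((χ γ : ℂˣ) : ℂ) * h)
    (γ : Gamma0 N) :
    compH (γ : SL(2, ℤ)) (heckeHol ℓ h)
      = algebraMap ℂ Hol ((Tchar hℓN χ γ : ℂˣ) : ℂ) * heckeHol ℓ h := by
  apply IsFractionRing.injective Hol MerH
  have h1 : ∀ γ' : Gamma0 N, sigmaH (γ' : SL(2, ℤ)) (algebraMap Hol MerH h)
      = ((χ γ' : ℂˣ) : ℂ) • algebraMap Hol MerH h := by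
    intro γ'
    rw [sigmaH_algebraMap, hχ γ', map_mul, ← IsScalarTower.algebraMap_apply ℂ Hol MerH,
      Algebra.smul_def]
  have h2 := sigmaH_heckeFun hℓN h1 γ
  rw [← sigmaH_algebraMap, algebraMap_heckeHol, h2, map_mul, algebraMap_heckeHol,
    ← IsScalarTower.algebraMap_apply ℂ Hol MerH, Algebra.smul_def]

/-- **Hecke ratio** -/
theorem hDeltaM_Tchar_div_mem [NeZero N] (hℓN : ¬ ℓ ∣ N) (χ χ' : Gamma0 N →* ℂˣ)
    (hχ : IsCuspChar χ) (hχ' : IsCuspChar χ') (hT : χ' = Tchar hℓN χ) :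
    hDeltaM χ' hχ' / heckeFun ℓ (hDeltaM χ hχ) ∈ fieldC N := by
  have h := div_mem_fieldC χ' hχ' (hDelta χ' hχ') (heckeHol ℓ (hDelta χ hχ))
    (fun γ => compH_hDelta χ' hχ' γ)
    (fun γ => by
      rw [hT]
      exact compH_heckeHol hℓN (fun γ' => compH_hDelta χ hχ γ') γ)
    (isMGAll_hDelta _ _) (isMGAll_heckeHol ℓ (isMGAll_hDelta _ _))
  rw [algebraMap_heckeHol] at h
  exact h

end Hecke

/-! ### The functions attached to `ψ ∈ XP N p` -/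

section XP

variable [NeZero N] {p : ℕ} [NeZero p]

/-- the function `h_ψ` with character `chiOf ψ` -/
def hX (ψ : XP N p) : MerH := hDeltaM (chiOf ψ) (isCuspChar_chiOf ψ)

theorem hX_ne_zero (ψ : XP N p) : hX ψ ≠ 0 := hDeltaM_ne_zero _ _

theorem sigmaH_hX (ψ : XP N p) (γ : Gamma0 N) :
    sigmaH (γ : SL(2, ℤ)) (hX ψ) = ((chiOf ψ γ : ℂˣ) : ℂ) • hX ψ :=
  sigmaH_hDeltaM _ _ γ

theorem hX_pow_mem (ψ : XP N p) : hX ψ ^ p ∈ fieldC N :=
  hDeltaM_pow_mem_fieldC _ _ (chiOf_pow ψ)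

/-- **W1** for `h_ψ ^ p` -/
theorem hX_dvd_ord (ψ : XP N p) :
    ∀ P : Place ℂ ↥(fieldC N), (p : ℤ) ∣ P.ord ⟨hX ψ ^ p, hX_pow_mem ψ⟩ :=
  Fermat.Agent.S29.W1C.dvd_ord (chiOf ψ) (isCuspChar_chiOf ψ)
    (fun γ hγ => chiOf_smallTrace ψ γ hγ) (chiOf_pow ψ)

theorem hX_add_div_mem (ψ ψ' : XP N p) :
    hX (ψ + ψ') / (hX ψ * hX ψ') ∈ fieldC N :=
  hDeltaM_mul_div_mem _ _ _ _ _ _ (chiOf_add ψ ψ')

theorem hX_TXP_div_mem (ℓ : ℕ) [Fact ℓ.Prime] (hℓN : ¬ ℓ ∣ N) (ψ : XP N p) :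
    hX (TXP N p ℓ hℓN ψ) / heckeFun ℓ (hX ψ) ∈ fieldC N :=
  hDeltaM_Tchar_div_mem hℓN _ _ _ _ (Tchar_chiOf ℓ hℓN ψ).symm

end XP

end

end Fermat.Agent.S29.TopMG
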