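import Mathlib
import Fermat.Agent.S29.TopAbs
import Fermat.Agent.S29.TopInstA
import Fermat.Agent.S29.TopRatio
import Fermat.Agent.S29.KSysMod

/-!
# S29 (item 90), TOP: the Kummer system over `ℂ`

`Top.topKSys : KM.KSysMod ℂ N p`, from

* `SurjStatement N`  : the realisation `embFC N : F_ℂ(N) → MerH` is onto `fieldC N = ℂ(j, j_N)`;
* `PlaceStatement N` : every place of `F_ℂ(N)` is induced by a place of `fieldC N`

(the two statements of the bridge `fieldC N ≃ F_ℂ(N)`), together with the landed pieces: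
NormProd (`embFC_normBeta`), the ratio lemmas and W1 (`TopRatio`), the characters (`R2Char`).
-/

set_option autoImplicit false
set_option linter.unusedSectionVars false
set_option linter.style.haveILetI false

open CongruenceSubgroup AlgebraicCurve ModularCurve
open scoped MatrixGroups

noncomputable section

namespace Fermat.Agent.S29.Top

open Fermat.Agent.S29.Mer Fermat.Agent.S29.BrC Fermat.Agent.S29.InvC Fermat.Agent.S29.R2
  Fermat.Agent.S29.TopMG Fermat.Agent.S29.DStep

variable (N : ℕ) [NeZero N]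

/-- (bridge) the realisation `embFC` is onto `fieldC N`. -/
def SurjStatement : Prop := ∀ t ∈ fieldC N, ∃ w : FC N, embFC N w = t

/-- (bridge) the places of `F_ℂ(N)` are induced by places of `fieldC N`. -/
def PlaceStatement : Prop :=
  ∀ P : Place ℂ (FC N), ∃ P' : Place ℂ ↥(fieldC N),
    ∀ (w : FC N) (f : ↥(fieldC N)), embFC N w = (f : MerH) → P.ord w = P'.ord f

variable {N} (p : ℕ) [Fact p.Prime]

/-- the hypotheses of the top Kummer system, over `ℂ`. -/
def topHyp (hs : SurjStatement N) (hpl : PlaceStatement N) :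
    haveI : NeZero p := ⟨(Fact.out : p.Prime).ne_zero⟩
    TopHyp N p (KM.TX N p) (embFC N) (KM.CK ℂ N) (KM.KPK ℂ N p) (KM.HK ℂ N p) :=
  haveI : NeZero p := ⟨(Fact.out : p.Prime).ne_zero⟩
  { Hf := fun i => haveI : Fact i.1.Prime := ⟨i.2.1⟩; heckeFun i.1
    h := hX
    chi := chiOf
    hp := (Fact.out : p.Prime).ne_zero
    hinv := fun γ w => sigmaH_embFC N γ γ.2 w
    hC := fun u hu => by
      obtain ⟨c, -, h⟩ := (KM.mem_CK_iff ℂ N).1 hu
      exact ⟨c, by rw [h, embFC_const]⟩
    hH := fun i u => by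
      haveI : Fact i.1.Prime := ⟨i.2.1⟩
      exact embFC_normBeta N i.1 i.not_dvd (u : FC N)
    hHf_pow := fun i y => by
      haveI : Fact i.1.Prime := ⟨i.2.1⟩
      exact (heckeFun_pow i.1 y p).symm
    h0 := hX_ne_zero
    hchi := sigmaH_hX
    chi_inj := fun ψ h => (chiOf_eq_one_iff ψ).1 h
    hpow := fun ψ => hs _ (hX_pow_mem ψ)
    hkp := fun ψ u hu => by
      rw [KM.mem_KPK_iff]
      intro P
      obtain ⟨P', hP'⟩ := hpl P
      rw [hP' (u : FC N) ⟨hX ψ ^ p, hX_pow_mem ψ⟩ hu]
      exact hX_dvd_ord ψ P'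
    hadd := fun ψ ψ' => hs _ (hX_add_div_mem ψ ψ')
    hhk := fun i ψ => by
      haveI : Fact i.1.Prime := ⟨i.2.1⟩
      exact hs _ (hX_TXP_div_mem i.1 i.not_dvd ψ) }

/-- **TOP**: the Kummer system over `ℂ`. -/
def topKSys (hs : SurjStatement N) (hpl : PlaceStatement N) : KM.KSysMod ℂ N p :=
  (topHyp p hs hpl).ksys

end Fermat.Agent.S29.Top
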