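import Mathlib
import Fermat.Agent.S29.TopInst
import Fermat.Agent.S29.BridgeC2

/-!
# S29 (item 90), TOP: the Kummer system over `ℂ`, unconditional

`Top.topKSysC N p : KM.KSysMod ℂ N p` for every level `N ≥ 1` and prime `p`.
-/

set_option autoImplicit false
set_option linter.unusedSectionVars false
set_option linter.style.haveILetI false

noncomputable section

namespace Fermat.Agent.S29.Top

open Fermat.Agent.S29.BrC

variable (N : ℕ) [NeZero N]

theorem surjStatement : SurjStatement N := fun _ ht => exists_embFC_eq N ht

theorem placeStatement : PlaceStatement N := fun P => exists_place_of_embFC N P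

/-- **TOP**: the Kummer system over `ℂ`. -/
def topKSysC (p : ℕ) [Fact p.Prime] : KM.KSysMod ℂ N p :=
  topKSys p (surjStatement N) (placeStatement N)

end Fermat.Agent.S29.Top
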