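/-
S29 gamble (item 90), the LAST LINK, hypothesis form (helper4).

`DictAsm.dictStatement_of` : `Final.DictStatement` from
* TOP      `Top.topKSysC`              (helper7, landed),
* STEP     `ChainStep.chain_step`      (helper1, landed),
* CHAIN    `ChainApply.ksys_Qbar_of`   (helper5, landed),
* TRANSFER `ChainApply.TransferStatement N p`                 (hypothesis `transfer`),
* BOTTOM   `KSysMod ℚ̄ N p → body of DictStatement at (N, p)`  (hypothesis `bottom`).
-/
import Mathlib
import Fermat.Agent.S29.Final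
import Fermat.Agent.S29.TopFinal
import Fermat.Agent.S29.ChainApply
import Fermat.Agent.S29.ChainStep

set_option autoImplicit false
set_option linter.unusedSectionVars false
set_option linter.style.haveILetI false

noncomputable section

open ModularCurve

namespace Fermat.Agent.S29.DictAsm

/-- the shape of the BOTTOM adapter. -/
def BottomStatement : Prop :=
  ∀ (N : ℕ) [NeZero N] (p : ℕ) [Fact p.Prime],
    KM.KSysMod (AlgebraicClosure ℚ) N p →
    ∃ Φ : R2.XP N p →+ torsP N p, Function.Injective Φ ∧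
      ∀ (ℓ : ℕ) [Fact ℓ.Prime] (hℓN : ¬ ℓ ∣ N), ¬ ℓ ∣ N * p →
        ∀ ψ : R2.XP N p,
          Φ (R2.TXP N p ℓ hℓN ψ) = heckeTors N p ⟨ℓ, Fact.out⟩ (Φ ψ)

/-- an algebra structure `ℚ̄ → ℂ` (any one will do). -/
@[reducible] def algQbarComplex : Algebra (AlgebraicClosure ℚ) ℂ :=
  haveI : Algebra.IsAlgebraic ℚ (AlgebraicClosure ℚ) := AlgebraicClosure.isAlgebraic ℚ
  (IsAlgClosed.lift : AlgebraicClosure ℚ →ₐ[ℚ] ℂ).toRingHom.toAlgebra

/-- the Kummer system over `ℚ̄`. -/
theorem ksys_Qbar (transfer : ∀ (N : ℕ) [NeZero N] (p : ℕ) [Fact p.Prime],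
      ChainApply.TransferStatement N p)
    (N : ℕ) [NeZero N] (p : ℕ) [Fact p.Prime] :
    Nonempty (KM.KSysMod (AlgebraicClosure ℚ) N p) := by
  have hp : p ≠ 0 := (Fact.out : p.Prime).ne_zero
  haveI : NeZero p := ⟨hp⟩
  letI := algQbarComplex
  exact ChainApply.ksys_Qbar_of N p
    (fun k L _ _ _ _ _ _ _ t ht halg => ChainStep.chain_step N p hp k L t ht halg)
    (transfer N p) (Top.topKSysC N p)

/-- **the dictionary** from TRANSFER and the BOTTOM adapter. -/
theorem dictStatement_of (transfer : ∀ (N : ℕ) [NeZero N] (p : ℕ) [Fact p.Prime],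
      ChainApply.TransferStatement N p) (bottom : BottomStatement) :
    Final.DictStatement := by
  intro N _ p _
  obtain ⟨K⟩ := ksys_Qbar transfer N p
  exact bottom N p K

end Fermat.Agent.S29.DictAsm
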