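/-
S29 (item 90), piece A2, part 1 (helper4): `F_L(N) ∩ K((q)) = F_K(N)`.

For a field extension `ι : K →+* L` of characteristic `0`: a Laurent series `y` over `K` whose
coefficientwise image lies in the function field of level `N` over `L` lies in the function field
over `K`.  Proof: GEN over `L` gives `s(j) ι(y) = P(j, j_N)`; a `K`-linear retraction `lam` of `ι`
applied coefficientwise is `K((q))`-linear, and maps the `L`-algebra generated by `ι(F_K)` into
`F_K`.
-/
import Mathlib
import Fermat.Agent.S29.GaussCGen

set_option autoImplicit false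
set_option linter.unusedSectionVars false

open HahnSeries ModularCurve Polynomial

noncomputable section

namespace Fermat.Agent.S29.A2

open Fermat.Agent.S18 Fermat.Agent.S18.MScal Fermat.Agent.S29.GaussC

variable {K L : Type*} [Field K] [Field L] (ι : K →+* L)

/-- the coefficientwise map of an additive map. -/
def cw (lam : L →+ K) (Z : LaurentSeries L) : LaurentSeries K := Z.map lam

@[simp] theorem cw_coeff (lam : L →+ K) (Z : LaurentSeries L) (n : ℤ) :
    (cw lam Z).coeff n = lam (Z.coeff n) := rfl

theorem cw_add (lam : L →+ K) (Z Z' : LaurentSeries L) :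
    cw lam (Z + Z') = cw lam Z + cw lam Z' := by
  ext n
  simp

theorem cw_zero (lam : L →+ K) : cw lam (0 : LaurentSeries L) = 0 := by
  ext n
  simp

/-- `cw lam` is `K((q))`-linear when `lam` is `K`-linear. -/
theorem cw_mul (lam : L →+ K) (hlam : ∀ (a : K) (c : L), lam (ι a * c) = a * lam c)
    (z : LaurentSeries K) (Z : LaurentSeries L) :
    cw lam (coeffMap ι z * Z) = z * cw lam Z := by
  ext n
  have hs1 : (coeffMap ι z).support ⊆ z.support := by
    intro i hi
    rw [HahnSeries.mem_support] at hi ⊢
    intro h0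
    apply hi
    rw [coeffMap_coeff, h0, map_zero]
  have hs2 : (cw lam Z).support ⊆ Z.support := by
    intro i hi
    rw [HahnSeries.mem_support] at hi ⊢
    intro h0
    apply hi
    rw [cw_coeff, h0, map_zero]
  rw [cw_coeff, HahnSeries.coeff_mul_left' z.isPWO_support hs1,
    HahnSeries.coeff_mul_right' Z.isPWO_support hs2, map_sum]
  refine Finset.sum_congr rfl fun ij _ => ?_
  rw [coeffMap_coeff, hlam, cw_coeff]

theorem cw_C (lam : L →+ K) (c : L) :
    cw lam (HahnSeries.C c : LaurentSeries L) = HahnSeries.C (lam c) := by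
  ext n
  rw [cw_coeff]
  by_cases hn : n = 0
  · subst hn
    simp
  · rw [HahnSeries.C_apply, HahnSeries.C_apply, HahnSeries.coeff_single_of_ne hn,
      HahnSeries.coeff_single_of_ne hn, map_zero]

variable (N : ℕ) [NeZero N]

/-- the set of series all of whose twisted retractions lie in `F_K(N)`. -/
def Good (lam : L →+ K) (Z : LaurentSeries L) : Prop :=
  ∀ d : L, cw lam (HahnSeries.C d * Z) ∈ modularFunctionFieldFullC K N

theorem good_C (lam : L →+ K) (c : L) : Good N lam (HahnSeries.C c : LaurentSeries L) := by
  intro d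
  rw [← map_mul, cw_C]
  exact (modularFunctionFieldFullC K N).algebraMap_mem (lam (d * c)) |> fun h => by
    have e : (HahnSeries.C (lam (d * c)) : LaurentSeries K) =
        algebraMap K (LaurentSeries K) (lam (d * c)) := by
      rw [algebraMap_eq_single]
      rfl
    rw [e]
    exact h

theorem good_add (lam : L →+ K) {Z Z' : LaurentSeries L} (h : Good N lam Z)
    (h' : Good N lam Z') : Good N lam (Z + Z') := by
  intro d
  rw [mul_add, cw_add]
  exact add_mem (h d) (h' d)

theorem good_mul (lam : L →+ K) (hlam : ∀ (a : K) (c : L), lam (ι a * c) = a * lam c)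
    {z : LaurentSeries K} (hz : z ∈ modularFunctionFieldFullC K N) {Z : LaurentSeries L}
    (h : Good N lam Z) : Good N lam (Z * coeffMap ι z) := by
  intro d
  have e : HahnSeries.C d * (Z * coeffMap ι z) = coeffMap ι z * (HahnSeries.C d * Z) := by ring
  rw [e, cw_mul ι lam hlam]
  exact mul_mem hz (h d)

theorem good_mulC (lam : L →+ K) (c : L) {Z : LaurentSeries L} (h : Good N lam Z) :
    Good N lam (HahnSeries.C c * Z) := by
  intro d
  rw [← mul_assoc, ← map_mul]
  exact h (d * c)

theorem good_evJ (lam : L →+ K) (hlam : ∀ (a : K) (c : L), lam (ι a * c) = a * lam c)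
    (s : L[X]) : Good N lam (evJ L s) := by
  induction s using Polynomial.induction_on with
  | C a =>
    rw [evJ_C, algebraMap_eq_single]
    exact good_C N lam a
  | add p q hp hq =>
    rw [map_add]
    exact good_add N lam hp hq
  | monomial n a h =>
    have e : evJ L (Polynomial.C a * X ^ (n + 1)) =
        evJ L (Polynomial.C a * X ^ n) * coeffMap ι (jqModC K) := by
      rw [pow_succ, ← mul_assoc, map_mul, evJ_X, coeffMap_jqModC]
    rw [e]
    exact good_mul ι N lam hlam (jqModC_mem_full K N) h

theorem good_evJN (lam : L →+ K) (hlam : ∀ (a : K) (c : L), lam (ι a * c) = a * lam c)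
    (P : L[X][X]) : Good N lam (evJN L N P) := by
  induction P using Polynomial.induction_on with
  | C a =>
    rw [evJN_C]
    exact good_evJ ι N lam hlam a
  | add p q hp hq =>
    rw [map_add]
    exact good_add N lam hp hq
  | monomial n a h =>
    have e : evJN L N (Polynomial.C a * X ^ (n + 1)) =
        evJN L N (Polynomial.C a * X ^ n) * coeffMap ι (jqNModC K N) := by
      rw [pow_succ, ← mul_assoc, map_mul, evJN_X, coeffMap_jqNModC]
    rw [e]
    refine good_mul ι N lam hlam ?_ h
    have := jqModCd_mem_full K N (dvd_refl N)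
    exact this

/-- **`F_L(N) ∩ K((q)) = F_K(N)`**. -/
theorem mem_full_of_coeffMap_mem [CharZero L] (y : LaurentSeries K)
    (hy : coeffMap ι y ∈ modularFunctionFieldFullC L N) :
    y ∈ modularFunctionFieldFullC K N := by
  classical
  letI : Algebra K L := ι.toAlgebra
  obtain ⟨lamL, hlamL⟩ := LinearMap.exists_leftInverse_of_injective (Algebra.linearMap K L)
    (LinearMap.ker_eq_bot.mpr (algebraMap K L).injective)
  let lam : L →+ K := lamL.toAddMonoidHom
  have hlam1 : ∀ a : K, lam (ι a) = a := fun a => by
    have := congrArg (fun g : K →ₗ[K] K => g a) hlamL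
    show lamL (algebraMap K L a) = a
    simpa using this
  have hlam : ∀ (a : K) (c : L), lam (ι a * c) = a * lam c := by
    intro a c
    have : ι a * c = a • c := by rw [Algebra.smul_def]; rfl
    show lamL (ι a * c) = a * lamL c
    rw [this, map_smul, smul_eq_mul]
  obtain ⟨s, P, hs, -, hrel⟩ := genOver_of_charZero L N (coeffMap ι y) hy
  -- a nonzero coefficient of `s(j)`
  obtain ⟨n₀, hn₀⟩ : ∃ n₀ : ℤ, (evJ L s).coeff n₀ ≠ 0 := by
    by_contra hcon
    refine hs (HahnSeries.ext (_root_.funext fun n => ?_))
    by_contra hn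
    exact hcon ⟨n, hn⟩
  set d : L := ((evJ L s).coeff n₀)⁻¹ with hd
  have hA := good_evJ ι N lam hlam s d
  have hB := good_evJN ι N lam hlam P d
  have hA0 : cw lam (HahnSeries.C d * evJ L s) ≠ 0 := by
    intro h0
    have h1 := congrArg (fun Z : LaurentSeries K => Z.coeff n₀) h0
    simp only [cw_coeff, HahnSeries.coeff_zero] at h1
    rw [HahnSeries.C_mul_eq_smul, HahnSeries.coeff_smul, smul_eq_mul, hd,
      inv_mul_cancel₀ hn₀] at h1
    have h2 : lam 1 = 1 := by
      have := hlam1 1
      rwa [map_one] at this
    rw [h2] at h1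
    exact one_ne_zero h1
  have hkey : y * cw lam (HahnSeries.C d * evJ L s) = cw lam (HahnSeries.C d * evJN L N P) := by
    rw [← cw_mul ι lam hlam, ← hrel]
    congr 1
    ring
  have hy' : y = cw lam (HahnSeries.C d * evJN L N P) * (cw lam (HahnSeries.C d * evJ L s))⁻¹ := by
    rw [← hkey, mul_assoc, mul_inv_cancel₀ hA0, mul_one]
  rw [hy']
  exact mul_mem hB (inv_mem hA)

end Fermat.Agent.S29.A2
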