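/-
S29 (item 90), piece A2, part 2 (helper4): descent of `p`-th roots of Laurent series.

`ι : K →+* L` fields of characteristic `0`.  If `u ∈ K((q))`, `u ≠ 0`, and `ι(u) = c W^p` in
`L((q))`, then `u = a w'^p` with `a ∈ K`, `w' ∈ K((q))` and `ι(w') = b W` for a constant `b ≠ 0`.
-/
import Mathlib
import Fermat.Prelude.Def_ModularCurve_X0ModL
import Fermat.Agent.S18.CTRoot

set_option autoImplicit false
set_option linter.unusedSectionVars false

open HahnSeries ModularCurve

noncomputable section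

namespace Fermat.Agent.S29.A2

variable {F : Type*} [Field F]

/-- the normal form `a q^m P`, `P(0) = 1`. -/
def nf (a : F) (m : ℤ) (P : PowerSeries F) : LaurentSeries F :=
  HahnSeries.C a * (HahnSeries.single m (1 : F) * HahnSeries.ofPowerSeries ℤ F P)

theorem nf_coeff (a : F) (m : ℤ) (P : PowerSeries F) (k : ℤ) :
    (nf a m P).coeff k = a * (HahnSeries.ofPowerSeries ℤ F P).coeff (k - m) := by
  rw [nf, HahnSeries.C_mul_eq_smul, HahnSeries.coeff_smul, smul_eq_mul]
  congr 1
  have := HahnSeries.coeff_single_mul_add (r := (1 : F)) (x := HahnSeries.ofPowerSeries ℤ F P)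
    (a := k - m) (b := m)
  rw [sub_add_cancel, one_mul] at this
  exact this

theorem nf_coeff_lt (a : F) (m : ℤ) (P : PowerSeries F) {k : ℤ} (hk : k < m) :
    (nf a m P).coeff k = 0 := by
  rw [nf_coeff, PowerSeries.coeff_coe, if_pos (by omega), mul_zero]

theorem nf_coeff_self (a : F) (m : ℤ) (P : PowerSeries F) (hP : PowerSeries.constantCoeff P = 1) :
    (nf a m P).coeff m = a := by
  rw [nf_coeff, sub_self, PowerSeries.coeff_coe, if_neg (lt_irrefl _)]
  simp [hP]

/-- uniqueness of the normal form. -/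
theorem nf_unique {a b : F} {m n : ℤ} {P Q : PowerSeries F} (ha : a ≠ 0) (hb : b ≠ 0)
    (hP : PowerSeries.constantCoeff P = 1) (hQ : PowerSeries.constantCoeff Q = 1)
    (h : nf a m P = nf b n Q) : a = b ∧ m = n ∧ P = Q := by
  have hmn : m = n := by
    rcases lt_trichotomy m n with hlt | heq | hgt
    · exfalso
      have h1 : (nf a m P).coeff m = (nf b n Q).coeff m := by rw [h]
      rw [nf_coeff_self a m P hP, nf_coeff_lt b n Q hlt] at h1
      exact ha h1
    · exact heq
    · exfalso
      have h1 : (nf a m P).coeff n = (nf b n Q).coeff n := by rw [h]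
      rw [nf_coeff_self b n Q hQ, nf_coeff_lt a m P hgt] at h1
      exact hb h1.symm
  subst hmn
  have hab : a = b := by
    have h1 : (nf a m P).coeff m = (nf b m Q).coeff m := by rw [h]
    rwa [nf_coeff_self a m P hP, nf_coeff_self b m Q hQ] at h1
  subst hab
  refine ⟨rfl, rfl, ?_⟩
  ext k
  have h1 : (nf a m P).coeff (m + k) = (nf a m Q).coeff (m + k) := by rw [h]
  rw [nf_coeff, nf_coeff, add_sub_cancel_left, LaurentSeries.coeff_coe_powerSeries,
    LaurentSeries.coeff_coe_powerSeries] at h1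
  exact mul_left_cancel₀ ha h1

/-- every nonzero Laurent series has a normal form. -/
theorem exists_nf (y : LaurentSeries F) (hy : y ≠ 0) :
    ∃ (a : F) (P : PowerSeries F), a ≠ 0 ∧ PowerSeries.constantCoeff P = 1 ∧
      y = nf a y.order P := by
  have ha : y.coeff y.order ≠ 0 := fun h0 => hy (HahnSeries.coeff_order_eq_zero.mp h0)
  refine ⟨y.coeff y.order, PowerSeries.C (y.coeff y.order)⁻¹ * y.powerSeriesPart, ha, ?_, ?_⟩
  · rw [map_mul, PowerSeries.constantCoeff_C]
    have : PowerSeries.constantCoeff y.powerSeriesPart = y.coeff y.order := by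
      rw [← PowerSeries.coeff_zero_eq_constantCoeff_apply, LaurentSeries.powerSeriesPart_coeff]
      simp
    rw [this, inv_mul_cancel₀ ha]
  · rw [nf, map_mul, HahnSeries.ofPowerSeries_C]
    have h1 := LaurentSeries.single_order_mul_powerSeriesPart y
    have h2 : (HahnSeries.C (y.coeff y.order) : LaurentSeries F) *
        HahnSeries.C (y.coeff y.order)⁻¹ = 1 := by
      rw [← map_mul, mul_inv_cancel₀ ha, map_one]
    calc y = (HahnSeries.single y.order (1 : F)) * HahnSeries.ofPowerSeries ℤ F y.powerSeriesPart :=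
          h1.symm
      _ = (HahnSeries.C (y.coeff y.order) * HahnSeries.C (y.coeff y.order)⁻¹) *
            ((HahnSeries.single y.order (1 : F)) *
              HahnSeries.ofPowerSeries ℤ F y.powerSeriesPart) := by rw [h2, one_mul]
      _ = _ := by ring

theorem single_one_pow (m : ℤ) (p : ℕ) :
    (HahnSeries.single m (1 : F)) ^ p = HahnSeries.single ((p : ℤ) * m) (1 : F) := by
  induction p with
  | zero =>
    rw [pow_zero, Nat.cast_zero, zero_mul]
    rfl
  | succ n ih =>
    rw [pow_succ, ih, HahnSeries.single_mul_single, mul_one]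
    congr 1
    push_cast
    ring_nf

theorem nf_pow (a : F) (m : ℤ) (P : PowerSeries F) (p : ℕ) :
    (nf a m P) ^ p = nf (a ^ p) (p * m) (P ^ p) := by
  have h1 : (HahnSeries.C a : LaurentSeries F) ^ p = HahnSeries.C (a ^ p) :=
    (map_pow (HahnSeries.C : F →+* LaurentSeries F) a p).symm
  have h2 : (HahnSeries.ofPowerSeries ℤ F P) ^ p = HahnSeries.ofPowerSeries ℤ F (P ^ p) :=
    (map_pow (HahnSeries.ofPowerSeries ℤ F) P p).symm
  rw [nf, nf, mul_pow, mul_pow, h1, h2, single_one_pow]

theorem nf_C_mul (c a : F) (m : ℤ) (P : PowerSeries F) :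
    HahnSeries.C c * nf a m P = nf (c * a) m P := by
  rw [nf, nf, ← mul_assoc, ← map_mul]

variable {K L : Type*} [Field K] [Field L] (ι : K →+* L)

theorem coeffMap_C (a : K) :
    coeffMap ι (HahnSeries.C a : LaurentSeries K) = HahnSeries.C (ι a) := by
  rw [HahnSeries.C_apply, coeffMap_single, HahnSeries.C_apply]

theorem coeffMap_nf (a : K) (m : ℤ) (P : PowerSeries K) :
    coeffMap ι (nf a m P) = nf (ι a) m (P.map ι) := by
  rw [nf, nf, map_mul, map_mul, coeffMap_C, coeffMap_single, map_one, coeffMap_ofPowerSeries]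

/-- uniqueness of `p`-th roots with constant term `1`. -/
theorem ps_root_unique [CharZero F] {p : ℕ} (hp : 0 < p) {G G' : PowerSeries F}
    (hG : PowerSeries.constantCoeff G = 1) (hG' : PowerSeries.constantCoeff G' = 1)
    (h : G ^ p = G' ^ p) : G = G' := by
  have h1 : (G - G') * ∑ i ∈ Finset.range p, G ^ i * G' ^ (p - 1 - i) = 0 := by
    rw [mul_comm, (Commute.all G G').geom_sum₂_mul, h, sub_self]
  have h2 : ∑ i ∈ Finset.range p, G ^ i * G' ^ (p - 1 - i) ≠ 0 := by
    intro h0
    have h3 := congrArg PowerSeries.constantCoeff h0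
    rw [map_sum, map_zero] at h3
    simp only [map_mul, map_pow, hG, hG', one_pow, mul_one, Finset.sum_const,
      Finset.card_range, nsmul_eq_mul] at h3
    exact (Nat.cast_ne_zero.mpr hp.ne') h3
  rcases mul_eq_zero.mp h1 with h | h
  · exact sub_eq_zero.mp h
  · exact absurd h h2

/-- **descent of `p`-th roots**. -/
theorem exists_root_descend [CharZero K] [CharZero L] {p : ℕ} (hp : 0 < p)
    (u : LaurentSeries K) (hu : u ≠ 0) (c : L) (hc : c ≠ 0) (W : LaurentSeries L) (hW : W ≠ 0)
    (h : coeffMap ι u = HahnSeries.C c * W ^ p) :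
    ∃ (a : K) (w' : LaurentSeries K) (b : L), a ≠ 0 ∧ b ≠ 0 ∧
      u = HahnSeries.C a * w' ^ p ∧ coeffMap ι w' = HahnSeries.C b * W := by
  obtain ⟨a, P, ha, hP, hu'⟩ := exists_nf u hu
  obtain ⟨b, Q, hb, hQ, hW'⟩ := exists_nf W hW
  obtain ⟨G, hG, hG0⟩ := Fermat.Agent.S18.CT.exists_ps_root p hp.ne' P hP
  -- compare the normal forms
  have e1 : coeffMap ι u = nf (ι a) u.order (P.map ι) := by
    conv_lhs => rw [hu']
    exact coeffMap_nf ι a _ P
  have e2 : HahnSeries.C c * W ^ p = nf (c * b ^ p) (p * W.order) (Q ^ p) := by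
    conv_lhs => rw [hW']
    rw [nf_pow, nf_C_mul]
  have hPι : PowerSeries.constantCoeff (P.map ι) = 1 := by
    rw [← PowerSeries.coeff_zero_eq_constantCoeff_apply, PowerSeries.coeff_map,
      PowerSeries.coeff_zero_eq_constantCoeff_apply, hP, map_one]
  have hQp : PowerSeries.constantCoeff (Q ^ p) = 1 := by rw [map_pow, hQ, one_pow]
  obtain ⟨hab, hord, hPQ⟩ := nf_unique ((map_ne_zero ι).mpr ha)
    (mul_ne_zero hc (pow_ne_zero p hb)) hPι hQp (e1.symm.trans (h.trans e2))
  -- the root
  have hGι : PowerSeries.constantCoeff (G.map ι) = 1 := by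
    rw [← PowerSeries.coeff_zero_eq_constantCoeff_apply, PowerSeries.coeff_map,
      PowerSeries.coeff_zero_eq_constantCoeff_apply, hG0, map_one]
  have hGQ : G.map ι = Q := by
    refine ps_root_unique hp hGι hQ ?_
    rw [← hPQ, ← hG]
    exact (map_pow (PowerSeries.map ι) G p).symm
  refine ⟨a, nf 1 W.order G, b⁻¹, ha, inv_ne_zero hb, ?_, ?_⟩
  · rw [nf_pow, nf_C_mul, one_pow, mul_one, hG, ← hord]
    exact hu'
  · rw [coeffMap_nf, map_one, hGQ]
    conv_rhs => rw [hW']
    rw [nf_C_mul, inv_mul_cancel₀ hb]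

end Fermat.Agent.S29.A2
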