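/-
S29 (item 90), piece A2 (helper4): "constants times `p`-th powers" descend along a field
extension `ι : K →+* L` of characteristic `0`.

`triv_descend`: `u ∈ F_K(N)`, `u ≠ 0`, `ι(u) = c W^p` with `c ≠ 0`, `W ∈ F_L(N)`, `p > 0`
⟹ `u = a w'^p` with `a ≠ 0` in `K` and `w' ∈ F_K(N)` (and `ι(w') = b W`, `b ≠ 0`).
-/
import Mathlib
import Fermat.Agent.S29.A2Inter
import Fermat.Agent.S29.A2Root

set_option autoImplicit false
set_option linter.unusedSectionVars false

open HahnSeries ModularCurve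

noncomputable section

namespace Fermat.Agent.S29.A2

variable {K L : Type*} [Field K] [Field L] [CharZero K] [CharZero L] (ι : K →+* L)
variable (N : ℕ) [NeZero N]

omit [NeZero N] in
theorem C_mem_full (b : L) : (HahnSeries.C b : LaurentSeries L) ∈ modularFunctionFieldFullC L N := by
  have h := (modularFunctionFieldFullC L N).algebraMap_mem b
  have e : (HahnSeries.C b : LaurentSeries L) = algebraMap L (LaurentSeries L) b := by
    rw [Fermat.Agent.S18.MScal.algebraMap_eq_single]
    rfl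
  rw [e]
  exact h

/-- **A2**. -/
theorem triv_descend {p : ℕ} (hp : 0 < p) (u : LaurentSeries K)
    (hu : u ∈ modularFunctionFieldFullC K N) (hu0 : u ≠ 0) (c : L) (hc : c ≠ 0)
    (W : LaurentSeries L) (hW : W ∈ modularFunctionFieldFullC L N) (hW0 : W ≠ 0)
    (h : coeffMap ι u = HahnSeries.C c * W ^ p) :
    ∃ (a : K) (w' : LaurentSeries K), a ≠ 0 ∧ w' ∈ modularFunctionFieldFullC K N ∧ w' ≠ 0 ∧
      u = HahnSeries.C a * w' ^ p ∧ ∃ b : L, b ≠ 0 ∧ coeffMap ι w' = HahnSeries.C b * W := by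
  obtain ⟨a, w', b, ha, hb, huw, hw'⟩ := exists_root_descend ι hp u hu0 c hc W hW0 h
  have hmem : w' ∈ modularFunctionFieldFullC K N := by
    refine mem_full_of_coeffMap_mem ι N w' ?_
    rw [hw']
    exact mul_mem (C_mem_full N b) hW
  have hw0 : w' ≠ 0 := by
    rintro rfl
    rw [zero_pow hp.ne', mul_zero] at huw
    exact hu0 huw
  exact ⟨a, w', ha, hmem, hw0, huw, b, hb, hw'⟩

/-- the converse direction (trivial): `u = a w'^p` over `K` gives `ι(u) = ι(a) ι(w')^p`. -/
theorem triv_ascend {p : ℕ} (u w' : LaurentSeries K) (a : K)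
    (h : u = HahnSeries.C a * w' ^ p) :
    coeffMap ι u = HahnSeries.C (ι a) * (coeffMap ι w') ^ p := by
  rw [h, map_mul, map_pow, coeffMap_C]

/-- `ι` maps `F_K(N)` into `F_L(N)`. -/
theorem coeffMap_mem_full (y : LaurentSeries K) (hy : y ∈ modularFunctionFieldFullC K N) :
    coeffMap ι y ∈ modularFunctionFieldFullC L N := by
  obtain ⟨s, P, hs, -, hrel⟩ := Fermat.Agent.S29.GaussC.genOver_of_charZero K N y hy
  have h1 := congrArg (coeffMap ι) hrel
  rw [map_mul, Fermat.Agent.S18.MScal.coeffMap_evJ, Fermat.Agent.S18.MScal.coeffMap_evJN] at h1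
  have hs' : Fermat.Agent.S18.MScal.evJ L (s.map ι) ≠ 0 := by
    rw [← Fermat.Agent.S18.MScal.coeffMap_evJ]
    intro h0
    apply hs
    have hinj : Function.Injective (coeffMap ι) := (coeffMap ι).injective
    exact hinj (h0.trans (map_zero _).symm)
  have h2 : coeffMap ι y = Fermat.Agent.S18.MScal.evJN L N (P.map (Polynomial.mapRingHom ι)) *
      (Fermat.Agent.S18.MScal.evJ L (s.map ι))⁻¹ := by
    rw [← h1, mul_comm, ← mul_assoc, inv_mul_cancel₀ hs', one_mul]
  rw [h2]
  refine mul_mem ?_ (inv_mem (Fermat.Agent.S29.GaussC.evJ_mem_full L N _))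
  exact Fermat.Agent.S29.GaussC.evJN_mem_full L N _

end Fermat.Agent.S29.A2
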