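/-
S29 gamble (item 90), TRANSFER (helper4, backup of helper3's S29/Transfer.lean).

* `TransferB.pullback` : abstract: a Kummer system over `Gu` whose values are in the image of
  `bc : Gd →* Gu` comes from a Kummer system over `Gd`, provided `bc` maps constants to constants,
  reflects `KP` and `Triv`, and commutes with the Hecke operators;
* `TransferB.transferStatement N p : ChainApply.TransferStatement N p`.
-/
import Mathlib
import Fermat.Agent.S29.ChainApply
import Fermat.Agent.S29.TransferNorm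
import Fermat.Agent.S29.A2
import Fermat.Agent.S29.GenusC

set_option autoImplicit false
set_option linter.unusedSectionVars false
set_option linter.style.haveILetI false

noncomputable section

open HahnSeries ModularCurve AlgebraicCurve

namespace Fermat.Agent.S29.TransferB

open Fermat.Agent.S29.DStep

section Abs

variable {ι X : Type*} [AddCommGroup X] {T : ι → X →+ X} {Gu Gd : Type*} [CommGroup Gu]
  [CommGroup Gd] {p : ℕ} {CL KPL : Subgroup Gu} {Ck KPk : Subgroup Gd} {HL : ι → Gu →* Gu}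
  {Hk : ι → Gd →* Gd}

/-- pull back a Kummer system along `bc`. -/
def pullback (bc : Gd →* Gu)
    (hC : ∀ c ∈ Ck, bc c ∈ CL)
    (hkp : ∀ u, bc u ∈ KPL → u ∈ KPk)
    (htriv : ∀ u, bc u ∈ Triv CL p → u ∈ Triv Ck p)
    (hH : ∀ i u, bc (Hk i u) = HL i (bc u))
    (K : KSys T Gu CL KPL HL p) (hdef : ∀ x, ∃ u : Gd, bc u = K.U x) :
    KSys T Gd Ck KPk Hk p where
  U x := (hdef x).choose
  kp x := hkp _ (by rw [(hdef x).choose_spec]; exact K.kp x)
  add x y := htriv _ (by
    rw [map_div, map_mul, (hdef x).choose_spec, (hdef y).choose_spec,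
      (hdef (x + y)).choose_spec]
    exact K.add x y)
  inj x h := K.inj x (by
    obtain ⟨c, hc, w, hw⟩ := mem_Triv_iff.1 h
    rw [← (hdef x).choose_spec, hw, map_mul, map_pow]
    exact mem_Triv_iff.2 ⟨bc c, hC c hc, bc w, rfl⟩)
  hk i x := htriv _ (by
    rw [map_div, hH, (hdef x).choose_spec, (hdef (T i x)).choose_spec]
    exact K.hk i x)

end Abs

section Mod

variable {K L : Type*} [Field K] [Field L] [CharZero K] [CharZero L] (ι : K →+* L)
variable (N : ℕ) [NeZero N]

/-- the base change on units. -/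
abbrev bcU : (↥(modularFunctionFieldFullC K N))ˣ →* (↥(modularFunctionFieldFullC L N))ˣ :=
  Units.map (A3.bcN ι N : ↥(modularFunctionFieldFullC K N) →* ↥(modularFunctionFieldFullC L N))

theorem coe_bcU (u : (↥(modularFunctionFieldFullC K N))ˣ) :
    (((bcU ι N u : (↥(modularFunctionFieldFullC L N))ˣ) : ↥(modularFunctionFieldFullC L N)) :
      LaurentSeries L) = coeffMap ι ((u : ↥(modularFunctionFieldFullC K N)) : LaurentSeries K) :=
  rfl

theorem bcU_mem_CK {c : (↥(modularFunctionFieldFullC K N))ˣ} (hc : c ∈ KM.CK K N) :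
    bcU ι N c ∈ KM.CK L N := by
  obtain ⟨a, ha, h⟩ := (KM.mem_CK_iff K N).1 hc
  refine (KM.mem_CK_iff L N).2 ⟨ι a, (map_ne_zero ι).2 ha, ?_⟩
  show A3.bcN ι N (c : ↥(modularFunctionFieldFullC K N)) = _
  rw [h]
  exact A3.bcF_algebraMap ι _ _ _ a

theorem algebraMap_coe (c : L) :
    ((algebraMap L ↥(modularFunctionFieldFullC L N) c : ↥(modularFunctionFieldFullC L N)) :
      LaurentSeries L) = HahnSeries.C c := by
  show algebraMap L (LaurentSeries L) c = _
  rw [Fermat.Agent.S18.MScal.algebraMap_eq_single]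
  rfl

theorem mem_Triv_of_bcU (p : ℕ) (hp : 0 < p) (u : (↥(modularFunctionFieldFullC K N))ˣ)
    (h : bcU ι N u ∈ Triv (KM.CK L N) p) : u ∈ Triv (KM.CK K N) p := by
  obtain ⟨c, hc, w, hw⟩ := mem_Triv_iff.1 h
  obtain ⟨c', hc', hcc'⟩ := (KM.mem_CK_iff L N).1 hc
  have hser : coeffMap ι ((u : ↥(modularFunctionFieldFullC K N)) : LaurentSeries K) =
      HahnSeries.C c' * ((w : ↥(modularFunctionFieldFullC L N)) : LaurentSeries L) ^ p := by
    rw [← coe_bcU, hw, Units.val_mul, Units.val_pow_eq_pow_val, MulMemClass.coe_mul,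
      SubmonoidClass.coe_pow, hcc', algebraMap_coe]
  have hu0 : ((u : ↥(modularFunctionFieldFullC K N)) : LaurentSeries K) ≠ 0 := fun h0 =>
    u.ne_zero (Subtype.ext h0)
  have hw0 : ((w : ↥(modularFunctionFieldFullC L N)) : LaurentSeries L) ≠ 0 := fun h0 =>
    w.ne_zero (Subtype.ext h0)
  obtain ⟨a, w', ha, hw'mem, hw'0, huw, -⟩ := A2.triv_descend ι N hp _
    (u : ↥(modularFunctionFieldFullC K N)).2 hu0 c' hc'
    _ (w : ↥(modularFunctionFieldFullC L N)).2 hw0 hser
  have hw'ne : (⟨w', hw'mem⟩ : ↥(modularFunctionFieldFullC K N)) ≠ 0 := fun h0 =>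
    hw'0 (congrArg Subtype.val h0)
  have hane : algebraMap K ↥(modularFunctionFieldFullC K N) a ≠ 0 :=
    (map_ne_zero (algebraMap K ↥(modularFunctionFieldFullC K N))).2 ha
  refine mem_Triv_iff.2 ⟨Units.mk0 _ hane, (KM.mem_CK_iff K N).2 ⟨a, ha, rfl⟩,
    Units.mk0 _ hw'ne, ?_⟩
  apply Units.ext
  apply Subtype.ext
  rw [Units.val_mul, Units.val_pow_eq_pow_val, MulMemClass.coe_mul, SubmonoidClass.coe_pow,
    Units.val_mk0, Units.val_mk0, algebraMap_coe]
  exact huw

theorem mem_KPK_of_bcU [IsAlgClosed K] (p : ℕ) (u : (↥(modularFunctionFieldFullC K N))ˣ)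
    (h : bcU ι N u ∈ KM.KPK L N p) : u ∈ KM.KPK K N p := by
  intro Q
  exact A3.dvd_ord_of_dvd_ord_bc' ι N (p : ℤ) (u : ↥(modularFunctionFieldFullC K N))
    (GenusC.curveRR_C K N).deg_one (fun P => h P) Q

theorem bcU_HK (p : ℕ) (i : KM.Idx N p) (u : (↥(modularFunctionFieldFullC K N))ˣ) :
    bcU ι N (KM.HK K N p i u) = KM.HK L N p i (bcU ι N u) := by
  haveI : NeZero i.1 := ⟨i.2.1.ne_zero⟩
  exact TrN.heckeUnits_bcN ι N i.1 u

end Mod

/-- **TRANSFER.** -/
theorem transferStatement (N p : ℕ) [NeZero N] (hp : 0 < p) :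
    ChainApply.TransferStatement N p := by
  intro T hT K hdef
  haveI : IsAlgClosed ↥T := hT
  exact ⟨pullback (bcU T.subtype N) (fun c hc => bcU_mem_CK T.subtype N hc)
    (fun u h => mem_KPK_of_bcU T.subtype N p u h)
    (fun u h => mem_Triv_of_bcU T.subtype N p hp u h)
    (fun i u => bcU_HK T.subtype N p i u) K hdef⟩

end Fermat.Agent.S29.TransferB
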