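/-
S29 gamble (item 90), the LAST LINK (helper4): `Dict.dictStatement : Final.DictStatement`,
UNCONDITIONAL: TOP (helper7) → TRANSFER (helper4) → CHAIN (helper5, helper1) → BOTTOM (helper9).
-/
import Mathlib
import Fermat.Agent.S29.DictAsm
import Fermat.Agent.S29.TransferB
import Fermat.Agent.S29.BottomKSys

set_option autoImplicit false

noncomputable section

namespace Fermat.Agent.S29.Dict

/-- **the dictionary** (R1). -/
theorem dictStatement : Final.DictStatement :=
  DictAsm.dictStatement_of
    (fun N _ p _ => TransferB.transferStatement N p (Fact.out : p.Prime).pos)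
    (fun N _ p _ K => Bottom.dict_of_ksys N p K)

end Fermat.Agent.S29.Dict
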