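/-
S29 gamble (item 90), piece BC (lead): reduction to an algebraically closed coefficient field.

`k₁ := ℤ̄ / ker φ` is an algebraically closed field of characteristic `p`, `φ` factors through it,
and a representation attached to `g` over `k₁` base-changes to one over `k`.
-/
import Fermat.Agent.S29.Contract

set_option autoImplicit false
set_option linter.style.haveILetI false

open Polynomial
open scoped TensorProduct

noncomputable section

namespace Fermat.Agent.S29.BC

/-- the ring of algebraic integers. -/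
abbrev Zbar : Type := integralClosure ℤ ℂ

/-- every monic polynomial of positive degree over `ℤ̄` has a root in `ℤ̄`. -/
theorem exists_root_Zbar (f : Zbar[X]) (hf : f.Monic) (hdeg : f.degree ≠ 0) :
    ∃ x : Zbar, f.eval x = 0 := by
  have hdeg' : (f.map (algebraMap Zbar ℂ)).degree ≠ 0 := by
    rwa [hf.degree_map]
  obtain ⟨z, hz⟩ := IsAlgClosed.exists_root (f.map (algebraMap Zbar ℂ)) hdeg'
  have hz' : Polynomial.eval₂ (algebraMap Zbar ℂ) z f = 0 := by
    rwa [Polynomial.IsRoot.def, Polynomial.eval_map] at hz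
  have hint : IsIntegral Zbar z := ⟨f, hf, hz'⟩
  haveI : Algebra.IsIntegral ℤ Zbar := inferInstance
  have hintZ : IsIntegral ℤ z := isIntegral_trans z hint
  refine ⟨⟨z, hintZ⟩, ?_⟩
  apply Subtype.ext
  have h := Polynomial.hom_eval₂ f (RingHom.id Zbar) (algebraMap Zbar ℂ) (⟨z, hintZ⟩ : Zbar)
  rw [Polynomial.eval₂_id, RingHom.comp_id] at h
  show algebraMap Zbar ℂ (f.eval ⟨z, hintZ⟩) = algebraMap Zbar ℂ 0
  rw [h, map_zero]
  exact hz'

/-- the kernel of `φ : ℤ̄ → k` (`k` a field of characteristic `p`) is a maximal ideal. -/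
theorem ker_isMaximal {k : Type} [Field k] (p : ℕ) (hp : p.Prime) [CharP k p]
    (φ : Zbar →+* k) : (RingHom.ker φ).IsMaximal := by
  haveI : (RingHom.ker φ).IsPrime := RingHom.ker_isPrime φ
  haveI : Algebra.IsIntegral ℤ Zbar := inferInstance
  have hmem : (p : ℤ) ∈ (RingHom.ker φ).comap (algebraMap ℤ Zbar) := by
    rw [Ideal.mem_comap, RingHom.mem_ker, map_natCast, map_natCast]
    exact CharP.cast_eq_zero k p
  have hpmax : (Ideal.span {(p : ℤ)}).IsMaximal :=
    PrincipalIdealRing.isMaximal_of_irreducible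
      (Nat.prime_iff_prime_int.mp hp).irreducible
  have hle : Ideal.span {(p : ℤ)} ≤ (RingHom.ker φ).comap (algebraMap ℤ Zbar) := by
    rw [Ideal.span_le, Set.singleton_subset_iff]
    exact hmem
  have hne : (RingHom.ker φ).comap (algebraMap ℤ Zbar) ≠ ⊤ :=
    (Ideal.comap_isPrime (algebraMap ℤ Zbar) (RingHom.ker φ)).ne_top
  have heq : Ideal.span {(p : ℤ)} = (RingHom.ker φ).comap (algebraMap ℤ Zbar) :=
    hpmax.eq_of_le hne hle
  exact Ideal.isMaximal_of_isIntegral_of_isMaximal_comap (R := ℤ) (RingHom.ker φ) (heq ▸ hpmax)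

/-- a quotient of `ℤ̄` by a maximal ideal is algebraically closed. -/
theorem isAlgClosed_quotient (I : Ideal Zbar) [I.IsMaximal] :
    letI : Field (Zbar ⧸ I) := Ideal.Quotient.field I
    IsAlgClosed (Zbar ⧸ I) := by
  letI : Field (Zbar ⧸ I) := Ideal.Quotient.field I
  refine IsAlgClosed.of_exists_root _ fun f hf hirr => ?_
  obtain ⟨F, hF, -, hFm⟩ := Polynomial.lifts_and_degree_eq_and_monic
    ((Polynomial.mem_lifts f).mpr
      (Polynomial.map_surjective (Ideal.Quotient.mk I) Ideal.Quotient.mk_surjective f)) hf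
  have hdeg : F.degree ≠ 0 := by
    intro h0
    have h1 : f.degree = 0 := by
      rw [← hF, hFm.degree_map, h0]
    exact hirr.degree_pos.ne' h1
  obtain ⟨x, hx⟩ := exists_root_Zbar F hFm hdeg
  refine ⟨Ideal.Quotient.mk I x, ?_⟩
  rw [← hF, Polynomial.eval_map, Polynomial.eval₂_at_apply, hx, map_zero]

/-- base change of an attached representation along a field homomorphism. -/
theorem conclusion_of_factor {N : ℕ} {g : CuspForm (CongruenceSubgroup.Gamma0 N) 2} {p : ℕ}
    {k₁ k : Type} [Field k₁] [Field k] (ψ : k₁ →+* k)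
    (φ₁ : Zbar →+* k₁)
    (h : S29Conclusion N g p k₁ φ₁) : S29Conclusion N g p k (ψ.comp φ₁) := by
  obtain ⟨ρ₁, hatt, hunr⟩ := h
  letI : Algebra k₁ k := ψ.toAlgebra
  refine ⟨ρ₁.baseChange k, ?_, ?_⟩
  · intro ℓ hℓ hℓN hℓk A hA σ hσ
    have hℓk₁ : (ℓ : k₁) ≠ 0 := by
      intro h0
      apply hℓk
      have := congrArg ψ h0
      rwa [map_natCast, map_zero] at this
    obtain ⟨a, ha, hchar⟩ := hatt ℓ hℓ hℓN hℓk₁ A hA σ hσ
    refine ⟨a, ha, ?_⟩
    show LinearMap.charpoly ((ρ₁.ρ σ).baseChange k) = _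
    rw [LinearMap.charpoly_baseChange, hchar]
    simp only [Polynomial.map_add, Polynomial.map_sub, Polynomial.map_mul, Polynomial.map_pow,
      Polynomial.map_X, Polynomial.map_C]
    rw [map_natCast]
    rfl
  · intro ℓ hℓ hℓNp A hA σ hσ
    show (ρ₁.ρ σ).baseChange k = 1
    rw [hunr ℓ hℓ hℓNp A hA σ hσ, LinearMap.baseChange_one]

/-- **(BC)** reduction to an algebraically closed coefficient field. -/
theorem baseChangeStatement : BaseChangeStatement := by
  intro H N g hg p hp k _ _ φ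
  haveI hmax : (RingHom.ker φ).IsMaximal := ker_isMaximal p hp φ
  letI : Field (Zbar ⧸ RingHom.ker φ) := Ideal.Quotient.field (RingHom.ker φ)
  haveI : IsAlgClosed (Zbar ⧸ RingHom.ker φ) := isAlgClosed_quotient (RingHom.ker φ)
  let ψ : (Zbar ⧸ RingHom.ker φ) →+* k := RingHom.kerLift φ
  haveI : CharP (Zbar ⧸ RingHom.ker φ) p :=
    RingHom.charP ψ (RingHom.kerLift_injective φ) p
  have h1 := H N g hg p hp (Zbar ⧸ RingHom.ker φ) (Ideal.Quotient.mk (RingHom.ker φ))
  have h2 := conclusion_of_factor ψ (Ideal.Quotient.mk (RingHom.ker φ)) h1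
  have hcomp : ψ.comp (Ideal.Quotient.mk (RingHom.ker φ)) = φ := by
    ext x
    rfl
  rwa [hcomp] at h2

end Fermat.Agent.S29.BC
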