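import Mathlib
import Fermat.Agent.S29.ChainApply
import Fermat.Agent.S29.ChainStep

/-!
# S29 (item 90), CHAIN applied, with STEP plugged in

`ksys_Qbar` : TRANSFER ⟹ (Kummer system over `ℂ` ⟹ Kummer system over `AlgebraicClosure ℚ`).
-/

set_option autoImplicit false
set_option linter.unusedSectionVars false
set_option linter.unusedVariables false
set_option linter.style.haveILetI false

open Polynomial ModularCurve

noncomputable section

namespace Fermat.Agent.S29.ChainApply

/-- STEP, in the shape used by the chain -/
theorem stepStatement (N p : ℕ) [NeZero N] (hp : p ≠ 0) : StepStatement N p :=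
  fun k L _ _ _ _ _ _ _ t ht halg => ChainStep.chain_step N p hp k L t ht halg

/-- **CHAIN applied, STEP plugged in.** -/
theorem ksys_Qbar (N p : ℕ) [NeZero N] [NeZero p] [Algebra (AlgebraicClosure ℚ) ℂ]
    (transfer : TransferStatement N p) (K : KM.KSysMod ℂ N p) :
    Nonempty (KM.KSysMod (AlgebraicClosure ℚ) N p) :=
  ksys_Qbar_of N p (stepStatement N p (NeZero.ne p)) transfer K

end Fermat.Agent.S29.ChainApply
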