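import Fermat.Agent.FF.Counting

/-!
# S29 (item 90), W1: the counting lemma with the dictionary exported

`counting_core_strong` : under the hypotheses of `FF.H6.counting_core`, every place `v` over `a`
is the place of one of the order functions `w i`: `w i f = t * v.ord f` for all `f ≠ 0`, with
`t > 0` and `v.ord (x - a) = #(H-orbit of i)`.

`dvd_ord_of_dvd` : if moreover `p * r ∣ w i u` for the ramification data `r`, then `p ∣ v.ord u`
for every place `v` over `a`.
-/

set_option autoImplicit false
set_option linter.unusedVariables false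
set_option linter.unusedSectionVars false

open AlgebraicCurve IntermediateField

namespace Fermat.Agent.S29.CountS

open Fermat.Agent.FF Fermat.Agent.FF.H6

variable {K F : Type*} [Field K] [Field F] [Algebra K F]

/-- **The counting lemma, strong form**: every place over `a` comes from an order function. -/
theorem counting_core_strong (x : F) (hx : Transcendental K x) (hfd : FiniteDimensional K⟮x⟯ F) (a : K)
    (hfin : (placesOver x a).Finite)
    (hsumA : ∑ᶠ v ∈ placesOver x a, v.ord (x - algebraMap K F a) = (Module.finrank K⟮x⟯ F : ℤ))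
    (I : Type) [Fintype I] (H : Type) [Group H] [MulAction H I] (m : ℕ) (w : I → OrdFn K F)
    (hcard : Nat.card I = Module.finrank K⟮x⟯ F)
    (hm : 0 < m)
    (hwy : ∀ i, w i (x - algebraMap K F a) = m)
    (hinv : ∀ (h : H) (i : I), w (h • i) = w i)
    (hdiv : ∀ i, ∃ r : ℕ, r * Nat.card (MulAction.orbit H i) = m ∧
      ∀ f : F, f ≠ 0 → (r : ℤ) ∣ w i f)
    (hP : ∀ f : F, f ≠ 0 → (∀ i, w i f = 0) →
      ∃ P : Polynomial ↥K⟮x⟯, P.Monic ∧ Polynomial.aeval f P = 0 ∧ P.coeff 0 ≠ 0 ∧
        (∀ i k, P.coeff k ≠ 0 → 0 ≤ w i (P.coeff k : F)) ∧ (∀ i, w i (P.coeff 0 : F) = 0)) :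
    ∀ v ∈ placesOver x a, ∃ i : I, ∃ t : ℤ, 0 < t ∧
      (∀ f : F, f ≠ 0 → w i f = t * v.ord f) ∧
      v.ord (x - algebraMap K F a) = (Nat.card (MulAction.orbit H i) : ℤ) := by
  classical
  set y := x - algebraMap K F a with hy
  have hy0 : y ≠ 0 := by
    intro h
    apply hx
    have : x = algebraMap K F a := sub_eq_zero.mp h
    rw [this]
    exact isAlgebraic_algebraMap a
  have hmZ : (0 : ℤ) < m := by exact_mod_cast hm
  have hw : ∀ i, ∃ f : F, f ≠ 0 ∧ 0 < w i f := fun i => ⟨y, hy0, by rw [hwy i]; exact hmZ⟩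
  -- the places of the order functions
  set g : I → Place K F := fun i => toPlace (w i) (hw i) with hg
  choose t ht0 htπ ht using fun i => exists_mul_ord (w i) (hw i)
  have hgy : ∀ i, 0 < (g i).ord y := by
    intro i
    have h1 := ht i y hy0
    rw [hwy i] at h1
    by_contra hcon
    rw [not_lt] at hcon
    have : t i * (toPlace (w i) (hw i)).ord y ≤ 0 := mul_nonpos_of_nonneg_of_nonpos (ht0 i).le hcon
    linarith
  have hgle : ∀ i, (g i).ord y ≤ (Nat.card (MulAction.orbit H i) : ℤ) := by
    intro i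
    obtain ⟨r, hr, hrdvd⟩ := hdiv i
    obtain ⟨π, hπ0, hπ⟩ := htπ i
    obtain ⟨t', ht'⟩ := hrdvd π hπ0
    rw [hπ] at ht'
    have h1 := ht i y hy0
    rw [hwy i] at h1
    have hr0 : (0 : ℤ) < r := by
      rcases Nat.eq_zero_or_pos r with h | h
      · rw [h, zero_mul] at hr
        omega
      · exact_mod_cast h
    have ht'pos : 0 < t' := by
      have := ht0 i
      rw [ht'] at this
      rcases lt_trichotomy t' 0 with h' | h' | h'
      · nlinarith
      · rw [h', mul_zero] at this; exact absurd this (lt_irrefl _)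
      · exact h'
    have h2 : (r : ℤ) * (Nat.card (MulAction.orbit H i) : ℤ) = m := by exact_mod_cast hr
    have h3 : (r : ℤ) * (Nat.card (MulAction.orbit H i) : ℤ) =
        (r : ℤ) * (t' * (toPlace (w i) (hw i)).ord y) := by
      rw [h2, h1, ht']; ring
    have h4 := mul_left_cancel₀ hr0.ne' h3
    rw [h4]
    have := hgy i
    nlinarith
  have hginv : ∀ (h : H) (i : I), g (h • i) = g i := by
    intro h i
    apply Place.ext
    show valSubring (w (h • i)) = valSubring (w i)
    rw [hinv h i]
  -- every place over `a` comes from some `i`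
  have hn_pos : 0 < Module.finrank K⟮x⟯ F := Module.finrank_pos
  have : Nonempty I := by
    have : 0 < Nat.card I := by rw [hcard]; exact hn_pos
    exact (Nat.card_pos_iff.mp this).1
  have hsurj : ∀ v ∈ placesOver x a, ∃ i, g i = v := by
    intro v hv
    by_contra hcon
    rw [not_exists] at hcon
    have hvs : v ∉ Finset.univ.image g := by
      intro h
      obtain ⟨i, -, hi⟩ := Finset.mem_image.mp h
      exact hcon i hi
    obtain ⟨f, hf0, hfv, hfs⟩ := separation v (Finset.univ.image g) hvs
    have hwf : ∀ i, w i f = 0 := by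
      intro i
      rw [ht i f hf0]
      have : (toPlace (w i) (hw i)).ord f = 0 :=
        hfs (g i) (Finset.mem_image_of_mem g (Finset.mem_univ i))
      rw [this, mul_zero]
    obtain ⟨P, -, hPf, hP0, hPk, hPc⟩ := hP f hf0 hwf
    have hvy : 0 < v.ord y := hv
    -- signs of the coefficients at `v`
    have hcoeff : ∀ k, P.coeff k ≠ 0 → 0 ≤ v.ord (P.coeff k : F) := by
      intro k hk
      have hkF : ((P.coeff k : K⟮x⟯) : F) ≠ 0 := by
        intro h
        exact hk (Subtype.ext h)
      obtain ⟨c, hc⟩ := exists_ord_of_mem_adjoin x a (P.coeff k : F) (P.coeff k).2 hkF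
      obtain i := Classical.arbitrary I
      have h1 := hPk i k hk
      rw [ht i _ hkF] at h1
      have h2 : 0 ≤ (toPlace (w i) (hw i)).ord (P.coeff k : F) := by
        by_contra hneg
        rw [not_le] at hneg
        have := mul_neg_of_pos_of_neg (ht0 i) hneg
        linarith
      have h3 := hc (g i) (hgy i)
      have hc0 : 0 ≤ c := by
        by_contra hneg
        rw [not_le] at hneg
        have := mul_neg_of_neg_of_pos hneg (hgy i)
        have h2' : 0 ≤ (g i).ord (P.coeff k : F) := h2
        linarith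
      rw [hc v hvy]
      exact mul_nonneg hc0 hvy.le
    have hcoeff0 : v.ord (P.coeff 0 : F) = 0 := by
      have hkF : ((P.coeff 0 : K⟮x⟯) : F) ≠ 0 := by
        intro h
        exact hP0 (Subtype.ext h)
      obtain ⟨c, hc⟩ := exists_ord_of_mem_adjoin x a (P.coeff 0 : F) (P.coeff 0).2 hkF
      obtain i := Classical.arbitrary I
      have h1 := hPc i
      rw [ht i _ hkF] at h1
      have h2 : (toPlace (w i) (hw i)).ord (P.coeff 0 : F) = 0 := by
        rcases mul_eq_zero.mp h1 with h | h
        · exact absurd h (ht0 i).ne'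
        · exact h
      have h3 := hc (g i) (hgy i)
      have h2' : (g i).ord (P.coeff 0 : F) = 0 := h2
      rw [h2'] at h3
      have hc0 : c = 0 := by
        rcases mul_eq_zero.mp h3.symm with h | h
        · exact h
        · exact absurd h (hgy i).ne'
      rw [hc v hvy, hc0, zero_mul]
    -- the equation `P(f) = 0` modulo the maximal ideal of `v`
    have hsumP : (P.coeff 0 : F) + ∑ k ∈ Finset.range P.natDegree,
        ((P.coeff (k + 1) : K⟮x⟯) : F) * f ^ (k + 1) = 0 := by
      have h1 : Polynomial.aeval f P = ∑ k ∈ Finset.range (P.natDegree + 1),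
          ((P.coeff k : K⟮x⟯) : F) * f ^ k := by
        rw [Polynomial.aeval_eq_sum_range]
        refine Finset.sum_congr rfl fun k _ => ?_
        rw [Algebra.smul_def]
        rfl
      rw [h1, Finset.sum_range_succ'] at hPf
      rw [← hPf]
      simp only [pow_zero, mul_one]
      ring
    have hmax : InMax (ofPlace v) (∑ k ∈ Finset.range P.natDegree,
        ((P.coeff (k + 1) : K⟮x⟯) : F) * f ^ (k + 1)) := by
      apply inMax_sum
      intro k _
      by_cases hk : P.coeff (k + 1) = 0
      · left
        rw [hk]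
        simp
      · rw [mul_comm]
        apply inMax_mul
        · right
          show 0 < v.ord (f ^ (k + 1))
          rw [ord_pow']
          have : (0 : ℤ) < ((k + 1 : ℕ) : ℤ) := by exact_mod_cast Nat.succ_pos k
          exact mul_pos this hfv
        · right
          exact hcoeff (k + 1) hk
    have hc0max : InMax (ofPlace v) (P.coeff 0 : F) := by
      have : ((P.coeff 0 : K⟮x⟯) : F) = -(∑ k ∈ Finset.range P.natDegree,
          ((P.coeff (k + 1) : K⟮x⟯) : F) * f ^ (k + 1)) := by
        linear_combination hsumP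
      rw [this]
      exact inMax_neg _ hmax
    rcases hc0max with h | h
    · exact hP0 (Subtype.ext h)
    · have h' : 0 < v.ord (P.coeff 0 : F) := h
      rw [hcoeff0] at h'
      exact lt_irrefl _ h'
  -- counting
  have hsum' : ∑ v ∈ hfin.toFinset, v.ord y = (Fintype.card I : ℤ) := by
    rw [← finsum_mem_eq_finite_toFinset_sum _ hfin, hsumA, ← hcard, Nat.card_eq_fintype_card]
  obtain ⟨hc1, hc2⟩ := card_eq_of_orbit_data H hfin.toFinset (fun v => v.ord y) g
    (fun i => hfin.mem_toFinset.mpr (hgy i))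
    (fun v hv => hsurj v (hfin.mem_toFinset.mp hv)) hginv hgle hsum'
  intro v hv
  obtain ⟨i, rfl⟩ := hsurj v hv
  exact ⟨i, t i, ht0 i, fun f hf => ht i f hf, hc2 i⟩

/-- **Divisibility of orders**: if `u` has order divisible by `p * r` for each order function
`w i` (with `r` the local multiplicity `m / #orbit`), then `p` divides the order of `u` at every
place over `a`. -/
theorem dvd_ord_of_dvd (x : F) (hx : Transcendental K x) (hfd : FiniteDimensional K⟮x⟯ F) (a : K)
    (hfin : (placesOver x a).Finite)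
    (hsumA : ∑ᶠ v ∈ placesOver x a, v.ord (x - algebraMap K F a) = (Module.finrank K⟮x⟯ F : ℤ))
    (I : Type) [Fintype I] (H : Type) [Group H] [MulAction H I] (m : ℕ) (w : I → OrdFn K F)
    (hcard : Nat.card I = Module.finrank K⟮x⟯ F)
    (hm : 0 < m)
    (hwy : ∀ i, w i (x - algebraMap K F a) = m)
    (hinv : ∀ (h : H) (i : I), w (h • i) = w i)
    (hdiv : ∀ i, ∃ r : ℕ, r * Nat.card (MulAction.orbit H i) = m ∧
      ∀ f : F, f ≠ 0 → (r : ℤ) ∣ w i f)
    (hP : ∀ f : F, f ≠ 0 → (∀ i, w i f = 0) →
      ∃ P : Polynomial ↥K⟮x⟯, P.Monic ∧ Polynomial.aeval f P = 0 ∧ P.coeff 0 ≠ 0 ∧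
        (∀ i k, P.coeff k ≠ 0 → 0 ≤ w i (P.coeff k : F)) ∧ (∀ i, w i (P.coeff 0 : F) = 0))
    (p : ℕ) (u : F) (hu0 : u ≠ 0)
    (hu : ∀ i, ∀ r : ℕ, r * Nat.card (MulAction.orbit H i) = m → ((p * r : ℕ) : ℤ) ∣ w i u) :
    ∀ v ∈ placesOver x a, (p : ℤ) ∣ v.ord u := by
  intro v hv
  obtain ⟨i, t, ht0, ht, hord⟩ := counting_core_strong x hx hfd a hfin hsumA I H m w hcard hm hwy
    hinv hdiv hP v hv
  have hy0 : x - algebraMap K F a ≠ 0 := by
    intro h
    apply hx
    have : x = algebraMap K F a := sub_eq_zero.mp h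
    rw [this]
    exact isAlgebraic_algebraMap a
  have h1 := ht _ hy0
  rw [hwy i, hord] at h1
  -- `m = t * #orbit`
  have ht' : (t.toNat : ℤ) = t := Int.toNat_of_nonneg ht0.le
  have h2 : t.toNat * Nat.card (MulAction.orbit H i) = m := by
    have : ((t.toNat * Nat.card (MulAction.orbit H i) : ℕ) : ℤ) = (m : ℤ) := by
      push_cast
      rw [ht', ← h1]
    exact_mod_cast this
  obtain ⟨c, hc⟩ := hu i t.toNat h2
  rw [ht u hu0] at hc
  push_cast at hc
  rw [ht'] at hc
  have h3 : t * v.ord u = t * (p * c) := by rw [hc]; ring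
  exact ⟨c, mul_left_cancel₀ ht0.ne' h3⟩

end Fermat.Agent.S29.CountS
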