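/-
S29 (item 90), piece (CYC) (helper1): the mod `p` cyclotomic character with values in a field `k`
of characteristic `p`.

`cycloStatement : CycloStatement`: a character `χ : G_ℚ →* kˣ` of finite level, trivial on the
inertia groups at `ℓ ≠ p`, with `χ (Frob_ℓ) = ℓ`.
-/
import Mathlib
import Fermat.Agent.S29.Contract
import Fermat.Prelude.Def_ExtCitation_KummerBridge

set_option autoImplicit false
set_option linter.style.haveILetI false

open IsLocalRing

noncomputable section

namespace Fermat.Agent.S29.Cyc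

/-! ### roots of unity in a valuation ring -/

section Val

variable {L : Type*} [Field L] (A : ValuationSubring L)

theorem mem_of_pow_eq_one {η : L} {n : ℕ} (hn : n ≠ 0) (h : η ^ n = 1) : η ∈ A := by
  rw [← A.valuation_le_one_iff]
  by_contra hlt
  rw [not_le] at hlt
  have h1 : 1 < A.valuation η ^ n := one_lt_pow₀ hlt hn
  rw [← map_pow, h, map_one] at h1
  exact lt_irrefl _ h1

/-- a `p`-th root of unity congruent to `1` modulo the maximal ideal of a valuation ring of
residue characteristic `ℓ ≠ p` is `1`. -/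
theorem eq_one_of_sub_one_mem {p ℓ : ℕ} (hp : p.Prime) (hℓp : Nat.Coprime p ℓ)
    (hℓ : (ℓ : L) ∈ A.nonunits) {η : L} (hη : η ^ p = 1) (h1 : η - 1 ∈ A.nonunits) : η = 1 := by
  by_contra hne
  have hηA : η ∈ A := mem_of_pow_eq_one A hp.ne_zero hη
  -- the geometric sum vanishes
  have hsum : ∑ i ∈ Finset.range p, η ^ i = 0 := by
    have h2 : (∑ i ∈ Finset.range p, η ^ i) * (η - 1) = 0 := by
      rw [geom_sum_mul, hη, sub_self]
    rcases mul_eq_zero.mp h2 with h3 | h3
    · exact h3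
    · exact absurd (sub_eq_zero.mp h3) hne
  -- `η ^ i - 1` is in the maximal ideal
  have hmem : ∀ i : ℕ, η ^ i - 1 ∈ A.nonunits := by
    intro i
    rw [← geom_sum_mul, A.mem_nonunits_iff, map_mul]
    have hS : (∑ j ∈ Finset.range i, η ^ j) ∈ A := sum_mem fun j _ => pow_mem hηA j
    have hS' : A.valuation (∑ j ∈ Finset.range i, η ^ j) ≤ 1 := (A.valuation_le_one_iff _).2 hS
    have h1' : A.valuation (η - 1) < 1 := A.mem_nonunits_iff.1 h1
    calc A.valuation (∑ j ∈ Finset.range i, η ^ j) * A.valuation (η - 1)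
        ≤ 1 * A.valuation (η - 1) := mul_le_mul_left hS' _
      _ = A.valuation (η - 1) := one_mul _
      _ < 1 := h1'
  -- hence `p` is in the maximal ideal
  have hpmem : (p : L) ∈ A.nonunits := by
    have h3 : (p : L) = - ∑ i ∈ Finset.range p, (η ^ i - 1) := by
      rw [Finset.sum_sub_distrib, hsum]
      simp
    rw [h3]
    exact neg_mem (sum_mem fun i _ => hmem i)
  -- Bezout
  have hgcd : IsCoprime (p : ℤ) (ℓ : ℤ) := Nat.isCoprime_iff_coprime.mpr hℓp
  obtain ⟨a, b, hab⟩ := hgcd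
  have h4 : (1 : L) = a • (p : L) + b • (ℓ : L) := by
    have := congrArg (fun z : ℤ => (z : L)) hab
    simp only [Int.cast_add, Int.cast_mul, Int.cast_natCast, Int.cast_one] at this
    rw [zsmul_eq_mul, zsmul_eq_mul, this]
  have h5 : (1 : L) ∈ A.nonunits := by
    rw [h4]
    exact add_mem (zsmul_mem hpmem a) (zsmul_mem hℓ b)
  rw [A.mem_nonunits_iff, map_one] at h5
  exact lt_irrefl _ h5

/-- two `p`-th roots of unity congruent modulo the maximal ideal are equal. -/
theorem eq_of_sub_mem {p ℓ : ℕ} (hp : p.Prime) (hℓp : Nat.Coprime p ℓ)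
    (hℓ : (ℓ : L) ∈ A.nonunits) {η η' : L} (hη : η ^ p = 1) (hη' : η' ^ p = 1)
    (h1 : η - η' ∈ A.nonunits) : η = η' := by
  have hη'0 : η' ≠ 0 := by
    rintro rfl
    rw [zero_pow hp.ne_zero] at hη'
    exact zero_ne_one hη'
  have hinvA : η'⁻¹ ∈ A := mem_of_pow_eq_one A hp.ne_zero (by rw [inv_pow, hη', inv_one])
  have h2 : η * η'⁻¹ - 1 ∈ A.nonunits := by
    have h3 : η * η'⁻¹ - 1 = η'⁻¹ * (η - η') := by field_simp
    rw [h3, A.mem_nonunits_iff, map_mul]
    calc A.valuation η'⁻¹ * A.valuation (η - η')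
        ≤ 1 * A.valuation (η - η') := mul_le_mul_left ((A.valuation_le_one_iff _).2 hinvA) _
      _ = A.valuation (η - η') := one_mul _
      _ < 1 := A.mem_nonunits_iff.1 h1
  have h4 := eq_one_of_sub_one_mem A hp hℓp hℓ (by rw [mul_pow, inv_pow, hη, hη', inv_one, mul_one])
    h2
  field_simp at h4
  exact h4

end Val

/-! ### the action of the decomposition group on roots of unity -/

section Dec

variable (A : ValuationSubring (AlgebraicClosure ℚ))

theorem smul_sub_mem_of_residue_eq (g : A.decompositionSubgroup ℚ) (a b : A)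
    (h : g • (residue A a) = residue A b) :
    (g : AlgebraicClosure ℚ ≃ₐ[ℚ] AlgebraicClosure ℚ) (a : AlgebraicClosure ℚ) -
      (b : AlgebraicClosure ℚ) ∈ A.nonunits := by
  have h1 : residue A (g • a) = residue A b := h
  have h2 : residue A (g • a - b) = 0 := by rw [map_sub, h1, sub_self]
  have h3 : g • a - b ∈ IsLocalRing.maximalIdeal A := (residue_eq_zero_iff _).1 h2
  have h4 := (A.coe_mem_nonunits_iff).2 h3
  exact h4

variable {p ℓ : ℕ} (hp : p.Prime) (hℓp : Nat.Coprime p ℓ) (hA : A.LiesOverPrime ℓ)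

include hp hℓp hA in
/-- the inertia group at `ℓ ≠ p` fixes the `p`-th roots of unity. -/
theorem inertia_fix {σ : AlgebraicClosure ℚ ≃ₐ[ℚ] AlgebraicClosure ℚ}
    (hσ : σ ∈ A.inertiaSubgroupIn ℚ) {t : AlgebraicClosure ℚ} (ht : t ^ p = 1) : σ t = t := by
  obtain ⟨g, hg, rfl⟩ := Subgroup.mem_map.1 hσ
  have htA : t ∈ A := mem_of_pow_eq_one A hp.ne_zero ht
  have hg' : ∀ x : ResidueField A, g • x = x := fun x =>
    congrArg (fun f : RingAut (ResidueField A) => f x) (show
      MulSemiringAction.toRingAut (A.decompositionSubgroup ℚ) (ResidueField A) g = 1 from hg)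
  have h1 := smul_sub_mem_of_residue_eq A g ⟨t, htA⟩ ⟨t, htA⟩ (hg' _)
  exact eq_of_sub_mem A hp hℓp hA (by rw [← map_pow, ht, map_one]) ht h1

include hp hℓp hA in
/-- a Frobenius element at `ℓ ≠ p` raises the `p`-th roots of unity to the power `ℓ`. -/
theorem frobenius_pow {σ : AlgebraicClosure ℚ ≃ₐ[ℚ] AlgebraicClosure ℚ}
    (hσ : A.IsFrobeniusAt σ ℓ) {t : AlgebraicClosure ℚ} (ht : t ^ p = 1) : σ t = t ^ ℓ := by
  obtain ⟨hd, hF⟩ := hσ
  have htA : t ∈ A := mem_of_pow_eq_one A hp.ne_zero ht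
  have h0 : (⟨σ, hd⟩ : A.decompositionSubgroup ℚ) • residue A ⟨t, htA⟩ =
      residue A (⟨t, htA⟩ ^ ℓ) := by
    rw [hF, map_pow]
  have h1 := smul_sub_mem_of_residue_eq A ⟨σ, hd⟩ ⟨t, htA⟩ (⟨t, htA⟩ ^ ℓ) h0
  exact eq_of_sub_mem A hp hℓp hA (by rw [← map_pow, ht, map_one])
    (by rw [← pow_mul, mul_comm, pow_mul, ht, one_pow]) h1

end Dec

/-! ### the character -/

section Char

variable (p : ℕ) [Fact p.Prime]

theorem pow_val_natCast {t : (AlgebraicClosure ℚ)ˣ} (ht : t ^ p = 1) (ℓ : ℕ) :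
    t ^ ((ℓ : ZMod p)).val = t ^ ℓ := by
  rw [ZMod.val_natCast]
  conv_rhs => rw [← Nat.mod_add_div ℓ p]
  rw [pow_add, pow_mul, ht, one_pow, mul_one]

/-- if `σ t = t ^ ℓ` on the `p`-th roots of unity, the cyclotomic character of `σ` is `ℓ`. -/
theorem cycloChar_eq_natCast (σ : AlgebraicClosure ℚ ≃ₐ[ℚ] AlgebraicClosure ℚ) (ℓ : ℕ)
    (h : ∀ t : AlgebraicClosure ℚ, t ^ p = 1 → σ t = t ^ ℓ) :
    ((ExtCitation.cycloChar p σ : (ZMod p)ˣ) : ZMod p) = (ℓ : ZMod p) := by
  haveI : NeZero p := ⟨(Fact.out : p.Prime).ne_zero⟩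
  symm
  refine modularCyclotomicCharacter.unique (AlgebraicClosure ℚ)
    (ExtCitation.card_rootsOfUnity_eq_self p) (σ : AlgebraicClosure ℚ ≃+* AlgebraicClosure ℚ) ?_
  intro t ht
  have ht' : t ^ p = 1 := (mem_rootsOfUnity _ _).1 ht
  have ht'' : (t : AlgebraicClosure ℚ) ^ p = 1 := by
    rw [← Units.val_pow_eq_pow_val, ht', Units.val_one]
  have h1 := h (t : AlgebraicClosure ℚ) ht''
  rw [← Units.val_pow_eq_pow_val, pow_val_natCast p ht' ℓ, Units.val_pow_eq_pow_val]
  exact h1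

theorem cycloChar_eq_one (σ : AlgebraicClosure ℚ ≃ₐ[ℚ] AlgebraicClosure ℚ)
    (h : ∀ t : AlgebraicClosure ℚ, t ^ p = 1 → σ t = t) : ExtCitation.cycloChar p σ = 1 := by
  apply Units.ext
  rw [cycloChar_eq_natCast p σ 1 (fun t ht => by rw [h t ht, pow_one])]
  simp

/-- the cyclotomic character with values in `k`. -/
def cycloK (k : Type*) [Field k] [CharP k p] :
    (AlgebraicClosure ℚ ≃ₐ[ℚ] AlgebraicClosure ℚ) →* kˣ :=
  (Units.map ((ZMod.castHom (dvd_refl p) k : ZMod p →+* k) : ZMod p →* k)).comp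
    (ExtCitation.cycloChar p)

theorem coe_cycloK (k : Type*) [Field k] [CharP k p]
    (σ : AlgebraicClosure ℚ ≃ₐ[ℚ] AlgebraicClosure ℚ) :
    ((cycloK p k σ : kˣ) : k) =
      ZMod.castHom (dvd_refl p) k ((ExtCitation.cycloChar p σ : (ZMod p)ˣ) : ZMod p) := rfl

theorem finiteDimensional_adjoin_roots :
    FiniteDimensional ℚ (IntermediateField.adjoin ℚ
      {t : AlgebraicClosure ℚ | t ^ p = 1}) := by
  haveI : NeZero p := ⟨(Fact.out : p.Prime).ne_zero⟩
  have hfin : Set.Finite {t : AlgebraicClosure ℚ | t ^ p = 1} := by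
    have hsub : {t : AlgebraicClosure ℚ | t ^ p = 1} ⊆
        ((Polynomial.nthRootsFinset p (1 : AlgebraicClosure ℚ) : Finset (AlgebraicClosure ℚ)) :
          Set (AlgebraicClosure ℚ)) := by
      intro t ht
      rw [Finset.mem_coe, Polynomial.mem_nthRootsFinset (NeZero.pos p)]
      exact ht
    exact (Finset.finite_toSet _).subset hsub
  haveI : Finite {t : AlgebraicClosure ℚ | t ^ p = 1} := hfin
  refine IntermediateField.finiteDimensional_adjoin (fun x hx => ?_)
  have hx' : x ^ p = 1 := hx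
  exact IsIntegral.of_pow (NeZero.pos p) (by rw [hx']; exact isIntegral_one)

end Char

/-- **(CYC)**. -/
theorem cycloStatement : CycloStatement := by
  intro p hp k _ _
  haveI : Fact p.Prime := ⟨hp⟩
  refine ⟨cycloK p k, ⟨IntermediateField.adjoin ℚ {t : AlgebraicClosure ℚ | t ^ p = 1},
    finiteDimensional_adjoin_roots p, ?_⟩, ?_⟩
  · intro σ hσ
    have h1 : ExtCitation.cycloChar p σ = 1 :=
      cycloChar_eq_one p σ fun t ht => hσ t (IntermediateField.subset_adjoin ℚ _ ht)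
    show (Units.map _) (ExtCitation.cycloChar p σ) = 1
    rw [h1, map_one]
  · intro ℓ hℓ hℓp A hA
    have hcop : Nat.Coprime p ℓ := (Nat.coprime_primes hp hℓ).2 (Ne.symm hℓp)
    constructor
    · intro σ hσ
      have h1 : ExtCitation.cycloChar p σ = 1 :=
        cycloChar_eq_one p σ fun t ht => inertia_fix A hp hcop hA hσ ht
      show (Units.map _) (ExtCitation.cycloChar p σ) = 1
      rw [h1, map_one]
    · intro σ hσ
      rw [coe_cycloK, cycloChar_eq_natCast p σ ℓ fun t ht => frobenius_pow A hp hcop hA hσ ht,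
        map_natCast]

end Fermat.Agent.S29.Cyc
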