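import Mathlib
import Fermat.Agent.S18.QIntegral
import Fermat.Agent.S18.CTWireDefs
import Fermat.Agent.S18.RPrimeGeneric

/-!
# S29, piece (D3), the residue disc of `∞` from functions with a single pole (abstract)

Setting: a Gauss datum `H : GaussD.Hyp A π F Fb`, a place reduction `r` with `DivCompatR`,
places `Pinf` of `F` and `Qinf` of `Fb`.

`DiscC.disc_of_single_pole`: if `y ∈ F` reduces to `yb ≠ 0`, has no pole outside `Pinf`, and
`ord_Pinf y = ord_Qinf yb < 0`, then
* **(C1)** `r Pinf = Qinf`;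
* **(Z)** `ord_P y = 0` for every `P ≠ Pinf` with `r P = Qinf`.
(One application of `DivCompatR` at `Qinf`; no sign problem since all terms but one are `≥ 0`.)

`DiscC.discData_of_quot`: for two such functions `y₁`, `y₂`, the quotient `s = y₁ / y₂`
satisfies `s_disc`; with the `q`-expansion hypotheses on `s` this gives `QInt.DiscData`,
hence **(C5)** `CT.QIntegrality` (`DiscC.qIntegrality_of_quot`), and **(P1)**
(`DiscC.exists_place_ne`).
-/

set_option autoImplicit false
set_option linter.unusedSectionVars false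

noncomputable section

open HahnSeries AlgebraicCurve

namespace Fermat.Agent.S29.DiscC

open Fermat.Agent.S18 Fermat.Agent.S18.RPrime Fermat.Agent.S18.GaussD

variable {L : Type*} [Field L] {A : ValuationSubring L} {k : Type*} [Field k] {π : A →+* k}
  {F : IntermediateField L (LaurentSeries L)} {Fb : IntermediateField k (LaurentSeries k)}
  (H : Hyp A π F Fb) {g : ℕ} (hK : CurveRR L F g)
  (r : Place L F → Place k Fb) (hr : DivCompatR (gaussDatum H) r)
  (Pinf : Place L F) (Qinf : Place k Fb)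

include hK hr in
/-- `DivCompatR` at `Q`, as a sum over the support of the divisor of `y`. -/
theorem sum_ord_eq {y : F} {yb : Fb} (hred : RedV A π F Fb y yb) (hyb : yb ≠ 0)
    (Q : Place k Fb) :
    letI := Classical.decEq (Place k Fb)
    ∑ P ∈ (divOf hK y).support, (if r P = Q then P.ord y else 0) = Q.ord yb := by
  classical
  set y' : (gaussDatum H).O := ⟨y, ⟨yb, hred⟩⟩ with hy'
  have hry : (gaussDatum H).red y' = yb := (gaussDatum_red_eq_iff H y' yb).2 hred
  have hunit : IsUnit y' := (gaussDatum H).isUnit_of_red_ne_zero y' (by rw [hry]; exact hyb)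
  have h := hr y' hunit (divOf hK y) (fun P => divOf_apply hK _ P) Q
  rw [hry, mapDomain_apply_eq_sum] at h
  rw [← h]
  refine Finset.sum_congr rfl fun P _ => ?_
  split_ifs
  · rw [divOf_apply]
  · rfl

include hK hr in
/-- **(C1) + (Z)** from one function with a single pole. -/
theorem disc_of_single_pole {y : F} {yb : Fb} (hred : RedV A π F Fb y yb) (hyb : yb ≠ 0)
    (hpole : ∀ P : Place L F, P ≠ Pinf → 0 ≤ P.ord y)
    (hneg : Qinf.ord yb < 0) (heq : Pinf.ord y = Qinf.ord yb) :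
    r Pinf = Qinf ∧ ∀ P : Place L F, P ≠ Pinf → r P = Qinf → P.ord y = 0 := by
  classical
  have hsum := sum_ord_eq H hK r hr hred hyb Qinf
  have hC1 : r Pinf = Qinf := by
    by_contra hne
    have hnonneg : 0 ≤ ∑ P ∈ (divOf hK y).support, (if r P = Qinf then P.ord y else 0) := by
      refine Finset.sum_nonneg fun P _ => ?_
      split_ifs with h
      · refine hpole P ?_
        rintro rfl
        exact hne h
      · exact le_rfl
    rw [hsum] at hnonneg
    omega
  refine ⟨hC1, fun P hP hrP => ?_⟩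
  have hinf : Pinf.ord y ≠ 0 := by rw [heq]; omega
  have hmem : Pinf ∈ (divOf hK y).support :=
    Finsupp.mem_support_iff.mpr (by rw [divOf_apply]; exact hinf)
  rw [← Finset.add_sum_erase _ _ hmem, if_pos hC1, heq] at hsum
  have hrest : ∑ P ∈ (divOf hK y).support.erase Pinf,
      (if r P = Qinf then P.ord y else 0) = 0 := by
    linarith
  have hnonneg : ∀ P ∈ (divOf hK y).support.erase Pinf,
      0 ≤ (if r P = Qinf then P.ord y else 0) := by
    intro P hP
    split_ifs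
    · exact hpole P (Finset.ne_of_mem_erase hP)
    · exact le_rfl
  have hzero := (Finset.sum_eq_zero_iff_of_nonneg hnonneg).mp hrest
  by_contra hne
  have hPmem : P ∈ (divOf hK y).support.erase Pinf :=
    Finset.mem_erase.mpr ⟨hP, Finsupp.mem_support_iff.mpr (by rw [divOf_apply]; exact hne)⟩
  have := hzero P hPmem
  rw [if_pos hrP] at this
  exact hne this

include hK hr in
/-- the disc data for a quotient `s = y₁ / y₂` of two functions with a single pole. -/
theorem discData_of_quot {y₁ y₂ : F} {yb₁ yb₂ : Fb}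
    (hinf : ∀ y : F, y ≠ 0 → (Pinf.ord y : WithTop ℤ) = (y : LaurentSeries L).orderTop)
    (hred₁ : RedV A π F Fb y₁ yb₁) (hyb₁ : yb₁ ≠ 0)
    (hpole₁ : ∀ P : Place L F, P ≠ Pinf → 0 ≤ P.ord y₁)
    (hneg₁ : Qinf.ord yb₁ < 0) (heq₁ : Pinf.ord y₁ = Qinf.ord yb₁)
    (hred₂ : RedV A π F Fb y₂ yb₂) (hyb₂ : yb₂ ≠ 0)
    (hpole₂ : ∀ P : Place L F, P ≠ Pinf → 0 ≤ P.ord y₂)
    (hneg₂ : Qinf.ord yb₂ < 0) (heq₂ : Pinf.ord y₂ = Qinf.ord yb₂)
    (s_int : ∀ n : ℤ, ((y₁ / y₂ : F) : LaurentSeries L).coeff n ∈ A)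
    (s_low : ∀ n : ℤ, n < 1 → ((y₁ / y₂ : F) : LaurentSeries L).coeff n = 0)
    (s_unit : ∃ a : A, IsUnit a ∧ ((y₁ / y₂ : F) : LaurentSeries L).coeff 1 = (a : L)) :
    QInt.DiscData H g r Pinf (y₁ / y₂) where
  curve := hK
  compat := hr
  inf := hinf
  s_int := s_int
  s_low := s_low
  s_unit := s_unit
  s_red := by
    refine ⟨yb₁ / yb₂, div_ne_zero hyb₁ hyb₂, ?_⟩
    rw [div_eq_mul_inv, div_eq_mul_inv]
    exact redV_mul hred₁ (redV_inv hred₂ hyb₂)
  s_disc := by
    intro P' hP' hrP'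
    obtain ⟨hC1, hZ₁⟩ := disc_of_single_pole H hK r hr Pinf Qinf hred₁ hyb₁ hpole₁ hneg₁ heq₁
    obtain ⟨-, hZ₂⟩ := disc_of_single_pole H hK r hr Pinf Qinf hred₂ hyb₂ hpole₂ hneg₂ heq₂
    have hy₁ : y₁ ≠ 0 := ne_zero_of_redV hred₁ hyb₁
    have hy₂ : y₂ ≠ 0 := ne_zero_of_redV hred₂ hyb₂
    rw [div_eq_mul_inv, Place.ord_mul P' hy₁ (inv_ne_zero hy₂), Place.ord_inv,
      hZ₁ P' hP' (hrP'.trans hC1), hZ₂ P' hP' (hrP'.trans hC1)]
    rfl

include hK hr in
/-- **(C5)** from two functions with a single pole. -/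
theorem qIntegrality_of_quot {y₁ y₂ : F} {yb₁ yb₂ : Fb}
    (hinf : ∀ y : F, y ≠ 0 → (Pinf.ord y : WithTop ℤ) = (y : LaurentSeries L).orderTop)
    (hred₁ : RedV A π F Fb y₁ yb₁) (hyb₁ : yb₁ ≠ 0)
    (hpole₁ : ∀ P : Place L F, P ≠ Pinf → 0 ≤ P.ord y₁)
    (hneg₁ : Qinf.ord yb₁ < 0) (heq₁ : Pinf.ord y₁ = Qinf.ord yb₁)
    (hred₂ : RedV A π F Fb y₂ yb₂) (hyb₂ : yb₂ ≠ 0)
    (hpole₂ : ∀ P : Place L F, P ≠ Pinf → 0 ≤ P.ord y₂)
    (hneg₂ : Qinf.ord yb₂ < 0) (heq₂ : Pinf.ord y₂ = Qinf.ord yb₂)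
    (s_int : ∀ n : ℤ, ((y₁ / y₂ : F) : LaurentSeries L).coeff n ∈ A)
    (s_low : ∀ n : ℤ, n < 1 → ((y₁ / y₂ : F) : LaurentSeries L).coeff n = 0)
    (s_unit : ∃ a : A, IsUnit a ∧ ((y₁ / y₂ : F) : LaurentSeries L).coeff 1 = (a : L)) :
    CT.QIntegrality A π F Fb r Pinf Qinf := by
  intro y yb hy hp
  have hC1 := (disc_of_single_pole H hK r hr Pinf Qinf hred₁ hyb₁ hpole₁ hneg₁ heq₁).1
  exact (discData_of_quot H hK r hr Pinf Qinf hinf hred₁ hyb₁ hpole₁ hneg₁ heq₁ hred₂ hyb₂
    hpole₂ hneg₂ heq₂ s_int s_low s_unit).redQ_of_no_pole hy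
    (fun P' h1 h2 => hp P' (h2.trans hC1) h1)

include hK hr in
/-- **(P1)**: a zero of a function with a single pole does not reduce to `Qinf`. -/
theorem exists_place_ne {y : F} {yb : Fb} (hred : RedV A π F Fb y yb) (hyb : yb ≠ 0)
    (hpole : ∀ P : Place L F, P ≠ Pinf → 0 ≤ P.ord y)
    (hneg : Qinf.ord yb < 0) (heq : Pinf.ord y = Qinf.ord yb) :
    ∃ P1 : Place L F, r P1 ≠ Qinf := by
  classical
  obtain ⟨hC1, hZ⟩ := disc_of_single_pole H hK r hr Pinf Qinf hred hyb hpole hneg heq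
  -- the divisor of `y` has degree `0` and a pole at `Pinf`, so there is a zero
  have hdeg := degree_divOf hK y
  by_contra hcon
  push Not at hcon
  -- every place reduces to `Qinf`: then `div y = ord_Pinf(y) · Pinf`, of negative degree
  have hsupp : ∀ P ∈ (divOf hK y).support, P = Pinf := by
    intro P hP
    by_contra hne
    have h0 := hZ P hne (hcon P)
    exact (Finsupp.mem_support_iff.mp hP) (by rw [divOf_apply]; exact h0)
  have hD : divOf hK y = Finsupp.single Pinf (Pinf.ord y) := by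
    ext P
    rw [divOf_apply, Finsupp.single_apply]
    split_ifs with h
    · rw [h]
    · by_contra hne
      have hP : P ∈ (divOf hK y).support :=
        Finsupp.mem_support_iff.mpr (by rw [divOf_apply]; exact hne)
      exact h (hsupp P hP).symm
  rw [hD, Divisor.degree_single, hK.deg_one Pinf, heq] at hdeg
  simp only [Nat.cast_one, mul_one] at hdeg
  omega

end Fermat.Agent.S29.DiscC
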