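/-
S29 (item 90), piece (M) (helper4): `EigenOccurs` + R3 + R4 ⟹ `EigenModuleExists`.
The Galois module is the `k`-span of the Galois orbit of the eigenvector inside `k ⊗_ℤ J₀(N)[p]`.
-/
import Mathlib
import Fermat.Agent.S29.Contract

set_option autoImplicit false

open ModularCurve AlgebraicCurve Polynomial
open scoped TensorProduct

noncomputable section

namespace Fermat.Agent.S29.EM

/-- conjugation preserves the fixing condition for a normal `L`. -/
theorem fixes_conj (L : IntermediateField ℚ (AlgebraicClosure ℚ)) [Normal ℚ L]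
    (σ τ : GQ) (hσ : ∀ y ∈ L, σ y = y) : ∀ y ∈ L, (τ⁻¹ * σ * τ) y = y := by
  intro y hy
  have h1 : τ y ∈ L := by
    haveI : Algebra.IsAlgebraic ℚ (AlgebraicClosure ℚ) := AlgebraicClosure.isAlgebraic ℚ
    haveI : IsAlgClosure ℚ (AlgebraicClosure ℚ) := ⟨inferInstance, inferInstance⟩
    haveI : Normal ℚ (AlgebraicClosure ℚ) := IsAlgClosure.normal ℚ (AlgebraicClosure ℚ)
    have := (IntermediateField.normal_iff_forall_map_le'.mp (inferInstance : Normal ℚ L)) τ
    exact this ⟨y, hy, rfl⟩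
  show τ⁻¹ (σ (τ y)) = y
  rw [hσ _ h1]
  exact τ.symm_apply_apply y

/-- the orbit of a vector fixed by `Gal(Qbar/L)`, `L` finite, is finite. -/
theorem orbit_finite {k M : Type} [Field k] [AddCommGroup M] [Module k M]
    (R : GQ →* Module.End k M)
    (L : IntermediateField ℚ (AlgebraicClosure ℚ)) [FiniteDimensional ℚ L]
    (w : M) (hL : ∀ σ : GQ, (∀ y ∈ L, σ y = y) → R σ w = w) :
    (Set.range fun σ : GQ => R σ w).Finite := by
  classical
  let f : GQ → (L →ₐ[ℚ] AlgebraicClosure ℚ) :=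
    fun σ => (σ : AlgebraicClosure ℚ →ₐ[ℚ] AlgebraicClosure ℚ).comp L.val
  have hfac : ∀ σ τ : GQ, f σ = f τ → R σ w = R τ w := by
    intro σ τ h
    have h1 : ∀ y ∈ L, (τ⁻¹ * σ) y = y := by
      intro y hy
      have := DFunLike.congr_fun h ⟨y, hy⟩
      show τ⁻¹ (σ y) = y
      have h2 : σ y = τ y := this
      rw [h2]
      exact τ.symm_apply_apply y
    have h3 := hL _ h1
    rw [map_mul] at h3
    have h4 : R τ (R τ⁻¹ (R σ w)) = R τ w := congrArg (R τ) h3
    have h5 : R τ (R τ⁻¹ (R σ w)) = R σ w := by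
      have : R τ * R τ⁻¹ = 1 := by rw [← map_mul, mul_inv_cancel, map_one]
      exact DFunLike.congr_fun this (R σ w)
    rw [← h5, h4]
  have hfin : Finite (L →ₐ[ℚ] AlgebraicClosure ℚ) := inferInstance
  have hsub : (Set.range fun σ : GQ => R σ w) ⊆
      Set.range (fun e : Set.range f => R (Classical.choose e.2) w) := by
    rintro _ ⟨σ, rfl⟩
    refine ⟨⟨f σ, σ, rfl⟩, ?_⟩
    exact hfac _ _ (Classical.choose_spec (⟨σ, rfl⟩ : f σ ∈ Set.range f))
  exact (Set.finite_range _).subset hsub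

/-- **abstract core of (M)**: the span of the Galois orbit of an eigenvector. -/
theorem exists_orbit_module {k M : Type} [Field k] [AddCommGroup M] [Module k M]
    (R : GQ →* Module.End k M) (w : M) (hw : w ≠ 0)
    (L : IntermediateField ℚ (AlgebraicClosure ℚ)) [FiniteDimensional ℚ L] [Normal ℚ L]
    (hL : ∀ σ : GQ, (∀ y ∈ L, σ y = y) → R σ w = w) :
    ∃ U : Submodule k M, FiniteDimensional k U ∧ Nontrivial U ∧
      (∀ σ : GQ, ∀ v ∈ U, R σ v ∈ U) ∧
      (∀ σ : GQ, (∀ y ∈ L, σ y = y) → ∀ v ∈ U, R σ v = v) ∧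
      (∀ P : M → Prop, (∀ σ : GQ, P (R σ w)) → P 0 → (∀ x y, P x → P y → P (x + y)) →
        (∀ (c : k) x, P x → P (c • x)) → ∀ v ∈ U, P v) := by
  classical
  let U : Submodule k M := Submodule.span k (Set.range fun σ : GQ => R σ w)
  have hind : ∀ P : M → Prop, (∀ σ : GQ, P (R σ w)) → P 0 → (∀ x y, P x → P y → P (x + y)) →
      (∀ (c : k) x, P x → P (c • x)) → ∀ v ∈ U, P v := by
    intro P h1 h0 hadd hsmul v hv
    induction hv using Submodule.span_induction with
    | mem x hx => obtain ⟨σ, rfl⟩ := hx; exact h1 σ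
    | zero => exact h0
    | add x y _ _ hx hy => exact hadd x y hx hy
    | smul c x _ hx => exact hsmul c x hx
  refine ⟨U, FiniteDimensional.span_of_finite k (orbit_finite R L w hL), ?_, ?_, ?_, hind⟩
  · have hwU : w ∈ U := Submodule.subset_span ⟨1, by
      show R 1 w = w
      rw [map_one]; rfl⟩
    exact ⟨⟨⟨w, hwU⟩, 0, fun h => hw (congrArg Subtype.val h)⟩⟩
  · intro σ v hv
    refine hind (fun v => R σ v ∈ U) ?_ ?_ ?_ ?_ v hv
    · intro τ
      have : R σ (R τ w) = R (σ * τ) w := by rw [map_mul]; rfl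
      rw [this]
      exact Submodule.subset_span ⟨σ * τ, rfl⟩
    · rw [map_zero]; exact U.zero_mem
    · intro x y hx hy; rw [map_add]; exact U.add_mem hx hy
    · intro c x hx; rw [map_smul]; exact U.smul_mem c hx
  · intro σ hσ v hv
    refine hind (fun v => R σ v = v) ?_ ?_ ?_ ?_ v hv
    · intro τ
      have h1 := hL _ (fixes_conj L σ τ hσ)
      have h2 : R σ (R τ w) = R τ (R (τ⁻¹ * σ * τ) w) := by
        have : R τ * R (τ⁻¹ * σ * τ) = R σ * R τ := by
          rw [← map_mul, ← map_mul]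
          congr 1
          group
        exact (DFunLike.congr_fun this w).symm
      rw [h2, h1]
    · exact map_zero _
    · intro x y hx hy; rw [map_add, hx, hy]
    · intro c x hx; rw [map_smul, hx]

/-- abstract: a quadratic relation passes to the base change. -/
theorem quad_baseChange {k M₀ : Type} [Field k] [AddCommGroup M₀] (S T : M₀ →ₗ[ℤ] M₀) (n : ℤ)
    (h : ∀ x : M₀, S (S x) - T (S x) + n • x = 0) (d : k) (hd : d = (n : k)) (w : k ⊗[ℤ] M₀) :
    S.baseChange k (S.baseChange k w) - T.baseChange k (S.baseChange k w) + d • w = 0 := by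
  subst hd
  induction w using TensorProduct.induction_on with
  | zero => simp
  | tmul c x =>
    have h1 : (n : k) • (c ⊗ₜ[ℤ] x) = c ⊗ₜ[ℤ] (n • x) := by
      rw [TensorProduct.tmul_smul, TensorProduct.smul_tmul', ← TensorProduct.smul_tmul']
      rw [TensorProduct.smul_tmul', TensorProduct.smul_tmul']
      congr 1
      rw [zsmul_eq_mul, smul_eq_mul]
    rw [LinearMap.baseChange_tmul, LinearMap.baseChange_tmul, LinearMap.baseChange_tmul, h1,
      ← TensorProduct.tmul_sub, ← TensorProduct.tmul_add, h, TensorProduct.tmul_zero]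
  | add x y hx hy =>
    have e : S.baseChange k (S.baseChange k (x + y)) -
        T.baseChange k (S.baseChange k (x + y)) + (n : k) • (x + y) =
        (S.baseChange k (S.baseChange k x) - T.baseChange k (S.baseChange k x) + (n : k) • x) +
        (S.baseChange k (S.baseChange k y) - T.baseChange k (S.baseChange k y) + (n : k) • y) := by
      simp only [map_add, smul_add]
      abel
    rw [e, hx, hy, add_zero]

/-- abstract: commuting maps have commuting base changes. -/
theorem comm_baseChange {k M₀ : Type} [Field k] [AddCommGroup M₀] (T S : M₀ →ₗ[ℤ] M₀)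
    (h : ∀ x : M₀, T (S x) = S (T x)) (w : k ⊗[ℤ] M₀) :
    T.baseChange k (S.baseChange k w) = S.baseChange k (T.baseChange k w) := by
  induction w using TensorProduct.induction_on with
  | zero => simp
  | tmul c x =>
    rw [LinearMap.baseChange_tmul, LinearMap.baseChange_tmul, LinearMap.baseChange_tmul,
      LinearMap.baseChange_tmul, h]
  | add x y hx hy =>
    simp only [map_add, hx, hy]

section Concrete

variable (N p : ℕ) [NeZero N]

/-- Galois on `J₀(N)[p]`. -/
def galTors : GQ →* Module.End ℤ (torsP N p) where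
  toFun σ :=
    ((DistribSMul.toAddMonoidHom (JZero N) σ).toIntLinearMap).restrict
      (p := torsP N p) (q := torsP N p) (fun x hx => by
        rw [Submodule.mem_torsionBy_iff] at hx ⊢
        rw [← map_zsmul, hx, map_zero])
  map_one' := by
    ext x
    show (1 : GQ) • (x : JZero N) = x
    exact one_smul _ _
  map_mul' σ τ := by
    ext x
    show (σ * τ) • (x : JZero N) = σ • τ • (x : JZero N)
    exact mul_smul _ _ _

@[simp] theorem coe_galTors (σ : GQ) (x : torsP N p) :
    ((galTors N p σ x : torsP N p) : JZero N) = σ • (x : JZero N) := rfl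

variable (k : Type) [Field k]

/-- Galois on `k ⊗ J₀(N)[p]`. -/
def galTens : GQ →* Module.End k (k ⊗[ℤ] torsP N p) where
  toFun σ := (galTors N p σ).baseChange k
  map_one' := by
    rw [map_one]
    exact LinearMap.baseChange_one ℤ _
  map_mul' σ τ := by
    rw [map_mul]
    exact LinearMap.baseChange_mul _ _

theorem galTens_apply (σ : GQ) :
    galTens N p k σ = (galTors N p σ).baseChange k := rfl

theorem galTens_tmul (σ : GQ) (c : k) (x : torsP N p) :
    galTens N p k σ (c ⊗ₜ[ℤ] x) = c ⊗ₜ[ℤ] galTors N p σ x :=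
  LinearMap.baseChange_tmul _ _ _

/-- the stabiliser field of a vector of `k ⊗ J₀(N)[p]`. -/
theorem exists_level (hOS : OpenStabStatement N) (w : k ⊗[ℤ] torsP N p) :
    ∃ L : IntermediateField ℚ (AlgebraicClosure ℚ), FiniteDimensional ℚ L ∧
      ∀ σ : GQ, (∀ y ∈ L, σ y = y) → galTens N p k σ w = w := by
  induction w using TensorProduct.induction_on with
  | zero => exact ⟨⊥, inferInstance, fun σ _ => map_zero _⟩
  | tmul c x =>
    obtain ⟨L, hL, h⟩ := hOS (x : JZero N)
    refine ⟨L, hL, fun σ hσ => ?_⟩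
    rw [galTens_tmul]
    congr 1
    exact Subtype.ext (h σ hσ)
  | add x y hx hy =>
    obtain ⟨L₁, hL₁, h₁⟩ := hx
    obtain ⟨L₂, hL₂, h₂⟩ := hy
    haveI := hL₁
    haveI := hL₂
    have hfd : FiniteDimensional ℚ ↥(L₁ ⊔ L₂) := IntermediateField.finiteDimensional_sup L₁ L₂
    refine ⟨L₁ ⊔ L₂, hfd, ?_⟩
    intro σ hσ
    have e₁ := h₁ σ (fun y hy => hσ y ((le_sup_left : L₁ ≤ L₁ ⊔ L₂) hy))
    have e₂ := h₂ σ (fun y hy => hσ y ((le_sup_right : L₂ ≤ L₁ ⊔ L₂) hy))
    exact (map_add (galTens N p k σ) x y).trans (congrArg₂ (· + ·) e₁ e₂)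

/-- the same with a normal field. -/
theorem exists_level_normal (hOS : OpenStabStatement N) (w : k ⊗[ℤ] torsP N p) :
    ∃ L : IntermediateField ℚ (AlgebraicClosure ℚ), FiniteDimensional ℚ L ∧ Normal ℚ L ∧
      ∀ σ : GQ, (∀ y ∈ L, σ y = y) → galTens N p k σ w = w := by
  obtain ⟨L, hL, h⟩ := exists_level N p k hOS w
  haveI := hL
  haveI : Algebra.IsAlgebraic ℚ (AlgebraicClosure ℚ) := AlgebraicClosure.isAlgebraic ℚ
  haveI : IsAlgClosure ℚ (AlgebraicClosure ℚ) := ⟨inferInstance, inferInstance⟩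
  haveI : Normal ℚ (AlgebraicClosure ℚ) := IsAlgClosure.normal ℚ (AlgebraicClosure ℚ)
  refine ⟨IntermediateField.normalClosure ℚ L (AlgebraicClosure ℚ),
    normalClosure.is_finiteDimensional ℚ L (AlgebraicClosure ℚ),
    normalClosure.normal ℚ L (AlgebraicClosure ℚ),
    fun σ hσ => h σ (fun y hy => hσ y (IntermediateField.le_normalClosure L hy))⟩

/-- inertia acts trivially on `k ⊗ J₀(N)[p]`. -/
theorem galTens_eq_one_of_trivial (σ : GQ) (h : ∀ x : JZero N, p • x = 0 → σ • x = x) :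
    galTens N p k σ = 1 := by
  have h1 : galTors N p σ = 1 := by
    refine LinearMap.ext (fun x => Subtype.ext ?_)
    exact h x ((mem_torsP_iff N p x).mp x.2)
  show (galTors N p σ).baseChange k = 1
  rw [h1]
  exact LinearMap.baseChange_one ℤ _

/-- the Eichler–Shimura relation on `k ⊗ J₀(N)[p]`. -/
theorem quad_tens (ℓ : Nat.Primes) (σ : GQ)
    (h : ∀ x : JZero N, p • x = 0 →
      σ • σ • x - heckeOperatorBar N ℓ (σ • x) + (ℓ : ℕ) • x = 0)
    (w : k ⊗[ℤ] torsP N p) :
    galTens N p k σ (galTens N p k σ w) -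
      (heckeTors N p ℓ).baseChange k (galTens N p k σ w) + ((ℓ : ℕ) : k) • w = 0 := by
  have hc : ((ℓ : ℕ) : k) = (((ℓ : ℕ) : ℤ) : k) := (Int.cast_natCast (ℓ : ℕ)).symm
  refine quad_baseChange (k := k) (galTors N p σ) (heckeTors N p ℓ) ((ℓ : ℕ) : ℤ) ?_
    ((ℓ : ℕ) : k) hc w
  intro x
  refine Subtype.ext ?_
  have h0 := h x ((mem_torsP_iff N p x).mp x.2)
  have h1 : ((((ℓ : ℕ) : ℤ) • x : torsP N p) : JZero N) = (ℓ : ℕ) • (x : JZero N) :=
    natCast_zsmul (x : JZero N) (ℓ : ℕ)
  have h2 : ((galTors N p σ (galTors N p σ x) - heckeTors N p ℓ (galTors N p σ x) +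
      ((ℓ : ℕ) : ℤ) • x : torsP N p) : JZero N) =
      σ • σ • (x : JZero N) - heckeOperatorBar N ℓ (σ • (x : JZero N)) +
        (((ℓ : ℕ) : ℤ) • x : torsP N p) := rfl
  rw [h2, h1, h0]
  rfl

/-- Hecke commutes with Galois on `k ⊗ J₀(N)[p]`. -/
theorem hecke_galTens (hHG : HeckeGaloisStatement N) (ℓ : Nat.Primes) (σ : GQ)
    (w : k ⊗[ℤ] torsP N p) :
    (heckeTors N p ℓ).baseChange k (galTens N p k σ w) =
      galTens N p k σ ((heckeTors N p ℓ).baseChange k w) := by
  refine comm_baseChange (heckeTors N p ℓ) (galTors N p σ) (fun x => ?_) w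
  exact Subtype.ext (hHG ℓ σ (x : JZero N))

end Concrete

/-- **abstract form of (M)**. -/
theorem exists_eigenModule_abstract {k M : Type} [Field k] [AddCommGroup M] [Module k M]
    (R : GQ →* Module.End k M) (w : M) (hw : w ≠ 0)
    (L : IntermediateField ℚ (AlgebraicClosure ℚ)) [FiniteDimensional ℚ L] [Normal ℚ L]
    (hL : ∀ σ : GQ, (∀ y ∈ L, σ y = y) → R σ w = w) :
    ∃ (U : Type) (_ : AddCommGroup U) (_ : Module k U) (_ : FiniteDimensional k U)
      (_ : Nontrivial U) (ρ : GQ →* Module.End k U),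
      GaloisFactorsThroughFiniteLevel ρ ∧
      (∀ σ : GQ, R σ = 1 → ρ σ = 1) ∧
      (∀ (σ : GQ) (T : Module.End k M) (c d : k), (∀ (τ : GQ) (v : M), T (R τ v) = R τ (T v)) →
        T w = c • w → (∀ v : M, R σ (R σ v) - T (R σ v) + d • v = 0) →
        ρ σ * ρ σ - c • ρ σ + d • (1 : Module.End k U) = 0) := by
  obtain ⟨U, hUfd, hUnt, hUinv, hUfix, hUind⟩ := exists_orbit_module R w hw L hL
  let ρ : GQ →* Module.End k U :=
    { toFun := fun σ => (R σ).restrict (p := U) (q := U) (hUinv σ)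
      map_one' := by
        refine LinearMap.ext (fun v => Subtype.ext ?_)
        show R 1 (v : M) = v
        rw [map_one]; rfl
      map_mul' := fun σ τ => by
        refine LinearMap.ext (fun v => Subtype.ext ?_)
        show R (σ * τ) (v : M) = R σ (R τ (v : M))
        rw [map_mul]; rfl }
  have hρ : ∀ (σ : GQ) (v : U), ((ρ σ v : U) : M) = R σ v := fun _ _ => rfl
  refine ⟨U, inferInstance, inferInstance, hUfd, hUnt, ρ, ⟨L, inferInstance, fun σ hσ => ?_⟩,
    ?_, ?_⟩
  · refine LinearMap.ext (fun v => Subtype.ext ?_)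
    exact hUfix σ hσ v v.2
  · intro σ hσ
    refine LinearMap.ext (fun v => Subtype.ext ?_)
    rw [hρ, hσ]
    rfl
  · intro σ T c d hTR hTw hq
    have hT : ∀ v ∈ U, T v = c • v := by
      refine hUind _ ?_ ?_ ?_ ?_
      · intro τ
        rw [hTR, hTw, map_smul]
      · rw [map_zero, smul_zero]
      · intro x y hx hy
        rw [map_add, hx, hy, smul_add]
      · intro a x hx
        rw [map_smul, hx, smul_comm]
    refine LinearMap.ext (fun v => Subtype.ext ?_)
    have h1 := hq (v : M)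
    rw [hT _ (hUinv σ v v.2)] at h1
    show R σ (R σ (v : M)) - c • R σ (v : M) + d • (v : M) = 0
    exact h1

set_option maxHeartbeats 2000000 in
/-- **(M)** -/
theorem eigenModuleStatement : EigenModuleStatement := by
  intro N _ g p hp k _ _ φ hHG hOS hUN hFQ ⟨w, hw, hTw⟩
  obtain ⟨L, hLfd, hLn, hL⟩ := exists_level_normal N p k hOS w
  haveI := hLfd
  haveI := hLn
  obtain ⟨U, i1, i2, i3, i4, ρ, h1, h2, h3⟩ :=
    exists_eigenModule_abstract (galTens N p k) w hw L hL
  refine ⟨U, i1, i2, i3, i4, ρ, h1, ?_, ?_⟩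
  · intro ℓ hℓ hℓNp A hA σ hσ
    exact h2 σ (galTens_eq_one_of_trivial N p k σ
      (fun x hx => hUN ℓ hℓ hℓNp A hA σ hσ x hx))
  · intro ℓ hℓ hℓNp A hA σ hσ
    obtain ⟨a, ha, hTa⟩ := hTw ℓ hℓ hℓNp
    refine ⟨a, ha, ?_⟩
    exact h3 σ ((heckeTors N p ⟨ℓ, hℓ⟩).baseChange k) (φ a) (ℓ : k)
      (fun τ v => hecke_galTens N p k hHG ⟨ℓ, hℓ⟩ τ v) hTa
      (fun v => quad_tens N p k ⟨ℓ, hℓ⟩ σ (fun x hx => hFQ ℓ hℓ hℓNp A hA σ hσ x hx) v)

end Fermat.Agent.S29.EM
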