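import Mathlib.NumberTheory.ModularForms.EisensteinSeries.Basic

/-!
# Weighted Eisenstein series (S29 chain, R1 (a)+(b))

For a bounded weight `w : (Fin 2 → ℤ) → ℂ` the series
`eisW w k z = ∑' v, w v * eisSummand k v z` converges absolutely for `3 ≤ k`,
is holomorphic on the upper half plane, is bounded at `i∞` together with all its
`SL(2, ℤ)`-translates, and satisfies `eisW w k ∣[k] γ = eisW (w ∘ (· ᵥ* γ⁻¹)) k`.

For a character `χ` of `Γ₀(N)` with `χ T = 1` the weight `wChi χ` (value `(χ δ)⁻¹` on the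
bottom row of `δ ∈ Γ₀(N)`, zero elsewhere) gives the twisted Eisenstein series
`eisChi χ k` with `eisChi χ k ∣[k] γ = χ γ • eisChi χ k` for `γ ∈ Γ₀(N)`.
-/

set_option linter.style.haveILetI false
set_option linter.unusedSectionVars false

namespace Fermat.Agent.S29.EisChi

open ModularForm UpperHalfPlane Complex Matrix CongruenceSubgroup EisensteinSeries Filter Topology
  Manifold

open scoped MatrixGroups

noncomputable section

/-- The weighted Eisenstein series with weight function `w`. -/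
def eisW (w : (Fin 2 → ℤ) → ℂ) (k : ℤ) (z : ℍ) : ℂ :=
  ∑' v : Fin 2 → ℤ, w v * eisSummand k v z

lemma norm_term_le {w : (Fin 2 → ℤ) → ℂ} (hw : ∀ v, ‖w v‖ ≤ 1) (k : ℤ) (v : Fin 2 → ℤ) (z : ℍ) :
    ‖w v * eisSummand k v z‖ ≤ ‖eisSummand k v z‖ := by
  rw [norm_mul]
  exact mul_le_of_le_one_left (norm_nonneg _) (hw v)

lemma summable_term {w : (Fin 2 → ℤ) → ℂ} (hw : ∀ v, ‖w v‖ ≤ 1) {k : ℤ} (hk : 3 ≤ k) (z : ℍ) :
    Summable fun v : Fin 2 → ℤ => w v * eisSummand k v z :=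
  Summable.of_norm_bounded (summable_norm_eisSummand hk z) fun v => norm_term_le hw k v z

lemma summable_norm_term {w : (Fin 2 → ℤ) → ℂ} (hw : ∀ v, ‖w v‖ ≤ 1) {k : ℤ} (hk : 3 ≤ k)
    (z : ℍ) : Summable fun v : Fin 2 → ℤ => ‖w v * eisSummand k v z‖ :=
  (summable_norm_eisSummand hk z).of_nonneg_of_le (fun _ => norm_nonneg _)
    fun v => norm_term_le hw k v z

lemma hasSum_eisW {w : (Fin 2 → ℤ) → ℂ} (hw : ∀ v, ‖w v‖ ≤ 1) {k : ℤ} (hk : 3 ≤ k) (z : ℍ) :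
    HasSum (fun v : Fin 2 → ℤ => w v * eisSummand k v z) (eisW w k z) :=
  (summable_term hw hk z).hasSum

/-- The universal bound: the sum of the norms of all Eisenstein summands. -/
def eisBound (k : ℤ) (z : ℍ) : ℝ := ∑' v : Fin 2 → ℤ, ‖eisSummand k v z‖

lemma norm_eisW_le {w : (Fin 2 → ℤ) → ℂ} (hw : ∀ v, ‖w v‖ ≤ 1) {k : ℤ} (hk : 3 ≤ k) (z : ℍ) :
    ‖eisW w k z‖ ≤ eisBound k z := by
  refine le_trans (norm_tsum_le_tsum_norm (summable_norm_term hw hk z)) ?_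
  exact (summable_norm_term hw hk z).tsum_le_tsum (fun v => norm_term_le hw k v z)
    (summable_norm_eisSummand hk z)

/-! ### Locally uniform convergence and holomorphy -/

theorem eisW_tendstoLocallyUniformly {w : (Fin 2 → ℤ) → ℂ} (hw : ∀ v, ‖w v‖ ≤ 1) {k : ℤ}
    (hk : 3 ≤ k) :
    TendstoLocallyUniformly (fun (s : Finset (Fin 2 → ℤ)) ↦ (∑ x ∈ s, w x * eisSummand k x ·))
      (eisW w k ·) Filter.atTop := by
  have hk' : (2 : ℝ) < k := by norm_cast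
  have p_sum : Summable fun x : Fin 2 → ℤ ↦ ‖x‖ ^ (-k) :=
    mod_cast (summable_one_div_norm_rpow hk')
  simp only [tendstoLocallyUniformly_iff_forall_isCompact, eisW]
  intro K hK
  obtain ⟨A, B, hB, HABK⟩ := subset_verticalStrip_of_isCompact hK
  refine (tendstoUniformlyOn_tsum (hu := p_sum.mul_left <| r ⟨⟨A, B⟩, hB⟩ ^ (-k : ℝ))
    (fun p z hz ↦ ?_)).mono HABK
  refine le_trans (norm_term_le hw k p z) ?_
  simpa only [eisSummand, one_div, ← zpow_neg, norm_zpow, ← Real.rpow_intCast,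
    Int.cast_neg] using summand_bound_of_mem_verticalStrip (by positivity) p hB hz

lemma eisW_tendstoLocallyUniformlyOn {w : (Fin 2 → ℤ) → ℂ} (hw : ∀ v, ‖w v‖ ≤ 1) {k : ℤ}
    (hk : 3 ≤ k) :
    TendstoLocallyUniformlyOn (fun (s : Finset (Fin 2 → ℤ)) ↦
      ↑ₕ(fun (z : ℍ) ↦ ∑ x ∈ s, w x * eisSummand k x z)) (↑ₕ(eisW w k))
          Filter.atTop {z : ℂ | 0 < z.im} := by
  rw [← upperHalfPlaneSet, ← range_coe, ← Set.image_univ]
  apply TendstoLocallyUniformlyOn.comp (s := ⊤) _ _ _ (OpenPartialHomeomorph.continuousOn_symm _)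
  · simp only [Set.top_eq_univ, tendstoLocallyUniformlyOn_univ]
    exact eisW_tendstoLocallyUniformly hw hk
  · simp only [IsOpenEmbedding.toOpenPartialHomeomorph_target, Set.top_eq_univ,
      Set.mapsTo_range_iff, Set.mem_univ, forall_const]

lemma term_extension_differentiableOn (w : (Fin 2 → ℤ) → ℂ) (k : ℤ) (a : Fin 2 → ℤ) :
    DifferentiableOn ℂ (↑ₕ(fun z : ℍ => w a * eisSummand k a z)) {z : ℂ | 0 < z.im} := by
  have h := (eisSummand_extension_differentiableOn k a).const_mul (w a)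
  refine h.congr fun z _ => ?_
  simp

/-- The weighted Eisenstein series is holomorphic on the upper half plane. -/
theorem eisW_mdifferentiable {w : (Fin 2 → ℤ) → ℂ} (hw : ∀ v, ‖w v‖ ≤ 1) {k : ℤ}
    (hk : 3 ≤ k) : MDiff (eisW w k) := by
  intro τ
  suffices DifferentiableAt ℂ (↑ₕ(eisW w k)) τ.1 by
    convert!
      MDifferentiableAt.comp τ (DifferentiableAt.mdifferentiableAt this) τ.mdifferentiable_coe
    exact funext fun z ↦ (comp_ofComplex (eisW w k) z).symm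
  refine DifferentiableOn.differentiableAt ?_ (isOpen_upperHalfPlaneSet.mem_nhds τ.2)
  refine (eisW_tendstoLocallyUniformlyOn hw hk).differentiableOn
    (Eventually.of_forall fun s ↦ ?_) isOpen_upperHalfPlaneSet
  have h := DifferentiableOn.fun_sum (u := s)
    (fun (a : Fin 2 → ℤ) (_ : a ∈ s) ↦ term_extension_differentiableOn w k a)
  refine h.congr fun z _ => ?_
  simp

/-! ### The slash action -/

lemma coe_mul_inv_eq_one (γ : SL(2, ℤ)) :
    (γ.1 * (γ⁻¹).1 : Matrix (Fin 2) (Fin 2) ℤ) = 1 := by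
  have h := Matrix.SpecialLinearGroup.coe_mul γ γ⁻¹
  rw [mul_inv_cancel, Matrix.SpecialLinearGroup.coe_one] at h
  exact h.symm

lemma coe_inv_mul_eq_one (γ : SL(2, ℤ)) :
    ((γ⁻¹).1 * γ.1 : Matrix (Fin 2) (Fin 2) ℤ) = 1 := by
  have h := Matrix.SpecialLinearGroup.coe_mul γ⁻¹ γ
  rw [inv_mul_cancel, Matrix.SpecialLinearGroup.coe_one] at h
  exact h.symm

lemma vecMul_inv_vecMul (γ : SL(2, ℤ)) (v : Fin 2 → ℤ) :
    (v ᵥ* γ.1) ᵥ* (γ⁻¹).1 = v := by
  rw [vecMul_vecMul, coe_mul_inv_eq_one, vecMul_one]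

lemma vecMul_vecMul_inv (γ : SL(2, ℤ)) (v : Fin 2 → ℤ) :
    (v ᵥ* (γ⁻¹).1) ᵥ* γ.1 = v := by
  rw [vecMul_vecMul, coe_inv_mul_eq_one, vecMul_one]

/-- Right multiplication by `γ ∈ SL(2, ℤ)` as a permutation of `Fin 2 → ℤ`. -/
def vecMulEquiv (γ : SL(2, ℤ)) : (Fin 2 → ℤ) ≃ (Fin 2 → ℤ) where
  toFun v := v ᵥ* γ.1
  invFun v := v ᵥ* (γ⁻¹).1
  left_inv v := vecMul_inv_vecMul γ v
  right_inv v := vecMul_vecMul_inv γ v

@[simp] lemma vecMulEquiv_apply (γ : SL(2, ℤ)) (v : Fin 2 → ℤ) :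
    vecMulEquiv γ v = v ᵥ* γ.1 := rfl

@[simp] lemma vecMulEquiv_symm_apply (γ : SL(2, ℤ)) (v : Fin 2 → ℤ) :
    (vecMulEquiv γ).symm v = v ᵥ* (γ⁻¹).1 := rfl

/-- The slash action of `SL(2, ℤ)` on weighted Eisenstein series: it moves the weight. -/
theorem eisW_slash_apply (w : (Fin 2 → ℤ) → ℂ) (k : ℤ) (γ : SL(2, ℤ)) :
    eisW w k ∣[k] γ = eisW (fun v => w (v ᵥ* (γ⁻¹).1)) k := by
  ext1 z
  simp_rw [SL_slash_apply, zpow_neg,
    mul_inv_eq_iff_eq_mul₀ (zpow_ne_zero _ <| denom_ne_zero _ z), eisW, eisSummand_SL2_apply]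
  rw [← (vecMulEquiv γ).tsum_eq (fun v => w (v ᵥ* (γ⁻¹).1) * eisSummand k v z),
    ← tsum_mul_right]
  refine tsum_congr fun v => ?_
  rw [vecMulEquiv_apply, vecMul_inv_vecMul]
  ring

/-! ### Boundedness at the cusps -/

lemma eisSummand_T_zpow_smul (k n : ℤ) (v : Fin 2 → ℤ) (z : ℍ) :
    eisSummand k v (ModularGroup.T ^ n • z) = eisSummand k (v ᵥ* (ModularGroup.T ^ n).1) z := by
  simp only [eisSummand, modular_T_zpow_smul, ModularGroup.coe_T_zpow, vecMul,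
    vec2_dotProduct]
  congr 1
  simp
  ring

lemma eisBound_T_zpow_smul (k n : ℤ) (z : ℍ) :
    eisBound k (ModularGroup.T ^ n • z) = eisBound k z := by
  unfold eisBound
  simp_rw [eisSummand_T_zpow_smul]
  exact (vecMulEquiv (ModularGroup.T ^ n)).tsum_eq (fun v => ‖eisSummand k v z‖)

/-- The explicit constant bounding all weighted Eisenstein series on `2 ≤ im z`. -/
def eisConst (k : ℤ) : ℝ := ∑' x : Fin 2 → ℤ, r ⟨⟨1, 2⟩, Nat.ofNat_pos⟩ ^ (-k) * ‖x‖ ^ (-k)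

lemma eisBound_le_eisConst {k : ℤ} (hk : 3 ≤ k) (z : ℍ) (hz : 2 ≤ z.im) :
    eisBound k z ≤ eisConst k := by
  obtain ⟨n, hn⟩ := ModularGroup_T_zpow_mem_verticalStrip z (N := 1) one_pos
  rw [← eisBound_T_zpow_smul k ((1 : ℕ) * n) z]
  have hk' : (2 : ℝ) < k := by norm_cast
  unfold eisBound eisConst
  apply (summable_norm_eisSummand hk _).tsum_le_tsum _
  · exact_mod_cast (summable_one_div_norm_rpow hk').mul_left <| r ⟨⟨1, 2⟩, Nat.ofNat_pos⟩ ^ (-k)
  · intro x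
    simp_rw [eisSummand, norm_zpow]
    exact_mod_cast
      summand_bound_of_mem_verticalStrip (lt_trans two_pos hk').le x two_pos
      (verticalStrip_anti_right ((1 : ℕ) : ℝ) hz hn)

/-- Weighted Eisenstein series are bounded at `i∞`, with an explicit bound. -/
theorem norm_eisW_le_eisConst {w : (Fin 2 → ℤ) → ℂ} (hw : ∀ v, ‖w v‖ ≤ 1) {k : ℤ}
    (hk : 3 ≤ k) (z : ℍ) (hz : 2 ≤ z.im) : ‖eisW w k z‖ ≤ eisConst k :=
  (norm_eisW_le hw hk z).trans (eisBound_le_eisConst hk z hz)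

theorem isBoundedAtImInfty_eisW {w : (Fin 2 → ℤ) → ℂ} (hw : ∀ v, ‖w v‖ ≤ 1) {k : ℤ}
    (hk : 3 ≤ k) : IsBoundedAtImInfty (eisW w k) := by
  rw [UpperHalfPlane.isBoundedAtImInfty_iff]
  exact ⟨eisConst k, 2, fun z hz => norm_eisW_le_eisConst hw hk z hz⟩

/-- Weighted Eisenstein series are bounded at all cusps. -/
theorem isBoundedAtImInfty_eisW_slash {w : (Fin 2 → ℤ) → ℂ} (hw : ∀ v, ‖w v‖ ≤ 1) {k : ℤ}
    (hk : 3 ≤ k) (A : SL(2, ℤ)) : IsBoundedAtImInfty (eisW w k ∣[k] A) := by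
  rw [eisW_slash_apply]
  exact isBoundedAtImInfty_eisW (fun v => hw _) hk

end

end Fermat.Agent.S29.EisChi
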