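import Fermat.Agent.S29.EisChi
import Mathlib.Analysis.Normed.Group.Tannery

/-!
# Twisted Eisenstein series for a character of `Γ₀(N)` (S29 chain, R1 (a)+(b))

For `χ : Γ₀(N) →* ℂˣ` with `χ T = 1` the weight `wChi χ` takes the value `(χ δ)⁻¹` on the bottom
row of `δ ∈ Γ₀(N)` and zero elsewhere; `eisChi χ k = eisW (wChi χ) k` satisfies
`eisChi χ k ∣[k] γ = χ γ • eisChi χ k` for `γ ∈ Γ₀(N)`.
-/

set_option linter.style.haveILetI false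
set_option linter.unusedSectionVars false

namespace Fermat.Agent.S29.EisChi

open ModularForm UpperHalfPlane Complex Matrix CongruenceSubgroup EisensteinSeries Filter Topology
  Manifold

open scoped MatrixGroups

noncomputable section

/-! ### Bottom rows -/

lemma bottom_mul (A B : SL(2, ℤ)) : (A * B).1 1 = (A.1 1) ᵥ* B.1 := by
  rw [Matrix.SpecialLinearGroup.coe_mul]
  exact Matrix.mul_apply_eq_vecMul _ _ _

lemma bottom_one : (1 : SL(2, ℤ)).1 1 = ![0, 1] := by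
  ext i
  fin_cases i <;> simp

/-- Two elements of `SL(2, ℤ)` with the same bottom row differ by a power of `T` on the left. -/
lemma exists_T_zpow_mul_of_bottom_eq {A B : SL(2, ℤ)} (h : A.1 1 = B.1 1) :
    ∃ m : ℤ, A = ModularGroup.T ^ m * B := by
  have hC : (A * B⁻¹).1 1 = ![0, 1] := by
    rw [bottom_mul, h, ← bottom_mul, mul_inv_cancel, bottom_one]
  have h10 : (A * B⁻¹).1 1 0 = 0 := by rw [hC]; rfl
  have h11 : (A * B⁻¹).1 1 1 = 1 := by rw [hC]; rfl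
  have hdet := (A * B⁻¹).2
  rw [Matrix.det_fin_two, h10, h11] at hdet
  have h00 : (A * B⁻¹).1 0 0 = 1 := by linarith
  refine ⟨(A * B⁻¹).1 0 1, ?_⟩
  have hT : A * B⁻¹ = ModularGroup.T ^ ((A * B⁻¹).1 0 1) := by
    apply Subtype.ext
    rw [ModularGroup.coe_T_zpow]
    ext i j
    fin_cases i <;> fin_cases j
    · exact h00
    · rfl
    · exact h10
    · exact h11
  rw [← hT, inv_mul_cancel_right]

/-! ### The weight of a character -/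

variable {N : ℕ}

lemma T_mem_Gamma0 (N : ℕ) : ModularGroup.T ∈ Gamma0 N := by
  rw [Gamma0_mem]
  simp [ModularGroup.T]

/-- `T` as an element of `Γ₀(N)`. -/
def TGamma0 (N : ℕ) : Gamma0 N := ⟨ModularGroup.T, T_mem_Gamma0 N⟩

lemma neg_one_mem_Gamma0 (N : ℕ) : (-1 : SL(2, ℤ)) ∈ Gamma0 N := by
  rw [Gamma0_mem]
  simp

/-- `-1` as an element of `Γ₀(N)`. -/
def negOneGamma0 (N : ℕ) : Gamma0 N := ⟨-1, neg_one_mem_Gamma0 N⟩

/-- The set of bottom rows of elements of `Γ₀(N)`. -/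
def IsBottom (N : ℕ) (v : Fin 2 → ℤ) : Prop := ∃ δ : Gamma0 N, (δ : SL(2, ℤ)).1 1 = v

/-- The weight attached to a character of `Γ₀(N)`. -/
def wChi (χ : Gamma0 N →* ℂˣ) (v : Fin 2 → ℤ) : ℂ :=
  open Classical in
  if h : IsBottom N v then (((χ (Classical.choose h))⁻¹ : ℂˣ) : ℂ) else 0

lemma wChi_of_not_isBottom (χ : Gamma0 N →* ℂˣ) {v : Fin 2 → ℤ} (h : ¬ IsBottom N v) :
    wChi χ v = 0 := by
  unfold wChi
  rw [dif_neg h]

lemma chi_eq_of_bottom_eq {χ : Gamma0 N →* ℂˣ} (hT : χ (TGamma0 N) = 1) {δ δ' : Gamma0 N}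
    (h : (δ : SL(2, ℤ)).1 1 = (δ' : SL(2, ℤ)).1 1) : χ δ = χ δ' := by
  obtain ⟨m, hm⟩ := exists_T_zpow_mul_of_bottom_eq h
  have h1 : δ = (TGamma0 N) ^ m * δ' := by
    apply Subtype.ext
    rw [hm]
    rfl
  rw [h1, map_mul, map_zpow, hT, one_zpow, one_mul]

lemma wChi_bottom {χ : Gamma0 N →* ℂˣ} (hT : χ (TGamma0 N) = 1) (δ : Gamma0 N) :
    wChi χ ((δ : SL(2, ℤ)).1 1) = (((χ δ)⁻¹ : ℂˣ) : ℂ) := by
  have h : IsBottom N ((δ : SL(2, ℤ)).1 1) := ⟨δ, rfl⟩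
  unfold wChi
  rw [dif_pos h, chi_eq_of_bottom_eq hT (Classical.choose_spec h)]

lemma isBottom_vecMul {v : Fin 2 → ℤ} (h : IsBottom N v) (γ : Gamma0 N) :
    IsBottom N (v ᵥ* (γ : SL(2, ℤ)).1) := by
  obtain ⟨δ, rfl⟩ := h
  exact ⟨δ * γ, bottom_mul _ _⟩

lemma isBottom_vecMul_iff (v : Fin 2 → ℤ) (γ : Gamma0 N) :
    IsBottom N (v ᵥ* (γ : SL(2, ℤ)).1) ↔ IsBottom N v := by
  refine ⟨fun h => ?_, fun h => isBottom_vecMul h γ⟩
  have h1 := isBottom_vecMul h γ⁻¹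
  rwa [Subgroup.coe_inv, vecMul_inv_vecMul] at h1

/-- The weight of `χ` transforms by `χ`. -/
lemma wChi_vecMul {χ : Gamma0 N →* ℂˣ} (hT : χ (TGamma0 N) = 1) (v : Fin 2 → ℤ)
    (γ : Gamma0 N) :
    wChi χ (v ᵥ* (γ : SL(2, ℤ)).1) = (((χ γ)⁻¹ : ℂˣ) : ℂ) * wChi χ v := by
  by_cases h : IsBottom N v
  · obtain ⟨δ, rfl⟩ := h
    have h1 : ((δ : SL(2, ℤ)).1 1) ᵥ* (γ : SL(2, ℤ)).1 = ((δ * γ : Gamma0 N) : SL(2, ℤ)).1 1 :=
      (bottom_mul _ _).symm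
    rw [h1, wChi_bottom hT, wChi_bottom hT, map_mul, _root_.mul_inv_rev, Units.val_mul]
  · rw [wChi_of_not_isBottom χ h,
      wChi_of_not_isBottom χ (fun h' => h ((isBottom_vecMul_iff v γ).mp h')), mul_zero]

lemma wChi_vecMul_inv {χ : Gamma0 N →* ℂˣ} (hT : χ (TGamma0 N) = 1) (v : Fin 2 → ℤ)
    (γ : Gamma0 N) :
    wChi χ (v ᵥ* ((γ : SL(2, ℤ))⁻¹).1) = ((χ γ : ℂˣ) : ℂ) * wChi χ v := by
  have h := wChi_vecMul hT v γ⁻¹
  rw [Subgroup.coe_inv, map_inv, inv_inv] at h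
  exact h

lemma norm_wChi_le {χ : Gamma0 N →* ℂˣ} (hχ : ∀ γ, ‖((χ γ : ℂˣ) : ℂ)‖ = 1) (v : Fin 2 → ℤ) :
    ‖wChi χ v‖ ≤ 1 := by
  unfold wChi
  split_ifs with h
  · rw [Units.val_inv_eq_inv_val, norm_inv, hχ, inv_one]
  · rw [norm_zero]
    exact zero_le_one

/-! ### The twisted Eisenstein series -/

/-- The Eisenstein series of weight `k` twisted by the character `χ` of `Γ₀(N)`. -/
def eisChi (χ : Gamma0 N →* ℂˣ) (k : ℤ) : ℍ → ℂ := eisW (wChi χ) k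

theorem eisChi_mdifferentiable {χ : Gamma0 N →* ℂˣ} (hχ : ∀ γ, ‖((χ γ : ℂˣ) : ℂ)‖ = 1)
    {k : ℤ} (hk : 3 ≤ k) : MDiff (eisChi χ k) :=
  eisW_mdifferentiable (norm_wChi_le hχ) hk

/-- **The transformation law** of the twisted Eisenstein series. -/
theorem eisChi_slash {χ : Gamma0 N →* ℂˣ} (hT : χ (TGamma0 N) = 1) (k : ℤ) (γ : Gamma0 N) :
    eisChi χ k ∣[k] (γ : SL(2, ℤ)) = ((χ γ : ℂˣ) : ℂ) • eisChi χ k := by
  unfold eisChi
  rw [eisW_slash_apply]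
  ext1 z
  simp only [eisW, Pi.smul_apply, smul_eq_mul]
  rw [← tsum_mul_left]
  refine tsum_congr fun v => ?_
  rw [wChi_vecMul_inv hT, mul_assoc]

/-- The transformation law, in terms of values. -/
theorem eisChi_smul_apply {χ : Gamma0 N →* ℂˣ} (hT : χ (TGamma0 N) = 1) (k : ℤ) (γ : Gamma0 N)
    (z : ℍ) :
    eisChi χ k ((γ : SL(2, ℤ)) • z)
      = ((χ γ : ℂˣ) : ℂ) * denom (γ : SL(2, ℤ)) z ^ k * eisChi χ k z := by
  have h := congrFun (eisChi_slash hT k γ) z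
  rw [SL_slash_apply, Pi.smul_apply, smul_eq_mul, zpow_neg,
    mul_inv_eq_iff_eq_mul₀ (zpow_ne_zero _ <| denom_ne_zero _ z)] at h
  rw [h]
  ring

theorem isBoundedAtImInfty_eisChi_slash {χ : Gamma0 N →* ℂˣ}
    (hχ : ∀ γ, ‖((χ γ : ℂˣ) : ℂ)‖ = 1) {k : ℤ} (hk : 3 ≤ k) (A : SL(2, ℤ)) :
    IsBoundedAtImInfty (eisChi χ k ∣[k] A) :=
  isBoundedAtImInfty_eisW_slash (norm_wChi_le hχ) hk A

end

end Fermat.Agent.S29.EisChi
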