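import Fermat.Agent.S29.EisChiChar

/-!
# The limit at `i∞` of weighted Eisenstein series and nonvanishing (S29 chain, R1 (b))

`tendsto_eisW_zn` : along `i (n + 2)` the weighted Eisenstein series tends to
`∑' v, limTerm w k v` (only the `v` with `v 0 = 0` survive);
`tsum_limTerm_wChi` : for a character `χ` with `χ T = 1`, `χ (-1) = 1` and even `k` this is `2`;
`eisChi_ne_zero` : the twisted Eisenstein series is not identically zero.
-/

set_option linter.style.haveILetI false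
set_option linter.unusedSectionVars false

namespace Fermat.Agent.S29.EisChi

open ModularForm UpperHalfPlane Complex Matrix CongruenceSubgroup EisensteinSeries Filter Topology
  Manifold

open scoped MatrixGroups

noncomputable section

/-! ### The limit at `i∞` -/

/-- The point `i (n + 2)` of the upper half plane. -/
def zn (n : ℕ) : ℍ := ⟨⟨0, (n : ℝ) + 2⟩, by positivity⟩

lemma zn_im (n : ℕ) : (zn n).im = (n : ℝ) + 2 := rfl

lemma zn_re (n : ℕ) : (zn n).re = 0 := rfl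

lemma zn_coe (n : ℕ) : ((zn n : ℍ) : ℂ) = ⟨0, (n : ℝ) + 2⟩ := rfl

lemma zn_mem_verticalStrip (n : ℕ) : zn n ∈ verticalStrip 1 2 := by
  refine ⟨?_, ?_⟩
  · rw [zn_re]; simp
  · rw [zn_im]; linarith [Nat.cast_nonneg (α := ℝ) n]

lemma norm_term_zn_le {w : (Fin 2 → ℤ) → ℂ} (hw : ∀ v, ‖w v‖ ≤ 1) {k : ℤ} (hk : 3 ≤ k)
    (n : ℕ) (v : Fin 2 → ℤ) :
    ‖w v * eisSummand k v (zn n)‖ ≤ r ⟨⟨1, 2⟩, Nat.ofNat_pos⟩ ^ (-k) * ‖v‖ ^ (-k) := by
  have hk' : (2 : ℝ) < k := by norm_cast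
  refine (norm_term_le hw k v (zn n)).trans ?_
  simp_rw [eisSummand, norm_zpow]
  exact_mod_cast
    summand_bound_of_mem_verticalStrip (lt_trans two_pos hk').le v two_pos
      (zn_mem_verticalStrip n)

lemma summable_bound_zn {k : ℤ} (hk : 3 ≤ k) :
    Summable fun v : Fin 2 → ℤ => r ⟨⟨1, 2⟩, Nat.ofNat_pos⟩ ^ (-k) * ‖v‖ ^ (-k) := by
  have hk' : (2 : ℝ) < k := by norm_cast
  exact_mod_cast (summable_one_div_norm_rpow hk').mul_left <| r ⟨⟨1, 2⟩, Nat.ofNat_pos⟩ ^ (-k)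

lemma eisSummand_zn_of_eq_zero (k : ℤ) {v : Fin 2 → ℤ} (h : v 0 = 0) (n : ℕ) :
    eisSummand k v (zn n) = ((v 1 : ℤ) : ℂ) ^ (-k) := by
  simp [eisSummand, h]

lemma le_norm_linear_zn {v : Fin 2 → ℤ} (h : v 0 ≠ 0) (n : ℕ) :
    (n : ℝ) + 2 ≤ ‖((v 0 : ℤ) : ℂ) * ((zn n : ℍ) : ℂ) + ((v 1 : ℤ) : ℂ)‖ := by
  refine le_trans ?_ (Complex.abs_im_le_norm _)
  have h1 : (((v 0 : ℤ) : ℂ) * ((zn n : ℍ) : ℂ) + ((v 1 : ℤ) : ℂ)).im
      = (v 0 : ℝ) * ((n : ℝ) + 2) := by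
    simp [zn_coe]
  rw [h1, abs_mul, abs_of_nonneg (by positivity : (0 : ℝ) ≤ (n : ℝ) + 2)]
  have h2 : (1 : ℝ) ≤ |(v 0 : ℝ)| := by
    have : (1 : ℤ) ≤ |v 0| := Int.one_le_abs h
    exact_mod_cast this
  nlinarith [Nat.cast_nonneg (α := ℝ) n]

lemma norm_eisSummand_zn_le {k : ℤ} (hk : 3 ≤ k) {v : Fin 2 → ℤ} (h : v 0 ≠ 0) (n : ℕ) :
    ‖eisSummand k v (zn n)‖ ≤ ((n : ℝ) + 2)⁻¹ := by
  have h1 := le_norm_linear_zn h n
  have hpos : (0 : ℝ) < (n : ℝ) + 2 := by positivity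
  have h2 : (1 : ℝ) ≤ ‖((v 0 : ℤ) : ℂ) * ((zn n : ℍ) : ℂ) + ((v 1 : ℤ) : ℂ)‖ := by linarith
  rw [eisSummand, norm_zpow]
  calc ‖((v 0 : ℤ) : ℂ) * ((zn n : ℍ) : ℂ) + ((v 1 : ℤ) : ℂ)‖ ^ (-k)
      ≤ ‖((v 0 : ℤ) : ℂ) * ((zn n : ℍ) : ℂ) + ((v 1 : ℤ) : ℂ)‖ ^ (-1 : ℤ) :=
        zpow_le_zpow_right₀ h2 (by linarith)
    _ = ‖((v 0 : ℤ) : ℂ) * ((zn n : ℍ) : ℂ) + ((v 1 : ℤ) : ℂ)‖⁻¹ := zpow_neg_one _
    _ ≤ ((n : ℝ) + 2)⁻¹ := inv_anti₀ hpos h1

lemma tendsto_inv_nat_add_two : Tendsto (fun n : ℕ => ((n : ℝ) + 2)⁻¹) atTop (𝓝 0) := by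
  have h : Tendsto (fun n : ℕ => (n : ℝ) + 2) atTop atTop :=
    tendsto_atTop_add_const_right _ _ tendsto_natCast_atTop_atTop
  exact tendsto_inv_atTop_zero.comp h

/-- The pointwise limit of the terms along `i (n + 2)`. -/
def limTerm (w : (Fin 2 → ℤ) → ℂ) (k : ℤ) (v : Fin 2 → ℤ) : ℂ :=
  if v 0 = 0 then w v * ((v 1 : ℤ) : ℂ) ^ (-k) else 0

lemma tendsto_term_zn (w : (Fin 2 → ℤ) → ℂ) {k : ℤ} (hk : 3 ≤ k) (v : Fin 2 → ℤ) :
    Tendsto (fun n : ℕ => w v * eisSummand k v (zn n)) atTop (𝓝 (limTerm w k v)) := by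
  unfold limTerm
  split_ifs with h
  · simp_rw [eisSummand_zn_of_eq_zero k h]
    exact tendsto_const_nhds
  · have h0 : Tendsto (fun n : ℕ => eisSummand k v (zn n)) atTop (𝓝 0) :=
      squeeze_zero_norm (fun n => norm_eisSummand_zn_le hk h n) tendsto_inv_nat_add_two
    have := h0.const_mul (w v)
    rwa [mul_zero] at this

/-- **The limit at `i∞`** of a weighted Eisenstein series. -/
theorem tendsto_eisW_zn {w : (Fin 2 → ℤ) → ℂ} (hw : ∀ v, ‖w v‖ ≤ 1) {k : ℤ} (hk : 3 ≤ k) :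
    Tendsto (fun n : ℕ => eisW w k (zn n)) atTop (𝓝 (∑' v : Fin 2 → ℤ, limTerm w k v)) := by
  unfold eisW
  exact tendsto_tsum_of_dominated_convergence (summable_bound_zn hk)
    (fun v => tendsto_term_zn w hk v) (Eventually.of_forall fun n v => norm_term_zn_le hw hk n v)

/-! ### The value of the limit for a character -/

variable {N : ℕ}

lemma isBottom_of_zero_left {v : Fin 2 → ℤ} (h : IsBottom N v) (h0 : v 0 = 0) :
    v = ![0, 1] ∨ v = ![0, -1] := by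
  obtain ⟨δ, rfl⟩ := h
  have hdet := (δ : SL(2, ℤ)).2
  rw [Matrix.det_fin_two] at hdet
  have h0' : (δ : SL(2, ℤ)).1 1 0 = 0 := h0
  rw [h0', mul_zero, sub_zero, mul_comm] at hdet
  rcases Int.eq_one_or_neg_one_of_mul_eq_one hdet with h1 | h1
  · left
    ext i
    fin_cases i
    · exact h0'
    · exact h1
  · right
    ext i
    fin_cases i
    · exact h0'
    · exact h1

lemma bottom_neg_one : (-1 : SL(2, ℤ)).1 1 = ![0, -1] := by
  ext i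
  fin_cases i <;> simp

lemma wChi_zero_one {χ : Gamma0 N →* ℂˣ} (hT : χ (TGamma0 N) = 1) : wChi χ ![0, 1] = 1 := by
  have h := wChi_bottom hT (1 : Gamma0 N)
  rw [map_one, inv_one, Units.val_one] at h
  rw [← h]
  congr 1
  exact bottom_one.symm

lemma wChi_zero_neg_one {χ : Gamma0 N →* ℂˣ} (hT : χ (TGamma0 N) = 1)
    (hneg : χ (negOneGamma0 N) = 1) : wChi χ ![0, -1] = 1 := by
  have h := wChi_bottom hT (negOneGamma0 N)
  rw [hneg, inv_one, Units.val_one] at h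
  rw [← h]
  congr 1
  exact bottom_neg_one.symm

lemma limTerm_wChi_eq_zero {χ : Gamma0 N →* ℂˣ} (k : ℤ) {v : Fin 2 → ℤ}
    (h1 : v ≠ ![0, 1]) (h2 : v ≠ ![0, -1]) : limTerm (wChi χ) k v = 0 := by
  unfold limTerm
  split_ifs with h0
  · have hb : ¬ IsBottom N v := fun hb => by
      rcases isBottom_of_zero_left hb h0 with h | h
      · exact h1 h
      · exact h2 h
    rw [wChi_of_not_isBottom χ hb, zero_mul]
  · rfl

/-- The limit at `i∞` of the twisted Eisenstein series of even weight is `2`. -/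
theorem tsum_limTerm_wChi {χ : Gamma0 N →* ℂˣ} (hT : χ (TGamma0 N) = 1)
    (hneg : χ (negOneGamma0 N) = 1) {k : ℤ} (hk : Even k) :
    ∑' v : Fin 2 → ℤ, limTerm (wChi χ) k v = 2 := by
  classical
  have hne : (![0, 1] : Fin 2 → ℤ) ≠ ![0, -1] := by
    intro h
    have := congrFun h 1
    simp at this
  rw [tsum_eq_sum (s := {![0, 1], ![0, -1]}) (fun v hv => by
    simp only [Finset.mem_insert, Finset.mem_singleton, not_or] at hv
    exact limTerm_wChi_eq_zero k hv.1 hv.2), Finset.sum_pair hne]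
  have e1 : limTerm (wChi χ) k ![0, 1] = 1 := by
    unfold limTerm
    rw [if_pos (show (![0, 1] : Fin 2 → ℤ) 0 = 0 from rfl), wChi_zero_one hT]
    simp
  have e2 : limTerm (wChi χ) k ![0, -1] = 1 := by
    unfold limTerm
    rw [if_pos (show (![0, -1] : Fin 2 → ℤ) 0 = 0 from rfl), wChi_zero_neg_one hT hneg]
    simp [hk.neg.neg_one_zpow]
  rw [e1, e2]
  norm_num

theorem tendsto_eisChi_zn {χ : Gamma0 N →* ℂˣ} (hχ : ∀ γ, ‖((χ γ : ℂˣ) : ℂ)‖ = 1)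
    (hT : χ (TGamma0 N) = 1) (hneg : χ (negOneGamma0 N) = 1) {k : ℤ} (hk : 3 ≤ k)
    (hk2 : Even k) :
    Tendsto (fun n : ℕ => eisChi χ k (zn n)) atTop (𝓝 2) := by
  have h := tendsto_eisW_zn (norm_wChi_le hχ) hk
  rwa [tsum_limTerm_wChi hT hneg hk2] at h

/-- **Nonvanishing** of the twisted Eisenstein series. -/
theorem exists_eisChi_ne_zero {χ : Gamma0 N →* ℂˣ} (hχ : ∀ γ, ‖((χ γ : ℂˣ) : ℂ)‖ = 1)
    (hT : χ (TGamma0 N) = 1) (hneg : χ (negOneGamma0 N) = 1) {k : ℤ} (hk : 3 ≤ k)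
    (hk2 : Even k) : ∃ z : ℍ, eisChi χ k z ≠ 0 := by
  by_contra hcon
  push Not at hcon
  have h := tendsto_eisChi_zn hχ hT hneg hk hk2
  simp_rw [hcon] at h
  have h2 : (0 : ℂ) = 2 := tendsto_nhds_unique tendsto_const_nhds h
  norm_num at h2

theorem eisChi_ne_zero {χ : Gamma0 N →* ℂˣ} (hχ : ∀ γ, ‖((χ γ : ℂˣ) : ℂ)‖ = 1)
    (hT : χ (TGamma0 N) = 1) (hneg : χ (negOneGamma0 N) = 1) {k : ℤ} (hk : 3 ≤ k)
    (hk2 : Even k) : eisChi χ k ≠ 0 := by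
  obtain ⟨z, hz⟩ := exists_eisChi_ne_zero hχ hT hneg hk hk2
  intro h
  exact hz (by rw [h]; rfl)

end

end Fermat.Agent.S29.EisChi
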