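/-
S29 (item 90), piece R5(c) (helper1): the BRIDGE between primes of the ring of integers of a finite
Galois extension `E ⊂ ℚ̄` and Frobenius elements of valuation subrings of `ℚ̄`.

`exists_frob_of_prime`: for an unramified prime `v` of `𝓞 E` over `p` and `σ ∈ G_ℚ` whose restriction
to `E` lies in the decomposition group of `v`, there are a valuation subring `A` of `ℚ̄` over `p`, a
Frobenius element `τ` at `A` and `j` with `τ ^ j = σ` on `E`.
-/
import Mathlib
import Fermat.Agent.S29.Contract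
import Fermat.Agent.Lib.FrobeniusExists

set_option autoImplicit false
set_option linter.style.haveILetI false
set_option linter.unusedSectionVars false

open NumberField
open scoped Pointwise

noncomputable section

namespace Fermat.Agent.S29.FDB

variable (E : IntermediateField ℚ (AlgebraicClosure ℚ))

/-- the embedding of the integers of `E` into `ℚ̄`. -/
def intEmb : 𝓞 E →+* AlgebraicClosure ℚ :=
  (algebraMap E (AlgebraicClosure ℚ)).comp (algebraMap (𝓞 E) E)

theorem intEmb_apply (x : 𝓞 E) : intEmb E x = ((x : E) : AlgebraicClosure ℚ) := rfl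

theorem intEmb_injective : Function.Injective (intEmb E) :=
  (algebraMap E (AlgebraicClosure ℚ)).injective.comp RingOfIntegers.coe_injective

theorem isIntegral_intEmb (x : 𝓞 E) : IsIntegral ℤ (intEmb E x) := by
  have h1 : IsIntegral ℤ (x : E) := RingOfIntegers.isIntegral_coe x
  exact h1.map (IsScalarTower.toAlgHom ℤ E (AlgebraicClosure ℚ))

variable [FiniteDimensional ℚ E]

theorem numberField : NumberField E :=
  { to_charZero := inferInstance, to_finiteDimensional := inferInstance }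

/-- a valuation subring of `ℚ̄` whose maximal ideal cuts out a given maximal ideal of `𝓞 E`. -/
theorem exists_valuationSubring (v : Ideal (𝓞 E)) (hv : v.IsMaximal) :
    ∃ A : ValuationSubring (AlgebraicClosure ℚ),
      ∀ x : 𝓞 E, intEmb E x ∈ A.nonunits ↔ x ∈ v := by
  let R₀ : Subring (AlgebraicClosure ℚ) := (intEmb E).range
  let f : 𝓞 E →+* R₀ := (intEmb E).rangeRestrict
  have hf : Function.Injective f := by
    intro a b hab
    have h0 : ((f a : R₀) : AlgebraicClosure ℚ) = ((f b : R₀) : AlgebraicClosure ℚ) := by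
      rw [hab]
    exact intEmb_injective E h0
  have hfs : Function.Surjective f := (intEmb E).rangeRestrict_surjective
  have hI : Ideal.map f v ≠ ⊤ := by
    intro h
    have h1 : (1 : R₀) ∈ Ideal.map f v := by rw [h]; trivial
    rw [Ideal.mem_map_iff_of_surjective f hfs] at h1
    obtain ⟨x, hx, hx1⟩ := h1
    have : x = 1 := hf (by rw [hx1, map_one])
    rw [this] at hx
    exact hv.ne_top ((Ideal.eq_top_iff_one v).2 hx)
  obtain ⟨A, hA1, hA2⟩ := Ideal.image_subset_nonunits_valuationSubring (Ideal.map f v) hI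
  refine ⟨A, fun x => ⟨fun hx => ?_, fun hx => ?_⟩⟩
  · by_contra hxv
    obtain ⟨y, i, hi, hyi⟩ := hv.exists_inv hxv
    have h1 : intEmb E y * intEmb E x + intEmb E i = 1 := by
      rw [← map_mul, ← map_add, hyi, map_one]
    have hyA : intEmb E y ∈ A := hA1 ⟨y, rfl⟩
    have hiA : intEmb E i ∈ A.nonunits :=
      hA2 ⟨f i, Ideal.mem_map_of_mem f hi, rfl⟩
    have h2 : intEmb E y * intEmb E x ∈ A.nonunits := by
      rw [A.mem_nonunits_iff, map_mul]
      calc A.valuation (intEmb E y) * A.valuation (intEmb E x)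
          ≤ 1 * A.valuation (intEmb E x) :=
            mul_le_mul_left ((A.valuation_le_one_iff _).2 hyA) _
        _ = A.valuation (intEmb E x) := one_mul _
        _ < 1 := A.mem_nonunits_iff.1 hx
    have h3 : (1 : AlgebraicClosure ℚ) ∈ A.nonunits := h1 ▸ add_mem h2 hiA
    rw [A.mem_nonunits_iff, map_one] at h3
    exact lt_irrefl _ h3
  · exact hA2 ⟨f x, Ideal.mem_map_of_mem f hx, rfl⟩

variable [IsGalois ℚ E]

/-- restriction to `E` and the embedding into `ℚ̄`. -/
theorem intEmb_smul (g : GQ) (x : 𝓞 E) :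
    intEmb E ((AlgEquiv.restrictNormalHom E g) • x) = g (intEmb E x) :=
  AlgEquiv.restrictNormal_commutes g E (x : E)

/-- the number of elements of the residue field. -/
theorem card_quot {p : ℕ} (hp : p.Prime) (v : Ideal (𝓞 E)) [v.IsPrime]
    [v.LiesOver (Ideal.span {(p : ℤ)})] (hvmax : v.IsMaximal) :
    Nat.card (𝓞 E ⧸ v) = p ^ (v.inertiaDeg ℤ) := by
  haveI : NumberField E := numberField E
  have hpp : Prime (p : ℤ) := Nat.prime_iff_prime_int.mp hp
  haveI hpZ : (Ideal.span {(p : ℤ)}).IsPrime := by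
    rw [Ideal.span_singleton_prime hpp.ne_zero]
    exact hpp
  haveI hpmax : (Ideal.span {(p : ℤ)}).IsMaximal :=
    hpZ.isMaximal (by simpa using hpp.ne_zero)
  have h1 := Ideal.absNorm_eq_pow_inertiaDeg' v hp
  rw [Ideal.inertiaDeg'_eq_inertiaDeg (Ideal.span {(p : ℤ)}) v] at h1
  rw [← h1, Ideal.absNorm_apply, Submodule.cardQuot_apply]

/-- **R5(c), the bridge.** -/
theorem exists_frob_of_prime
    {p : ℕ} (hp : p.Prime) (v : Ideal (𝓞 E)) [v.IsPrime] [v.LiesOver (Ideal.span {(p : ℤ)})]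
    (hur : (Ideal.span {(p : ℤ)}).ramificationIdxIn (𝓞 E) = 1)
    (σ : GQ) (hσ : AlgEquiv.restrictNormalHom E σ ∈ MulAction.stabilizer Gal(E/ℚ) v) :
    ∃ A : ValuationSubring (AlgebraicClosure ℚ), A.LiesOverPrime p ∧ ∃ τ : GQ,
      A.IsFrobeniusAt τ p ∧ ∃ j : ℕ, ∀ y ∈ E, (τ ^ j) y = σ y := by
  classical
  haveI : NumberField E := numberField E
  have hpp : Prime (p : ℤ) := Nat.prime_iff_prime_int.mp hp
  haveI hpZ : (Ideal.span {(p : ℤ)}).IsPrime := by
    rw [Ideal.span_singleton_prime hpp.ne_zero]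
    exact hpp
  have hpne : Ideal.span {(p : ℤ)} ≠ ⊥ := by simpa using hpp.ne_zero
  have hvne : v ≠ ⊥ := Ideal.ne_bot_of_liesOver_of_ne_bot hpne v
  have hvmax : v.IsMaximal := Ideal.IsPrime.isMaximal inferInstance hvne
  obtain ⟨A, hA⟩ := exists_valuationSubring E v hvmax
  -- `A` lies over `p`
  have hpv : ((p : ℤ) : 𝓞 E) ∈ v := by
    have h1 : (p : ℤ) ∈ Ideal.span {(p : ℤ)} := Ideal.subset_span rfl
    have h2 := (Ideal.mem_of_liesOver v (Ideal.span {(p : ℤ)}) (p : ℤ)).1 h1
    simpa using h2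
  have hAp : A.LiesOverPrime p := by
    have h1 := (hA ((p : ℤ) : 𝓞 E)).2 hpv
    have h2 : intEmb E ((p : ℤ) : 𝓞 E) = (p : AlgebraicClosure ℚ) := by
      rw [map_intCast, Int.cast_natCast]
    rw [h2] at h1
    exact h1
  -- the Frobenius element
  obtain ⟨τ, h1, h2⟩ := Fermat.Agent.FrobLib.exists_frob_on_integers A p hp hAp
  have hτ : A.IsFrobeniusAt τ p := Fermat.Agent.FrobLib.isFrobeniusAt_of_partB A hp hAp τ h1 h2
  refine ⟨A, hAp, τ, hτ, ?_⟩
  set τE : Gal(E/ℚ) := AlgEquiv.restrictNormalHom E τ with hτE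
  -- `τE` preserves `v`
  have hmem : ∀ x : 𝓞 E, τE • x ∈ v ↔ x ∈ v := by
    intro x
    rw [← hA, ← hA, intEmb_smul]
    exact (h1 _ (isIntegral_intEmb E x)).symm
  have hstab : τE ∈ MulAction.stabilizer Gal(E/ℚ) v := by
    rw [MulAction.mem_stabilizer_iff]
    ext x
    rw [Ideal.mem_pointwise_smul_iff_inv_smul_mem, ← hmem (τE⁻¹ • x), smul_inv_smul]
  -- the Frobenius congruence
  have hfrob1 : ∀ x : 𝓞 E, Ideal.Quotient.mk v (τE • x) = (Ideal.Quotient.mk v x) ^ p := by
    intro x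
    rw [← map_pow, Ideal.Quotient.eq, ← hA, map_sub, map_pow, intEmb_smul]
    exact h2 _ (isIntegral_intEmb E x)
  have hfrob : ∀ (i : ℕ) (x : 𝓞 E),
      Ideal.Quotient.mk v ((τE ^ i) • x) = (Ideal.Quotient.mk v x) ^ (p ^ i) := by
    intro i
    induction i with
    | zero => intro x; simp
    | succ i ih =>
      intro x
      rw [pow_succ', mul_smul, hfrob1, ih, ← pow_mul, pow_succ]
  -- the order of `τE` is at least `f`
  have hcardκ := card_quot E hp v hvmax
  have hfin : Finite (𝓞 E ⧸ v) := by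
    apply Nat.finite_of_card_ne_zero
    rw [hcardκ]
    exact pow_ne_zero _ hp.ne_zero
  letI : Field (𝓞 E ⧸ v) := Ideal.Quotient.field v
  letI : Fintype (𝓞 E ⧸ v) := Fintype.ofFinite _
  have hord : v.inertiaDeg ℤ ≤ orderOf τE := by
    have hn : 0 < orderOf τE := orderOf_pos τE
    set n := orderOf τE with hn'
    have hall : ∀ a : 𝓞 E ⧸ v, a ^ (p ^ n) = a := by
      intro a
      obtain ⟨x, rfl⟩ := Ideal.Quotient.mk_surjective a
      rw [← hfrob n x, hn', pow_orderOf_eq_one, one_smul]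
    have hpn : 1 < p ^ n := Nat.one_lt_pow hn.ne' hp.one_lt
    have hP : (Polynomial.X ^ (p ^ n) - Polynomial.X : Polynomial (𝓞 E ⧸ v)) ≠ 0 :=
      FiniteField.X_pow_card_sub_X_ne_zero _ hpn
    have hroots : (Finset.univ : Finset (𝓞 E ⧸ v)).val ⊆
        (Polynomial.X ^ (p ^ n) - Polynomial.X : Polynomial (𝓞 E ⧸ v)).roots := by
      intro a _
      rw [Polynomial.mem_roots hP, Polynomial.IsRoot, Polynomial.eval_sub, Polynomial.eval_pow,
        Polynomial.eval_X, hall a, sub_self]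
    have h3 := Polynomial.card_le_degree_of_subset_roots hroots
    rw [FiniteField.X_pow_card_sub_X_natDegree_eq _ hpn, Finset.card_univ,
      ← Nat.card_eq_fintype_card, hcardκ] at h3
    exact (Nat.pow_le_pow_iff_right hp.one_lt).1 h3
  -- the decomposition group is generated by `τE`
  have hcardD : Nat.card (MulAction.stabilizer Gal(E/ℚ) v) = v.inertiaDeg ℤ := by
    rw [Ideal.card_stabilizer_eq (G := Gal(E/ℚ)) (Ideal.span {(p : ℤ)}) v, hur, one_mul,
      Ideal.inertiaDegIn_eq_inertiaDeg (Ideal.span {(p : ℤ)}) v Gal(E/ℚ)]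
  have hle : Subgroup.zpowers τE ≤ MulAction.stabilizer Gal(E/ℚ) v := by
    rw [Subgroup.zpowers_le]
    exact hstab
  have heq : Subgroup.zpowers τE = MulAction.stabilizer Gal(E/ℚ) v := by
    apply Subgroup.eq_of_le_of_card_ge hle
    rw [hcardD, Nat.card_zpowers]
    exact hord
  have hσ' : AlgEquiv.restrictNormalHom E σ ∈ Subgroup.zpowers τE := heq ▸ hσ
  obtain ⟨j, hj⟩ := (isOfFinOrder_of_finite τE).mem_powers_iff_mem_zpowers.2 hσ'
  refine ⟨j, fun y hy => ?_⟩
  have hj' : AlgEquiv.restrictNormalHom E (τ ^ j) = AlgEquiv.restrictNormalHom E σ := by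
    rw [map_pow]
    exact hj
  have e1 := AlgEquiv.restrictNormal_commutes (τ ^ j) E ⟨y, hy⟩
  have e2 := AlgEquiv.restrictNormal_commutes σ E ⟨y, hy⟩
  have e3 : (AlgEquiv.restrictNormalHom E (τ ^ j)) ⟨y, hy⟩ =
      (AlgEquiv.restrictNormalHom E σ) ⟨y, hy⟩ := by rw [hj']
  have e1' : algebraMap E (AlgebraicClosure ℚ) ((AlgEquiv.restrictNormalHom E (τ ^ j)) ⟨y, hy⟩) =
      (τ ^ j) y := e1
  have e2' : algebraMap E (AlgebraicClosure ℚ) ((AlgEquiv.restrictNormalHom E σ) ⟨y, hy⟩) =
      σ y := e2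
  rw [← e1', ← e2', e3]

end Fermat.Agent.S29.FDB
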