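import Fermat.Agent.S29.FrobDensStrata
import Fermat.Agent.S29.FrobDensBridge

/-!
# S29 gamble, R5: the Frobenius density statement (helper9; bridge by helper1)
-/

set_option autoImplicit false

open NumberField IsDedekindDomain
open scoped Pointwise
open Fermat.Agent.S14.HD

namespace Fermat.Agent.S29.FD

/-- the Frobenius density statement for a finite Galois extension `E ⊂ ℚ̄`. -/
theorem frobDensity_galois (E : IntermediateField ℚ (AlgebraicClosure ℚ))
    [FiniteDimensional ℚ E] [IsGalois ℚ E] (S : Finset ℕ) (σ : GQ) :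
    ∃ ℓ : ℕ, ℓ.Prime ∧ ℓ ∉ S ∧ ∃ A : ValuationSubring (AlgebraicClosure ℚ), A.LiesOverPrime ℓ ∧
      ∃ τ : GQ, A.IsFrobeniusAt τ ℓ ∧ ∃ j : ℕ, ∀ y ∈ E, (τ ^ j) y = σ y := by
  classical
  have : NumberField E := FDB.numberField E
  set Bad : Finset ℕ := S ∪ (NumberField.discr E).natAbs.primeFactors with hBaddef
  have hBad : UnramOutside E Bad := by
    intro p hp hpB
    apply ramificationIdxIn_eq_one_of_not_dvd hp
    intro hdvd
    apply hpB
    rw [hBaddef, Finset.mem_union]
    right
    rw [Nat.mem_primeFactors]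
    refine ⟨hp, Int.natCast_dvd.mp hdvd, ?_⟩
    rw [Ne, Int.natAbs_eq_zero]
    exact NumberField.discr_ne_zero E
  obtain ⟨v, hv, hdec⟩ := exists_dec_eq hBad (AlgEquiv.restrictNormalHom E σ)
  have hp := ratPrime_prime v
  have := v.isPrime
  have := liesOver_ratPrime v
  have hσ : AlgEquiv.restrictNormalHom E σ ∈ MulAction.stabilizer Gal(E/ℚ) v.asIdeal := by
    have : AlgEquiv.restrictNormalHom E σ ∈ dec v := by
      rw [hdec]
      exact Subgroup.mem_zpowers _
    exact this
  obtain ⟨A, hA, τ, hτ, j, hj⟩ := FDB.exists_frob_of_prime E hp v.asIdeal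
    (hBad _ hp hv) σ hσ
  refine ⟨ratPrime v, hp, ?_, A, hA, τ, hτ, j, hj⟩
  intro hS
  exact hv (Finset.mem_union_left _ hS)

/-- **R5**: the Frobenius density statement of the contract. -/
theorem frobDensityStatement : FrobDensityStatement := by
  intro L hL S σ
  have : FiniteDimensional ℚ L := hL
  let E : IntermediateField ℚ (AlgebraicClosure ℚ) :=
    IntermediateField.normalClosure ℚ L (AlgebraicClosure ℚ)
  have : FiniteDimensional ℚ E := normalClosure.is_finiteDimensional ℚ L (AlgebraicClosure ℚ)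
  have : Algebra.IsAlgebraic ℚ (AlgebraicClosure ℚ) := AlgebraicClosure.isAlgebraic ℚ
  have : IsAlgClosure ℚ (AlgebraicClosure ℚ) := ⟨inferInstance, inferInstance⟩
  have : Normal ℚ (AlgebraicClosure ℚ) := IsAlgClosure.normal ℚ (AlgebraicClosure ℚ)
  have : Normal ℚ E := normalClosure.normal ℚ L (AlgebraicClosure ℚ)
  have : IsGalois ℚ E := ⟨⟩
  obtain ⟨ℓ, hℓ, hS, A, hA, τ, hτ, j, hj⟩ := frobDensity_galois E S σ
  refine ⟨ℓ, hℓ, hS, A, hA, τ, hτ, j, fun y hy => hj y ?_⟩
  exact IntermediateField.le_normalClosure L hy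

end Fermat.Agent.S29.FD
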