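/-
S29 (item 90), GLUE (helper4): `EigenOccurs` from a dictionary `Φ : X → J₀(N)[p]` (R1: additive,
injective, Hecke-equivariant) and an eigenvector in `k ⊗ X` (R2).  The only content is flatness:
an injective additive map between groups killed by `p` has an additive retraction.
-/
import Mathlib
import Fermat.Agent.S29.Contract

set_option autoImplicit false

open ModularCurve AlgebraicCurve Polynomial
open scoped TensorProduct

noncomputable section

namespace Fermat.Agent.S29.Glue

/-- an injective linear map of vector spaces has an additive retraction. -/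
theorem exists_retraction_aux {F X Y : Type} [Field F] [AddCommGroup X] [AddCommGroup Y]
    [Module F X] [Module F Y] (f : X →ₗ[F] Y) (hf : Function.Injective f) :
    ∃ r : Y →+ X, ∀ x, r (f x) = x := by
  obtain ⟨g, hg⟩ := LinearMap.exists_leftInverse_of_injective f (LinearMap.ker_eq_bot.mpr hf)
  exact ⟨g.toAddMonoidHom, fun x => DFunLike.congr_fun hg x⟩

/-- an injective additive map between groups killed by a prime `p` has a retraction. -/
theorem exists_retraction {p : ℕ} (hp : p.Prime) {X Y : Type} [AddCommGroup X] [AddCommGroup Y]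
    (hX : ∀ x : X, p • x = 0) (hY : ∀ y : Y, p • y = 0) (f : X →+ Y)
    (hf : Function.Injective f) : ∃ r : Y →+ X, ∀ x, r (f x) = x := by
  haveI : Fact p.Prime := ⟨hp⟩
  exact @exists_retraction_aux (ZMod p) X Y _ _ _ (AddCommGroup.zmodModule hX)
    (AddCommGroup.zmodModule hY)
    (@AddMonoidHom.toZModLinearMap p X Y _ _ (AddCommGroup.zmodModule hX)
      (AddCommGroup.zmodModule hY) f) hf

/-- flatness: the base change of an injective map between groups killed by `p` is injective. -/
theorem baseChange_injective {p : ℕ} (hp : p.Prime) {X Y : Type} [AddCommGroup X]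
    [AddCommGroup Y] (hY : ∀ y : Y, p • y = 0) (f : X →+ Y) (hf : Function.Injective f)
    (k : Type) [Field k] :
    Function.Injective (f.toIntLinearMap.baseChange k) := by
  have hX : ∀ x : X, p • x = 0 := fun x => hf (by rw [map_nsmul, hY, map_zero])
  obtain ⟨r, hr⟩ := exists_retraction hp hX hY f hf
  have h1 : r.toIntLinearMap ∘ₗ f.toIntLinearMap = LinearMap.id :=
    LinearMap.ext (fun x => hr x)
  have h2 : (r.toIntLinearMap.baseChange k) ∘ₗ (f.toIntLinearMap.baseChange k) =
      LinearMap.id := by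
    rw [← LinearMap.baseChange_comp, h1, LinearMap.baseChange_id]
  exact Function.LeftInverse.injective (g := r.toIntLinearMap.baseChange k)
    (fun x => DFunLike.congr_fun h2 x)

/-- equivariance passes to the base change. -/
theorem baseChange_equivariant {X Y : Type} [AddCommGroup X] [AddCommGroup Y]
    (f : X →ₗ[ℤ] Y) (TX : X →ₗ[ℤ] X) (TY : Y →ₗ[ℤ] Y) (h : ∀ x, f (TX x) = TY (f x))
    (k : Type) [Field k] (v : k ⊗[ℤ] X) :
    f.baseChange k (TX.baseChange k v) = TY.baseChange k (f.baseChange k v) := by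
  have h1 : f ∘ₗ TX = TY ∘ₗ f := LinearMap.ext h
  have h2 := congrArg (LinearMap.baseChange k) h1
  rw [LinearMap.baseChange_comp, LinearMap.baseChange_comp] at h2
  exact DFunLike.congr_fun h2 v

/-- **GLUE**: R1 (dictionary) + R2 (eigenvector) ⟹ `EigenOccurs`. -/
theorem eigenOccurs_of_dict (N : ℕ) [NeZero N] (g : CuspForm (CongruenceSubgroup.Gamma0 N) 2)
    (p : ℕ) (hp : p.Prime) (k : Type) [Field k] (φ : integralClosure ℤ ℂ →+* k)
    {X : Type} [AddCommGroup X] (Φ : X →+ torsP N p) (hΦ : Function.Injective Φ)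
    (T : Nat.Primes → X →ₗ[ℤ] X)
    (hT : ∀ ℓ : Nat.Primes, ¬ (ℓ : ℕ) ∣ N * p → ∀ x : X, Φ (T ℓ x) = heckeTors N p ℓ (Φ x))
    (v : k ⊗[ℤ] X) (hv : v ≠ 0)
    (hev : ∀ ℓ : ℕ, (hℓ : ℓ.Prime) → ¬ ℓ ∣ N * p →
      ∃ a : integralClosure ℤ ℂ, (a : ℂ) = ModularFormClass.qCoeff g ℓ ∧
        (T ⟨ℓ, hℓ⟩).baseChange k v = φ a • v) :
    EigenOccurs N g p k φ := by
  have hY : ∀ y : torsP N p, p • y = 0 := fun y =>
    Subtype.ext ((mem_torsP_iff N p (y : JZero N)).mp y.2)
  have hinj := baseChange_injective hp hY Φ hΦ k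
  refine ⟨Φ.toIntLinearMap.baseChange k v, fun h => hv (hinj (h.trans (map_zero _).symm)), ?_⟩
  intro ℓ hℓ hℓNp
  obtain ⟨a, ha, hTa⟩ := hev ℓ hℓ hℓNp
  refine ⟨a, ha, ?_⟩
  have h1 := baseChange_equivariant Φ.toIntLinearMap (T ⟨ℓ, hℓ⟩) (heckeTors N p ⟨ℓ, hℓ⟩)
    (fun x => hT ⟨ℓ, hℓ⟩ hℓNp x) k v
  exact h1.symm.trans ((congrArg (Φ.toIntLinearMap.baseChange k) hTa).trans (map_smul _ _ _))

end Fermat.Agent.S29.Glue
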