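/-
S29 gamble (item 90), piece R3 (lead): the Hecke operators on `J₀(N)` commute with the
arithmetic Galois action.

* `pushforwardAlong_smul` (abstract): the pushforward of divisors is equivariant;
* `heckeDivBar_smul` : `T_ℓ (σ • D) = σ • T_ℓ D` on divisors of `F_N / ℚ̄`;
* `heckeOperatorBar_smul` : `T_ℓ (σ • x) = σ • T_ℓ x` on `J₀(N)`.
-/
import Mathlib
import Fermat.Agent.S37.PullEquiv
import Fermat.Agent.S37.HeckePic
import Fermat.Agent.S37.PicMaps
import Fermat.Agent.S37.PullBoundMod

set_option autoImplicit false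
set_option linter.unusedSectionVars false
set_option linter.style.haveILetI false

open AlgebraicCurve ModularCurve

noncomputable section

namespace Fermat.Agent.S29.HG

open Fermat.Agent.S37

section Abstract

variable {K F F' : Type*} [Field K] [Field F] [Field F'] [Algebra K F] [Algebra K F']
variable (φ : F →ₐ[K] F') (hφ : φ.toRingHom.IsIntegral)
variable {g : SemilinearAut K F} {g' : SemilinearAut K F'}

/-- the inertia degree is `1` if all places have degree `1`. -/
theorem inertiaDegAlong_eq_one (hdeg : ∀ v : Place K F, v.deg = 1)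
    (hdeg' : ∀ w : Place K F', w.deg = 1) (w : Place K F') :
    w.inertiaDegAlong φ hφ = 1 := by
  letI := algebraAlong φ
  haveI := isScalarTower_along φ
  haveI := isIntegral_along φ hφ
  have h := w.deg_restrict_mul_inertiaDeg (F := F)
  rw [hdeg, hdeg', one_mul] at h
  exact h

/-- **the pushforward of divisors is equivariant** (all places of degree `1`). -/
theorem pushforwardAlong_smul (hdeg : ∀ v : Place K F, v.deg = 1)
    (hdeg' : ∀ w : Place K F', w.deg = 1)
    (h : SemilinearAut.IntertwinesAlong φ.toRingHom g g') (E : Divisor K F') :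
    Divisor.pushforwardAlong φ hφ (g' • E) = g • Divisor.pushforwardAlong φ hφ E := by
  induction E using Finsupp.induction with
  | zero => rw [smul_zero, map_zero, smul_zero]
  | single_add w n E _ _ ih =>
    rw [smul_add, map_add, map_add, smul_add, ih]
    congr 1
    rw [SemilinearAut.smul_single, Divisor.pushforwardAlong_single,
      Divisor.pushforwardAlong_single, SemilinearAut.smul_single,
      PullEquiv.restrictAlong_smul φ hφ h, inertiaDegAlong_eq_one φ hφ hdeg hdeg',
      inertiaDegAlong_eq_one φ hφ hdeg hdeg']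

end Abstract

section Modular

variable (N ℓ : ℕ) [NeZero N] [NeZero ℓ]
variable (σ : AlgebraicClosure ℚ ≃ₐ[ℚ] AlgebraicClosure ℚ)

/-- `α` intertwines the arithmetic Galois actions. -/
theorem intertwines_alpha :
    SemilinearAut.IntertwinesAlong (heckeAlphaBar (AlgebraicClosure ℚ) N ℓ).toRingHom
      (arithmeticGalois (modularFunctionFieldFull N) σ)
      (arithmeticGalois (modularFunctionFieldFull (N * ℓ)) σ) := by
  intro x
  apply Subtype.ext
  show ModularCurve.coeffMap (σ : AlgebraicClosure ℚ →+* AlgebraicClosure ℚ)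
      ((heckeAlphaBar (AlgebraicClosure ℚ) N ℓ x : modularFunctionFieldBar (N * ℓ)) :
        LaurentSeries (AlgebraicClosure ℚ)) =
    ((heckeAlphaBar (AlgebraicClosure ℚ) N ℓ
      (arithmeticGalois (modularFunctionFieldFull N) σ • x) : modularFunctionFieldBar (N * ℓ)) :
        LaurentSeries (AlgebraicClosure ℚ))
  rw [coe_heckeAlphaBar, coe_heckeAlphaBar, coe_arithmeticGalois_smul]

/-- coefficientwise maps commute with `q ↦ q^n`. -/
theorem coeffMap_qExpand_comm {R S : Type*} [CommRing R] [CommRing S] (f : R →+* S) (n : ℕ)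
    [NeZero n] (x : LaurentSeries R) :
    ModularCurve.coeffMap f (qExpand R n x) = qExpand S n (ModularCurve.coeffMap f x) := by
  ext k
  by_cases hk : (n : ℤ) ∣ k
  · obtain ⟨m, rfl⟩ := hk
    rw [ModularCurve.coeffMap_coeff, qExpand_coeff_mul, qExpand_coeff_mul,
      ModularCurve.coeffMap_coeff]
  · rw [ModularCurve.coeffMap_coeff, qExpand_coeff_of_not_dvd n _ hk,
      qExpand_coeff_of_not_dvd n _ hk, map_zero]

/-- `β` intertwines the arithmetic Galois actions. -/
theorem intertwines_beta :
    SemilinearAut.IntertwinesAlong (heckeBetaBar (AlgebraicClosure ℚ) N ℓ).toRingHom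
      (arithmeticGalois (modularFunctionFieldFull N) σ)
      (arithmeticGalois (modularFunctionFieldFull (N * ℓ)) σ) := by
  intro x
  apply Subtype.ext
  show ModularCurve.coeffMap (σ : AlgebraicClosure ℚ →+* AlgebraicClosure ℚ)
      ((heckeBetaBar (AlgebraicClosure ℚ) N ℓ x : modularFunctionFieldBar (N * ℓ)) :
        LaurentSeries (AlgebraicClosure ℚ)) =
    ((heckeBetaBar (AlgebraicClosure ℚ) N ℓ
      (arithmeticGalois (modularFunctionFieldFull N) σ • x) : modularFunctionFieldBar (N * ℓ)) :
        LaurentSeries (AlgebraicClosure ℚ))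
  rw [coe_heckeBetaBar, coe_heckeBetaBar, coe_arithmeticGalois_smul, coeffMap_qExpand_comm]

/-- **`T_ℓ` commutes with Galois on divisors.** -/
theorem heckeDivBar_smul
    [HasPrincipalDivisors (AlgebraicClosure ℚ) (modularFunctionFieldBar (N * ℓ))]
    (hα : HeckeAlphaBarIntegral (AlgebraicClosure ℚ) N ℓ)
    (hβ : HeckeBetaBarIntegral (AlgebraicClosure ℚ) N ℓ)
    (D : Divisor (AlgebraicClosure ℚ) (modularFunctionFieldBar N)) :
    heckeDivBar hα hβ (arithmeticGalois (modularFunctionFieldFull N) σ • D) =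
      arithmeticGalois (modularFunctionFieldFull N) σ • heckeDivBar hα hβ D := by
  haveI : NeZero (N * ℓ) := ⟨Nat.mul_ne_zero (NeZero.ne N) (NeZero.ne ℓ)⟩
  show Divisor.pushforwardAlong _ hα (Divisor.pullbackAlong _ hβ _) =
    _ • Divisor.pushforwardAlong _ hα (Divisor.pullbackAlong _ hβ D)
  rw [PullEquiv.pullbackAlong_smul _ hβ (intertwines_beta N ℓ σ) D]
  exact pushforwardAlong_smul _ hα (PullBound.deg_bar_eq_one N)
    (PullBound.deg_bar_eq_one (N * ℓ)) (intertwines_alpha N ℓ σ) _

end Modular

section Pic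

variable (N : ℕ) [NeZero N]

/-- **R3**: the Hecke operators of `J₀(N)` commute with the Galois action. -/
theorem heckeOperatorBar_smul (ℓ : ℕ) (hℓ : ℓ.Prime)
    (σ : AlgebraicClosure ℚ ≃ₐ[ℚ] AlgebraicClosure ℚ) (x : JZero N) :
    heckeOperatorBar N ⟨ℓ, hℓ⟩ (σ • x) = σ • heckeOperatorBar N ⟨ℓ, hℓ⟩ x := by
  haveI : NeZero ℓ := ⟨hℓ.ne_zero⟩
  haveI := E0M.hasPrincipalDivisors_bar (N * ℓ)
  obtain ⟨D, rfl⟩ := Pic0.mk_surjective x
  rw [PicMaps.galois_smul_mk, HeckePic.heckeOperatorBar_mk' N ℓ hℓ,
    HeckePic.heckeOperatorBar_mk' N ℓ hℓ, PicMaps.galois_smul_mk]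
  congr 1
  apply Subtype.ext
  show heckeDivBar (E0M.alphaIntegral N ℓ) (E0M.betaIntegral N ℓ)
      (arithmeticGalois (modularFunctionFieldFull N) σ •
        (D : Divisor (AlgebraicClosure ℚ) (modularFunctionFieldBar N))) =
    arithmeticGalois (modularFunctionFieldFull N) σ •
      heckeDivBar (E0M.alphaIntegral N ℓ) (E0M.betaIntegral N ℓ)
        (D : Divisor (AlgebraicClosure ℚ) (modularFunctionFieldBar N))
  exact heckeDivBar_smul N ℓ σ _ _ _

end Pic

end Fermat.Agent.S29.HG
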