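/-
S29 gamble (item 90), piece R3, part 2 (lead): **open stabilisers**.

Every function, place, divisor of `F_N / ℚ̄` and every class of `J₀(N)` is fixed by
`Gal(ℚ̄ / L)` for a finite extension `L / ℚ`.
-/
import Mathlib
import Fermat.Prelude.Def_ModularCurve_ArithmeticGalois
import Fermat.Agent.S18.RPrimeBasic
import Fermat.Agent.S18.GenusAsm

set_option autoImplicit false
set_option linter.unusedSectionVars false
set_option linter.style.haveILetI false

open AlgebraicCurve ModularCurve

noncomputable section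

namespace Fermat.Agent.S29.OpenStab

open Fermat.Agent.S18 Fermat.Agent.S18.RPrime

/-- the Galois group of `ℚ̄ / ℚ`. -/
abbrev GalQ : Type := AlgebraicClosure ℚ ≃ₐ[ℚ] AlgebraicClosure ℚ

/-- "`p` holds on an open subgroup": on `Gal(ℚ̄ / L)` for a finite `L / ℚ`. -/
def OnOpen (p : GalQ → Prop) : Prop :=
  ∃ L : IntermediateField ℚ (AlgebraicClosure ℚ), FiniteDimensional ℚ L ∧
    ∀ σ : GalQ, (∀ a ∈ L, σ a = a) → p σ

theorem onOpen_of_forall {p : GalQ → Prop} (h : ∀ σ, p σ) : OnOpen p :=
  ⟨⊥, inferInstance, fun σ _ => h σ⟩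

theorem OnOpen.and {p q : GalQ → Prop} (hp : OnOpen p) (hq : OnOpen q) :
    OnOpen fun σ => p σ ∧ q σ := by
  obtain ⟨L₁, h₁, hL₁⟩ := hp
  obtain ⟨L₂, h₂, hL₂⟩ := hq
  refine ⟨L₁ ⊔ L₂, IntermediateField.finiteDimensional_sup L₁ L₂, fun σ hσ => ⟨?_, ?_⟩⟩
  · exact hL₁ σ fun a ha => hσ a ((le_sup_left : L₁ ≤ L₁ ⊔ L₂) ha)
  · exact hL₂ σ fun a ha => hσ a ((le_sup_right : L₂ ≤ L₁ ⊔ L₂) ha)

theorem OnOpen.mono {p q : GalQ → Prop} (hp : OnOpen p) (h : ∀ σ, p σ → q σ) : OnOpen q := by
  obtain ⟨L, hL, hp⟩ := hp
  exact ⟨L, hL, fun σ hσ => h σ (hp σ hσ)⟩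

theorem onOpen_finset {ι : Type*} (s : Finset ι) (p : ι → GalQ → Prop)
    (h : ∀ i ∈ s, OnOpen (p i)) : OnOpen fun σ => ∀ i ∈ s, p i σ := by
  classical
  induction s using Finset.induction_on with
  | empty => exact onOpen_of_forall fun σ i hi => absurd hi (Finset.notMem_empty i)
  | insert a s ha ih =>
    have h1 := h a (Finset.mem_insert_self a s)
    have h2 := ih fun i hi => h i (Finset.mem_insert_of_mem hi)
    refine (h1.and h2).mono fun σ hσ i hi => ?_
    rcases Finset.mem_insert.1 hi with rfl | hi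
    · exact hσ.1
    · exact hσ.2 i hi

theorem onOpen_const (a : AlgebraicClosure ℚ) : OnOpen fun σ => σ a = a := by
  have ha : IsIntegral ℚ a := ((AlgebraicClosure.isAlgebraic ℚ).isAlgebraic a).isIntegral
  refine ⟨IntermediateField.adjoin ℚ {a}, IntermediateField.adjoin.finiteDimensional ha,
    fun σ hσ => hσ a (IntermediateField.mem_adjoin_simple_self ℚ a)⟩

section Functions

variable (F₀ : IntermediateField ℚ (LaurentSeries ℚ))

theorem coeffMap_coeffEmb (σ : GalQ) (z : LaurentSeries ℚ) :
    coeffMap (σ : AlgebraicClosure ℚ →+* AlgebraicClosure ℚ) (coeffEmb (AlgebraicClosure ℚ) z) =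
      coeffEmb (AlgebraicClosure ℚ) z := by
  ext k
  show σ (algebraMap ℚ (AlgebraicClosure ℚ) (z.coeff k)) =
    algebraMap ℚ (AlgebraicClosure ℚ) (z.coeff k)
  exact σ.commutes _

/-- every Laurent series of the base-changed field is fixed by an open subgroup. -/
theorem onOpen_series {x : LaurentSeries (AlgebraicClosure ℚ)}
    (hx : x ∈ laurentBaseChange (AlgebraicClosure ℚ) F₀) :
    OnOpen fun σ => coeffMap (σ : AlgebraicClosure ℚ →+* AlgebraicClosure ℚ) x = x := by
  rw [mem_laurentBaseChange_iff] at hx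
  induction hx using Subfield.closure_induction with
  | mem y hy =>
    rcases hy with ⟨a, rfl⟩ | ⟨z, _, rfl⟩
    · refine (onOpen_const a).mono fun σ hσ => ?_
      rw [coeffMap_algebraMap]
      exact congrArg _ hσ
    · exact onOpen_of_forall fun σ => coeffMap_coeffEmb σ z
  | one => exact onOpen_of_forall fun σ => map_one _
  | add x y _ _ hx hy =>
    exact (hx.and hy).mono fun σ h => by rw [map_add, h.1, h.2]
  | neg x _ hx => exact hx.mono fun σ h => by rw [map_neg, h]
  | inv x _ hx => exact hx.mono fun σ h => by rw [map_inv₀, h]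
  | mul x y _ _ hx hy =>
    exact (hx.and hy).mono fun σ h => by rw [map_mul, h.1, h.2]

/-- every function is fixed by an open subgroup. -/
theorem onOpen_function (x : laurentBaseChange (AlgebraicClosure ℚ) F₀) :
    OnOpen fun σ => arithmeticGalois F₀ σ • x = x :=
  (onOpen_series F₀ x.2).mono fun σ h => Subtype.ext (by
    rw [coe_arithmeticGalois_smul]
    exact h)

end Functions

section Places

variable {K F : Type*} [Field K] [Field F] [Algebra K F] {g : ℕ}

/-- separation of two places by a function. -/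
theorem exists_separating (hK : CurveRR K F g) {P Q : Place K F} (hPQ : Q ≠ P) :
    ∃ f : F, f ≠ 0 ∧ 0 < P.ord f ∧ Q.ord f < 0 := by
  classical
  set n : ℤ := 2 * g + 2 with hn
  set E : Divisor K F := Finsupp.single Q n - Finsupp.single P 1 with hE
  set E' : Divisor K F := Finsupp.single Q (n + 1) - Finsupp.single P 1 with hE'
  have hdegE : Divisor.degree E = n - 1 := by
    rw [hE, map_sub, Divisor.degree_single, Divisor.degree_single, hK.deg_one, hK.deg_one]
    simp
  have hdegE' : Divisor.degree E' = n := by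
    rw [hE', map_sub, Divisor.degree_single, Divisor.degree_single, hK.deg_one, hK.deg_one]
    simp
  have h1 := hK.riemann E (by rw [hdegE]; omega)
  have h2 := hK.riemann E' (by rw [hdegE']; omega)
  have hEQ : E Q = n := by
    rw [hE, Finsupp.sub_apply, Finsupp.single_eq_same, Finsupp.single_eq_of_ne hPQ, sub_zero]
  have hE'P : E' P = -1 := by
    rw [hE', Finsupp.sub_apply, Finsupp.single_eq_same,
      Finsupp.single_eq_of_ne (fun h => hPQ h.symm), zero_sub]
  have hEv : ∀ v : Place K F, v ≠ Q → E v = E' v := by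
    intro v hv
    rw [hE, hE', Finsupp.sub_apply, Finsupp.sub_apply, Finsupp.single_eq_of_ne hv,
      Finsupp.single_eq_of_ne hv]
  have hle : E ≤ E' := by
    intro v
    by_cases hv : v = Q
    · subst hv
      rw [hEQ, hE', Finsupp.sub_apply, Finsupp.single_eq_same, Finsupp.single_eq_of_ne hPQ]
      omega
    · exact (hEv v hv).le
  have hne : riemannRochSpace E ≠ riemannRochSpace E' := by
    intro h
    rw [h] at h1
    rw [h1, hdegE, hdegE'] at h2
    omega
  have hlt : riemannRochSpace E < riemannRochSpace E' := lt_of_le_of_ne (L_mono hle) hne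
  obtain ⟨f, hfE', hfE⟩ := SetLike.exists_of_lt hlt
  have hf0 : f ≠ 0 := by
    rintro rfl
    exact hfE (riemannRochSpace E).zero_mem
  have h3 := (mem_L_iff hf0).1 hfE'
  refine ⟨f, hf0, ?_, ?_⟩
  · have := h3 P
    rw [hE'P] at this
    omega
  · by_contra hQ
    apply hfE
    rw [mem_L_iff hf0]
    intro v
    by_cases hv : v = Q
    · subst hv
      rw [hEQ]
      omega
    · rw [hEv v hv]
      exact h3 v

end Places

section Modular

variable (N : ℕ) [NeZero N]

/-- **every place of `F_N / ℚ̄` is fixed by an open subgroup.** -/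
theorem onOpen_place (P : Place (AlgebraicClosure ℚ) (modularFunctionFieldBar N)) :
    OnOpen fun σ => arithmeticGalois (modularFunctionFieldFull N) σ • P = P := by
  classical
  have hK := GenusAsm.curveRR_zero N
  obtain ⟨π, hπ⟩ := IsDiscreteValuationRing.exists_irreducible P.toValuationSubring
  have hπ1 : P.ord (π : modularFunctionFieldBar N) = 1 := P.ord_coe_irreducible hπ
  have hπ0 : (π : modularFunctionFieldBar N) ≠ 0 := by
    intro h
    rw [h, Place.ord_zero] at hπ1
    exact zero_ne_one hπ1
  obtain ⟨D₀, hD₀, -⟩ := hK.exists_div _ hπ0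
  -- separating functions
  have hsep : ∀ Q : Place (AlgebraicClosure ℚ) (modularFunctionFieldBar N), Q ≠ P →
      ∃ f : modularFunctionFieldBar N, f ≠ 0 ∧ 0 < P.ord f ∧ Q.ord f < 0 :=
    fun Q hQ => exists_separating hK hQ
  choose! fs hfs using hsep
  have h1 := onOpen_function (modularFunctionFieldFull N) (π : modularFunctionFieldBar N)
  have h2 := onOpen_finset D₀.support
    (fun Q σ => arithmeticGalois (modularFunctionFieldFull N) σ • fs Q = fs Q)
    (fun Q _ => onOpen_function (modularFunctionFieldFull N) (fs Q))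
  refine (h1.and h2).mono fun σ hσ => ?_
  obtain ⟨hσπ, hσf⟩ := hσ
  set gσ := arithmeticGalois (modularFunctionFieldFull N) σ with hgσ
  by_contra hne
  have e1 : (gσ • P).ord (π : modularFunctionFieldBar N) = 1 := by
    have := SemilinearAut.ord_smul gσ P (π : modularFunctionFieldBar N)
    rw [hσπ] at this
    rw [this, hπ1]
  have hmem : gσ • P ∈ D₀.support := by
    rw [Finsupp.mem_support_iff, hD₀, e1]
    exact one_ne_zero
  have e2 : (gσ • P).ord (fs (gσ • P)) = P.ord (fs (gσ • P)) := by
    have := SemilinearAut.ord_smul gσ P (fs (gσ • P))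
    rw [hσf _ hmem] at this
    exact this
  have h3 := hfs (gσ • P) hne
  rw [e2] at h3
  omega

/-- every divisor is fixed by an open subgroup. -/
theorem onOpen_divisor (D : Divisor (AlgebraicClosure ℚ) (modularFunctionFieldBar N)) :
    OnOpen fun σ => arithmeticGalois (modularFunctionFieldFull N) σ • D = D := by
  induction D using Finsupp.induction with
  | zero => exact onOpen_of_forall fun σ => smul_zero _
  | single_add P n D _ _ ih =>
    refine ((onOpen_place N P).and ih).mono fun σ h => ?_
    rw [smul_add, SemilinearAut.smul_single, h.1, h.2]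

/-- **R3, part 2**: every class of `J₀(N)` is fixed by an open subgroup of `Gal(ℚ̄/ℚ)`. -/
theorem onOpen_jZero (x : JZero N) : OnOpen fun σ => σ • x = x := by
  obtain ⟨D, rfl⟩ := Pic0.mk_surjective x
  refine (onOpen_divisor N (D : Divisor (AlgebraicClosure ℚ) (modularFunctionFieldBar N))).mono
    fun σ h => ?_
  show (Pic0.mk (SemilinearAut.degZeroSMulHom
    (arithmeticGalois (modularFunctionFieldFull N) σ) D) : JZero N) = Pic0.mk D
  congr 1
  exact Subtype.ext h

end Modular

end Fermat.Agent.S29.OpenStab
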