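/-
S29 gamble (item 90), piece R3 (lead): the two contract statements
`HeckeGaloisStatement N` and `OpenStabStatement N`, from `HeckeGalois.lean` and `OpenStab.lean`.
-/
import Fermat.Agent.S29.Contract
import Fermat.Agent.S29.HeckeGalois
import Fermat.Agent.S29.OpenStab

set_option autoImplicit false

open AlgebraicCurve ModularCurve

namespace Fermat.Agent.S29

/-- (R3a) `T_l` commutes with Galois on `J₀(N)`. -/
theorem heckeGaloisStatement (N : ℕ) [NeZero N] : HeckeGaloisStatement N :=
  fun ℓ σ x => HG.heckeOperatorBar_smul N ℓ.1 ℓ.2 σ x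

/-- (R3b) every point of `J₀(N)` has an open stabiliser. -/
theorem openStabStatement (N : ℕ) [NeZero N] : OpenStabStatement N :=
  fun x => OpenStab.onOpen_jZero N x

end Fermat.Agent.S29
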