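/-
S29 (item 90), piece (R4) (helper6): `UnramStatement N p` and `FrobQuadStatement N p` of the
contract, from the reduction data `S37.ESInputsAt` of S37 (no commutation hypothesis is needed on
`p`-torsion: the reduction map is injective there).
-/
import Fermat.Agent.S29.Contract
import Fermat.Agent.S37.AsmTop
import Fermat.Agent.S37.ESTame

set_option autoImplicit false

open ModularCurve AlgebraicCurve Fermat.Agent.S18 Fermat.Agent.S18.RPrime

noncomputable section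

namespace Fermat.Agent.S29.R4

local notation "Kbar" => AlgebraicClosure ℚ

set_option maxHeartbeats 1000000 in
/-- the reduction data of S37 at every `(ℓ, A)`, `ℓ ∤ N p`. -/
theorem esInputsAt_all (N p : ℕ) [NeZero N] (ℓ : ℕ) (hℓ : ℓ.Prime) (hℓNp : ¬ ℓ ∣ N * p)
    (A : ValuationSubring Kbar) (hA : A.LiesOverPrime ℓ) :
    Fermat.Agent.S37.ESInputsAt N p ℓ hℓ A := by
  have hℓN : ¬ ℓ ∣ N := fun h => hℓNp (h.mul_right p)
  have hℓp : ¬ ℓ ∣ p := fun h => hℓNp (h.mul_left N)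
  haveI : Fact ℓ.Prime := ⟨hℓ⟩
  haveI : CharP (IsLocalRing.ResidueField A) ℓ := Fermat.Agent.S37.Asm.charP_residueField A hℓ hA
  haveI : IsAlgClosed (IsLocalRing.ResidueField A) := ResAC.isAlgClosed_residueField A
  haveI : PerfectRing (IsLocalRing.ResidueField A) ℓ := inferInstance
  exact Fermat.Agent.S37.Asm.esInputsAt_of_div N p hℓ hℓN hℓp A hA
    (Fermat.Agent.S37.Asm.inclTame_isIntegral N ℓ)
    (Fermat.Agent.S37.Asm.inclTame_finiteAlong N ℓ)
    (fun D hD => Fermat.Agent.S37.E3.es_div_tame N hℓ hℓN A hA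
      (Fermat.Agent.S37.Asm.inclTame_isIntegral N ℓ) D hD)

/-- the torsion hypothesis in the shape of the contract of S37. -/
theorem exists_pow_smul_of_smul {J : Type*} [AddCommGroup J] {p : ℕ} {x : J} (hx : p • x = 0) :
    ∃ n : ℕ, p ^ n • x = 0 :=
  ⟨1, by rw [pow_one]; exact hx⟩

end Fermat.Agent.S29.R4

namespace Fermat.Agent.S29

/-- **(R4a)** inertia at `ℓ ∤ N p` acts trivially on `J₀(N)[p]`. -/
theorem unramStatement (N p : ℕ) [NeZero N] : UnramStatement N p := by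
  intro ℓ hℓ hℓNp A hA σ hσ x hx
  obtain ⟨σ₀, hσ₀, X, _, ρ, Fm, Vm, h1, hD, hT, hVF, h3⟩ := R4.esInputsAt_all N p ℓ hℓ hℓNp A hA
  have hz : p • (σ • x - x) = 0 := by
    rw [nsmul_sub, smul_comm p σ x, hx, smul_zero, sub_zero]
  have hρ : ρ (σ • x - x) = 0 := by
    rw [map_sub, h1 σ hσ x, sub_self]
  exact sub_eq_zero.mp (h3 _ (R4.exists_pow_smul_of_smul hz) hρ)

/-- **(R4b)** Eichler–Shimura on `J₀(N)[p]`: `σ² - T_ℓ σ + ℓ = 0` for EVERY Frobenius `σ` at
`ℓ ∤ N p`. -/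
theorem frobQuadStatement (N p : ℕ) [NeZero N] : FrobQuadStatement N p := by
  intro ℓ hℓ hℓNp A hA σ hσ x hx
  obtain ⟨σ₀, hσ₀, X, _, ρ, Fm, Vm, h1, hD, hT, hVF, h3⟩ := R4.esInputsAt_all N p ℓ hℓ hℓNp A hA
  -- the element is `p`-torsion
  have hσx : p • (σ • x) = 0 := by rw [smul_comm p σ x, hx, smul_zero]
  have hσσx : p • (σ • σ • x) = 0 := by rw [smul_comm p σ (σ • x), hσx, smul_zero]
  have hTx : p • heckeOperatorBar N ⟨ℓ, hℓ⟩ (σ • x) = 0 := by
    rw [← map_nsmul, hσx, map_zero]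
  have hz : p • (σ • σ • x - heckeOperatorBar N ⟨ℓ, hℓ⟩ (σ • x) + ℓ • x) = 0 := by
    rw [nsmul_add, nsmul_sub, hσσx, hTx, smul_comm p ℓ x, hx, smul_zero, sub_zero, add_zero]
  -- `ρ (σ • y) = Fm (ρ y)` for every Frobenius `σ`
  have hF : ∀ y : JZero N, ρ (σ • y) = Fm (ρ y) := by
    intro y
    have hι := Fermat.Agent.S37.frob_mul_inv_mem_inertiaSubgroupIn A hσ hσ₀
    have := h1 _ hι (σ₀ • y)
    rw [mul_smul, inv_smul_smul] at this
    rw [this, hD]
  refine h3 _ (R4.exists_pow_smul_of_smul hz) ?_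
  rw [map_add, map_sub, hT, hF, hF, map_nsmul, hVF]
  abel

end Fermat.Agent.S29
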