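/-
S29 (item 90), piece (R6) (helper6): GROUP THEORY, `QuadRepStatement`.

`K` algebraically closed, `ρ : G →* End_K W` irreducible, `χ : G →* Kˣ` a character, and every `g`
satisfies `ρ(g)² - t(g) ρ(g) + χ(g) = 0`.  Then `dim W ≤ 2`, and if `dim W = 2` the characteristic
polynomial of `ρ(g)` is `X² - t(g) X + χ(g)`.

* `star_identity` : `ρ g ρ h + ρ h ρ g = (t_{gh} - t_g t_h) + t_h ρ g + t_g ρ h`;
* `range_sub_le` : if `u` is an eigenvector of `ρ g` for `α`, then `ρ g - (t - α)` maps `W` into
  `K u` (the orbit of `u` spans `W`);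
* `finrank_le_two`;  `charpoly_eq` (determinant = `χ` first on the non-scalar elements).
-/
import Mathlib

set_option autoImplicit false

open Polynomial Module

noncomputable section

namespace Fermat.Agent.S29.QuadRep

section Basic

variable {K : Type*} [Field K] {G : Type*} [Group G] {W : Type*} [AddCommGroup W] [Module K W]

/-- the quadratic relation `ρ(g)² - t ρ(g) + χ(g) = 0` -/
def QuadRel (ρ : G →* Module.End K W) (χ : G →* Kˣ) (g : G) (t : K) : Prop :=
  ρ g * ρ g - t • ρ g + ((χ g : Kˣ) : K) • (1 : Module.End K W) = 0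

/-- `ρ` is simple: the only stable subspaces are `⊥` and `⊤` -/
def IsSimpleRep (ρ : G →* Module.End K W) : Prop :=
  ∀ U : Submodule K W, (∀ g : G, ∀ w ∈ U, ρ g w ∈ U) → U = ⊥ ∨ U = ⊤

theorem rho_inv_mul (ρ : G →* Module.End K W) (g : G) : ρ g⁻¹ * ρ g = 1 := by
  rw [← map_mul, inv_mul_cancel, map_one]

theorem rho_mul_inv (ρ : G →* Module.End K W) (g : G) : ρ g * ρ g⁻¹ = 1 := by
  rw [← map_mul, mul_inv_cancel, map_one]

theorem quadRel_sq {ρ : G →* Module.End K W} {χ : G →* Kˣ} {g : G} {t : K}
    (hg : QuadRel ρ χ g t) :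
    ρ g * ρ g = t • ρ g - ((χ g : Kˣ) : K) • (1 : Module.End K W) := by
  unfold QuadRel at hg
  rw [eq_sub_iff_add_eq, ← sub_eq_zero]
  rw [← hg]
  abel

theorem star_identity {ρ : G →* Module.End K W} {χ : G →* Kˣ} {g h : G} {tg th tgh : K}
    (hg : QuadRel ρ χ g tg) (hh : QuadRel ρ χ h th) (hgh : QuadRel ρ χ (g * h) tgh) :
    ρ g * ρ h + ρ h * ρ g =
      (tgh - tg * th) • (1 : Module.End K W) + th • ρ g + tg • ρ h := by
  have ea := quadRel_sq hg
  have eb := quadRel_sq hh
  have eab := quadRel_sq hgh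
  rw [map_mul ρ g h, map_mul χ g h, Units.val_mul] at eab
  have hinv : ρ (g * h)⁻¹ * (ρ g * ρ h) = 1 := by
    rw [← map_mul ρ g h, rho_inv_mul]
  generalize ρ (g * h)⁻¹ = ι at hinv
  generalize ρ g = a at ea eab hinv ⊢
  generalize ρ h = b at eb eab hinv ⊢
  generalize ((χ g : Kˣ) : K) = cg at ea eab
  generalize ((χ h : Kˣ) : K) = ch at eb eab
  have k1 : a * (tg • (1 : Module.End K W) - a) = cg • (1 : Module.End K W) := by
    rw [mul_sub, mul_smul_comm, mul_one, ea, sub_sub_cancel]
  have k2 : b * (th • (1 : Module.End K W) - b) = ch • (1 : Module.End K W) := by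
    rw [mul_sub, mul_smul_comm, mul_one, eb, sub_sub_cancel]
  have k3 : a * b * (tgh • (1 : Module.End K W) - a * b) = (cg * ch) • (1 : Module.End K W) := by
    rw [mul_sub, mul_smul_comm, mul_one, eab, sub_sub_cancel]
  have k4 : a * b * ((th • (1 : Module.End K W) - b) * (tg • (1 : Module.End K W) - a)) =
      (cg * ch) • (1 : Module.End K W) := by
    rw [mul_assoc a b, ← mul_assoc b, k2, smul_mul_assoc, one_mul, mul_smul_comm, k1, smul_smul,
      mul_comm ch cg]
  have k5 : a * b * ((tgh • (1 : Module.End K W) - a * b) -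
      (th • (1 : Module.End K W) - b) * (tg • (1 : Module.End K W) - a)) = 0 := by
    rw [mul_sub, k3, k4, sub_self]
  have k6 : (tgh • (1 : Module.End K W) - a * b) -
      (th • (1 : Module.End K W) - b) * (tg • (1 : Module.End K W) - a) = 0 := by
    have h1 := congrArg (fun x => ι * x) k5
    simp only [mul_zero] at h1
    rw [← mul_assoc, hinv, one_mul] at h1
    exact h1
  have k7 : (th • (1 : Module.End K W) - b) * (tg • (1 : Module.End K W) - a) =
      (th * tg) • (1 : Module.End K W) - th • a - tg • b + b * a := by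
    rw [sub_mul, mul_sub, mul_sub, smul_mul_assoc, one_mul, smul_mul_assoc, one_mul,
      mul_smul_comm, mul_one, smul_smul]
    abel
  rw [k7] at k6
  have k8 := sub_eq_zero.mp k6
  have e : b * a = tgh • (1 : Module.End K W) - a * b - (th * tg) • (1 : Module.End K W)
      + th • a + tg • b := by
    rw [k8]
    abel
  rw [e, sub_smul, mul_comm tg th]
  abel

/-- the span of the orbit of `u`. -/
def orbitSpan (ρ : G →* Module.End K W) (u : W) : Submodule K W :=
  Submodule.span K (Set.range fun h : G => ρ h u)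

theorem mem_orbitSpan_self (ρ : G →* Module.End K W) (u : W) : u ∈ orbitSpan ρ u :=
  Submodule.subset_span ⟨1, by
    show ρ 1 u = u
    rw [map_one, Module.End.one_apply]⟩

theorem orbitSpan_stable (ρ : G →* Module.End K W) (u : W) (g : G) (w : W)
    (hw : w ∈ orbitSpan ρ u) : ρ g w ∈ orbitSpan ρ u := by
  unfold orbitSpan at hw ⊢
  induction hw using Submodule.span_induction with
  | mem x hx =>
    obtain ⟨h, rfl⟩ := hx
    refine Submodule.subset_span ⟨g * h, ?_⟩
    show ρ (g * h) u = ρ g (ρ h u)
    rw [map_mul, Module.End.mul_apply]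
  | zero => rw [map_zero]; exact Submodule.zero_mem _
  | add x y _ _ hx hy => rw [map_add]; exact Submodule.add_mem _ hx hy
  | smul c x _ hx => rw [map_smul]; exact Submodule.smul_mem _ c hx

theorem orbitSpan_eq_top {ρ : G →* Module.End K W} (hs : IsSimpleRep ρ) {u : W} (hu : u ≠ 0) :
    orbitSpan ρ u = ⊤ := by
  rcases hs (orbitSpan ρ u) (orbitSpan_stable ρ u) with h | h
  · exfalso
    have := mem_orbitSpan_self ρ u
    rw [h, Submodule.mem_bot] at this
    exact hu this
  · exact h

/-- if `u` is an eigenvector of `ρ g` for `α`, then `ρ g - (t - α)` maps `W` into `K u`. -/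
theorem range_sub_le {ρ : G →* Module.End K W} {χ : G →* Kˣ} (hs : IsSimpleRep ρ)
    (H : ∀ g : G, ∃ t : K, QuadRel ρ χ g t) {g : G} {t : K} (hg : QuadRel ρ χ g t)
    {α : K} {u : W} (hu : u ≠ 0) (hgu : ρ g u = α • u) (w : W) :
    ρ g w - (t - α) • w ∈ Submodule.span K ({u} : Set W) := by
  have hw : w ∈ orbitSpan ρ u := by rw [orbitSpan_eq_top hs hu]; exact Submodule.mem_top
  unfold orbitSpan at hw
  induction hw using Submodule.span_induction with
  | mem x hx =>
    obtain ⟨h, rfl⟩ := hx
    show ρ g (ρ h u) - (t - α) • ρ h u ∈ _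
    obtain ⟨th, hth⟩ := H h
    obtain ⟨tgh, htgh⟩ := H (g * h)
    have hstar := star_identity hg hth htgh
    have h1 : ρ g (ρ h u) + ρ h (ρ g u) = (tgh - t * th) • u + th • ρ g u + t • ρ h u := by
      have := congrArg (fun f : Module.End K W => f u) hstar
      simpa only [LinearMap.add_apply, Module.End.mul_apply, LinearMap.smul_apply,
        Module.End.one_apply] using this
    rw [hgu, map_smul] at h1
    have h3 : ρ g (ρ h u) = (tgh - t * th) • u + th • α • u + t • ρ h u - α • ρ h u := by
      rw [← h1]; abel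
    have h2 : ρ g (ρ h u) - (t - α) • ρ h u = ((tgh - t * th) + th * α) • u := by
      rw [h3]
      module
    rw [h2]
    exact Submodule.smul_mem _ _ (Submodule.mem_span_singleton_self u)
  | zero => simp
  | add x y _ _ hx hy =>
    have : ρ g (x + y) - (t - α) • (x + y) = (ρ g x - (t - α) • x) + (ρ g y - (t - α) • y) := by
      rw [map_add]; module
    rw [this]; exact Submodule.add_mem _ hx hy
  | smul c x _ hx =>
    have : ρ g (c • x) - (t - α) • (c • x) = c • (ρ g x - (t - α) • x) := by
      rw [map_smul]; module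
    rw [this]; exact Submodule.smul_mem _ c hx

theorem exists_nonscalar [FiniteDimensional K W] {ρ : G →* Module.End K W}
    (hs : IsSimpleRep ρ) (hd : 2 ≤ finrank K W) :
    ∃ g : G, ∀ s : K, ρ g ≠ s • (1 : Module.End K W) := by
  by_contra hcon
  have hcon' : ∀ g : G, ∃ s : K, ρ g = s • (1 : Module.End K W) := by
    intro g
    by_contra h
    exact hcon ⟨g, fun s hs' => h ⟨s, hs'⟩⟩
  have hpos : 0 < finrank K W := by omega
  have : Nontrivial W := Module.nontrivial_of_finrank_pos hpos
  obtain ⟨u, hu⟩ := exists_ne (0 : W)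
  have hst : ∀ g : G, ∀ w ∈ Submodule.span K ({u} : Set W),
      ρ g w ∈ Submodule.span K ({u} : Set W) := by
    intro g w hw
    obtain ⟨s, hs'⟩ := hcon' g
    rw [hs', LinearMap.smul_apply, Module.End.one_apply]
    exact Submodule.smul_mem _ s hw
  rcases hs _ hst with h | h
  · have := Submodule.mem_span_singleton_self (R := K) u
    rw [h, Submodule.mem_bot] at this
    exact hu this
  · have h1 : finrank K (Submodule.span K ({u} : Set W)) = 1 := finrank_span_singleton hu
    rw [h, finrank_top] at h1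
    omega

theorem finrank_ker_le_one [FiniteDimensional K W] {ρ : G →* Module.End K W} {χ : G →* Kˣ}
    (hs : IsSimpleRep ρ) (H : ∀ g : G, ∃ t : K, QuadRel ρ χ g t) {g : G} {t : K}
    (hg : QuadRel ρ χ g t) (hns : ∀ s : K, ρ g ≠ s • (1 : Module.End K W))
    {α : K} {u : W} (hu : u ≠ 0) (hgu : ρ g u = α • u) :
    finrank K (LinearMap.range (ρ g - (t - α) • (1 : Module.End K W))) ≤ 1 ∧
      finrank K (LinearMap.ker (ρ g - α • (1 : Module.End K W))) ≤ 1 := by
  constructor
  · have hle : LinearMap.range (ρ g - (t - α) • (1 : Module.End K W)) ≤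
        Submodule.span K ({u} : Set W) := by
      rintro _ ⟨w, rfl⟩
      rw [LinearMap.sub_apply, LinearMap.smul_apply, Module.End.one_apply]
      exact range_sub_le hs H hg hu hgu w
    calc finrank K (LinearMap.range (ρ g - (t - α) • (1 : Module.End K W)))
        ≤ finrank K (Submodule.span K ({u} : Set W)) := Submodule.finrank_mono hle
      _ = 1 := finrank_span_singleton hu
  · -- a nonzero value `y` of `ρ g - (t - α)`
    have hne : ρ g - (t - α) • (1 : Module.End K W) ≠ 0 := by
      intro h
      exact hns (t - α) (sub_eq_zero.mp h)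
    obtain ⟨w₀, hw₀⟩ : ∃ w₀ : W, (ρ g - (t - α) • (1 : Module.End K W)) w₀ ≠ 0 := by
      by_contra hcon
      apply hne
      ext w
      by_contra hw
      exact hcon ⟨w, hw⟩
    rw [LinearMap.sub_apply, LinearMap.smul_apply, Module.End.one_apply] at hw₀
    set y := ρ g w₀ - (t - α) • w₀ with hy
    have hle : LinearMap.ker (ρ g - α • (1 : Module.End K W)) ≤
        Submodule.span K ({y} : Set W) := by
      intro u' hu'
      by_cases hu'0 : u' = 0
      · rw [hu'0]; exact Submodule.zero_mem _
      have hgu' : ρ g u' = α • u' := by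
        have := LinearMap.mem_ker.mp hu'
        rw [LinearMap.sub_apply, LinearMap.smul_apply, Module.End.one_apply, sub_eq_zero] at this
        exact this
      have hmem := range_sub_le hs H hg hu'0 hgu' w₀
      rw [← hy] at hmem
      obtain ⟨c, hc⟩ := Submodule.mem_span_singleton.mp hmem
      have hc0 : c ≠ 0 := by
        rintro rfl
        rw [zero_smul] at hc
        exact hw₀ hc.symm
      rw [Submodule.mem_span_singleton]
      refine ⟨c⁻¹, ?_⟩
      rw [← hc, smul_smul, inv_mul_cancel₀ hc0, one_smul]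
    calc finrank K (LinearMap.ker (ρ g - α • (1 : Module.End K W)))
        ≤ finrank K (Submodule.span K ({y} : Set W)) := Submodule.finrank_mono hle
      _ = 1 := finrank_span_singleton hw₀

/-- **dimension `≤ 2`**. -/
theorem finrank_le_two [FiniteDimensional K W] [IsAlgClosed K] {ρ : G →* Module.End K W}
    {χ : G →* Kˣ} (hs : IsSimpleRep ρ) (H : ∀ g : G, ∃ t : K, QuadRel ρ χ g t) :
    finrank K W ≤ 2 := by
  by_contra hcon
  have hd : 2 ≤ finrank K W := by omega
  obtain ⟨g, hns⟩ := exists_nonscalar hs hd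
  obtain ⟨t, hg⟩ := H g
  have hpos : 0 < finrank K W := by omega
  have : Nontrivial W := Module.nontrivial_of_finrank_pos hpos
  obtain ⟨α, hα⟩ := Module.End.exists_eigenvalue (ρ g)
  obtain ⟨u, hu⟩ := hα.exists_hasEigenvector
  have hgu : ρ g u = α • u := hu.apply_eq_smul
  have hu0 : u ≠ 0 := hu.2
  obtain ⟨hr, -⟩ := finrank_ker_le_one hs H hg hns hu0 hgu
  have hrn := LinearMap.finrank_range_add_finrank_ker (ρ g - (t - α) • (1 : Module.End K W))
  have hk : finrank K (LinearMap.ker (ρ g - (t - α) • (1 : Module.End K W))) ≤ 1 := by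
    by_cases hker : LinearMap.ker (ρ g - (t - α) • (1 : Module.End K W)) = ⊥
    · rw [hker, finrank_bot]; omega
    · obtain ⟨u', hu'mem, hu'0⟩ := Submodule.exists_mem_ne_zero_of_ne_bot hker
      have hgu' : ρ g u' = (t - α) • u' := by
        have := LinearMap.mem_ker.mp hu'mem
        rw [LinearMap.sub_apply, LinearMap.smul_apply, Module.End.one_apply, sub_eq_zero] at this
        exact this
      exact (finrank_ker_le_one hs H hg hns hu'0 hgu').2
  omega

end Basic

section Matrix2

variable {K : Type*} [Field K]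

theorem cayley_two (M : Matrix (Fin 2) (Fin 2) K) :
    M * M - M.trace • M + M.det • (1 : Matrix (Fin 2) (Fin 2) K) = 0 := by
  ext i j
  fin_cases i <;> fin_cases j <;>
    simp [Matrix.mul_apply, Fin.sum_univ_two, Matrix.trace_fin_two, Matrix.det_fin_two] <;> ring

theorem matrix_two_cases (M : Matrix (Fin 2) (Fin 2) K) (t c : K)
    (h : M * M - t • M + c • (1 : Matrix (Fin 2) (Fin 2) K) = 0) :
    (M.trace = t ∧ M.det = c) ∨ ∃ s : K, M = s • (1 : Matrix (Fin 2) (Fin 2) K) := by
  have hc := cayley_two M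
  have key : (M.trace - t) • M = (M.det - c) • (1 : Matrix (Fin 2) (Fin 2) K) := by
    have e1 : M * M = t • M - c • (1 : Matrix (Fin 2) (Fin 2) K) := by
      rw [eq_sub_iff_add_eq, ← sub_eq_zero, ← h]; abel
    rw [e1] at hc
    rw [sub_smul, sub_smul, ← sub_eq_zero]
    calc M.trace • M - t • M - (M.det • (1 : Matrix (Fin 2) (Fin 2) K) -
          c • (1 : Matrix (Fin 2) (Fin 2) K))
        = -(t • M - c • (1 : Matrix (Fin 2) (Fin 2) K) - M.trace • M +
          M.det • (1 : Matrix (Fin 2) (Fin 2) K)) := by abel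
      _ = 0 := by rw [hc, neg_zero]
  by_cases ht : M.trace = t
  · left
    refine ⟨ht, ?_⟩
    rw [ht, sub_self, zero_smul] at key
    have h00 := congrFun (congrFun key 0) 0
    simp only [Matrix.zero_apply, Matrix.smul_apply, Matrix.one_apply_eq, smul_eq_mul,
      mul_one] at h00
    exact sub_eq_zero.mp h00.symm
  · right
    have ht' : M.trace - t ≠ 0 := sub_ne_zero.mpr ht
    refine ⟨(M.trace - t)⁻¹ * (M.det - c), ?_⟩
    rw [← smul_smul, ← key, smul_smul, inv_mul_cancel₀ ht', one_smul]

end Matrix2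

section Charpoly

variable {K : Type*} [Field K] {G : Type*} [Group G] {W : Type*} [AddCommGroup W] [Module K W]

/-- **the characteristic polynomial in dimension 2**. -/
theorem charpoly_eq [FiniteDimensional K W] {ρ : G →* Module.End K W} {χ : G →* Kˣ}
    (hs : IsSimpleRep ρ) (t : G → K) (H : ∀ g : G, QuadRel ρ χ g (t g))
    (h2 : finrank K W = 2) (g : G) :
    LinearMap.charpoly (ρ g) = X ^ 2 - C (t g) * X + C ((χ g : Kˣ) : K) := by
  classical
  let b : Basis (Fin 2) K W := Module.finBasisOfFinrankEq K W h2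
  -- the matrices
  have hmul : ∀ x y : G, LinearMap.toMatrix b b (ρ (x * y)) =
      LinearMap.toMatrix b b (ρ x) * LinearMap.toMatrix b b (ρ y) := by
    intro x y
    rw [map_mul, LinearMap.toMatrix_mul]
  have hrel : ∀ x : G, LinearMap.toMatrix b b (ρ x) * LinearMap.toMatrix b b (ρ x) -
      t x • LinearMap.toMatrix b b (ρ x) +
      ((χ x : Kˣ) : K) • (1 : Matrix (Fin 2) (Fin 2) K) = 0 := by
    intro x
    have := congrArg (LinearMap.toMatrix b b) (H x)
    rw [map_add, map_sub, map_smul, map_smul, LinearMap.toMatrix_mul, LinearMap.toMatrix_one,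
      map_zero] at this
    exact this
  have hscal : ∀ (x : G) (s : K), LinearMap.toMatrix b b (ρ x) =
      s • (1 : Matrix (Fin 2) (Fin 2) K) → ρ x = s • (1 : Module.End K W) := by
    intro x s hx
    apply (LinearMap.toMatrix b b).injective
    rw [hx, map_smul, LinearMap.toMatrix_one]
  -- a non-scalar element
  obtain ⟨h₀, hh₀⟩ := exists_nonscalar hs (by omega : 2 ≤ finrank K W)
  have hh₀' : ∀ s : K, LinearMap.toMatrix b b (ρ h₀) ≠ s • (1 : Matrix (Fin 2) (Fin 2) K) :=
    fun s hs' => hh₀ s (hscal h₀ s hs')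
  -- determinant = χ on non-scalar elements
  have hdet_ns : ∀ x : G, (∀ s : K, LinearMap.toMatrix b b (ρ x) ≠
      s • (1 : Matrix (Fin 2) (Fin 2) K)) →
      (LinearMap.toMatrix b b (ρ x)).det = ((χ x : Kˣ) : K) := by
    intro x hx
    rcases matrix_two_cases _ _ _ (hrel x) with h | ⟨s, hs'⟩
    · exact h.2
    · exact absurd hs' (hx s)
  -- determinant = χ everywhere
  have hdet : ∀ x : G, (LinearMap.toMatrix b b (ρ x)).det = ((χ x : Kˣ) : K) := by
    intro x
    by_cases hx : ∀ s : K, LinearMap.toMatrix b b (ρ x) ≠ s • (1 : Matrix (Fin 2) (Fin 2) K)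
    · exact hdet_ns x hx
    · have hx' : ∃ s : K, LinearMap.toMatrix b b (ρ x) =
          s • (1 : Matrix (Fin 2) (Fin 2) K) := by
        by_contra h
        exact hx fun s hs' => h ⟨s, hs'⟩
      obtain ⟨s, hs'⟩ := hx'
      have hs0 : s ≠ 0 := by
        rintro rfl
        rw [zero_smul] at hs'
        have h1 := hmul x x⁻¹
        rw [mul_inv_cancel, map_one, LinearMap.toMatrix_one, hs', zero_mul] at h1
        exact one_ne_zero h1
      have hxh : ∀ s' : K, LinearMap.toMatrix b b (ρ (x * h₀)) ≠
          s' • (1 : Matrix (Fin 2) (Fin 2) K) := by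
        intro s' hs''
        rw [hmul, hs', smul_mul_assoc, one_mul] at hs''
        apply hh₀' (s⁻¹ * s')
        rw [← smul_smul, ← hs'', smul_smul, inv_mul_cancel₀ hs0, one_smul]
      have h1 := hdet_ns (x * h₀) hxh
      have h2' := hdet_ns h₀ hh₀'
      rw [hmul, Matrix.det_mul, h2', map_mul, Units.val_mul] at h1
      exact mul_right_cancel₀ (Units.ne_zero (χ h₀)) h1
  -- the characteristic polynomial
  rw [← LinearMap.charpoly_toMatrix (ρ g) b, Matrix.charpoly_fin_two, hdet g]
  have htr : (LinearMap.toMatrix b b (ρ g)).trace = t g := by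
    rcases matrix_two_cases _ _ _ (hrel g) with h | ⟨s, hs'⟩
    · exact h.1
    · have hs0 : s ≠ 0 := by
        rintro rfl
        rw [zero_smul] at hs'
        have h1 := hmul g g⁻¹
        rw [mul_inv_cancel, map_one, LinearMap.toMatrix_one, hs', zero_mul] at h1
        exact one_ne_zero h1
      have hd := hdet g
      have hr := hrel g
      rw [hs'] at hd hr ⊢
      have hd' : s * s = ((χ g : Kˣ) : K) := by
        rw [← hd, Matrix.det_fin_two]
        simp
      have h00 := congrFun (congrFun hr 0) 0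
      simp only [Matrix.add_apply, Matrix.sub_apply, Matrix.mul_apply, Fin.sum_univ_two,
        Matrix.smul_apply, Matrix.one_apply_eq, Matrix.zero_apply, smul_eq_mul, mul_one,
        Matrix.one_apply_ne (show (0 : Fin 2) ≠ 1 by decide), mul_zero] at h00
      rw [Matrix.trace_fin_two]
      simp only [Matrix.smul_apply, Matrix.one_apply_eq, smul_eq_mul, mul_one]
      -- h00 : s * s - t g * s + χ g = 0,  hd' : s * s = χ g
      have h3 : s * (s + s - t g) = 0 := by
        rw [← hd'] at h00
        linear_combination h00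
      rcases mul_eq_zero.mp h3 with h4 | h4
      · exact absurd h4 hs0
      · linear_combination h4
  rw [htr]

end Charpoly

end Fermat.Agent.S29.QuadRep
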