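/-
S29 (item 90), piece (R6) (helper6): `QuadRepStatement` of the contract, from `S29/QuadRep.lean`.
-/
import Fermat.Agent.S29.Contract
import Fermat.Agent.S29.QuadRep

set_option autoImplicit false

open Polynomial

namespace Fermat.Agent.S29

/-- **(R6)**: an irreducible representation over an algebraically closed field in which every group
element satisfies `g² - t(g) g + χ(g) = 0` has dimension `≤ 2`, and in dimension 2 the
characteristic polynomial of `g` is `X² - t(g) X + χ(g)`. -/
theorem quadRepStatement : QuadRepStatement := by
  intro k _ _ G _ V _ _ _ _ ρ χ t hs H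
  exact ⟨QuadRep.finrank_le_two (ρ := ρ) (χ := χ) hs (fun g => ⟨t g, H g⟩),
    fun h2 g => QuadRep.charpoly_eq (ρ := ρ) (χ := χ) hs t H h2 g⟩

end Fermat.Agent.S29
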