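/-
S29 (item 90), piece (N0) (helper1): level `N = 0` is vacuous (every prime divides `0`); the
trivial 2-dimensional representation works.
-/
import Mathlib
import Fermat.Agent.S29.Contract

set_option autoImplicit false

noncomputable section

namespace Fermat.Agent.S29.N0

/-- the trivial 2-dimensional residual representation. -/
def trivialRep (k : Type) [Field k] : ResidualGaloisRep k where
  V := Fin 2 → k
  finrank_eq := by simp
  ρ := 1
  factorsThroughFiniteLevel := ⟨⊥, inferInstance, fun _ _ => rfl⟩

/-- **(N0)**. -/
theorem levelZeroStatement : LevelZeroStatement := by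
  intro g p k _ φ
  refine ⟨trivialRep k, ?_, ?_⟩
  · intro ℓ _ hℓ
    exact absurd (dvd_zero ℓ) hℓ
  · intro ℓ _ hℓ
    rw [zero_mul] at hℓ
    exact absurd (dvd_zero ℓ) hℓ

end Fermat.Agent.S29.N0
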