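/-
S29 (item 90), piece (T), part 1 (helper4): the Lucas recursion.
If `x² - t x + d = 0` in a `k`-algebra, then every power `x^j` satisfies `X² - s X + d^j`.
-/
import Mathlib

set_option autoImplicit false

open Polynomial

noncomputable section

namespace Fermat.Agent.S29.Rep

/-- the Lucas sequence `s_j = α^j + β^j`. -/
def lucasSeq {k : Type} [Field k] (t d : k) : ℕ → k
  | 0 => 2
  | 1 => t
  | (n + 2) => t * lucasSeq t d (n + 1) - d * lucasSeq t d n

/-- commutative form. -/
theorem lucas_comm {A : Type} [CommRing A] (r t d : A) (h : r * r - t * r + d = 0)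
    (s : ℕ → A) (h0 : s 0 = 2) (h1 : s 1 = t)
    (hs : ∀ n, s (n + 2) = t * s (n + 1) - d * s n) (j : ℕ) :
    r ^ j * r ^ j - s j * r ^ j + d ^ j = 0 := by
  have hy : r * (t - r) = d := by linear_combination -h
  have key : ∀ j, r ^ j + (t - r) ^ j = s j := by
    intro j
    induction j using Nat.twoStepInduction with
    | zero => rw [h0]; ring
    | one => rw [h1]; ring
    | more n ih0 ih1 =>
      rw [hs, ← ih0, ← ih1]
      have e : r ^ (n + 2) + (t - r) ^ (n + 2) =
          t * (r ^ (n + 1) + (t - r) ^ (n + 1)) - (r * (t - r)) * (r ^ n + (t - r) ^ n) := by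
        ring
      rw [e, hy]
  have hp : r ^ j * (t - r) ^ j = d ^ j := by rw [← mul_pow, hy]
  rw [← key j]
  linear_combination -hp

/-- polynomial form: `X² - tX + d` divides `X^{2j} - s_j X^j + d^j`. -/
theorem lucas_dvd {k : Type} [Field k] (t d : k) (j : ℕ) :
    (X ^ 2 - C t * X + C d : k[X]) ∣
      X ^ j * X ^ j - C (lucasSeq t d j) * X ^ j + C (d ^ j) := by
  set P : k[X] := X ^ 2 - C t * X + C d with hP
  rw [← AdjoinRoot.mk_eq_zero (f := P)]
  have hroot : AdjoinRoot.mk P P = 0 := AdjoinRoot.mk_self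
  have h : AdjoinRoot.root P * AdjoinRoot.root P - AdjoinRoot.of P t * AdjoinRoot.root P +
      AdjoinRoot.of P d = 0 := by
    have := hroot
    rw [hP] at this
    simpa [pow_two, AdjoinRoot.mk_X, AdjoinRoot.mk_C] using this
  have := lucas_comm (AdjoinRoot.root P) (AdjoinRoot.of P t) (AdjoinRoot.of P d) h
    (fun n => AdjoinRoot.of P (lucasSeq t d n))
    (by show AdjoinRoot.of P (2 : k) = 2; exact map_ofNat _ 2) (by simp [lucasSeq])
    (fun n => by simp [lucasSeq]) j
  simpa [AdjoinRoot.mk_X, AdjoinRoot.mk_C] using this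

/-- **Lucas**: in any `k`-algebra. -/
theorem lucas {k R : Type} [Field k] [Ring R] [Algebra k R] (x : R) (t d : k)
    (h : x * x - t • x + d • (1 : R) = 0) (j : ℕ) :
    x ^ j * x ^ j - lucasSeq t d j • x ^ j + (d ^ j) • (1 : R) = 0 := by
  obtain ⟨Q, hQ⟩ := lucas_dvd t d j
  have h1 := congrArg (Polynomial.aeval x) hQ
  have h2 : Polynomial.aeval x (X ^ 2 - C t * X + C d : k[X]) = 0 := by
    simp only [map_add, map_sub, map_mul, map_pow, aeval_X, aeval_C]
    rw [pow_two, ← Algebra.smul_def, Algebra.algebraMap_eq_smul_one]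
    exact h
  rw [map_mul, h2, zero_mul] at h1
  simp only [map_add, map_sub, map_mul, aeval_X, aeval_C] at h1
  simp only [map_pow, aeval_X] at h1
  rw [← Algebra.smul_def, ← map_pow, Algebra.algebraMap_eq_smul_one] at h1
  exact h1

/-- uniqueness of the trace scalar: if `x` is invertible (has a left inverse) and nonzero ring. -/
theorem trace_unique {k R : Type} [Field k] [Ring R] [Algebra k R] [Nontrivial R]
    (x : R) (hx : IsUnit x) (t t' d : k)
    (h : x * x - t • x + d • (1 : R) = 0) (h' : x * x - t' • x + d • (1 : R) = 0) : t = t' := by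
  by_contra hne
  have h1 : (t - t') • x = 0 := by
    have : (t - t') • x = (x * x - t' • x + d • (1 : R)) - (x * x - t • x + d • (1 : R)) := by
      rw [sub_smul]; abel
    rw [this, h, h', sub_zero]
  have h2 : x = 0 := by
    have := congrArg (fun z => (t - t')⁻¹ • z) h1
    simpa [smul_smul, inv_mul_cancel₀ (sub_ne_zero.mpr hne)] using this
  rw [h2] at hx
  exact not_isUnit_zero hx

end Fermat.Agent.S29.Rep
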