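/-
S29 (item 90), piece (T), part 3 (helper4): the two cases.
rank 1: `ψ ⊕ χ ψ⁻¹` on `Fin 2 → k`;  rank ≥ 2: R6 gives rank 2 and the characteristic polynomial.
-/
import Mathlib
import Fermat.Agent.S29.Contract
import Fermat.Agent.S29.RepLucas

set_option autoImplicit false

open Polynomial

noncomputable section

namespace Fermat.Agent.S29.Rep

/-- in rank one every endomorphism is the scalar `det`. -/
theorem apply_eq_det_smul {k V : Type} [Field k] [AddCommGroup V] [Module k V]
    (h1 : Module.finrank k V = 1) (f : Module.End k V) (v : V) :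
    f v = LinearMap.det f • v := by
  haveI : FiniteDimensional k V := .of_finrank_eq_succ h1
  obtain ⟨v₀, hv₀⟩ : ∃ v₀ : V, v₀ ≠ 0 := by
    haveI : Nontrivial V := Module.nontrivial_of_finrank_eq_succ h1
    exact exists_ne 0
  obtain ⟨c, hc⟩ := exists_smul_eq_of_finrank_eq_one h1 hv₀ (f v₀)
  have hf : f = c • (1 : Module.End k V) := by
    refine LinearMap.ext (fun w => ?_)
    obtain ⟨a, rfl⟩ := exists_smul_eq_of_finrank_eq_one h1 hv₀ w
    rw [map_smul, ← hc]
    show a • c • v₀ = c • a • v₀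
    rw [smul_comm]
  have hdet : LinearMap.det f = c := by
    rw [hf, LinearMap.det_smul, h1, pow_one, map_one, mul_one]
  rw [hdet, hf]
  rfl

/-- the diagonal representation `ψ ⊕ χ ψ⁻¹`. -/
def diagHom {k G : Type} [Field k] [Group G] (ψ : G →* k) (χ : G →* kˣ) :
    G →* Matrix (Fin 2) (Fin 2) k where
  toFun g := Matrix.diagonal ![ψ g, (χ g : k) * (ψ g)⁻¹]
  map_one' := by
    rw [map_one, map_one]
    ext i j
    fin_cases i <;> fin_cases j <;> simp
  map_mul' g h := by
    rw [map_mul, map_mul, Matrix.diagonal_mul_diagonal]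
    congr 1
    funext i
    fin_cases i
    · simp
    · show ((χ g * χ h : kˣ) : k) * (ψ g * ψ h)⁻¹ = ((χ g : k) * (ψ g)⁻¹) * ((χ h : k) * (ψ h)⁻¹)
      rw [Units.val_mul, mul_inv]
      ring

theorem charpoly_diagHom {k G : Type} [Field k] [Group G] (ψ : G →* k) (χ : G →* kˣ) (g : G) :
    (Matrix.toLin' (diagHom ψ χ g)).charpoly =
      (X - C (ψ g)) * (X - C ((χ g : k) * (ψ g)⁻¹)) := by
  rw [Matrix.charpoly_toLin']
  show (Matrix.diagonal ![ψ g, (χ g : k) * (ψ g)⁻¹]).charpoly = _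
  rw [Matrix.charpoly_diagonal, Fin.prod_univ_two]
  rfl

/-- **rank 1**. -/
theorem rank_one_rep {k G V : Type} [Field k] [Group G] [AddCommGroup V] [Module k V]
    (h1 : Module.finrank k V = 1) (ρV : G →* Module.End k V) (χ : G →* kˣ) :
    ∃ ρ' : G →* Module.End k (Fin 2 → k),
      (∀ g : G, ρV g = 1 → (χ g : k) = 1 → ρ' g = 1) ∧
      (∀ (g : G) (c d : k), ρV g * ρV g - c • ρV g + d • (1 : Module.End k V) = 0 →
        (χ g : k) = d → LinearMap.charpoly (ρ' g) = X ^ 2 - C c * X + C d) := by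
  haveI : FiniteDimensional k V := .of_finrank_eq_succ h1
  obtain ⟨v₀, hv₀⟩ : ∃ v₀ : V, v₀ ≠ 0 := by
    haveI : Nontrivial V := Module.nontrivial_of_finrank_eq_succ h1
    exact exists_ne 0
  let ψ : G →* k := (LinearMap.det : Module.End k V →* k).comp ρV
  have hψ : ∀ g, ψ g = LinearMap.det (ρV g) := fun _ => rfl
  have hψne : ∀ g, ψ g ≠ 0 := by
    intro g hg
    have h2 : ψ g * ψ g⁻¹ = 1 := by rw [← map_mul, mul_inv_cancel, map_one]
    rw [hg, zero_mul] at h2
    exact zero_ne_one h2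
  let ρ' : G →* Module.End k (Fin 2 → k) :=
    (Matrix.toLinAlgEquiv' : Matrix (Fin 2) (Fin 2) k ≃ₐ[k] Module.End k (Fin 2 → k)).toAlgHom.toRingHom.toMonoidHom.comp
      (diagHom ψ χ)
  have hρ' : ∀ g, ρ' g = Matrix.toLin' (diagHom ψ χ g) := fun _ => rfl
  refine ⟨ρ', ?_, ?_⟩
  · intro g hg hχg
    have e1 : ψ g = 1 := by rw [hψ, hg, map_one]
    have e2 : diagHom ψ χ g = 1 := by
      show Matrix.diagonal ![ψ g, (χ g : k) * (ψ g)⁻¹] = 1
      rw [e1, hχg]
      ext i j
      fin_cases i <;> fin_cases j <;> simp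
    rw [hρ', e2]
    exact Matrix.toLin'_one
  · intro g c d hq hχg
    rw [hρ', charpoly_diagHom, hχg]
    -- `ψ² - c ψ + d = 0`
    have h2 := congrArg (fun f : Module.End k V => f v₀) hq
    simp only [LinearMap.add_apply, LinearMap.sub_apply, LinearMap.smul_apply,
      Module.End.mul_apply, Module.End.one_apply, LinearMap.zero_apply] at h2
    rw [apply_eq_det_smul h1 (ρV g) v₀, map_smul, apply_eq_det_smul h1 (ρV g) v₀, ← hψ,
      smul_smul, smul_smul, ← sub_smul, ← add_smul] at h2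
    have h3 : ψ g * ψ g - c * ψ g + d = 0 := by
      rcases smul_eq_zero.mp h2 with h | h
      · exact h
      · exact absurd h hv₀
    have h4 : c = ψ g + d * (ψ g)⁻¹ := by
      field_simp [hψne g]
      linear_combination -h3
    rw [h4]
    have h5 : (ψ g) * (d * (ψ g)⁻¹) = d := by
      field_simp [hψne g]
    have : (X - C (ψ g)) * (X - C (d * (ψ g)⁻¹)) =
        X ^ 2 - C (ψ g + d * (ψ g)⁻¹) * X + C ((ψ g) * (d * (ψ g)⁻¹)) := by
      simp only [map_add, map_mul]
      ring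
    rw [this, h5]

/-- **rank ≥ 2** via R6. -/
theorem rank_two_rep (hR6 : QuadRepStatement) {k : Type} [Field k] [IsAlgClosed k]
    {G : Type} [Group G] {V : Type} [AddCommGroup V] [Module k V] [FiniteDimensional k V]
    [Nontrivial V] (ρV : G →* Module.End k V) (χ : G →* kˣ)
    (hirr : ∀ W : Submodule k V, (∀ g : G, ∀ x ∈ W, ρV g x ∈ W) → W = ⊥ ∨ W = ⊤)
    (hne1 : Module.finrank k V ≠ 1)
    (hall : ∀ g : G, ∃ t : k, ρV g * ρV g - t • ρV g + (χ g : k) • (1 : Module.End k V) = 0) :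
    Module.finrank k V = 2 ∧
      ∀ (g : G) (c d : k), ρV g * ρV g - c • ρV g + d • (1 : Module.End k V) = 0 →
        (χ g : k) = d → LinearMap.charpoly (ρV g) = X ^ 2 - C c * X + C d := by
  choose t ht using hall
  obtain ⟨hle, hcp⟩ := hR6 k G V ρV χ t hirr ht
  have hpos : 0 < Module.finrank k V := Module.finrank_pos
  have h2 : Module.finrank k V = 2 := by omega
  refine ⟨h2, fun g c d hq hχg => ?_⟩
  rw [hcp h2 g, hχg]
  have hu : IsUnit (ρV g) := ⟨⟨ρV g, ρV g⁻¹, by rw [← map_mul, mul_inv_cancel, map_one],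
    by rw [← map_mul, inv_mul_cancel, map_one]⟩, rfl⟩
  have := ht g
  rw [hχg] at this
  rw [trace_unique (ρV g) hu (t g) c d this hq]

end Fermat.Agent.S29.Rep
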