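/-
S29 (item 90), piece (T), part 2 (helper4): an irreducible subrepresentation of a nonzero
finite-dimensional representation.
-/
import Mathlib

set_option autoImplicit false

noncomputable section

namespace Fermat.Agent.S29.Rep

/-- a nonzero finite-dimensional representation has a minimal nonzero invariant subspace. -/
theorem exists_minimal_invariant {k G U : Type} [Field k] [Monoid G] [AddCommGroup U]
    [Module k U] [FiniteDimensional k U] [Nontrivial U] (ρ : G →* Module.End k U) :
    ∃ V : Submodule k U, V ≠ ⊥ ∧ (∀ g : G, ∀ x ∈ V, ρ g x ∈ V) ∧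
      ∀ W : Submodule k U, W ≤ V → (∀ g : G, ∀ x ∈ W, ρ g x ∈ W) → W = ⊥ ∨ W = V := by
  classical
  let S : Set ℕ := {d | ∃ V : Submodule k U, V ≠ ⊥ ∧ (∀ g : G, ∀ x ∈ V, ρ g x ∈ V) ∧
    Module.finrank k V = d}
  have hS : S.Nonempty := ⟨Module.finrank k (⊤ : Submodule k U), ⊤, top_ne_bot,
    fun _ _ _ => Submodule.mem_top, rfl⟩
  obtain ⟨V, hV0, hVinv, hVd⟩ := Nat.sInf_mem hS
  refine ⟨V, hV0, hVinv, fun W hWV hWinv => ?_⟩
  by_cases hW0 : W = ⊥
  · exact Or.inl hW0
  · right
    have h1 : sInf S ≤ Module.finrank k W := Nat.sInf_le ⟨W, hW0, hWinv, rfl⟩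
    rw [← hVd] at h1
    exact Submodule.eq_of_le_of_finrank_le hWV h1

/-- **irreducible constituent**: a subrepresentation `V` with its restricted action. -/
theorem exists_irreducible_sub {k G U : Type} [Field k] [Monoid G] [AddCommGroup U]
    [Module k U] [FiniteDimensional k U] [Nontrivial U] (ρ : G →* Module.End k U) :
    ∃ (V : Submodule k U) (ρV : G →* Module.End k V), Nontrivial V ∧
      (∀ (g : G) (v : V), ((ρV g v : V) : U) = ρ g v) ∧
      (∀ W : Submodule k V, (∀ g : G, ∀ x ∈ W, ρV g x ∈ W) → W = ⊥ ∨ W = ⊤) := by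
  obtain ⟨V, hV0, hVinv, hmin⟩ := exists_minimal_invariant ρ
  let ρV : G →* Module.End k V :=
    { toFun := fun g => (ρ g).restrict (p := V) (q := V) (hVinv g)
      map_one' := by
        refine LinearMap.ext (fun v => Subtype.ext ?_)
        show ρ 1 (v : U) = v
        rw [map_one]; rfl
      map_mul' := fun g h => by
        refine LinearMap.ext (fun v => Subtype.ext ?_)
        show ρ (g * h) (v : U) = ρ g (ρ h (v : U))
        rw [map_mul]; rfl }
  have hρV : ∀ (g : G) (v : V), ((ρV g v : V) : U) = ρ g v := fun _ _ => rfl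
  refine ⟨V, ρV, Submodule.nontrivial_iff_ne_bot.mpr hV0, hρV, fun W hW => ?_⟩
  have h1 := hmin (W.map V.subtype) (Submodule.map_subtype_le V W) (by
    rintro g _ ⟨x, hx, rfl⟩
    exact ⟨ρV g x, hW g x hx, rfl⟩)
  rcases h1 with h1 | h1
  · left
    rw [eq_bot_iff]
    intro x hx
    have hx' : (x : U) ∈ W.map V.subtype := ⟨x, hx, rfl⟩
    rw [h1, Submodule.mem_bot] at hx'
    rw [Submodule.mem_bot]
    exact Subtype.ext hx'
  · right
    rw [eq_top_iff]
    intro x _
    have hx : (x : U) ∈ W.map V.subtype := by rw [h1]; exact x.2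
    obtain ⟨y, hy, hyx⟩ := hx
    have : y = x := Subtype.ext hyx
    exact this ▸ hy

end Fermat.Agent.S29.Rep
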