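/-
S29 (item 90), piece (T) (helper4): `RepStatement`.
From the Galois module `U` to the 2-dimensional representation: irreducible constituent `V`;
rank 1: `ψ ⊕ χ ψ⁻¹`; rank ≥ 2: the quadratic relation for all group elements (R5 + Lucas) and R6.
-/
import Mathlib
import Fermat.Agent.S29.Contract
import Fermat.Agent.S29.RepLucas
import Fermat.Agent.S29.RepIrr
import Fermat.Agent.S29.RepCases
import Fermat.Agent.S29.LevelZero

set_option autoImplicit false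

open Polynomial

noncomputable section

namespace Fermat.Agent.S29.Rep

/-- a prime outside the prime factors of `N p` does not divide `N p`. -/
theorem not_dvd_of_not_mem {N p ℓ : ℕ} (hN : 0 < N) (hp : p.Prime) (hℓ : ℓ.Prime)
    (h : ℓ ∉ (N * p).primeFactors) : ¬ ℓ ∣ N * p := by
  intro hd
  exact h (Nat.mem_primeFactors.mpr ⟨hℓ, hd, Nat.mul_ne_zero hN.ne' hp.ne_zero⟩)

/-- the quadratic relation for ALL elements, from R5 and the Lucas recursion. -/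
theorem quad_all (hR5 : FrobDensityStatement) {N p : ℕ} (hN : 0 < N) (hp : p.Prime)
    {k : Type} [Field k] {V : Type} [AddCommGroup V] [Module k V]
    (ρV : GQ →* Module.End k V) (χ : GQ →* kˣ)
    (hfin : GaloisFactorsThroughFiniteLevel ρV) (hχfin : GaloisFactorsThroughFiniteLevel χ)
    (hχ : ∀ ℓ : ℕ, ℓ.Prime → ℓ ≠ p →
        ∀ A : ValuationSubring (AlgebraicClosure ℚ), A.LiesOverPrime ℓ →
          ∀ σ : GQ, A.IsFrobeniusAt σ ℓ → ((χ σ : kˣ) : k) = (ℓ : k))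
    (hquad : ∀ ℓ : ℕ, ℓ.Prime → ¬ ℓ ∣ N * p →
      ∀ A : ValuationSubring (AlgebraicClosure ℚ), A.LiesOverPrime ℓ →
        ∀ σ : GQ, A.IsFrobeniusAt σ ℓ →
          ∃ c : k, ρV σ * ρV σ - c • ρV σ + (ℓ : k) • (1 : Module.End k V) = 0)
    (σ : GQ) :
    ∃ t : k, ρV σ * ρV σ - t • ρV σ + (χ σ : k) • (1 : Module.End k V) = 0 := by
  obtain ⟨L₁, hL₁, h₁⟩ := hfin
  obtain ⟨L₂, hL₂, h₂⟩ := hχfin
  haveI := hL₁
  haveI := hL₂
  have hfd : FiniteDimensional ℚ ↥(L₁ ⊔ L₂) := IntermediateField.finiteDimensional_sup L₁ L₂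
  obtain ⟨ℓ, hℓ, hℓS, A, hA, τ, hτ, j, hj⟩ := hR5 (L₁ ⊔ L₂) hfd (N * p).primeFactors σ
  have hℓNp : ¬ ℓ ∣ N * p := not_dvd_of_not_mem hN hp hℓ hℓS
  have hℓp : ℓ ≠ p := fun h => hℓNp (h ▸ Dvd.intro_left N rfl)
  obtain ⟨c, hc⟩ := hquad ℓ hℓ hℓNp A hA τ hτ
  -- `σ⁻¹ τ^j` fixes `L₁ ⊔ L₂`
  have hfix : ∀ y ∈ L₁ ⊔ L₂, (σ⁻¹ * τ ^ j) y = y := by
    intro y hy
    show σ⁻¹ ((τ ^ j) y) = y
    rw [hj y hy]
    exact σ.symm_apply_apply y
  have e1 : ρV (τ ^ j) = ρV σ := by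
    have := h₁ (σ⁻¹ * τ ^ j) (fun y hy => hfix y ((le_sup_left : L₁ ≤ L₁ ⊔ L₂) hy))
    rw [map_mul] at this
    have h3 : ρV σ * (ρV σ⁻¹ * ρV (τ ^ j)) = ρV σ * 1 := congrArg (ρV σ * ·) this
    rw [← mul_assoc, ← map_mul, mul_inv_cancel, map_one, one_mul, mul_one] at h3
    exact h3
  have e2 : χ (τ ^ j) = χ σ := by
    have := h₂ (σ⁻¹ * τ ^ j) (fun y hy => hfix y ((le_sup_right : L₂ ≤ L₁ ⊔ L₂) hy))
    rw [map_mul] at this
    have h3 : χ σ * (χ σ⁻¹ * χ (τ ^ j)) = χ σ * 1 := congrArg (χ σ * ·) this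
    rw [← mul_assoc, ← map_mul, mul_inv_cancel, map_one, one_mul, mul_one] at h3
    exact h3
  have hL := lucas (ρV τ) c (ℓ : k) hc j
  refine ⟨lucasSeq c (ℓ : k) j, ?_⟩
  have e3 : ((χ σ : kˣ) : k) = (ℓ : k) ^ j := by
    rw [← e2, map_pow, Units.val_pow_eq_pow_val, hχ ℓ hℓ hℓp A hA τ hτ]
  rw [← e1, map_pow, e3]
  exact hL

/-- `ℓ ∤ N`, `(ℓ : k) ≠ 0` give `ℓ ∤ N p`. -/
theorem not_dvd_mul_of_ne_zero {N p ℓ : ℕ} (hp : p.Prime) (hℓ : ℓ.Prime) {k : Type} [Field k]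
    [CharP k p] (hℓN : ¬ ℓ ∣ N) (hℓk : (ℓ : k) ≠ 0) : ¬ ℓ ∣ N * p := by
  intro h
  rcases (Nat.Prime.dvd_mul hℓ).mp h with h | h
  · exact hℓN h
  · have : ℓ = p := (Nat.prime_dvd_prime_iff_eq hℓ hp).mp h
    subst this
    exact hℓk (CharP.cast_eq_zero k ℓ)

/-- **(T)** -/
theorem repStatement : RepStatement := by
  intro hR5 hR6 hCY N g p hp k _ _ _ φ hEM
  rcases Nat.eq_zero_or_pos N with hN | hN
  · subst hN
    exact N0.levelZeroStatement g p k φ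
  obtain ⟨U, iU1, iU2, iU3, iU4, ρ, hfin, hunr, hquad⟩ := hEM
  obtain ⟨χ, hχfin, hχ⟩ := hCY p hp k
  obtain ⟨V, ρV, hVnt, hρV, hirr⟩ := exists_irreducible_sub ρ
  -- transfer to `V`
  have htr : ∀ (σ : GQ), ρ σ = 1 → ρV σ = 1 := by
    intro σ h
    refine LinearMap.ext (fun v => Subtype.ext ?_)
    rw [hρV, h]
    rfl
  have hfinV : GaloisFactorsThroughFiniteLevel ρV := by
    obtain ⟨L, hL, h⟩ := hfin
    exact ⟨L, hL, fun σ hσ => htr σ (h σ hσ)⟩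
  have hunrV : ∀ ℓ : ℕ, ℓ.Prime → ¬ ℓ ∣ N * p →
      ∀ A : ValuationSubring (AlgebraicClosure ℚ), A.LiesOverPrime ℓ →
        ∀ σ ∈ A.inertiaSubgroupIn ℚ, ρV σ = 1 :=
    fun ℓ hℓ hℓNp A hA σ hσ => htr σ (hunr ℓ hℓ hℓNp A hA σ hσ)
  have hquadV : ∀ ℓ : ℕ, ℓ.Prime → ¬ ℓ ∣ N * p →
      ∀ A : ValuationSubring (AlgebraicClosure ℚ), A.LiesOverPrime ℓ →
        ∀ σ : GQ, A.IsFrobeniusAt σ ℓ →
          ∃ a : integralClosure ℤ ℂ, (a : ℂ) = ModularFormClass.qCoeff g ℓ ∧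
            ρV σ * ρV σ - φ a • ρV σ + (ℓ : k) • (1 : Module.End k V) = 0 := by
    intro ℓ hℓ hℓNp A hA σ hσ
    obtain ⟨a, ha, hq⟩ := hquad ℓ hℓ hℓNp A hA σ hσ
    refine ⟨a, ha, LinearMap.ext (fun v => Subtype.ext ?_)⟩
    have := congrArg (fun f : Module.End k U => f (v : U)) hq
    simp only [LinearMap.add_apply, LinearMap.sub_apply, LinearMap.smul_apply,
      Module.End.mul_apply, Module.End.one_apply, LinearMap.zero_apply] at this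
    simp only [LinearMap.add_apply, LinearMap.sub_apply, LinearMap.smul_apply,
      Module.End.mul_apply, Module.End.one_apply, LinearMap.zero_apply, Submodule.coe_add,
      Submodule.coe_sub, Submodule.coe_smul, hρV, ZeroMemClass.coe_zero]
    exact this
  haveI : FiniteDimensional k V := inferInstance
  -- the common conclusion
  suffices key : ∃ (V' : Type) (_ : AddCommGroup V') (_ : Module k V')
      (h2 : Module.finrank k V' = 2) (ρ' : GQ →* Module.End k V'),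
      (∀ σ : GQ, ρV σ = 1 → (χ σ : k) = 1 → ρ' σ = 1) ∧
      (∀ (σ : GQ) (c d : k), ρV σ * ρV σ - c • ρV σ + d • (1 : Module.End k V) = 0 →
        (χ σ : k) = d →
        haveI : Module.Finite k V' := Module.finite_of_finrank_eq_succ h2
        LinearMap.charpoly (ρ' σ) = X ^ 2 - C c * X + C d) by
    obtain ⟨V', i1, i2, h2, ρ', htriv, hcp⟩ := key
    obtain ⟨L₁, hL₁, h₁⟩ := hfinV
    obtain ⟨L₂, hL₂, h₂⟩ := hχfin
    haveI := hL₁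
    haveI := hL₂
    have hfd : FiniteDimensional ℚ ↥(L₁ ⊔ L₂) := IntermediateField.finiteDimensional_sup L₁ L₂
    refine ⟨{ V := V', finrank_eq := h2, ρ := ρ', factorsThroughFiniteLevel := ⟨L₁ ⊔ L₂, hfd,
      fun σ hσ => htriv σ (h₁ σ (fun y hy => hσ y ((le_sup_left : L₁ ≤ L₁ ⊔ L₂) hy)))
        (by rw [h₂ σ (fun y hy => hσ y ((le_sup_right : L₂ ≤ L₁ ⊔ L₂) hy))]; rfl)⟩ }, ?_, ?_⟩
    · intro ℓ hℓ hℓN hℓk A hA σ hσ
      have hℓNp : ¬ ℓ ∣ N * p := not_dvd_mul_of_ne_zero hp hℓ hℓN hℓk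
      have hℓp : ℓ ≠ p := fun h => hℓNp (h ▸ Dvd.intro_left N rfl)
      obtain ⟨a, ha, hq⟩ := hquadV ℓ hℓ hℓNp A hA σ hσ
      exact ⟨a, ha, hcp σ (φ a) (ℓ : k) hq ((hχ ℓ hℓ hℓp A hA).2 σ hσ)⟩
    · intro ℓ hℓ hℓNp A hA σ hσ
      have hℓp : ℓ ≠ p := fun h => hℓNp (h ▸ Dvd.intro_left N rfl)
      exact htriv σ (hunrV ℓ hℓ hℓNp A hA σ hσ)
        (by rw [(hχ ℓ hℓ hℓp A hA).1 σ hσ]; rfl)
  by_cases h1 : Module.finrank k V = 1
  · obtain ⟨ρ', htriv, hcp⟩ := rank_one_rep h1 ρV χ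
    exact ⟨Fin 2 → k, inferInstance, inferInstance, by simp, ρ', htriv, hcp⟩
  · have hall : ∀ σ : GQ, ∃ t : k,
        ρV σ * ρV σ - t • ρV σ + (χ σ : k) • (1 : Module.End k V) = 0 :=
      quad_all hR5 hN hp ρV χ hfinV hχfin (fun ℓ hℓ hℓp A hA σ hσ => (hχ ℓ hℓ hℓp A hA).2 σ hσ)
        (fun ℓ hℓ hℓNp A hA σ hσ => by
          obtain ⟨a, _, hq⟩ := hquadV ℓ hℓ hℓNp A hA σ hσ
          exact ⟨φ a, hq⟩)
    obtain ⟨h2, hcp⟩ := rank_two_rep hR6 ρV χ hirr h1 hall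
    exact ⟨V, inferInstance, inferInstance, h2, ρV, fun σ h _ => h, hcp⟩

end Fermat.Agent.S29.Rep
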