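/-
S29 (item 90), FINAL ASSEMBLY (helper4, architect).
Everything except the dictionary (R1) is proved: S29 follows from `DictStatement`.
-/
import Mathlib
import Fermat.Agent.S29.Contract
import Fermat.Agent.S29.EigenModule
import Fermat.Agent.S29.Rep
import Fermat.Agent.S29.Glue
import Fermat.Agent.S29.R2
import Fermat.Agent.S29.R3
import Fermat.Agent.S29.R4
import Fermat.Agent.S29.R6
import Fermat.Agent.S29.FrobDens
import Fermat.Agent.S29.Cyclo
import Fermat.Agent.S29.LevelZero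
import Fermat.Agent.S29.BaseChange

set_option autoImplicit false

open ModularCurve AlgebraicCurve Polynomial
open scoped TensorProduct

noncomputable section

namespace Fermat.Agent.S29.Final

/-- **(R1) THE DICTIONARY** (the only open piece): an injective additive Hecke-equivariant map
from `XP N p = Hom(Γ₀(N)/(small trace), ℤ/p)` to `J₀(N)[p]`. -/
def DictStatement : Prop :=
  ∀ (N : ℕ) [NeZero N] (p : ℕ) [Fact p.Prime],
    ∃ Φ : R2.XP N p →+ torsP N p, Function.Injective Φ ∧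
      ∀ (ℓ : ℕ) [Fact ℓ.Prime] (hℓN : ¬ ℓ ∣ N), ¬ ℓ ∣ N * p →
        ∀ ψ : R2.XP N p,
          Φ (R2.TXP N p ℓ hℓN ψ) = heckeTors N p ⟨ℓ, Fact.out⟩ (Φ ψ)

/-- R1 + R2 ⟹ `EigenOccursStatement`. -/
theorem eigenOccursStatement_of_dict (hD : DictStatement) : EigenOccursStatement := by
  intro N _ g hg p hp k _ _ _ φ
  haveI : Fact p.Prime := ⟨hp⟩
  obtain ⟨Φ, hΦ, hT⟩ := hD N p
  obtain ⟨w, hw, hev⟩ := R2.eigen_occurs_XP g hg p k φ
  classical
  let T : Nat.Primes → R2.XP N p →ₗ[ℤ] R2.XP N p := fun ℓ =>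
    if h : ¬ (ℓ : ℕ) ∣ N then
      haveI : Fact (ℓ : ℕ).Prime := ⟨ℓ.2⟩
      R2.TXP N p ℓ h
    else 0
  have hTdef : ∀ (ℓ : Nat.Primes) (h : ¬ (ℓ : ℕ) ∣ N),
      T ℓ = (haveI : Fact (ℓ : ℕ).Prime := ⟨ℓ.2⟩; R2.TXP N p ℓ h) := fun ℓ h => dif_pos h
  refine Glue.eigenOccurs_of_dict N g p hp k φ Φ hΦ T ?_ w hw ?_
  · intro ℓ hℓNp x
    have hℓN : ¬ (ℓ : ℕ) ∣ N := fun h => hℓNp (h.mul_right p)
    haveI : Fact (ℓ : ℕ).Prime := ⟨ℓ.2⟩
    rw [hTdef ℓ hℓN]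
    exact hT ℓ hℓN hℓNp x
  · intro ℓ hℓ hℓNp
    have hℓN : ¬ ℓ ∣ N := fun h => hℓNp (h.mul_right p)
    haveI : Fact ℓ.Prime := ⟨hℓ⟩
    obtain ⟨a, ha, h⟩ := hev ℓ hℓN
    refine ⟨a, ha, ?_⟩
    rw [hTdef ⟨ℓ, hℓ⟩ hℓN]
    exact h

/-- **S29 from the dictionary.** -/
theorem s29_of_dict (hD : DictStatement)
    {N : ℕ} {g : CuspForm (CongruenceSubgroup.Gamma0 N) 2} (hg : g.IsNormalizedEigenform)
    {p : ℕ} (hp : p.Prime) {k : Type} [Field k] [CharP k p]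
    (φ : integralClosure ℤ ℂ →+* k) :
    ∃ ρ : ResidualGaloisRep k, ρ.IsAttachedTo g φ ∧
      ∀ ℓ : ℕ, ℓ.Prime → ¬ ℓ ∣ N * p → ρ.IsUnramifiedAt ℓ :=
  s29_of_pieces (eigenOccursStatement_of_dict hD) EM.eigenModuleStatement
    (fun N _ => heckeGaloisStatement N) (fun N _ => openStabStatement N)
    (fun N p _ _ => unramStatement N p) (fun N p _ _ => frobQuadStatement N p)
    FD.frobDensityStatement quadRepStatement Cyc.cycloStatement Rep.repStatement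
    BC.baseChangeStatement N0.levelZeroStatement hg hp φ

end Fermat.Agent.S29.Final
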