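import Mathlib

/-!
# S29 gamble, R5 (Frobenius density), piece (b1): decomposition groups and fixed fields (helper9)
-/
open NumberField IsDedekindDomain
open scoped Pointwise

set_option autoImplicit false

namespace Fermat.Agent.S29.FD

variable {E : Type} [Field E] [NumberField E] [IsGalois ℚ E]

theorem isPrime_span_natCast {p : ℕ} (hp : p.Prime) : (Ideal.span {(p : ℤ)}).IsPrime := by
  rw [Ideal.span_singleton_prime (by exact_mod_cast hp.ne_zero)]
  exact Nat.prime_iff_prime_int.mp hp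

theorem card_stabilizer_of_unramified {p : ℕ} (hp : p.Prime) (v : Ideal (𝓞 E)) [v.IsPrime]
    [v.LiesOver (Ideal.span {(p : ℤ)})]
    (hur : (Ideal.span {(p : ℤ)}).ramificationIdxIn (𝓞 E) = 1) :
    Nat.card (MulAction.stabilizer Gal(E/ℚ) v) = v.inertiaDeg ℤ := by
  have := isPrime_span_natCast hp
  rw [Ideal.card_stabilizer_eq (G := Gal(E/ℚ)) (Ideal.span {(p : ℤ)}) v, hur, one_mul,
    Ideal.inertiaDegIn_eq_inertiaDeg (Ideal.span {(p : ℤ)}) v Gal(E/ℚ)]

variable (H' : Subgroup Gal(E/ℚ))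

abbrev fixF : IntermediateField ℚ E := FixedPoints.intermediateField H'

theorem isGaloisGroup_fixF : IsGaloisGroup H' (𝓞 (fixF H')) (𝓞 E) :=
  IsGaloisGroup.of_isFractionRing H' (𝓞 (fixF H')) (𝓞 E) (fixF H') E

theorem card_stabilizer_sub {p : ℕ} (hp : p.Prime) (v : Ideal (𝓞 E)) [v.IsPrime]
    [v.LiesOver (Ideal.span {(p : ℤ)})]
    (hur : (Ideal.span {(p : ℤ)}).ramificationIdxIn (𝓞 E) = 1) :
    Nat.card ((MulAction.stabilizer Gal(E/ℚ) v).subgroupOf H') = v.inertiaDeg (𝓞 (fixF H')) := by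
  have hpp := isPrime_span_natCast hp
  have := isGaloisGroup_fixF H'
  set w : Ideal (𝓞 (fixF H')) := v.under (𝓞 (fixF H')) with hw
  have : v.LiesOver w := ⟨rfl⟩
  have : w.IsPrime := Ideal.IsPrime.under _ v
  have key := Ideal.card_stabilizer_eq (G := H') w v
  rw [Ideal.inertiaDegIn_eq_inertiaDeg w v H', Ideal.ramificationIdxIn_eq_ramificationIdx w v H']
    at key
  have hst : Nat.card ((MulAction.stabilizer Gal(E/ℚ) v).subgroupOf H')
      = v.ramificationIdx (𝓞 (fixF H')) * v.inertiaDeg (𝓞 (fixF H')) := by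
    rw [← key]
    refine Nat.card_congr (Equiv.subtypeEquivRight fun g => ?_)
    rw [Subgroup.mem_subgroupOf, MulAction.mem_stabilizer_iff, MulAction.mem_stabilizer_iff]
    rfl
  rw [hst]
  have he : v.ramificationIdx (𝓞 (fixF H')) = 1 := by
    have h1 : v.ramificationIdx ℤ = 1 := by
      rw [← Ideal.ramificationIdxIn_eq_ramificationIdx (Ideal.span {(p : ℤ)}) v Gal(E/ℚ), hur]
    have h2 := Ideal.ramificationIdx_tower (R := ℤ) w v
    rw [h1] at h2
    exact Nat.eq_one_of_mul_eq_one_left h2.symm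
  rw [he, one_mul]

/-- **(A2)**: for an unramified prime `v` of `E` over `p`, the prime of the fixed field of `H'`
below `v` has norm `p` iff the decomposition group of `v` is contained in `H'`. -/
theorem absNorm_under_eq_iff {p : ℕ} (hp : p.Prime) (v : Ideal (𝓞 E)) [v.IsPrime]
    [v.LiesOver (Ideal.span {(p : ℤ)})]
    (hur : (Ideal.span {(p : ℤ)}).ramificationIdxIn (𝓞 E) = 1) :
    Ideal.absNorm (v.under (𝓞 (fixF H'))) = p ↔ MulAction.stabilizer Gal(E/ℚ) v ≤ H' := by
  have hpp := isPrime_span_natCast hp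
  set w : Ideal (𝓞 (fixF H')) := v.under (𝓞 (fixF H')) with hw
  have : v.LiesOver w := ⟨rfl⟩
  have : w.IsPrime := Ideal.IsPrime.under _ v
  have : w.LiesOver (Ideal.span {(p : ℤ)}) := Ideal.LiesOver.tower_bot v w _
  have h1 := card_stabilizer_of_unramified hp v hur
  have h2 := card_stabilizer_sub H' hp v hur
  have h3 : v.inertiaDeg ℤ = w.inertiaDeg ℤ * v.inertiaDeg (𝓞 (fixF H')) :=
    Ideal.inertiaDeg_tower w v
  have h4 : p ^ w.inertiaDeg ℤ = Ideal.absNorm w := Ideal.pow_inertiaDeg p w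
  have hpos : 0 < v.inertiaDeg (𝓞 (fixF H')) := Ideal.inertiaDeg_pos v _
  rw [← h4]
  constructor
  · intro h
    have hw1 : w.inertiaDeg ℤ = 1 := by
      have : p ^ w.inertiaDeg ℤ = p ^ 1 := by rw [h, pow_one]
      exact Nat.pow_right_injective hp.two_le this
    rw [hw1, one_mul, ← h1, ← h2] at h3
    -- card D = card (D ⊓ H')
    have h5 : Nat.card ((MulAction.stabilizer Gal(E/ℚ) v).subgroupOf H')
        = Nat.card (MulAction.stabilizer Gal(E/ℚ) v ⊓ H' : Subgroup Gal(E/ℚ)) := by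
      rw [← Subgroup.inf_subgroupOf_right]
      exact Nat.card_congr (Subgroup.subgroupOfEquivOfLe inf_le_right).toEquiv
    have h6 : (MulAction.stabilizer Gal(E/ℚ) v ⊓ H' : Subgroup Gal(E/ℚ))
        = MulAction.stabilizer Gal(E/ℚ) v :=
      Subgroup.eq_of_le_of_card_ge inf_le_left (by rw [← h5, ← h3])
    rw [← h6]
    exact inf_le_right
  · intro h
    have : Nat.card ((MulAction.stabilizer Gal(E/ℚ) v).subgroupOf H')
        = Nat.card (MulAction.stabilizer Gal(E/ℚ) v) :=
      Nat.card_congr (Subgroup.subgroupOfEquivOfLe h).toEquiv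
    rw [h2, h1, h3] at this
    have hw1 : w.inertiaDeg ℤ = 1 := by
      have h5 : 1 * v.inertiaDeg (𝓞 (fixF H')) = w.inertiaDeg ℤ * v.inertiaDeg (𝓞 (fixF H')) := by
        rw [one_mul]; exact this
      exact (Nat.eq_of_mul_eq_mul_right hpos h5).symm
    rw [hw1, pow_one]

/-- **(A3)**: number of primes of `E` over the prime of the fixed field below `v`. -/
theorem ncard_primesOver_mul {p : ℕ} (hp : p.Prime) (v : Ideal (𝓞 E)) [v.IsPrime]
    [v.LiesOver (Ideal.span {(p : ℤ)})]
    (hur : (Ideal.span {(p : ℤ)}).ramificationIdxIn (𝓞 E) = 1) :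
    ((v.under (𝓞 (fixF H'))).primesOver (𝓞 E)).ncard
      * Nat.card ((MulAction.stabilizer Gal(E/ℚ) v).subgroupOf H') = Nat.card H' := by
  have hpp := isPrime_span_natCast hp
  have := isGaloisGroup_fixF H'
  set w : Ideal (𝓞 (fixF H')) := v.under (𝓞 (fixF H')) with hw
  have : v.LiesOver w := ⟨rfl⟩
  have : w.IsPrime := Ideal.IsPrime.under _ v
  have key := Ideal.ncard_primesOver_mul_ramificationIdxIn_mul_inertiaDegIn w (𝓞 E) H'
  rw [Ideal.inertiaDegIn_eq_inertiaDeg w v H', Ideal.ramificationIdxIn_eq_ramificationIdx w v H']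
    at key
  have he : v.ramificationIdx (𝓞 (fixF H')) = 1 := by
    have h1 : v.ramificationIdx ℤ = 1 := by
      rw [← Ideal.ramificationIdxIn_eq_ramificationIdx (Ideal.span {(p : ℤ)}) v Gal(E/ℚ), hur]
    have h2 := Ideal.ramificationIdx_tower (R := ℤ) w v
    rw [h1] at h2
    exact Nat.eq_one_of_mul_eq_one_left h2.symm
  rw [he, one_mul, ← card_stabilizer_sub H' hp v hur] at key
  exact key

end Fermat.Agent.S29.FD
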