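import Mathlib

/-!
# S29 gamble, R5 (Frobenius density), piece (a): the analytic core (helper9)

Abstract Möbius step: functions `a e : ℝ → ℝ` (`e ∣ n`) with
`∑_{f ∣ e} a f s = (e / n) * lg s + O(1)` for every `e ∣ n`
satisfy `a e s = (φ(e) / n) * lg s + O(1)`; in particular `a n s > 0` as soon as `lg s` is large.
-/

set_option autoImplicit false

namespace Fermat.Agent.S29.FD

open Finset

/-- **Möbius step**: exact densities of the strata from exact densities of the unions. -/
theorem exists_bound_stratum (n : ℕ) (hn : n ≠ 0) (I : Set ℝ) (lg : ℝ → ℝ) (a : ℕ → ℝ → ℝ)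
    (C : ℝ) (h : ∀ e : ℕ, e ∣ n → ∀ s ∈ I,
      |∑ f ∈ e.divisors, a f s - (e : ℝ) / n * lg s| ≤ C) :
    ∀ e : ℕ, e ∣ n → ∃ C' : ℝ, ∀ s ∈ I, |a e s - (e.totient : ℝ) / n * lg s| ≤ C' := by
  intro e
  induction e using Nat.strong_induction_on with
  | _ e ih =>
    intro he
    have he0 : e ≠ 0 := fun h0 => hn (by simpa [h0] using he)
    -- bounds for the proper divisors
    have hprop : ∀ f ∈ e.properDivisors, ∃ C' : ℝ, ∀ s ∈ I,
        |a f s - (f.totient : ℝ) / n * lg s| ≤ C' := by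
      intro f hf
      rw [Nat.mem_properDivisors] at hf
      exact ih f hf.2 (hf.1.trans he)
    choose! Cf hCf using hprop
    refine ⟨C + ∑ f ∈ e.properDivisors, Cf f, fun s hs => ?_⟩
    have h1 := h e he s hs
    have hins : ∀ F : ℕ → ℝ, ∑ f ∈ e.divisors, F f = ∑ f ∈ e.properDivisors, F f + F e := by
      intro F
      rw [← Nat.insert_self_properDivisors he0,
        Finset.sum_insert Nat.self_notMem_properDivisors, add_comm]
    have hsum : ∑ f ∈ e.divisors, a f s = ∑ f ∈ e.properDivisors, a f s + a e s := hins _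
    have htot : (e : ℝ) = ∑ f ∈ e.properDivisors, (f.totient : ℝ) + (e.totient : ℝ) := by
      have := Nat.sum_totient e
      have h2 : ∑ f ∈ e.divisors, (f.totient : ℝ) = (e : ℝ) := by exact_mod_cast this
      rw [← h2]
      exact hins _
    have h3 : |∑ f ∈ e.properDivisors, (a f s - (f.totient : ℝ) / n * lg s)|
        ≤ ∑ f ∈ e.properDivisors, Cf f :=
      (Finset.abs_sum_le_sum_abs _ _).trans (Finset.sum_le_sum fun f hf => hCf f hf s hs)
    have key : a e s - (e.totient : ℝ) / n * lg s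
        = (∑ f ∈ e.divisors, a f s - (e : ℝ) / n * lg s)
          - ∑ f ∈ e.properDivisors, (a f s - (f.totient : ℝ) / n * lg s) := by
      rw [hsum, Finset.sum_sub_distrib, ← Finset.sum_mul, ← Finset.sum_div]
      conv_rhs => rw [htot]
      ring
    rw [key]
    exact (abs_sub _ _).trans (add_le_add h1 h3)

/-- the top stratum is nonempty in the limit: `a n s > 0` when `lg s` is large. -/
theorem exists_pos_stratum (n : ℕ) (hn : n ≠ 0) (I : Set ℝ) (lg : ℝ → ℝ) (a : ℕ → ℝ → ℝ)
    (C : ℝ) (h : ∀ e : ℕ, e ∣ n → ∀ s ∈ I,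
      |∑ f ∈ e.divisors, a f s - (e : ℝ) / n * lg s| ≤ C)
    (hlg : ∀ M : ℝ, ∃ s ∈ I, M < lg s) : ∃ s ∈ I, 0 < a n s := by
  obtain ⟨C', hC'⟩ := exists_bound_stratum n hn I lg a C h n dvd_rfl
  have hφ : (0 : ℝ) < (n.totient : ℝ) / n := by
    have h1 : 0 < n.totient := Nat.totient_pos.mpr (Nat.pos_of_ne_zero hn)
    have h2 : 0 < n := Nat.pos_of_ne_zero hn
    positivity
  obtain ⟨s, hs, hM⟩ := hlg (C' / ((n.totient : ℝ) / n))
  refine ⟨s, hs, ?_⟩
  have h1 := hC' s hs
  rw [abs_le] at h1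
  have h2 : C' < (n.totient : ℝ) / n * lg s := by
    rw [div_lt_iff₀ hφ] at hM
    linarith
  linarith [h1.1]

end Fermat.Agent.S29.FD
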