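import Fermat.Agent.S29.FrobDensSum
import Fermat.Agent.S29.FrobDensCore

/-!
# S29 gamble, R5 (Frobenius density), piece (b3): strata and analytic bounds (helper9)
-/

set_option autoImplicit false

open NumberField IsDedekindDomain
open scoped Pointwise ENNReal
open Fermat.Agent.S14.HD Fermat.Agent.S14.Dens

namespace Fermat.Agent.S29.FD

variable {E : Type} [Field E] [NumberField E] [IsGalois ℚ E]

open Classical in
/-- the sum over the good primes of `E` whose decomposition group is the subgroup of order `f`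
of `⟨h⟩`. -/
noncomputable def AE (Bad : Finset ℕ) (h : Gal(E/ℚ)) (f : ℕ) (s : ℝ) : ℝ≥0∞ :=
  ∑' v : HeightOneSpectrum (𝓞 E),
    if ratPrime v ∉ Bad ∧ dec v ≤ Subgroup.zpowers h ∧ Nat.card (dec v) = f then tE s v else 0

omit [IsGalois ℚ E] in
/-- **strata**: the sum for the subgroup of order `e` is the sum of the strata `f ∣ e`. -/
theorem FE_subOrd (Bad : Finset ℕ) (h : Gal(E/ℚ)) {e : ℕ} (he : e ∣ orderOf h) (s : ℝ) :
    FE Bad (subOrd h e) s = ∑ f ∈ e.divisors, (f : ℝ≥0∞) * AE Bad h f s := by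
  classical
  have hn : 0 < orderOf h := orderOf_pos h
  have he0 : 0 < e := Nat.pos_of_dvd_of_pos he hn
  unfold FE AE
  simp_rw [← ENNReal.tsum_mul_left]
  rw [← Summable.tsum_finsetSum (fun _ _ => ENNReal.summable)]
  refine tsum_congr fun v => ?_
  by_cases hv : ratPrime v ∉ Bad ∧ dec v ≤ subOrd h e
  · rw [if_pos hv]
    have h1 := (le_subOrd_iff h he (dec v)).mp hv.2
    rw [Finset.sum_eq_single (Nat.card (dec v))]
    · rw [if_pos ⟨hv.1, h1.1, rfl⟩]
    · intro f _ hf
      rw [if_neg (fun hh => hf hh.2.2.symm), mul_zero]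
    · intro hnot
      exfalso
      apply hnot
      rw [Nat.mem_divisors]
      exact ⟨h1.2, he0.ne'⟩
  · rw [if_neg hv]
    symm
    apply Finset.sum_eq_zero
    intro f hf
    rw [if_neg, mul_zero]
    rintro ⟨g1, g2, g3⟩
    apply hv
    refine ⟨g1, (le_subOrd_iff h he (dec v)).mpr ⟨g2, ?_⟩⟩
    rw [g3]
    exact Nat.dvd_of_mem_divisors hf


section Analytic

variable (F : Type) [Field F] [NumberField F] (Bad : Finset ℕ)

/-- the good primes of prime norm. -/
def goodSet : Set (HeightOneSpectrum (𝓞 F)) :=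
  {w | ratPrime w ∉ Bad ∧ (Ideal.absNorm w.asIdeal).Prime}

theorem FM_eq_pz (s : ℝ) : FM Bad F s = pz F (goodSet F Bad) s := by
  classical
  unfold FM pz
  rw [tsum_subtype (goodSet F Bad)
    (fun w => ENNReal.ofReal ((Ideal.absNorm w.asIdeal : ℝ) ^ (-s)))]
  refine tsum_congr fun w => ?_
  rw [Set.indicator_apply]
  by_cases hw : ratPrime w ∉ Bad ∧ (Ideal.absNorm w.asIdeal).Prime
  · rw [if_pos hw, if_pos (show w ∈ goodSet F Bad from hw)]
  · rw [if_neg hw, if_neg (show w ∉ goodSet F Bad from hw)]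

theorem badSet_bounded : BoundedOn F (goodSet F Bad)ᶜ := by
  classical
  have hsum : Summable (fun m : ℕ => 1 / (m : ℝ) ^ 2) :=
    Real.summable_one_div_nat_pow.mpr (by norm_num)
  have hts : 0 ≤ ∑' m : ℕ, 1 / (m : ℝ) ^ 2 := tsum_nonneg (fun m => by positivity)
  refine ⟨Module.finrank ℚ F * (∑' m : ℕ, 1 / (m : ℝ) ^ 2) + Bad.card * Module.finrank ℚ F,
    by positivity, fun s hs1 hs2 => ?_⟩
  refine Fermat.Agent.S14.EP.pz_le_of_finset F _ s _ (fun T hT => ?_)
  have hsplit : ∑ v ∈ T, (Ideal.absNorm v.asIdeal : ℝ) ^ (-s) =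
      ∑ v ∈ T.filter (fun v => ¬ (Ideal.absNorm v.asIdeal).Prime),
        (Ideal.absNorm v.asIdeal : ℝ) ^ (-s) +
      ∑ v ∈ T.filter (fun v => ¬ ¬ (Ideal.absNorm v.asIdeal).Prime),
        (Ideal.absNorm v.asIdeal : ℝ) ^ (-s) :=
    (Finset.sum_filter_add_sum_filter_not T _ _).symm
  rw [hsplit]
  apply add_le_add
  · exact sum_highDeg_le _ (fun v hv => (Finset.mem_filter.mp hv).2) hs1.le
  · set T' := T.filter (fun v => ¬ ¬ (Ideal.absNorm v.asIdeal).Prime) with hT'def
    have hT' : ∀ v ∈ T', ratPrime v ∈ Bad := by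
      intro v hv
      rw [hT'def, Finset.mem_filter] at hv
      have h1 : v ∉ goodSet F Bad := hT v hv.1
      by_contra hb
      exact h1 ⟨hb, not_not.mp hv.2⟩
    calc ∑ v ∈ T', (Ideal.absNorm v.asIdeal : ℝ) ^ (-s)
        = ∑ p ∈ Bad, ∑ v ∈ T'.filter (fun v => ratPrime v = p),
            (Ideal.absNorm v.asIdeal : ℝ) ^ (-s) :=
          (Finset.sum_fiberwise_of_maps_to hT' _).symm
      _ ≤ ∑ _p ∈ Bad, (Module.finrank ℚ F : ℝ) := by
          apply Finset.sum_le_sum
          intro p _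
          by_cases hpp : p.Prime
          · apply sum_over_le p hpp _ _ (by linarith)
            intro v hv
            rw [Finset.mem_filter] at hv
            rw [← hv.2]
            exact Nat.minFac_dvd _
          · have hempty : T'.filter (fun v => ratPrime v = p) = ∅ := by
              apply Finset.filter_eq_empty_iff.mpr
              intro v _ hv
              exact hpp (hv ▸ ratPrime_prime v)
            rw [hempty, Finset.sum_empty]
            positivity
      _ = Bad.card * Module.finrank ℚ F := by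
          rw [Finset.sum_const, nsmul_eq_mul]

/-- **analytic input**: the sum over the good primes of prime norm is `log (1/(s-1)) + O(1)`. -/
theorem FM_bound : ∃ C : ℝ, 0 ≤ C ∧ ∀ s : ℝ, 1 < s → s ≤ 2 →
    FM Bad F s ≠ ⊤ ∧ |(FM Bad F s).toReal - lg s| ≤ C := by
  obtain ⟨C₀, hC₀, hlow⟩ := Fermat.Agent.S14.EP.lowerAll F
  obtain ⟨C₁, hC₁, hup⟩ := Fermat.Agent.S14.EP.upperAll F
  obtain ⟨C₂, hC₂, hbad⟩ := badSet_bounded F Bad
  refine ⟨C₀ + C₁ + C₂, by positivity, fun s hs1 hs2 => ?_⟩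
  have hlg : 0 ≤ lg s := by
    unfold lg
    apply Real.log_nonneg
    rw [le_div_iff₀ (by linarith)]
    linarith
  have e0 := hlow s hs1 hs2
  have e1 := hup s hs1 hs2
  have e2 := hbad s hs1 hs2
  rw [one_mul] at e1
  have hle : FM Bad F s ≤ pz F Set.univ s := by
    rw [FM_eq_pz]
    unfold pz
    exact ENNReal.tsum_mono_subtype (fun P : HeightOneSpectrum (𝓞 F) =>
      ENNReal.ofReal ((Ideal.absNorm P.asIdeal : ℝ) ^ (-s))) (Set.subset_univ _)
  have hfin : FM Bad F s ≠ ⊤ := ne_top_of_le_ne_top ENNReal.ofReal_ne_top (hle.trans e1)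
  have hcov : pz F Set.univ s ≤ FM Bad F s + pz F (goodSet F Bad)ᶜ s := by
    rw [FM_eq_pz]
    unfold pz
    calc (∑' P : (Set.univ : Set (HeightOneSpectrum (𝓞 F))),
            ENNReal.ofReal ((Ideal.absNorm P.1.asIdeal : ℝ) ^ (-s)))
        ≤ ∑' P : (goodSet F Bad ∪ (goodSet F Bad)ᶜ : Set (HeightOneSpectrum (𝓞 F))),
            ENNReal.ofReal ((Ideal.absNorm P.1.asIdeal : ℝ) ^ (-s)) :=
          ENNReal.tsum_mono_subtype (fun P : HeightOneSpectrum (𝓞 F) =>
            ENNReal.ofReal ((Ideal.absNorm P.asIdeal : ℝ) ^ (-s)))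
            (by rw [Set.union_compl_self])
      _ ≤ _ := ENNReal.tsum_union_le (fun P : HeightOneSpectrum (𝓞 F) =>
            ENNReal.ofReal ((Ideal.absNorm P.asIdeal : ℝ) ^ (-s))) _ _
  refine ⟨hfin, ?_⟩
  rw [abs_le]
  constructor
  · have h1 : ENNReal.ofReal (lg s - C₀) ≤ FM Bad F s + ENNReal.ofReal C₂ :=
      e0.trans (hcov.trans (add_le_add le_rfl e2))
    rw [← ENNReal.ofReal_toReal hfin, ← ENNReal.ofReal_add ENNReal.toReal_nonneg hC₂,
      ENNReal.ofReal_le_ofReal_iff (add_nonneg ENNReal.toReal_nonneg hC₂)] at h1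
    linarith
  · have h1 := ENNReal.toReal_le_of_le_ofReal (by positivity) (hle.trans e1)
    linarith

end Analytic


variable {Bad : Finset ℕ}

/-- **Frobenius density, qualitative form**: every element `h` of the Galois group of a Galois
number field generates the decomposition group of some prime outside `Bad`. -/
theorem exists_dec_eq (hBad : UnramOutside E Bad) (h : Gal(E/ℚ)) :
    ∃ v : HeightOneSpectrum (𝓞 E), ratPrime v ∉ Bad ∧ dec v = Subgroup.zpowers h := by
  classical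
  set n := orderOf h with hn
  have hn0 : n ≠ 0 := (orderOf_pos h).ne'
  have hb : ∀ e : ℕ, ∃ C : ℝ, 0 ≤ C ∧ ∀ s : ℝ, 1 < s → s ≤ 2 →
      FM Bad (fixF (subOrd h e)) s ≠ ⊤ ∧ |(FM Bad (fixF (subOrd h e)) s).toReal - lg s| ≤ C :=
    fun e => FM_bound (fixF (subOrd h e)) Bad
  choose Ce hCe0 hCe using hb
  have hAEfin : ∀ f : ℕ, f ∣ n → ∀ s : ℝ, 1 < s → s ≤ 2 → AE Bad h f s ≠ ⊤ := by
    intro f hfn s hs1 hs2
    have hf0 : f ≠ 0 := fun h0 => hn0 (by simpa [h0] using hfn)
    have h1 := FE_subOrd Bad h hfn s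
    have h2 := FE_eq (subOrd h f) hBad s
    have h3 : (f : ℝ≥0∞) * AE Bad h f s ≤ FE Bad (subOrd h f) s := by
      rw [h1]
      exact Finset.single_le_sum (f := fun g : ℕ => (g : ℝ≥0∞) * AE Bad h g s)
        (fun _ _ => zero_le) (Nat.mem_divisors_self f hf0)
    have h4 : FE Bad (subOrd h f) s ≠ ⊤ := by
      rw [h2]
      exact ENNReal.mul_ne_top (ENNReal.natCast_ne_top _) (hCe f s hs1 hs2).1
    intro htop
    rw [htop, ENNReal.mul_top (by exact_mod_cast hf0)] at h3
    exact h4 (top_le_iff.mp h3)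
  have key : ∀ e : ℕ, e ∣ n → ∀ s ∈ Set.Ioc (1 : ℝ) 2,
      |∑ f ∈ e.divisors, (f : ℝ) / n * (AE Bad h f s).toReal - (e : ℝ) / n * lg s|
        ≤ ∑ e' ∈ n.divisors, Ce e' := by
    intro e he s hs
    have h1 := FE_subOrd Bad h he s
    have h2 := FE_eq (subOrd h e) hBad s
    rw [card_subOrd h he] at h2
    have h3 : (FE Bad (subOrd h e) s).toReal
        = ∑ f ∈ e.divisors, (f : ℝ) * (AE Bad h f s).toReal := by
      rw [h1, ENNReal.toReal_sum]
      · refine Finset.sum_congr rfl fun f _ => ?_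
        rw [ENNReal.toReal_mul, ENNReal.toReal_natCast]
      · intro f hf
        exact ENNReal.mul_ne_top (ENNReal.natCast_ne_top _)
          (hAEfin f ((Nat.dvd_of_mem_divisors hf).trans he) s hs.1 hs.2)
    rw [h2, ENNReal.toReal_mul, ENNReal.toReal_natCast] at h3
    have h4 : ∑ f ∈ e.divisors, (f : ℝ) / n * (AE Bad h f s).toReal
        = (e : ℝ) / n * (FM Bad (fixF (subOrd h e)) s).toReal := by
      calc ∑ f ∈ e.divisors, (f : ℝ) / n * (AE Bad h f s).toReal
          = (∑ f ∈ e.divisors, (f : ℝ) * (AE Bad h f s).toReal) / n := by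
            rw [Finset.sum_div]
            exact Finset.sum_congr rfl fun f _ => by ring
        _ = (e : ℝ) / n * (FM Bad (fixF (subOrd h e)) s).toReal := by
            rw [← h3]
            ring
    rw [h4, ← mul_sub, abs_mul]
    have h5 := (hCe e s hs.1 hs.2).2
    have h6 : |(e : ℝ) / n| ≤ 1 := by
      rw [abs_of_nonneg (by positivity), div_le_one (by positivity)]
      exact_mod_cast Nat.le_of_dvd (Nat.pos_of_ne_zero hn0) he
    calc |(e : ℝ) / n| * |(FM Bad (fixF (subOrd h e)) s).toReal - lg s|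
        ≤ 1 * Ce e := mul_le_mul h6 h5 (abs_nonneg _) zero_le_one
      _ = Ce e := one_mul _
      _ ≤ ∑ e' ∈ n.divisors, Ce e' :=
          Finset.single_le_sum (f := Ce) (fun i _ => hCe0 i) (Nat.mem_divisors.mpr ⟨he, hn0⟩)
  have hlg : ∀ M : ℝ, ∃ s ∈ Set.Ioc (1 : ℝ) 2, M < lg s := by
    intro M
    have hM := abs_nonneg M
    refine ⟨1 + Real.exp (-(|M| + 1)),
      ⟨by have := Real.exp_pos (-(|M| + 1)); linarith, ?_⟩, ?_⟩
    · have : Real.exp (-(|M| + 1)) ≤ 1 := Real.exp_le_one_iff.mpr (by linarith)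
      linarith
    · rw [lg_exp]
      have := le_abs_self M
      linarith
  obtain ⟨s, hs, hpos⟩ := exists_pos_stratum n hn0 (Set.Ioc 1 2) lg
    (fun f s => (f : ℝ) / n * (AE Bad h f s).toReal) _ key hlg
  have hne : AE Bad h n s ≠ 0 := by
    intro h0
    simp only [h0, ENNReal.toReal_zero, mul_zero, lt_self_iff_false] at hpos
  unfold AE at hne
  rw [Ne, ENNReal.tsum_eq_zero] at hne
  push Not at hne
  obtain ⟨v, hv⟩ := hne
  have hv' : ratPrime v ∉ Bad ∧ dec v ≤ Subgroup.zpowers h ∧ Nat.card (dec v) = n := by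
    by_contra hcon
    exact hv (if_neg hcon)
  refine ⟨v, hv'.1, ?_⟩
  exact Subgroup.eq_of_le_of_card_ge hv'.2.1 (by rw [hv'.2.2, Nat.card_zpowers])

end Fermat.Agent.S29.FD
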