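import Fermat.Agent.S29.FrobDensAlg
import Fermat.Agent.S14.HighDeg

/-!
# S29 gamble, R5 (Frobenius density), piece (b2): the sum identity (helper9)

`FE_eq`: for a Galois number field `E`, a subgroup `H'` of its Galois group and a finite set `Bad`
of primes containing the ramified ones,
`∑_{v good, D_v ≤ H'} |D_v| p_v^(-s) = |H'| ∑_{w prime of E^H', good, N w prime} N(w)^(-s)`.
-/

set_option autoImplicit false

open NumberField IsDedekindDomain
open scoped Pointwise ENNReal
open Fermat.Agent.S14.HD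

namespace Fermat.Agent.S29.FD

section General

variable {F : Type} [Field F] [NumberField F]

/-- a prime of `F` lies over its rational prime. -/
theorem liesOver_ratPrime (v : HeightOneSpectrum (𝓞 F)) :
    v.asIdeal.LiesOver (Ideal.span {((ratPrime v : ℕ) : ℤ)}) := by
  rw [Ideal.liesOver_span_iff v.isPrime.ne_top (Nat.prime_iff_prime_int.mp (ratPrime_prime v))]
  simpa using ratPrime_mem v

/-- the rational prime under `v` is the only prime number in `v`. -/
theorem ratPrime_eq_of_mem (v : HeightOneSpectrum (𝓞 F)) {p : ℕ} (hp : p.Prime)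
    (h : ((p : ℕ) : 𝓞 F) ∈ v.asIdeal) : ratPrime v = p := by
  by_contra hne
  have hcop : Nat.Coprime (ratPrime v) p := (Nat.coprime_primes (ratPrime_prime v) hp).mpr hne
  obtain ⟨a, b, hab⟩ := Nat.Coprime.isCoprime hcop
  have h1 : ((1 : ℤ) : 𝓞 F) ∈ v.asIdeal := by
    rw [← hab]
    push_cast
    exact v.asIdeal.add_mem (v.asIdeal.mul_mem_left _ (ratPrime_mem v))
      (v.asIdeal.mul_mem_left _ h)
  exact v.isPrime.ne_top ((Ideal.eq_top_iff_one _).mpr (by simpa using h1))

theorem absNorm_eq_ratPrime_of_prime (v : HeightOneSpectrum (𝓞 F))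
    (h : (Ideal.absNorm v.asIdeal).Prime) : Ideal.absNorm v.asIdeal = ratPrime v := by
  unfold ratPrime
  rw [h.minFac_eq]

end General

variable {E : Type} [Field E] [NumberField E] [IsGalois ℚ E]

/-- the decomposition group of a prime of `E`. -/
def dec (v : HeightOneSpectrum (𝓞 E)) : Subgroup Gal(E/ℚ) :=
  MulAction.stabilizer Gal(E/ℚ) v.asIdeal

/-- primes not dividing the discriminant are unramified. -/
theorem ramificationIdxIn_eq_one_of_not_dvd {p : ℕ} (hp : p.Prime)
    (hd : ¬ ((p : ℤ) ∣ NumberField.discr E)) :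
    (Ideal.span {(p : ℤ)}).ramificationIdxIn (𝓞 E) = 1 := by
  have hpp := isPrime_span_natCast hp
  have hun := (NumberField.not_dvd_discr_iff_isUnramifiedIn E (𝓞 E)
    (Nat.prime_iff_prime_int.mp hp)).mp hd
  obtain ⟨⟨P, hP1, hP2⟩⟩ := (Ideal.span {(p : ℤ)}).nonempty_primesOver (S := 𝓞 E)
  rw [Ideal.ramificationIdxIn_eq_ramificationIdx (Ideal.span {(p : ℤ)}) P Gal(E/ℚ)]
  exact hun.ramificationIdx_eq_one hP2

variable (H' : Subgroup Gal(E/ℚ))

/-- the prime of the fixed field below a prime of `E`. -/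
noncomputable def res (v : HeightOneSpectrum (𝓞 E)) : HeightOneSpectrum (𝓞 (fixF H')) where
  asIdeal := v.asIdeal.under (𝓞 (fixF H'))
  isPrime := Ideal.IsPrime.under _ v.asIdeal
  ne_bot := Ideal.under_ne_bot _ v.ne_bot

omit [IsGalois ℚ E] in
theorem res_asIdeal (v : HeightOneSpectrum (𝓞 E)) :
    (res H' v).asIdeal = v.asIdeal.under (𝓞 (fixF H')) := rfl

theorem ratPrime_res (v : HeightOneSpectrum (𝓞 E)) : ratPrime (res H' v) = ratPrime v := by
  apply ratPrime_eq_of_mem _ (ratPrime_prime v)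
  rw [res_asIdeal, Ideal.under_def, Ideal.mem_comap, map_natCast]
  exact ratPrime_mem v

/-- the fibre of `res` over `w` is the set of primes over `w`. -/
noncomputable def fiberEquiv (w : HeightOneSpectrum (𝓞 (fixF H'))) :
    (res H' ⁻¹' {w}) ≃ (w.asIdeal.primesOver (𝓞 E)) where
  toFun v := ⟨v.1.asIdeal, v.1.isPrime, ⟨by
    have h : res H' v.1 = w := v.2
    exact (congrArg HeightOneSpectrum.asIdeal h).symm⟩⟩
  invFun P := ⟨⟨P.1, P.2.1, by
      intro h0
      have h1 : w.asIdeal = P.1.under (𝓞 (fixF H')) := P.2.2.over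
      rw [h0] at h1
      apply w.ne_bot
      rw [h1]
      exact Ideal.under_bot _ _⟩, by
    rw [Set.mem_preimage, Set.mem_singleton_iff]
    apply HeightOneSpectrum.ext
    rw [res_asIdeal]
    exact (P.2.2.over).symm⟩
  left_inv v := by
    apply Subtype.ext
    apply HeightOneSpectrum.ext
    rfl
  right_inv P := by
    apply Subtype.ext
    rfl


/-- the hypothesis on the finite set of excluded primes: it contains all ramified primes. -/
def UnramOutside (E : Type) [Field E] [NumberField E] (Bad : Finset ℕ) : Prop :=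
  ∀ p : ℕ, p.Prime → p ∉ Bad → (Ideal.span {(p : ℤ)}).ramificationIdxIn (𝓞 E) = 1

variable {Bad : Finset ℕ}

theorem absNorm_res_iff (hBad : UnramOutside E Bad) (v : HeightOneSpectrum (𝓞 E))
    (hv : ratPrime v ∉ Bad) :
    Ideal.absNorm (res H' v).asIdeal = ratPrime v ↔ dec v ≤ H' := by
  have := v.isPrime
  have := liesOver_ratPrime v
  exact absNorm_under_eq_iff H' (ratPrime_prime v) v.asIdeal (hBad _ (ratPrime_prime v) hv)

theorem absNorm_res_prime_iff (hBad : UnramOutside E Bad) (v : HeightOneSpectrum (𝓞 E))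
    (hv : ratPrime v ∉ Bad) :
    (Ideal.absNorm (res H' v).asIdeal).Prime ↔ dec v ≤ H' := by
  rw [← absNorm_res_iff H' hBad v hv]
  constructor
  · intro h
    rw [absNorm_eq_ratPrime_of_prime _ h, ratPrime_res]
  · intro h
    rw [h]
    exact ratPrime_prime v

theorem card_fiber_mul (hBad : UnramOutside E Bad) (v : HeightOneSpectrum (𝓞 E))
    (hv : ratPrime v ∉ Bad) (hd : dec v ≤ H') :
    Nat.card (res H' ⁻¹' {res H' v}) * Nat.card (dec v) = Nat.card H' := by
  have := v.isPrime
  have := liesOver_ratPrime v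
  have h1 := ncard_primesOver_mul H' (ratPrime_prime v) v.asIdeal (hBad _ (ratPrime_prime v) hv)
  have h2 : Nat.card ((MulAction.stabilizer Gal(E/ℚ) v.asIdeal).subgroupOf H')
      = Nat.card (dec v) :=
    Nat.card_congr (Subgroup.subgroupOfEquivOfLe hd).toEquiv
  have h3 : Nat.card (res H' ⁻¹' {res H' v})
      = ((v.asIdeal.under (𝓞 (fixF H'))).primesOver (𝓞 E)).ncard := by
    rw [← Nat.card_coe_set_eq]
    exact Nat.card_congr (fiberEquiv H' (res H' v))
  rw [h3, ← h2]
  exact h1


/-- term of the sums over primes of `E`. -/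
noncomputable def tE (s : ℝ) (v : HeightOneSpectrum (𝓞 E)) : ℝ≥0∞ :=
  ENNReal.ofReal (((ratPrime v : ℕ) : ℝ) ^ (-s))

open Classical in
/-- the weighted sum over the good primes of `E` with decomposition group inside `H'`. -/
noncomputable def FE (Bad : Finset ℕ) (H' : Subgroup Gal(E/ℚ)) (s : ℝ) : ℝ≥0∞ :=
  ∑' v : HeightOneSpectrum (𝓞 E),
    if ratPrime v ∉ Bad ∧ dec v ≤ H' then (Nat.card (dec v) : ℝ≥0∞) * tE s v else 0

open Classical in
/-- the sum over the good primes of prime norm of a number field. -/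
noncomputable def FM (Bad : Finset ℕ) (F : Type) [Field F] [NumberField F] (s : ℝ) : ℝ≥0∞ :=
  ∑' w : HeightOneSpectrum (𝓞 F),
    if ratPrime w ∉ Bad ∧ (Ideal.absNorm w.asIdeal).Prime then
      ENNReal.ofReal ((Ideal.absNorm w.asIdeal : ℝ) ^ (-s)) else 0

/-- **sum identity**: primes of `E` with decomposition group in `H'` against primes of
prime norm of the fixed field of `H'`. -/
theorem FE_eq (hBad : UnramOutside E Bad) (s : ℝ) :
    FE Bad H' s = (Nat.card H' : ℝ≥0∞) * FM Bad (fixF H') s := by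
  classical
  unfold FE FM
  rw [← ENNReal.tsum_fiberwise _ (res H'), ← ENNReal.tsum_mul_left]
  refine tsum_congr fun w => ?_
  by_cases hw : ratPrime w ∉ Bad ∧ (Ideal.absNorm w.asIdeal).Prime
  · rw [if_pos hw]
    obtain ⟨v₀, hv₀⟩ : ∃ v₀ : HeightOneSpectrum (𝓞 E), res H' v₀ = w := by
      obtain ⟨P⟩ := (w.asIdeal.nonempty_primesOver (S := 𝓞 E))
      exact ⟨((fiberEquiv H' w).symm P).1, ((fiberEquiv H' w).symm P).2⟩
    subst hv₀
    have hgood : ∀ v : res H' ⁻¹' {res H' v₀}, ratPrime v.1 ∉ Bad ∧ dec v.1 ≤ H' := by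
      intro v
      have hv : res H' v.1 = res H' v₀ := v.2
      have h1 : ratPrime v.1 ∉ Bad := by
        rw [← ratPrime_res H' v.1, hv]
        exact hw.1
      refine ⟨h1, (absNorm_res_prime_iff H' hBad v.1 h1).mp ?_⟩
      rw [hv]
      exact hw.2
    have hcard : ∀ v : res H' ⁻¹' {res H' v₀},
        Nat.card (res H' ⁻¹' {res H' v₀}) * Nat.card (dec v.1) = Nat.card H' := by
      intro v
      have hv : res H' v.1 = res H' v₀ := v.2
      have := card_fiber_mul H' hBad v.1 (hgood v).1 (hgood v).2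
      rwa [hv] at this
    have hterm : ∀ v : res H' ⁻¹' {res H' v₀},
        tE s v.1 = ENNReal.ofReal ((Ideal.absNorm (res H' v₀).asIdeal : ℝ) ^ (-s)) := by
      rintro ⟨v, hv⟩
      have hv' : res H' v = res H' v₀ := hv
      have h1 := (absNorm_res_iff H' hBad v (hgood ⟨v, hv⟩).1).mpr (hgood ⟨v, hv⟩).2
      rw [hv'] at h1
      unfold tE
      rw [h1]
    have hH : Nat.card H' ≠ 0 := Nat.card_pos.ne'
    have hc0 : Nat.card (res H' ⁻¹' {res H' v₀}) ≠ 0 := by
      intro h0
      have := hcard ⟨v₀, rfl⟩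
      rw [h0, zero_mul] at this
      exact hH this.symm
    have : Finite (res H' ⁻¹' {res H' v₀}) := Nat.finite_of_card_ne_zero hc0
    have hk : ∀ v : res H' ⁻¹' {res H' v₀}, Nat.card (dec v.1) = Nat.card (dec v₀) := by
      intro v
      have h1 := hcard v
      have h2 := hcard ⟨v₀, rfl⟩
      exact Nat.eq_of_mul_eq_mul_left (Nat.pos_of_ne_zero hc0) (h1.trans h2.symm)
    calc (∑' v : res H' ⁻¹' {res H' v₀},
          if ratPrime v.1 ∉ Bad ∧ dec v.1 ≤ H' then (Nat.card (dec v.1) : ℝ≥0∞) * tE s v.1 else 0)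
        = ∑' _v : res H' ⁻¹' {res H' v₀}, (Nat.card (dec v₀) : ℝ≥0∞) *
            ENNReal.ofReal ((Ideal.absNorm (res H' v₀).asIdeal : ℝ) ^ (-s)) := by
          refine tsum_congr fun v => ?_
          rw [if_pos (hgood v), hk v, hterm v]
      _ = ENat.card (res H' ⁻¹' {res H' v₀}) * ((Nat.card (dec v₀) : ℝ≥0∞) *
            ENNReal.ofReal ((Ideal.absNorm (res H' v₀).asIdeal : ℝ) ^ (-s))) :=
          ENNReal.tsum_const _
      _ = (Nat.card H' : ℝ≥0∞) *
            ENNReal.ofReal ((Ideal.absNorm (res H' v₀).asIdeal : ℝ) ^ (-s)) := by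
          rw [ENat.card_eq_coe_natCard, ← mul_assoc]
          congr 1
          have := hcard ⟨v₀, rfl⟩
          rw [← this]
          push_cast
          rfl
  · rw [if_neg hw, mul_zero]
    refine ENNReal.tsum_eq_zero.mpr fun v => if_neg ?_
    rintro ⟨h1, h2⟩
    have hv : res H' v.1 = w := v.2
    apply hw
    rw [← hv]
    exact ⟨by rwa [ratPrime_res], (absNorm_res_prime_iff H' hBad v.1 h1).mpr h2⟩

section Cyclic

variable {G : Type*} [Group G] [Finite G]

/-- the subgroup of order `e` of the cyclic group generated by `h`. -/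
noncomputable def subOrd (h : G) (e : ℕ) : Subgroup G := Subgroup.zpowers (h ^ (orderOf h / e))

theorem card_subOrd (h : G) {e : ℕ} (he : e ∣ orderOf h) : Nat.card (subOrd h e) = e := by
  have hn : 0 < orderOf h := orderOf_pos h
  have he0 : 0 < e := Nat.pos_of_dvd_of_pos he hn
  unfold subOrd
  rw [Nat.card_zpowers, orderOf_pow' h (by
    intro h0
    have := Nat.div_eq_zero_iff.mp h0
    rcases this with h1 | h1
    · omega
    · exact absurd (Nat.le_of_dvd hn he) (by omega)),
    Nat.gcd_eq_right (Nat.div_dvd_of_dvd he), Nat.div_div_self he hn.ne']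

omit [Finite G] in
theorem subOrd_le (h : G) (e : ℕ) : subOrd h e ≤ Subgroup.zpowers h := by
  unfold subOrd
  rw [Subgroup.zpowers_le]
  exact Subgroup.pow_mem _ (Subgroup.mem_zpowers h) _

/-- **cyclic groups**: the subgroups of `⟨h⟩` of order dividing `e` are the subgroups of the
subgroup of order `e`. -/
theorem le_subOrd_iff (h : G) {e : ℕ} (he : e ∣ orderOf h) (D : Subgroup G) :
    D ≤ subOrd h e ↔ D ≤ Subgroup.zpowers h ∧ Nat.card D ∣ e := by
  have hn : 0 < orderOf h := orderOf_pos h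
  have he0 : 0 < e := Nat.pos_of_dvd_of_pos he hn
  constructor
  · intro hD
    refine ⟨hD.trans (subOrd_le h e), ?_⟩
    have := Subgroup.card_dvd_of_le hD
    rwa [card_subOrd h he] at this
  · rintro ⟨hD, hc⟩ d hd
    obtain ⟨k, hk⟩ := Subgroup.mem_zpowers_iff.mp (hD hd)
    have hde : d ^ e = 1 := by
      have h1 : orderOf d ∣ Nat.card D := by
        have := orderOf_dvd_natCard (⟨d, hd⟩ : D)
        rwa [Subgroup.orderOf_mk] at this
      exact orderOf_dvd_iff_pow_eq_one.mp (h1.trans hc)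
    rw [← hk, ← zpow_natCast, ← zpow_mul] at hde
    have h2 : (orderOf h : ℤ) ∣ k * e := orderOf_dvd_iff_zpow_eq_one.mpr hde
    obtain ⟨m, hm⟩ := he
    have hm0 : 0 < m := by
      rcases Nat.eq_zero_or_pos m with h0 | h0
      · rw [h0, mul_zero] at hm; omega
      · exact h0
    have hdiv : orderOf h / e = m := by
      rw [hm, Nat.mul_div_cancel_left m he0]
    have h3 : (m : ℤ) ∣ k := by
      rw [hm] at h2
      push_cast at h2
      have h4 : (m : ℤ) * (e : ℤ) ∣ k * (e : ℤ) := by rwa [mul_comm (e : ℤ) (m : ℤ)] at h2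
      exact (mul_dvd_mul_iff_right (by exact_mod_cast he0.ne')).mp h4
    obtain ⟨j, hj⟩ := h3
    unfold subOrd
    rw [Subgroup.mem_zpowers_iff]
    refine ⟨j, ?_⟩
    rw [hdiv, ← zpow_natCast, ← zpow_mul, ← hj, hk]

end Cyclic

end Fermat.Agent.S29.FD
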