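import Mathlib
import Fermat.Agent.S29.GaussCGen
import Fermat.Agent.FF.CosetIndex

/-!
# S29, wall piece W2 (D2), part 5: degrees of the modular function fields in characteristic `0`

For every field `L` of characteristic `0` and every level `N`, with
`F_N = modularFunctionFieldFullC L N ⊂ L((q))` and `L(j) = EJ L`:

* `linearIndependent_pow`: `1, j_N, …, j_N^(ψ(N)-1)` are linearly independent over `L(j)`;
* `mem_W_iff`: `F_N` is the `L(j)`-span of these powers;
* `relfinrank_EJ_full : (EJ L).relfinrank F_N = ψ(N)`;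
* `relfinrank_full_mul : F_N.relfinrank F_{N ℓ} = ℓ + 1` for a prime `ℓ ∤ N`;
* `finrank_of_coe_eq`: for every ring homomorphism `α : F_N →+* F_{N ℓ}` which is the inclusion
  on series, `Module.finrank F_N F_{N ℓ} = ℓ + 1` for the algebra structure `α.toAlgebra`.
-/

set_option autoImplicit false

noncomputable section

open HahnSeries ModularCurve Polynomial IntermediateField

namespace Fermat.Agent.S29.GaussC

open Fermat.Agent.S18 Fermat.Agent.S18.MScal Fermat.Agent.FF Fermat.Agent.S28

section Deg

variable (L : Type*) [Field L] [CharZero L] (N : ℕ) [NeZero N]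

/-- `1, j_N, …, j_N^(ψ(N)-1)` are linearly independent over `L(j)` -/
theorem linearIndependent_pow :
    LinearIndependent (EJ L) (fun k : Fin (dedekindPsi N) => (jqNModC L N) ^ (k : ℕ)) := by
  rw [Fintype.linearIndependent_iff]
  intro g hg
  set c' : ℕ → LaurentSeries L := fun k =>
    if h : k < dedekindPsi N then ((g ⟨k, h⟩ : EJ L) : LaurentSeries L) else 0 with hc'
  have hc'mem : ∀ k, c' k ∈ L⟮jqModC L⟯ := by
    intro k
    rw [hc']
    simp only
    split_ifs with h
    · exact (g ⟨k, h⟩).2
    · exact zero_mem _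
  obtain ⟨s, hs, hsa⟩ := exists_common_denominator (K := L) (jqModC L) c' hc'mem (dedekindPsi N)
  choose! a ha using hsa
  have hpos := dedekindPsi_pos N
  have hsum : ∑ k ∈ Finset.range (dedekindPsi N), c' k * (jqNModC L N) ^ k = 0 := by
    rw [← hg, Finset.sum_range (fun k => c' k * (jqNModC L N) ^ k)]
    refine Finset.sum_congr rfl fun i _ => ?_
    rw [smul_EJ_def]
    congr 1
    rw [hc']
    simp only
    rw [dif_pos i.2]
  set P : L[X][X] := ∑ k ∈ Finset.range (dedekindPsi N), Polynomial.C (a k) * Polynomial.X ^ k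
    with hP
  have hdeg : P.natDegree < dedekindPsi N := by
    have hle : P.natDegree ≤ dedekindPsi N - 1 := by
      rw [Polynomial.natDegree_le_iff_coeff_eq_zero]
      intro m hm
      rw [hP, Polynomial.finsetSum_coeff]
      refine Finset.sum_eq_zero fun k hk => ?_
      rw [Polynomial.coeff_C_mul, Polynomial.coeff_X_pow, if_neg, mul_zero]
      have := Finset.mem_range.mp hk
      omega
    omega
  have hev : evJN L N P = 0 := by
    have h1 : evJN L N P = evJ L s * ∑ k ∈ Finset.range (dedekindPsi N),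
        c' k * (jqNModC L N) ^ k := by
      rw [hP, map_sum, Finset.mul_sum]
      refine Finset.sum_congr rfl fun k hk => ?_
      rw [map_mul, map_pow, evJN_C, evJN_X, ← mul_assoc]
      congr 1
      exact (ha k (Finset.mem_range.mp hk)).symm
    rw [h1, hsum, mul_zero]
  have hPz := coreOver_of_charZero L N P hdeg hev
  intro i
  have hai : a i = 0 := by
    have hc := congrArg (fun p : L[X][X] => p.coeff i) hPz
    simp only [Polynomial.coeff_zero] at hc
    rw [← hc, hP, Polynomial.finsetSum_coeff,
      Finset.sum_eq_single_of_mem (i : ℕ) (Finset.mem_range.mpr i.2)]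
    · rw [Polynomial.coeff_C_mul, Polynomial.coeff_X_pow, if_pos rfl, mul_one]
    · intro j _ hji
      rw [Polynomial.coeff_C_mul, Polynomial.coeff_X_pow, if_neg (Ne.symm hji), mul_zero]
  have h2 := ha i i.2
  rw [hai, map_zero] at h2
  have h3 : c' i = 0 := (mul_eq_zero.mp h2).resolve_left hs
  rw [hc'] at h3
  simp only at h3
  rw [dif_pos i.2] at h3
  exact Subtype.ext h3

theorem finrank_W : Module.finrank (EJ L) (W L N) = dedekindPsi N := by
  unfold W
  rw [finrank_span_eq_card (linearIndependent_pow L N), Fintype.card_fin]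

omit [CharZero L] [NeZero N] in
theorem EJ_le_full : EJ L ≤ modularFunctionFieldFullC L N := by
  rw [IntermediateField.adjoin_simple_le_iff]
  exact jqModC_mem_full L N

/-- `F_N` is the `L(j)`-span of `1, j_N, …, j_N^(ψ(N)-1)` -/
theorem mem_W_iff (y : LaurentSeries L) : y ∈ W L N ↔ y ∈ modularFunctionFieldFullC L N := by
  refine ⟨fun h => ?_, full_le_W L N y⟩
  unfold W at h
  induction h using Submodule.span_induction with
  | mem x hx =>
    obtain ⟨k, rfl⟩ := hx
    exact pow_mem (jqModCd_mem_full L N dvd_rfl) _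
  | zero => exact zero_mem _
  | add x y _ _ hx hy => exact add_mem hx hy
  | smul e x _ hx =>
    rw [smul_EJ_def]
    exact mul_mem (EJ_le_full L N e.2) hx

/-- the `L(j)`-linear identification of `F_N` with `W` -/
def fullEquivW :
    ↥(IntermediateField.extendScalars (EJ_le_full L N)) ≃ₗ[EJ L] ↥(W L N) where
  toFun x := ⟨x.1, (mem_W_iff L N x.1).2 x.2⟩
  invFun x := ⟨x.1, (mem_W_iff L N x.1).1 x.2⟩
  left_inv _ := rfl
  right_inv _ := rfl
  map_add' _ _ := rfl
  map_smul' _ _ := rfl

/-- `[F_N : L(j)] = ψ(N)` -/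
theorem relfinrank_EJ_full :
    (EJ L).relfinrank (modularFunctionFieldFullC L N) = dedekindPsi N := by
  rw [IntermediateField.relfinrank_eq_finrank_of_le (EJ_le_full L N),
    (fullEquivW L N).finrank_eq, finrank_W]

/-- `[F_{N ℓ} : F_N] = ℓ + 1` for a prime `ℓ ∤ N` -/
theorem relfinrank_full_mul {ℓ : ℕ} [NeZero (N * ℓ)] (hℓ : ℓ.Prime) (hℓN : ¬ ℓ ∣ N) :
    (modularFunctionFieldFullC L N).relfinrank (modularFunctionFieldFullC L (N * ℓ)) = ℓ + 1 := by
  have h1 := IntermediateField.relfinrank_mul_relfinrank (EJ_le_full L N)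
    (full_degeneracyC_le L (dvd_mul_right N ℓ))
  rw [relfinrank_EJ_full, relfinrank_EJ_full,
    dedekindPsi_mul_of_not_dvd N ℓ (NeZero.ne N) hℓ hℓN, mul_comm] at h1
  exact Nat.eq_of_mul_eq_mul_right (dedekindPsi_pos N) h1

end Deg

section Along

variable {K E : Type*} [Field K] [Field E] [Algebra K E]

/-- for intermediate fields `A ≤ B` and any ring homomorphism `α : A →+* B` which is the
inclusion on elements, the degree of `B` over `A` along `α` is `A.relfinrank B`. -/
theorem finrank_toAlgebra_eq_relfinrank (A B : IntermediateField K E) (α : ↥A →+* ↥B)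
    (hα : ∀ x : A, ((α x : B) : E) = (x : E)) :
    @Module.finrank ↥A ↥B _ _ α.toAlgebra.toModule = A.relfinrank B := by
  have hle : A ≤ B := fun x hx => by
    have := (α ⟨x, hx⟩).2
    rwa [hα] at this
  rw [IntermediateField.relfinrank_eq_finrank_of_le hle]
  let _ : Algebra ↥A ↥B := α.toAlgebra
  let e : ↥B ≃ₗ[↥A] ↥(IntermediateField.extendScalars hle) :=
    { toFun := fun x => ⟨x.1, x.2⟩
      invFun := fun x => ⟨x.1, x.2⟩
      left_inv := fun _ => rfl
      right_inv := fun _ => rfl
      map_add' := fun _ _ => rfl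
      map_smul' := fun c x => by
        apply Subtype.ext
        show ((c • x : ↥B) : E) = (c : E) * (x : E)
        rw [Algebra.smul_def]
        show ((α c * x : ↥B) : E) = (c : E) * (x : E)
        rw [MulMemClass.coe_mul, hα] }
  exact e.finrank_eq

end Along

section Final

variable (L : Type*) [Field L] [CharZero L] (N : ℕ) [NeZero N]

/-- **degree of the degeneracy map `α`**: for a prime `ℓ ∤ N` and any ring homomorphism
`α : F_N →+* F_{N ℓ}` which is the inclusion on series, `[F_{N ℓ} : F_N] = ℓ + 1` along `α`. -/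
theorem finrank_of_coe_eq {ℓ : ℕ} [NeZero (N * ℓ)] (hℓ : ℓ.Prime) (hℓN : ¬ ℓ ∣ N)
    (α : ↥(modularFunctionFieldFullC L N) →+* ↥(modularFunctionFieldFullC L (N * ℓ)))
    (hα : ∀ x, ((α x : ↥(modularFunctionFieldFullC L (N * ℓ))) : LaurentSeries L) = x) :
    @Module.finrank ↥(modularFunctionFieldFullC L N) ↥(modularFunctionFieldFullC L (N * ℓ)) _ _
      α.toAlgebra.toModule = ℓ + 1 := by
  rw [finrank_toAlgebra_eq_relfinrank _ _ α hα, relfinrank_full_mul L N hℓ hℓN]

end Final

end Fermat.Agent.S29.GaussC
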