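import Mathlib
import Fermat.Agent.S29.GaussCDeg

/-!
# S29, wall piece W2 (D2), part 6: the tower law for the degeneracy inclusion

For every field `L` of characteristic `0`, levels `N ∣ M`, and the algebra structure on
`F_M = modularFunctionFieldFullC L M` over `F_N` given by a ring homomorphism `α : F_N →+* F_M`
which is the inclusion on series (e.g. `IntermediateField.inclusion`):

* `finrank_toAlgebra_mul : Module.finrank F_N F_M * ψ(N) = ψ(M)`;
* `finite_toAlgebra : Module.Finite F_N F_M`;
* `finrank_inclusion_mul`, `finite_inclusion`: the same for `IntermediateField.inclusion`.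
-/

set_option autoImplicit false

noncomputable section

open HahnSeries ModularCurve Polynomial IntermediateField

namespace Fermat.Agent.S29.GaussC

open Fermat.Agent.S28

section Tower

variable (L : Type*) [Field L] [CharZero L] {N M : ℕ} [NeZero N] [NeZero M]

/-- tower law: `[F_M : F_N] ψ(N) = ψ(M)` for `N ∣ M` -/
theorem relfinrank_full_mul_psi (h : N ∣ M) :
    (modularFunctionFieldFullC L N).relfinrank (modularFunctionFieldFullC L M) *
      dedekindPsi N = dedekindPsi M := by
  have h1 := IntermediateField.relfinrank_mul_relfinrank (EJ_le_full L N)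
    (full_degeneracyC_le L h)
  rw [relfinrank_EJ_full, relfinrank_EJ_full] at h1
  rw [mul_comm]
  exact h1

theorem finrank_toAlgebra_mul (h : N ∣ M)
    (α : ↥(modularFunctionFieldFullC L N) →+* ↥(modularFunctionFieldFullC L M))
    (hα : ∀ x, ((α x : ↥(modularFunctionFieldFullC L M)) : LaurentSeries L) = x) :
    @Module.finrank ↥(modularFunctionFieldFullC L N) ↥(modularFunctionFieldFullC L M) _ _
      α.toAlgebra.toModule * dedekindPsi N = dedekindPsi M := by
  rw [finrank_toAlgebra_eq_relfinrank _ _ α hα, relfinrank_full_mul_psi L h]

theorem finite_toAlgebra (h : N ∣ M)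
    (α : ↥(modularFunctionFieldFullC L N) →+* ↥(modularFunctionFieldFullC L M))
    (hα : ∀ x, ((α x : ↥(modularFunctionFieldFullC L M)) : LaurentSeries L) = x) :
    @Module.Finite ↥(modularFunctionFieldFullC L N) ↥(modularFunctionFieldFullC L M) _ _
      α.toAlgebra.toModule := by
  let _ : Algebra ↥(modularFunctionFieldFullC L N) ↥(modularFunctionFieldFullC L M) :=
    α.toAlgebra
  have h1 := finrank_toAlgebra_mul L h α hα
  have hpos : 0 < dedekindPsi M := dedekindPsi_pos M
  apply FiniteDimensional.of_finrank_pos
  by_contra h0
  have h2 : Module.finrank ↥(modularFunctionFieldFullC L N)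
      ↥(modularFunctionFieldFullC L M) = 0 := by omega
  rw [h2, zero_mul] at h1
  omega

/-- the form for `IntermediateField.inclusion` -/
theorem finrank_inclusion_mul (h : N ∣ M) :
    @Module.finrank ↥(modularFunctionFieldFullC L N) ↥(modularFunctionFieldFullC L M) _ _
      (IntermediateField.inclusion (full_degeneracyC_le L h)).toRingHom.toAlgebra.toModule *
        dedekindPsi N = dedekindPsi M :=
  finrank_toAlgebra_mul L h _ (fun x => IntermediateField.coe_inclusion _ x)

theorem finite_inclusion (h : N ∣ M) :
    @Module.Finite ↥(modularFunctionFieldFullC L N) ↥(modularFunctionFieldFullC L M) _ _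
      (IntermediateField.inclusion (full_degeneracyC_le L h)).toRingHom.toAlgebra.toModule :=
  finite_toAlgebra L h _ (fun x => IntermediateField.coe_inclusion _ x)

end Tower

end Fermat.Agent.S29.GaussC
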