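/-
S29 gamble (item 90), piece (A4), abstract part (lead): **the norm commutes with an extension of
the base field**.

`F ⊂ F'` and `E ⊂ E'` finite extensions of fields of the SAME degree, `ι : F → E`, `ι' : F' → E'`
compatible ring homomorphisms such that `ι' (F')` spans `E'` over `E`.  Then
`ι (Nm_{F'/F} z) = Nm_{E'/E} (ι' z)`.
-/
import Mathlib

set_option autoImplicit false
set_option linter.unusedSectionVars false
set_option linter.style.haveILetI false

open scoped BigOperators

noncomputable section

namespace Fermat.Agent.S29.NormBC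

variable {F F' E E' : Type*} [Field F] [Field F'] [Field E] [Field E']
  [Algebra F F'] [Algebra E E']

/-- **the norm commutes with base change.** -/
theorem norm_map (ι : F →+* E) (ι' : F' →+* E')
    (hcomp : ∀ x : F, ι' (algebraMap F F' x) = algebraMap E E' (ι x))
    [FiniteDimensional F F']
    (hrank : Module.finrank E E' = Module.finrank F F')
    (hspan : ⊤ ≤ Submodule.span E (Set.range ι')) (z : F') :
    ι (Algebra.norm F z) = Algebra.norm E (ι' z) := by
  classical
  let b : Module.Basis (Fin (Module.finrank F F')) F F' := Module.finBasis F F'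
  have hsp : ⊤ ≤ Submodule.span E (Set.range fun i => ι' (b i)) := by
    refine hspan.trans (Submodule.span_le.2 ?_)
    rintro _ ⟨y, rfl⟩
    have h1 := b.sum_repr y
    have h2 : ι' y = ∑ i, ι (b.repr y i) • ι' (b i) := by
      conv_lhs => rw [← h1]
      rw [map_sum]
      refine Finset.sum_congr rfl fun i _ => ?_
      rw [Algebra.smul_def, map_mul, hcomp, Algebra.smul_def]
    rw [SetLike.mem_coe, h2]
    exact Submodule.sum_mem _ fun i _ =>
      Submodule.smul_mem _ _ (Submodule.subset_span ⟨i, rfl⟩)
  let B : Module.Basis (Fin (Module.finrank F F')) E E' :=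
    basisOfTopLeSpanOfCardEqFinrank (fun i => ι' (b i)) hsp (by rw [Fintype.card_fin, hrank])
  have hB : ∀ i, B i = ι' (b i) := fun i => by
    simp only [B, coe_basisOfTopLeSpanOfCardEqFinrank]
  have hmat : Algebra.leftMulMatrix B (ι' z) = ι.mapMatrix (Algebra.leftMulMatrix b z) := by
    ext i j
    rw [Algebra.leftMulMatrix_eq_repr_mul]
    have h1 := b.sum_repr (z * b j)
    have h2 : ι' z * B j = ∑ i, ι (Algebra.leftMulMatrix b z i j) • B i := by
      rw [hB, ← map_mul]
      conv_lhs => rw [← h1]
      rw [map_sum]
      refine Finset.sum_congr rfl fun i _ => ?_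
      rw [Algebra.smul_def, map_mul, hcomp, Algebra.smul_def, hB,
        Algebra.leftMulMatrix_eq_repr_mul]
    rw [h2, Module.Basis.repr_sum_self]
    rfl
  rw [Algebra.norm_eq_matrix_det b, Algebra.norm_eq_matrix_det B, hmat, ← RingHom.map_det]

end Fermat.Agent.S29.NormBC
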