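/-
S29 gamble (item 90), piece (A4), instantiation (lead): for char-0 fields `K → L`,
the coefficient map `bcC ι N : F_K(N) → F_L(N)` commutes with `α`, `β` and with
`u ↦ Nm_α (β u)`:   **`bcC ι N (normBeta K N ℓ u) = normBeta L N ℓ (bcC ι N u)`**.
-/
import Mathlib
import Fermat.Agent.S29.NormBC
import Fermat.Agent.S29.NormRedMod
import Fermat.Agent.S29.A2

set_option autoImplicit false
set_option linter.unusedSectionVars false
set_option linter.style.haveILetI false

noncomputable section

open HahnSeries ModularCurve AlgebraicCurve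

namespace Fermat.Agent.S29.NBC

open Fermat.Agent.S29.NRM

variable {K L : Type*} [Field K] [Field L] [CharZero K] [CharZero L] (ι : K →+* L)
variable (N : ℕ) [NeZero N]

/-- the coefficient map `F_K(N) → F_L(N)`. -/
def bcC : ↥(modularFunctionFieldFullC K N) →+* ↥(modularFunctionFieldFullC L N) where
  toFun x := ⟨coeffMap ι (x : LaurentSeries K), A2.coeffMap_mem_full ι N _ x.2⟩
  map_one' := Subtype.ext (map_one (coeffMap ι))
  map_mul' _ _ := Subtype.ext (map_mul (coeffMap ι) _ _)
  map_zero' := Subtype.ext (map_zero (coeffMap ι))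
  map_add' _ _ := Subtype.ext (map_add (coeffMap ι) _ _)

theorem coe_bcC (x : ↥(modularFunctionFieldFullC K N)) :
    ((bcC ι N x : ↥(modularFunctionFieldFullC L N)) : LaurentSeries L) =
      coeffMap ι (x : LaurentSeries K) := rfl

theorem bcC_injective : Function.Injective (bcC ι N) := (bcC ι N).injective

theorem bcC_algebraMap (c : K) :
    bcC ι N (algebraMap K _ c) = algebraMap L ↥(modularFunctionFieldFullC L N) (ι c) := by
  apply Subtype.ext
  show coeffMap ι (algebraMap K (LaurentSeries K) c) = algebraMap L (LaurentSeries L) (ι c)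
  rw [algebraMap_laurentSeries_eq_single, algebraMap_laurentSeries_eq_single, coeffMap_single]

variable (ℓ : ℕ) [NeZero ℓ]

theorem bcC_alphaC (x : ↥(modularFunctionFieldFullC K N)) :
    bcC ι (N * ℓ) (alphaC K N ℓ x) = alphaC L N ℓ (bcC ι N x) := by
  apply Subtype.ext
  rw [coe_bcC, coe_alphaC, coe_alphaC, coe_bcC]

theorem bcC_betaC (x : ↥(modularFunctionFieldFullC K N)) :
    bcC ι (N * ℓ) (betaC K N ℓ x) = betaC L N ℓ (bcC ι N x) := by
  apply Subtype.ext
  rw [coe_bcC, coe_betaC, coe_betaC, coe_bcC, coeffMap_qExpand]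

/-- `F_L(N ℓ)` is spanned over `F_L(N)` by the image of `F_K(N ℓ)`. -/
theorem span_range_bcC :
    letI := algC L N ℓ
    ⊤ ≤ Submodule.span ↥(modularFunctionFieldFullC L N) (Set.range (bcC ι (N * ℓ))) := by
  letI := algC L N ℓ
  haveI : FiniteDimensional ↥(modularFunctionFieldFullC L N)
      ↥(modularFunctionFieldFullC L (N * ℓ)) := finite_algC (N := N) (ℓ := ℓ) L
  have halg : Algebra.IsAlgebraic ↥(modularFunctionFieldFullC L N)
      ↥(modularFunctionFieldFullC L (N * ℓ)) := Algebra.IsAlgebraic.of_finite _ _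
  let S : Subalgebra ↥(modularFunctionFieldFullC L N) ↥(modularFunctionFieldFullC L (N * ℓ)) :=
    Algebra.adjoin _ (Set.range (bcC ι (N * ℓ)))
  have hS : Subalgebra.toSubmodule S =
      Submodule.span ↥(modularFunctionFieldFullC L N) (Set.range (bcC ι (N * ℓ))) := by
    rw [Algebra.adjoin_eq_span]
    congr 1
    have h1 : Set.range (bcC ι (N * ℓ)) =
        ((MonoidHom.mrange (RingHom.toMonoidHom (bcC ι (N * ℓ))) : Submonoid _) : Set _) := by
      rw [MonoidHom.coe_mrange]
      rfl
    rw [h1, Submonoid.closure_eq]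
  have key : ∀ (y : LaurentSeries L) (hy : y ∈ modularFunctionFieldFullC L (N * ℓ)),
      (⟨y, hy⟩ : ↥(modularFunctionFieldFullC L (N * ℓ))) ∈ S := by
    intro y hy
    induction hy using IntermediateField.adjoin_induction with
    | mem x hx =>
      obtain ⟨d, hne, hd, rfl⟩ := hx
      haveI := hne
      refine Algebra.subset_adjoin ⟨⟨qExpand K d (jqModC K), ?_⟩, ?_⟩
      · exact IntermediateField.subset_adjoin _ _ ⟨d, hne, hd, rfl⟩
      · apply Subtype.ext
        rw [coe_bcC]
        show coeffMap ι (qExpand K d (jqModC K)) = _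
        rw [coeffMap_qExpand, coeffMap_jqModC]
    | algebraMap c =>
      have h1 : (⟨algebraMap L (LaurentSeries L) c, IntermediateField.algebraMap_mem _ c⟩ :
          ↥(modularFunctionFieldFullC L (N * ℓ))) =
          algebraMap ↥(modularFunctionFieldFullC L N) _ (algebraMap L _ c) := by
        apply Subtype.ext
        show _ = ((alphaC L N ℓ (algebraMap L _ c) : ↥(modularFunctionFieldFullC L (N * ℓ))) :
          LaurentSeries L)
        rw [coe_alphaC]
        rfl
      rw [h1]
      exact S.algebraMap_mem _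
    | add x y hx hy h1 h2 =>
      have e : (⟨x + y, add_mem hx hy⟩ : ↥(modularFunctionFieldFullC L (N * ℓ))) =
          ⟨x, hx⟩ + ⟨y, hy⟩ := rfl
      rw [e]
      exact S.add_mem h1 h2
    | inv x hx h1 =>
      have h2 : ((⟨x, hx⟩ : ↥(modularFunctionFieldFullC L (N * ℓ))))⁻¹ ∈ S :=
        Subalgebra.inv_mem_of_algebraic (A := S) (x := ⟨⟨x, hx⟩, h1⟩) (halg.isAlgebraic _)
      have e : (⟨x⁻¹, inv_mem hx⟩ : ↥(modularFunctionFieldFullC L (N * ℓ))) =
          (⟨x, hx⟩ : ↥(modularFunctionFieldFullC L (N * ℓ)))⁻¹ := rfl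
      rw [e]
      exact h2
    | mul x y hx hy h1 h2 =>
      have e : (⟨x * y, mul_mem hx hy⟩ : ↥(modularFunctionFieldFullC L (N * ℓ))) =
          ⟨x, hx⟩ * ⟨y, hy⟩ := rfl
      rw [e]
      exact S.mul_mem h1 h2
  intro x _
  rw [← hS]
  exact key x.1 x.2

/-- **(A4)**: the coefficient map commutes with `u ↦ Nm_α (β u)`. -/
theorem bcC_normBeta (u : ↥(modularFunctionFieldFullC K N)) :
    bcC ι N (normBeta K N ℓ u) = normBeta L N ℓ (bcC ι N u) := by
  letI := algC K N ℓ
  letI := algC L N ℓ
  haveI : FiniteDimensional ↥(modularFunctionFieldFullC K N)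
      ↥(modularFunctionFieldFullC K (N * ℓ)) := finite_algC (N := N) (ℓ := ℓ) K
  have h := NormBC.norm_map (bcC ι N) (bcC ι (N * ℓ)) (fun x => bcC_alphaC ι N ℓ x)
    (finrank_algC_eq (L := K) (k := L) N ℓ) (span_range_bcC ι N ℓ) (betaC K N ℓ u)
  rw [bcC_betaC] at h
  exact h

end Fermat.Agent.S29.NBC
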