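import Mathlib

/-!
# S29 (item 90), piece R1 (d1) (helper8): places of a field over an algebraically closed subfield

`exists_place K L`: for fields `K ⊂ L`, `K` algebraically closed, there is a valuation subring
`B` of `L` containing `K` and a ring homomorphism `π : B → K` which is the identity on `K`
(so the residue field of `B` is `K`).  Applied to `K = ℚ̄ ⊂ L = ℂ` this is the specialization
place used in the descent `ℂ → ℚ̄` of torsion classes.

Proof: Zorn on pairs `(R, f : R →ₐ[K] K)` (Atiyah–Macdonald 5.21).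
-/

set_option autoImplicit false
set_option linter.style.haveILetI false

open Polynomial

noncomputable section

namespace Fermat.Agent.S29.PlaceC

variable (K L : Type*) [Field K] [Field L] [Algebra K L]

/-- partial places of `L` over `K`. -/
structure Pair where
  /-- the domain -/
  R : Subalgebra K L
  /-- the place -/
  f : R →ₐ[K] K

variable {K L}

instance : Preorder (Pair K L) where
  le a b := ∃ h : a.R ≤ b.R, ∀ x : a.R, b.f (Subalgebra.inclusion h x) = a.f x
  le_refl a := ⟨le_rfl, fun x => rfl⟩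
  le_trans a b c hab hbc := ⟨hab.1.trans hbc.1, fun x => by
    rw [← hab.2 x, ← hbc.2]
    rfl⟩

theorem Pair.le_def {a b : Pair K L} :
    a ≤ b ↔ ∃ h : a.R ≤ b.R, ∀ x : a.R, b.f (Subalgebra.inclusion h x) = a.f x := Iff.rfl

instance : Nonempty (Pair K L) := ⟨⟨⊥, (Algebra.botEquiv K L).toAlgHom⟩⟩

theorem bddAbove_of_isChain (c : Set (Pair K L)) (hc : IsChain (· ≤ ·) c) : BddAbove c := by
  rcases c.eq_empty_or_nonempty with rfl | hne
  · exact ⟨Classical.arbitrary _, by simp [upperBounds]⟩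
  · haveI : Nonempty c := hne.to_subtype
    have hdir : Directed (· ≤ ·) (fun i : c => i.1.R) := by
      intro i j
      rcases hc.total i.2 j.2 with h | h
      · exact ⟨j, h.1, le_rfl⟩
      · exact ⟨i, le_rfl, h.1⟩
    have hf : ∀ (i j : c) (h : i.1.R ≤ j.1.R),
        i.1.f = j.1.f.comp (Subalgebra.inclusion h) := by
      intro i j h
      rcases hc.total i.2 j.2 with hij | hji
      · ext x
        exact (hij.2 x).symm
      · ext x
        have h1 := hji.2 (Subalgebra.inclusion h x)
        rw [AlgHom.comp_apply, ← h1]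
        rfl
    refine ⟨⟨⨆ i : c, i.1.R,
      Subalgebra.iSupLift (fun i : c => i.1.R) hdir (fun i => i.1.f) hf _ le_rfl⟩, ?_⟩
    rintro a ha
    refine ⟨le_iSup (fun i : c => i.1.R) ⟨a, ha⟩, fun x => ?_⟩
    exact Subalgebra.iSupLift_inclusion (K := fun i : c => i.1.R) (dir := hdir) (hf := hf)
      (i := ⟨a, ha⟩) x (le_iSup (fun i : c => i.1.R) ⟨a, ha⟩)

theorem exists_isMax : ∃ m : Pair K L, IsMax m := zorn_le bddAbove_of_isChain

theorem exists_isMax_ge (a : Pair K L) : ∃ m : Pair K L, a ≤ m ∧ IsMax m := by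
  refine zorn_le_nonempty_Ici₀ a (fun c _ hc y _ => ?_) a le_rfl
  obtain ⟨ub, hub⟩ := bddAbove_of_isChain c hc
  exact ⟨ub, fun z hz => hub hz⟩

/-! ### extension of a place to `R[x]` when `m R[x] ≠ R[x]` -/

section Abstract

variable {k R S : Type*} [Field k] [IsAlgClosed k] [CommRing R] [CommRing S]
  [Algebra k R] [Algebra R S] [Algebra k S] [IsScalarTower k R S]

omit [IsAlgClosed k] [CommRing S] [Algebra R S] [Algebra k S] [IsScalarTower k R S] in
theorem sub_mem_ker' (f : R →ₐ[k] k) (r : R) :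
    r - algebraMap k R (f r) ∈ RingHom.ker f.toRingHom := by
  rw [RingHom.mem_ker]
  show f (r - algebraMap k R (f r)) = 0
  rw [map_sub, AlgHom.commutes]
  simp

/-- abstract form of the extension step (Zariski's lemma). -/
theorem exists_lift_of_maximal (f : R →ₐ[k] k) (x : S) (hgen : Algebra.adjoin R {x} = ⊤)
    (M : Ideal S) [hM : M.IsMaximal]
    (hle : (RingHom.ker f.toRingHom).map (algebraMap R S) ≤ M) :
    ∃ f' : S →ₐ[k] k, ∀ r : R, f' (algebraMap R S r) = f r := by
  letI : Field (S ⧸ M) := Ideal.Quotient.field M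
  have hr : ∀ r : R, Ideal.Quotient.mk M (algebraMap R S r) =
      algebraMap k (S ⧸ M) (f r) := by
    intro r
    have h1 : algebraMap k (S ⧸ M) (f r) =
        Ideal.Quotient.mk M (algebraMap R S (algebraMap k R (f r))) := by
      rw [← IsScalarTower.algebraMap_apply k R S]
      rfl
    rw [h1, ← sub_eq_zero, ← map_sub, ← map_sub, Ideal.Quotient.eq_zero_iff_mem]
    exact hle (Ideal.mem_map_of_mem _ (sub_mem_ker' f r))
  let xb : S ⧸ M := Ideal.Quotient.mk M x
  have hgen' : ∀ s : S, Ideal.Quotient.mk M s ∈ Algebra.adjoin k {xb} := by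
    intro s
    have hs : s ∈ Algebra.adjoin R {x} := by rw [hgen]; trivial
    obtain ⟨p, hp⟩ := Algebra.adjoin_singleton_eq_range_aeval R x ▸ hs
    have h1 : ∀ p : Polynomial R, Ideal.Quotient.mk M (Polynomial.aeval x p) =
        Polynomial.aeval xb (p.map f.toRingHom) := by
      intro p
      induction p using Polynomial.induction_on' with
      | add p q hp hq =>
        rw [map_add, map_add, Polynomial.map_add, map_add, hp, hq]
      | monomial n a =>
        rw [Polynomial.map_monomial, Polynomial.aeval_monomial, Polynomial.aeval_monomial,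
          map_mul, map_pow]
        congr 1
        exact hr a
    have hp' : Polynomial.aeval x p = s := hp
    rw [← hp', h1]
    exact Polynomial.aeval_mem_adjoin_singleton _ _
  haveI : Algebra.FiniteType k (S ⧸ M) := by
    refine ⟨⟨{xb}, ?_⟩⟩
    rw [Finset.coe_singleton, eq_top_iff]
    rintro y -
    obtain ⟨s, rfl⟩ := Ideal.Quotient.mk_surjective y
    exact hgen' s
  haveI : Module.Finite k (S ⧸ M) := finite_of_finite_type_of_isJacobsonRing k (S ⧸ M)
  haveI : Algebra.IsIntegral k (S ⧸ M) := Algebra.IsIntegral.of_finite k (S ⧸ M)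
  have hbij : Function.Bijective (algebraMap k (S ⧸ M)) :=
    IsAlgClosed.algebraMap_bijective_of_isIntegral
  let e : k ≃ₐ[k] S ⧸ M := AlgEquiv.ofBijective (Algebra.ofId k (S ⧸ M)) hbij
  refine ⟨(e.symm : S ⧸ M →ₐ[k] k).comp (Ideal.Quotient.mkₐ k M), fun r => ?_⟩
  show e.symm (Ideal.Quotient.mk M (algebraMap R S r)) = f r
  rw [hr]
  exact e.symm_apply_apply (f r)

end Abstract

section Extend

variable [IsAlgClosed K] (P : Pair K L)

/-- the ideal `m R[x]`. -/
def mExt (x : L) : Ideal (Algebra.adjoin P.R {x}) :=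
  (RingHom.ker P.f.toRingHom).map (algebraMap P.R (Algebra.adjoin P.R {x}))

/-- the identity `R[x]` (as a `K`-algebra) `→ R[x]` (as an `R`-algebra). -/
def idRestrict (x : L) :
    ↥((Algebra.adjoin P.R {x}).restrictScalars K) →ₐ[K] ↥(Algebra.adjoin P.R {x}) where
  toFun s := ⟨s.1, s.2⟩
  map_one' := rfl
  map_mul' _ _ := rfl
  map_zero' := rfl
  map_add' _ _ := rfl
  commutes' _ := rfl

omit [IsAlgClosed K] in
theorem coe_idRestrict (x : L) (s : ↥((Algebra.adjoin P.R {x}).restrictScalars K)) :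
    ((idRestrict P x s : ↥(Algebra.adjoin P.R {x})) : L) = s := rfl

/-- **key step**: if `m R[x] ≠ R[x]`, the place extends to `R[x]`. -/
theorem exists_extension (x : L) (hx : mExt P x ≠ ⊤) :
    ∃ Q : Pair K L, P ≤ Q ∧ x ∈ Q.R := by
  obtain ⟨M, hM, hle⟩ := Ideal.exists_le_maximal _ hx
  have hgen : Algebra.adjoin P.R {(⟨x, Algebra.subset_adjoin rfl⟩ : Algebra.adjoin P.R {x})}
      = ⊤ := by
    rw [eq_top_iff]
    rintro ⟨y, hy⟩ -
    induction hy using Algebra.adjoin_induction with
    | mem z hz =>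
      rw [Set.mem_singleton_iff] at hz
      subst hz
      exact Algebra.subset_adjoin rfl
    | algebraMap r => exact Subalgebra.algebraMap_mem _ r
    | add a b ha hb iha ihb => exact add_mem iha ihb
    | mul a b ha hb iha ihb => exact mul_mem iha ihb
  obtain ⟨f', hf'⟩ := exists_lift_of_maximal (k := K) P.f
    (⟨x, Algebra.subset_adjoin rfl⟩ : Algebra.adjoin P.R {x}) hgen M hle
  have hRS : P.R ≤ (Algebra.adjoin P.R {x}).restrictScalars K :=
    fun r hr' => (algebraMap P.R (Algebra.adjoin P.R {x}) ⟨r, hr'⟩).2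
  refine ⟨⟨(Algebra.adjoin P.R {x}).restrictScalars K, f'.comp (idRestrict P x)⟩,
    ⟨hRS, fun r => ?_⟩, ?_⟩
  · rw [AlgHom.comp_apply]
    have key2 : idRestrict P x (Subalgebra.inclusion hRS r) =
        algebraMap P.R (Algebra.adjoin P.R {x}) r := Subtype.ext rfl
    rw [key2]
    exact hf' r
  · have hx' : x ∈ Algebra.adjoin P.R {x} := Algebra.subset_adjoin (Set.mem_singleton x)
    exact (Subalgebra.mem_restrictScalars K).2 hx'

theorem mem_of_isMax (hP : IsMax P) (x : L) (hx : mExt P x ≠ ⊤) : x ∈ P.R := by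
  obtain ⟨Q, hPQ, hxQ⟩ := exists_extension P x hx
  exact (hP hPQ).1 hxQ

omit [IsAlgClosed K] in
theorem f_surjective : Function.Surjective P.f := fun a =>
  ⟨algebraMap K P.R a, P.f.commutes a⟩

omit [IsAlgClosed K] in
theorem ker_isMaximal : (RingHom.ker P.f.toRingHom).IsMaximal :=
  RingHom.ker_isMaximal_of_surjective P.f.toRingHom (f_surjective P)

omit [IsAlgClosed K] in
/-- `m R[r⁻¹] ≠ R[r⁻¹]` if `f r ≠ 0`. -/
theorem mExt_inv_ne_top (r : P.R) (hr : P.f r ≠ 0) : mExt P ((r : L)⁻¹) ≠ ⊤ := by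
  intro htop
  have h1 : (1 : Algebra.adjoin P.R {(r : L)⁻¹}) ∈ mExt P ((r : L)⁻¹) := by
    rw [htop]; trivial
  obtain ⟨p, hp, hp1⟩ := (Algebra.mem_ideal_map_adjoin _ _).1 h1
  have hr0 : (r : L) ≠ 0 := by
    intro h0
    apply hr
    have : r = 0 := Subtype.ext h0
    rw [this, map_zero]
  -- in `L`
  have hL : Polynomial.aeval ((r : L)⁻¹) p = (1 : L) := by
    rw [hp1]
    rfl
  set d := p.natDegree with hd
  let q : P.R := ∑ i ∈ Finset.range (d + 1), p.coeff i * r ^ (d - i)
  have hq0 : P.f q = 0 := by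
    rw [map_sum]
    apply Finset.sum_eq_zero
    intro i _
    rw [map_mul]
    have := hp i
    rw [RingHom.mem_ker] at this
    have h0 : P.f (p.coeff i) = 0 := this
    rw [h0, zero_mul]
  have hqL : (q : L) = (r : L) ^ d := by
    have e1 : (q : L) = ∑ i ∈ Finset.range (d + 1), (p.coeff i : L) * (r : L) ^ (d - i) := by
      simp [q]
    rw [e1]
    have e2 : (r : L) ^ d = (r : L) ^ d * Polynomial.aeval ((r : L)⁻¹) p := by
      rw [hL, mul_one]
    rw [e2, Polynomial.aeval_eq_sum_range, Finset.mul_sum]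
    apply Finset.sum_congr rfl
    intro i hi
    have hi' : i ≤ d := Nat.lt_succ_iff.1 (Finset.mem_range.1 hi)
    rw [Algebra.smul_def, inv_pow]
    have e3 : (r : L) ^ d = (r : L) ^ (d - i) * (r : L) ^ i := by
      rw [← pow_add, Nat.sub_add_cancel hi']
    rw [e3]
    have hri : (r : L) ^ i ≠ 0 := pow_ne_zero _ hr0
    have e4 : algebraMap P.R L (p.coeff i) = (p.coeff i : L) := rfl
    rw [e4]
    field_simp
  have hqr : q = r ^ d := Subtype.ext (by rw [hqL]; rfl)
  rw [hqr, map_pow] at hq0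
  exact pow_ne_zero d hr hq0

/-- a maximal pair is local: elements outside the kernel are invertible. -/
theorem inv_mem_of_isMax (hP : IsMax P) (r : P.R) (hr : P.f r ≠ 0) : (r : L)⁻¹ ∈ P.R :=
  mem_of_isMax P hP _ (mExt_inv_ne_top P r hr)

omit [IsAlgClosed K] in
/-- integral elements: `m R[y] ≠ R[y]`. -/
theorem mExt_ne_top_of_isIntegral (y : L) (hy : IsIntegral P.R y) : mExt P y ≠ ⊤ := by
  haveI := ker_isMaximal P
  haveI : Algebra.IsIntegral P.R (Algebra.adjoin P.R {y}) :=
    Algebra.IsIntegral.adjoin (by simpa using hy)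
  have hker : RingHom.ker (algebraMap P.R (Algebra.adjoin P.R {y})) ≤
      RingHom.ker P.f.toRingHom := by
    intro r hr
    rw [RingHom.mem_ker] at hr
    have h0 : (r : L) = 0 := congrArg Subtype.val hr
    have : r = 0 := Subtype.ext h0
    rw [this]
    exact Ideal.zero_mem _
  obtain ⟨Q, hQ, e⟩ := Ideal.exists_ideal_over_maximal_of_isIntegral
    (S := Algebra.adjoin P.R {y}) (RingHom.ker P.f.toRingHom) hker
  intro htop
  have hle : mExt P y ≤ Q := by
    unfold mExt
    rw [Ideal.map_le_iff_le_comap, e]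
  rw [htop] at hle
  exact hQ.ne_top (top_le_iff.1 hle)

/-- **a maximal pair is a valuation ring.** -/
theorem mem_or_inv_mem_of_isMax (hP : IsMax P) (x : L) : x ∈ P.R ∨ x⁻¹ ∈ P.R := by
  by_cases hx : x ∈ P.R
  · exact Or.inl hx
  right
  have hx0 : x ≠ 0 := by
    rintro rfl
    exact hx (zero_mem _)
  have htop : mExt P x = ⊤ := by
    by_contra h
    exact hx (mem_of_isMax P hP x h)
  letI := invertibleOfNonzero hx0
  have hI : RingHom.ker P.f.toRingHom ≠ ⊤ := (ker_isMaximal P).ne_top
  obtain ⟨p, hp, hpx⟩ := Algebra.exists_aeval_invOf_eq_zero_of_idealMap_adjoin_sup_span_eq_top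
    (R := P.R) x (RingHom.ker P.f.toRingHom) hI (by
      have : (RingHom.ker P.f.toRingHom).map (algebraMap P.R (Algebra.adjoin P.R {x})) = ⊤ :=
        htop
      rw [this, top_sup_eq])
  -- the leading coefficient is a unit
  have hlc : P.f p.leadingCoeff = 1 := by
    have := hp
    rw [RingHom.mem_ker] at this
    have h0 : P.f (p.leadingCoeff - 1) = 0 := this
    rw [map_sub, map_one, sub_eq_zero] at h0
    exact h0
  have hlc0 : P.f p.leadingCoeff ≠ 0 := by rw [hlc]; exact one_ne_zero
  have hinv := inv_mem_of_isMax P hP p.leadingCoeff hlc0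
  have hpne : p ≠ 0 := by
    rintro rfl
    rw [Polynomial.leadingCoeff_zero, map_zero] at hlc
    exact zero_ne_one hlc
  have hlcL : ((p.leadingCoeff : P.R) : L) ≠ 0 := by
    intro h0
    apply hlc0
    have : p.leadingCoeff = 0 := Subtype.ext h0
    rw [this, map_zero]
  have hint : IsIntegral P.R (x⁻¹) := by
    refine ⟨Polynomial.C (⟨_, hinv⟩ : P.R) * p, ?_, ?_⟩
    · rw [Polynomial.Monic, Polynomial.leadingCoeff_mul, Polynomial.leadingCoeff_C]
      apply Subtype.ext
      show ((p.leadingCoeff : P.R) : L)⁻¹ * ((p.leadingCoeff : P.R) : L) = 1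
      exact inv_mul_cancel₀ hlcL
    · rw [← Polynomial.aeval_def, map_mul]
      have : Polynomial.aeval (x⁻¹) p = 0 := by
        have h := hpx
        rwa [invOf_eq_inv] at h
      rw [this, mul_zero]
  exact mem_of_isMax P hP _ (mExt_ne_top_of_isIntegral P _ hint)

/-- the valuation subring of a maximal pair. -/
def valuationSubringOfIsMax (hP : IsMax P) : ValuationSubring L :=
  { P.R.toSubring with
    mem_or_inv_mem' := mem_or_inv_mem_of_isMax P hP }

theorem mem_valuationSubringOfIsMax (hP : IsMax P) (x : L) :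
    x ∈ valuationSubringOfIsMax P hP ↔ x ∈ P.R := Iff.rfl

/-- the place of a maximal pair. -/
def placeOfIsMax (hP : IsMax P) : ↥(valuationSubringOfIsMax P hP) →+* K where
  toFun x := P.f ⟨x.1, x.2⟩
  map_one' := map_one P.f
  map_mul' a b := map_mul P.f ⟨a.1, a.2⟩ ⟨b.1, b.2⟩
  map_zero' := map_zero P.f
  map_add' a b := map_add P.f ⟨a.1, a.2⟩ ⟨b.1, b.2⟩

theorem placeOfIsMax_apply (hP : IsMax P) (x : L) (hx : x ∈ P.R) :
    placeOfIsMax P hP ⟨x, hx⟩ = P.f ⟨x, hx⟩ := rfl

end Extend

/-- **places exist**: every partial place `a` of `L` over the algebraically closed field `K`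
extends to a valuation subring `B` of `L` with a place `π : B → K` (identity on `K`). -/
theorem exists_place [IsAlgClosed K] (a : Pair K L) :
    ∃ (B : ValuationSubring L) (π : B →+* K),
      (∀ c : K, ∃ hc : algebraMap K L c ∈ B, π ⟨_, hc⟩ = c) ∧
      (∀ (x : L) (hx : x ∈ a.R), ∃ hB : x ∈ B, π ⟨x, hB⟩ = a.f ⟨x, hx⟩) ∧
      (∀ x : B, π x = 0 ↔ x ∈ IsLocalRing.maximalIdeal B) := by
  obtain ⟨P, haP, hP⟩ := exists_isMax_ge a
  refine ⟨valuationSubringOfIsMax P hP, placeOfIsMax P hP, fun c => ?_, fun x hx => ?_,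
    fun x => ?_⟩
  · exact ⟨(algebraMap K P.R c).2, P.f.commutes c⟩
  · exact ⟨haP.1 hx, haP.2 ⟨x, hx⟩⟩
  · rw [IsLocalRing.mem_maximalIdeal, mem_nonunits_iff]
    constructor
    · intro h0 hu
      obtain ⟨y, hy⟩ := hu.exists_right_inv
      have := congrArg (placeOfIsMax P hP) hy
      rw [map_mul, h0, zero_mul, map_one] at this
      exact zero_ne_one this
    · intro hnu
      by_contra h0
      apply hnu
      have h0' : P.f ⟨x.1, x.2⟩ ≠ 0 := h0
      have hinv := inv_mem_of_isMax P hP ⟨x.1, x.2⟩ h0'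
      have hx0 : (x : L) ≠ 0 := by
        intro hx0
        apply h0
        have : x = 0 := Subtype.ext hx0
        rw [this, map_zero]
      exact IsUnit.of_mul_eq_one (⟨_, hinv⟩ : valuationSubringOfIsMax P hP)
        (Subtype.ext (mul_inv_cancel₀ hx0))

end Fermat.Agent.S29.PlaceC
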