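import Mathlib
import Fermat.Agent.S29.Contract
import Fermat.Agent.S29.R2

/-!
# S29 (item 90), wiring R1 + R2 ⟹ `EigenOccurs` (helper3)

From an injective additive map `Φ : XP N p → J₀(N)[p]` intertwining the Hecke operators
(the deliverable of R1) and `R2.eigen_occurs_XP`: `EigenOccurs N g p k φ`.

`Φ.baseChange k` is injective because `XP N p` and `J₀(N)[p]` are `𝔽_p`-vector spaces, so `Φ`
has an additive left inverse.
-/

set_option autoImplicit false
set_option linter.unusedSectionVars false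
set_option linter.style.haveILetI false

open CongruenceSubgroup ModularCurve
open scoped MatrixGroups TensorProduct

noncomputable section

namespace Fermat.Agent.S29.R2

/-- an injective additive map between abelian groups killed by a prime `p` has an additive left
inverse -/
theorem exists_leftInverse_of_torsion (p : ℕ) [Fact p.Prime] {X Y : Type*} [AddCommGroup X]
    [AddCommGroup Y] (hX : ∀ x : X, p • x = 0) (hY : ∀ y : Y, p • y = 0)
    (Φ : X →+ Y) (hinj : Function.Injective Φ) :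
    ∃ Ψ : Y →+ X, ∀ x, Ψ (Φ x) = x := by
  letI : Module (ZMod p) X := AddCommGroup.zmodModule hX
  letI : Module (ZMod p) Y := AddCommGroup.zmodModule hY
  let f : X →ₗ[ZMod p] Y := AddMonoidHom.toZModLinearMap p Φ
  obtain ⟨π, hπ⟩ := LinearMap.exists_leftInverse_of_injective f (LinearMap.ker_eq_bot.mpr hinj)
  exact ⟨π.toAddMonoidHom, fun x => LinearMap.congr_fun hπ x⟩

/-- base change to `k` of an injective additive map between groups killed by `p` is injective -/
theorem baseChange_injective_of_torsion (p : ℕ) [Fact p.Prime] {X Y : Type*} [AddCommGroup X]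
    [AddCommGroup Y] [Module ℤ X] [Module ℤ Y]
    (hX : ∀ x : X, p • x = 0) (hY : ∀ y : Y, p • y = 0)
    (Φ : X →ₗ[ℤ] Y) (hinj : Function.Injective Φ) (k : Type*) [Field k] :
    Function.Injective (Φ.baseChange k) := by
  obtain ⟨Ψ, hΨ⟩ := exists_leftInverse_of_torsion p hX hY Φ.toAddMonoidHom hinj
  let Ψ' : Y →ₗ[ℤ] X :=
    { toFun := Ψ
      map_add' := map_add Ψ
      map_smul' := fun z y => by
        have h := map_intCast_smul Ψ ℤ ℤ z y
        simpa using h }
  have h1 : Ψ' ∘ₗ Φ = LinearMap.id := LinearMap.ext fun x => hΨ x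
  have h2 : (Ψ'.baseChange k) ∘ₗ (Φ.baseChange k) = LinearMap.id := by
    rw [← LinearMap.baseChange_comp, h1, LinearMap.baseChange_id]
  exact Function.LeftInverse.injective (g := Ψ'.baseChange k)
    (fun w => LinearMap.congr_fun h2 w)

/-- transport of an eigenvector along an equivariant map -/
theorem baseChange_eigen {X Y : Type*} [AddCommGroup X] [AddCommGroup Y] [Module ℤ X]
    [Module ℤ Y] (k : Type*) [Field k] (T : X →ₗ[ℤ] X) (T' : Y →ₗ[ℤ] Y) (Φ : X →ₗ[ℤ] Y)
    (h : ∀ x, Φ (T x) = T' (Φ x)) (w : k ⊗[ℤ] X) (c : k) (hw : T.baseChange k w = c • w) :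
    T'.baseChange k (Φ.baseChange k w) = c • Φ.baseChange k w := by
  have h1 : T' ∘ₗ Φ = Φ ∘ₗ T := LinearMap.ext fun x => (h x).symm
  have h2 : T'.baseChange k ∘ₗ Φ.baseChange k = Φ.baseChange k ∘ₗ T.baseChange k := by
    rw [← LinearMap.baseChange_comp, ← LinearMap.baseChange_comp, h1]
  have h3 := LinearMap.congr_fun h2 w
  rw [LinearMap.comp_apply, LinearMap.comp_apply, hw] at h3
  rw [h3]
  exact (Φ.baseChange k).map_smul c w

variable {N : ℕ} [NeZero N]

theorem nsmul_XP_eq_zero (p : ℕ) (ψ : XP N p) : p • ψ = 0 := by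
  apply Subtype.ext
  apply AddMonoidHom.ext
  intro x
  show p • ((ψ : Additive (Gamma0 N) →+ ZMod p) x) = 0
  rw [nsmul_eq_mul, ZMod.natCast_self, zero_mul]

theorem nsmul_torsP_eq_zero (p : ℕ) (x : torsP N p) : p • x = 0 := by
  apply Subtype.ext
  have h := x.2
  rw [mem_torsP_iff] at h
  exact h

/-- **R1 + R2 ⟹ `EigenOccurs`.** -/
theorem eigenOccurs_of_embedding (g : CuspForm (Gamma0 N) 2) (hg : g.IsNormalizedEigenform)
    (p : ℕ) [Fact p.Prime] (k : Type) [Field k] [CharP k p]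
    (φ : integralClosure ℤ ℂ →+* k)
    (Φ : XP N p →ₗ[ℤ] torsP N p) (hinj : Function.Injective Φ)
    (hT : ∀ (ℓ : ℕ) (hℓ : ℓ.Prime) (hℓN : ¬ ℓ ∣ N), ¬ ℓ ∣ N * p → ∀ ψ : XP N p,
      Φ (@TXP N p _ ℓ ⟨hℓ⟩ hℓN ψ) = heckeTors N p ⟨ℓ, hℓ⟩ (Φ ψ)) :
    EigenOccurs N g p k φ := by
  obtain ⟨w, hw, hwe⟩ := eigen_occurs_XP g hg p k φ
  refine ⟨Φ.baseChange k w, ?_, fun ℓ hℓ hℓNp => ?_⟩
  · intro h0
    apply hw
    apply baseChange_injective_of_torsion p (nsmul_XP_eq_zero p) (nsmul_torsP_eq_zero p) Φ hinj k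
    rw [h0, map_zero]
  · have hℓN : ¬ ℓ ∣ N := fun h => hℓNp (Dvd.dvd.mul_right h p)
    haveI : Fact ℓ.Prime := ⟨hℓ⟩
    obtain ⟨a, ha, hwa⟩ := hwe ℓ hℓN
    exact ⟨a, ha, baseChange_eigen k (TXP N p ℓ hℓN) (heckeTors N p ⟨ℓ, hℓ⟩) Φ
      (hT ℓ hℓ hℓN hℓNp) w (φ a) hwa⟩

end Fermat.Agent.S29.R2
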