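import Mathlib
import Fermat.Agent.S29.R2

/-!
# S29: `R2.XP N p` is finite

`Γ₀(N)` is finitely generated (finite index in `SL₂(ℤ) = ⟨S, T⟩`), so there are only finitely
many homomorphisms `Γ₀(N) → ZMod p` (`p ≠ 0`).  Needed by A1 (finitely many functions `U ψ`).
-/

set_option autoImplicit false

open CongruenceSubgroup
open scoped MatrixGroups

noncomputable section

namespace Fermat.Agent.S29.XPF

/-- `Γ₀(N)` is finitely generated. -/
theorem gamma0_fg' (N : ℕ) [NeZero N] : Group.FG ↥(Gamma0 N) := by
  have : Group.FG SL(2, ℤ) := by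
    rw [Group.fg_def]
    refine ⟨{ModularGroup.S, ModularGroup.T}, ?_⟩
    have := SpecialLinearGroup.SL2Z_generators
    simpa using this
  exact Subgroup.fg_of_index_ne_zero (Gamma0 N)

/-- additive homomorphisms from a finitely generated group to a finite group are finite in
number. -/
theorem finite_addMonoidHom_of_fg (G : Type*) [Group G] (hG : Group.FG G) (M : Type*)
    [AddCommGroup M] [Finite M] : Finite (Additive G →+ M) := by
  obtain ⟨S, hS⟩ := Group.fg_def.1 hG
  have hcl : AddSubgroup.closure (Additive.toMul ⁻¹' (S : Set G)) = ⊤ := by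
    rw [← Subgroup.toAddSubgroup_closure, hS]
    rfl
  let res : (Additive G →+ M) → (S → M) := fun ψ s => ψ (Additive.ofMul (s : G))
  have hinj : Function.Injective res := by
    intro ψ φ h
    apply AddMonoidHom.eq_of_eqOn_dense hcl
    intro x hx
    have := congrFun h ⟨Additive.toMul x, hx⟩
    exact this
  exact Finite.of_injective res hinj

/-- **`XP N p` is finite** (`p ≠ 0`). -/
instance finite_XP (N p : ℕ) [NeZero N] [NeZero p] : Finite (R2.XP N p) := by
  have : Finite (Additive ↥(Gamma0 N) →+ ZMod p) :=
    finite_addMonoidHom_of_fg _ (gamma0_fg' N) _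
  exact Finite.of_injective (fun ψ : R2.XP N p => (ψ : Additive ↥(Gamma0 N) →+ ZMod p))
    Subtype.val_injective

end Fermat.Agent.S29.XPF
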