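/-
S29 gamble (item 90), TRANSFER assembly (helper3).

* `Transfer.pullback` : abstract pullback of a Kummer system along a base change
  `bc : Gd →* Gu` (constants to constants, `kp` and `Triv` descend, Hecke-compatible, all
  `K.U x` defined downstairs);
* `Transfer.bcU ι N` : the base change `F_k(N)ˣ → F_K(N)ˣ` (`Units.map (A3.bcN ι N)`);
* `bcU_mem_CK` (hC), `mem_KPK_of_bcU` (hkp, = A3 + Riemann), `mem_Triv_of_bcU` (htriv, = A2);
* `Transfer.ksys_of_def` : the Kummer system over `k` from one over `K`, given A4 (`hH`) and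
  definability (`hdef`);
* `Transfer.exists_finset` : **TRANSFER**: for a Kummer system over `E` (char. 0) there is a
  finite `S ⊆ E` such that every algebraically closed subfield `T ⊇ S` (with A4 for `T ⊆ E`)
  carries a Kummer system.
-/
import Mathlib
import Fermat.Agent.S29.KSysMod
import Fermat.Agent.S29.PlaceExt
import Fermat.Agent.S29.A2
import Fermat.Agent.S29.GenusC
import Fermat.Agent.S29.FieldDefT
import Fermat.Agent.S29.XPFinite

set_option autoImplicit false
set_option linter.unusedSectionVars false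
set_option linter.style.haveILetI false

noncomputable section

open HahnSeries ModularCurve AlgebraicCurve

namespace Fermat.Agent.S29.Transfer

open Fermat.Agent.S29.DStep

section Abstract

variable {ι X : Type*} [AddCommGroup X] {T : ι → X →+ X} {Gu Gd : Type*} [CommGroup Gu]
  [CommGroup Gd] {p : ℕ} {CL KPL : Subgroup Gu} {Ck KPk : Subgroup Gd} {HL : ι → Gu →* Gu}
  {Hk : ι → Gd →* Gd}

theorem map_mem_Triv (bc : Gd →* Gu) (hC : ∀ c ∈ Ck, bc c ∈ CL) {u : Gd}
    (hu : u ∈ Triv Ck p) : bc u ∈ Triv CL p := by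
  obtain ⟨c, hc, w, rfl⟩ := mem_Triv_iff.1 hu
  rw [map_mul, map_pow]
  exact mem_Triv_iff.2 ⟨bc c, hC c hc, bc w, rfl⟩

/-- **abstract pullback** of a Kummer system. -/
def pullback (bc : Gd →* Gu) (hC : ∀ c ∈ Ck, bc c ∈ CL)
    (hkp : ∀ u, bc u ∈ KPL → u ∈ KPk)
    (htriv : ∀ u, bc u ∈ Triv CL p → u ∈ Triv Ck p)
    (hH : ∀ i u, bc (Hk i u) = HL i (bc u))
    (K : KSys T Gu CL KPL HL p) (hdef : ∀ x, ∃ u, bc u = K.U x) :
    KSys T Gd Ck KPk Hk p where
  U x := (hdef x).choose
  kp x := hkp _ (by rw [(hdef x).choose_spec]; exact K.kp x)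
  add x y := htriv _ (by
    rw [map_div, map_mul, (hdef (x + y)).choose_spec, (hdef x).choose_spec,
      (hdef y).choose_spec]
    exact K.add x y)
  inj x h := K.inj x (by
    have h1 := map_mem_Triv bc hC h
    rwa [(hdef x).choose_spec] at h1)
  hk i x := htriv _ (by
    rw [map_div, hH, (hdef (T i x)).choose_spec, (hdef x).choose_spec]
    exact K.hk i x)

end Abstract

section Modular

variable {k K : Type*} [Field k] [Field K] (ι : k →+* K) (N : ℕ) [NeZero N] (p : ℕ)

/-- the base change on units. -/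
def bcU : (↥(modularFunctionFieldFullC k N))ˣ →* (↥(modularFunctionFieldFullC K N))ˣ :=
  Units.map (A3.bcN ι N :
    ↥(modularFunctionFieldFullC k N) →* ↥(modularFunctionFieldFullC K N))

theorem coe_bcU (u : (↥(modularFunctionFieldFullC k N))ˣ) :
    ((bcU ι N u : (↥(modularFunctionFieldFullC K N))ˣ) : ↥(modularFunctionFieldFullC K N)) =
      A3.bcN ι N (u : ↥(modularFunctionFieldFullC k N)) := rfl

/-- (hC) constants go to constants. -/
theorem bcU_mem_CK {c : (↥(modularFunctionFieldFullC k N))ˣ} (hc : c ∈ KM.CK k N) :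
    bcU ι N c ∈ KM.CK K N := by
  obtain ⟨a, ha, h⟩ := (KM.mem_CK_iff k N).1 hc
  refine (KM.mem_CK_iff K N).2 ⟨ι a, (_root_.map_ne_zero ι).2 ha, ?_⟩
  rw [coe_bcU, h]
  exact A3.bcF_algebraMap ι _ _ _ a

/-- (hkp) `p`-divisibility of all orders descends (A3 + Riemann: all places have degree one). -/
theorem mem_KPK_of_bcU [IsAlgClosed k] [CharZero k]
    {u : (↥(modularFunctionFieldFullC k N))ˣ} (h : bcU ι N u ∈ KM.KPK K N p) :
    u ∈ KM.KPK k N p := by
  intro Q
  exact A3.dvd_ord_of_dvd_ord_bc' ι N (p : ℤ) (u : ↥(modularFunctionFieldFullC k N))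
    (GenusC.curveRR_C k N).deg_one (fun P => h P) Q

/-- (htriv) "constants times `p`-th powers" descend (A2). -/
theorem mem_Triv_of_bcU [CharZero k] [CharZero K] (hp : 0 < p)
    {u : (↥(modularFunctionFieldFullC k N))ˣ} (h : bcU ι N u ∈ Triv (KM.CK K N) p) :
    u ∈ Triv (KM.CK k N) p := by
  obtain ⟨c, hc, W, hW⟩ := mem_Triv_iff.1 h
  obtain ⟨c0, hc0, hcc⟩ := (KM.mem_CK_iff K N).1 hc
  have h1 : coeffMap ι ((u : ↥(modularFunctionFieldFullC k N)) : LaurentSeries k) =
      HahnSeries.C c0 * ((W : ↥(modularFunctionFieldFullC K N)) : LaurentSeries K) ^ p := by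
    have h2 : ((bcU ι N u : (↥(modularFunctionFieldFullC K N))ˣ) :
        ↥(modularFunctionFieldFullC K N)) =
        (c : ↥(modularFunctionFieldFullC K N)) * (W : ↥(modularFunctionFieldFullC K N)) ^ p := by
      rw [hW, Units.val_mul, Units.val_pow_eq_pow_val]
    have h3 := congrArg (fun z : ↥(modularFunctionFieldFullC K N) => (z : LaurentSeries K)) h2
    simp only [coe_bcU, A3.coe_bcN, MulMemClass.coe_mul, SubmonoidClass.coe_pow] at h3
    rw [h3, hcc]
    congr 1
    show algebraMap K (LaurentSeries K) c0 = _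
    rw [Fermat.Agent.S18.MScal.algebraMap_eq_single]
    rfl
  have hu0 : ((u : ↥(modularFunctionFieldFullC k N)) : LaurentSeries k) ≠ 0 := fun h0 =>
    u.ne_zero (Subtype.ext h0)
  have hW0 : ((W : ↥(modularFunctionFieldFullC K N)) : LaurentSeries K) ≠ 0 := fun h0 =>
    W.ne_zero (Subtype.ext h0)
  obtain ⟨a, w', ha, hw'mem, hw'0, huw, -⟩ := A2.triv_descend ι N hp _
    (u : ↥(modularFunctionFieldFullC k N)).2 hu0 c0 hc0 _
    (W : ↥(modularFunctionFieldFullC K N)).2 hW0 h1
  have hw'ne : (⟨w', hw'mem⟩ : ↥(modularFunctionFieldFullC k N)) ≠ 0 := fun h0 =>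
    hw'0 (congrArg Subtype.val h0)
  have hane : algebraMap k ↥(modularFunctionFieldFullC k N) a ≠ 0 :=
    (_root_.map_ne_zero _).2 ha
  refine mem_Triv_iff.2 ⟨Units.mk0 _ hane, (KM.mem_CK_iff k N).2 ⟨a, ha, rfl⟩,
    Units.mk0 _ hw'ne, ?_⟩
  apply Units.ext
  apply Subtype.ext
  rw [Units.val_mul, Units.val_pow_eq_pow_val, Units.val_mk0, Units.val_mk0,
    MulMemClass.coe_mul, SubmonoidClass.coe_pow, huw]
  congr 1
  show _ = algebraMap k (LaurentSeries k) a
  rw [Fermat.Agent.S18.MScal.algebraMap_eq_single]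
  rfl

/-- the Kummer system over `k` from one over `K`, given A4 (`hH`) and definability. -/
def ksys_of_def [IsAlgClosed k] [CharZero k] [CharZero K] (hp : 0 < p)
    (hH : ∀ (i : KM.Idx N p) (u : (↥(modularFunctionFieldFullC k N))ˣ),
      bcU ι N (KM.HK k N p i u) = KM.HK K N p i (bcU ι N u))
    (KS : KM.KSysMod K N p) (hdef : ∀ x, ∃ u, bcU ι N u = KS.U x) :
    KM.KSysMod k N p :=
  pullback (bcU ι N) (fun _ hc => bcU_mem_CK ι N hc) (fun _ h => mem_KPK_of_bcU ι N p h)
    (fun _ h => mem_Triv_of_bcU ι N p hp h) hH KS hdef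

end Modular

section Final

variable {E : Type*} [Field E] [CharZero E] (N : ℕ) [NeZero N] (p : ℕ) [NeZero p]

/-- **TRANSFER**: a Kummer system over `E` descends to every algebraically closed subfield
containing a suitable finite set (given A4 for the inclusion `T ⊆ E`). -/
theorem exists_finset (KS : KM.KSysMod E N p) :
    ∃ S : Finset E, ∀ T : Subfield E, (S : Set E) ⊆ (T : Set E) → IsAlgClosed ↥T →
      (∀ (i : KM.Idx N p) (u : (↥(modularFunctionFieldFullC ↥T N))ˣ),
        bcU T.subtype N (KM.HK ↥T N p i u) = KM.HK E N p i (bcU T.subtype N u)) →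
      Nonempty (KM.KSysMod ↥T N p) := by
  obtain ⟨S, hS⟩ := A1T.exists_finset_def_units N KS.U
  refine ⟨S, fun T hT hac hH => ?_⟩
  haveI := hac
  exact ⟨ksys_of_def T.subtype N p (Nat.pos_of_ne_zero (NeZero.ne p)) hH KS (hS T hT)⟩

end Final

end Fermat.Agent.S29.Transfer
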