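/-
S29 gamble (item 90), TRANSFER, norm part (helper4).

* `TrN.norm_map_of_span` : abstract: for finite field extensions `F'/F`, `Fb'/Fb` of the same
  degree and compatible ring homomorphisms `φ : F → Fb`, `φ' : F' → Fb'` such that `φ' F'` spans
  `Fb'` over `Fb`: `Nm (φ' z) = φ (Nm z)`.
* `TrN.normBeta_bcN` : the Hecke operator `u ↦ Nm_α (β u)` on `F_K(N)` commutes with the base
  change of constants `A3.bcN ι N : F_K(N) → F_L(N)`.
-/
import Mathlib
import Fermat.Agent.S29.NormRedMod
import Fermat.Agent.S29.PlaceExt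

set_option autoImplicit false
set_option linter.unusedSectionVars false
set_option linter.style.haveILetI false

noncomputable section

open HahnSeries ModularCurve AlgebraicCurve

namespace Fermat.Agent.S29.TrN

section Abs

variable {F F' Fb Fb' : Type*} [Field F] [Field F'] [Field Fb] [Field Fb']
  [Algebra F F'] [Algebra Fb Fb']

/-- norms commute with a base change of the same degree whose image spans. -/
theorem norm_map_of_span [FiniteDimensional F F'] (φ : F →+* Fb) (φ' : F' →+* Fb')
    (hcomm : ∀ x, φ' (algebraMap F F' x) = algebraMap Fb Fb' (φ x))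
    (hrank : Module.finrank F F' = Module.finrank Fb Fb')
    (hspan : Submodule.span Fb (Set.range φ') = ⊤) (z : F') :
    Algebra.norm Fb (φ' z) = φ (Algebra.norm F z) := by
  classical
  let b : Module.Basis (Fin (Module.finrank F F')) F F' := Module.finBasis F F'
  let v : Fin (Module.finrank F F') → Fb' := fun i => φ' (b i)
  have hsm : ∀ (a : F) (x : F'), φ' (a • x) = φ a • φ' x := by
    intro a x
    rw [Algebra.smul_def, map_mul, hcomm, ← Algebra.smul_def]
  have hv_span : ⊤ ≤ Submodule.span Fb (Set.range v) := by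
    rw [← hspan]
    apply Submodule.span_le.2
    rintro _ ⟨x, rfl⟩
    have hx : x = ∑ i, b.repr x i • b i := (b.sum_repr x).symm
    rw [hx, map_sum]
    refine Submodule.sum_mem _ (fun i _ => ?_)
    rw [hsm]
    exact Submodule.smul_mem _ _ (Submodule.subset_span ⟨i, rfl⟩)
  have hcard : Fintype.card (Fin (Module.finrank F F')) = Module.finrank Fb Fb' := by
    rw [Fintype.card_fin]
    exact hrank
  haveI : FiniteDimensional Fb Fb' := by
    refine Module.finite_def.2 ?_
    have h := Submodule.fg_span (R := Fb) (Set.finite_range v)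
    rwa [top_le_iff.1 hv_span] at h
  let bb : Module.Basis (Fin (Module.finrank F F')) Fb Fb' :=
    basisOfTopLeSpanOfCardEqFinrank v hv_span hcard
  have hbb : ∀ i, bb i = φ' (b i) := fun i => by
    show basisOfTopLeSpanOfCardEqFinrank v hv_span hcard i = _
    rw [coe_basisOfTopLeSpanOfCardEqFinrank]
  rw [Algebra.norm_eq_matrix_det bb, Algebra.norm_eq_matrix_det b, RingHom.map_det]
  congr 1
  ext i j
  rw [Algebra.leftMulMatrix_eq_repr_mul, RingHom.mapMatrix_apply, Matrix.map_apply,
    Algebra.leftMulMatrix_eq_repr_mul]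
  have h1 : φ' z * bb j = ∑ k, φ (b.repr (z * b j) k) • bb k := by
    rw [hbb, ← map_mul]
    conv_lhs => rw [← b.sum_repr (z * b j)]
    rw [map_sum]
    refine Finset.sum_congr rfl (fun k _ => ?_)
    rw [hsm, hbb]
  rw [h1, map_sum, Finsupp.coe_finsetSum, Finset.sum_apply]
  rw [Finset.sum_eq_single i]
  · rw [map_smul, Module.Basis.repr_self, Finsupp.smul_apply, Finsupp.single_eq_same,
      smul_eq_mul, mul_one]
  · intro k _ hk
    rw [map_smul, Module.Basis.repr_self, Finsupp.smul_apply, Finsupp.single_eq_of_ne hk.symm,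
      smul_zero]
  · intro h
    exact absurd (Finset.mem_univ i) h

end Abs

section Mod

open Fermat.Agent.S29.GaussC Fermat.Agent.S29.NRM Fermat.Agent.S29.A3

variable {K L : Type*} [Field K] [Field L] [CharZero K] [CharZero L] (ι : K →+* L)
variable (N ℓ : ℕ) [NeZero N] [NeZero ℓ]

/-- base change commutes with `α`. -/
theorem bcN_alphaC (x : ↥(modularFunctionFieldFullC K N)) :
    bcN ι (N * ℓ) (alphaC K N ℓ x) = alphaC L N ℓ (bcN ι N x) := by
  apply Subtype.ext
  rw [coe_bcN, coe_alphaC, coe_alphaC, coe_bcN]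

/-- base change commutes with `β`. -/
theorem bcN_betaC (x : ↥(modularFunctionFieldFullC K N)) :
    bcN ι (N * ℓ) (betaC K N ℓ x) = betaC L N ℓ (bcN ι N x) := by
  apply Subtype.ext
  rw [coe_bcN, coe_betaC, coe_betaC, coe_bcN]
  exact coeffMap_qExpand _ _ _

/-- `F_L(N ℓ)` is spanned over `F_L(N)` by the image of `F_K(N ℓ)`. -/
theorem span_bcN :
    letI := algC L N ℓ
    Submodule.span ↥(modularFunctionFieldFullC L N) (Set.range (bcN ι (N * ℓ))) = ⊤ := by
  letI := algC L N ℓ
  have key : ∀ z ∈ W L (N * ℓ), ∃ hz : z ∈ modularFunctionFieldFullC L (N * ℓ),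
      (⟨z, hz⟩ : ↥(modularFunctionFieldFullC L (N * ℓ))) ∈
        Submodule.span ↥(modularFunctionFieldFullC L N) (Set.range (bcN ι (N * ℓ))) := by
    intro z hz
    unfold W at hz
    induction hz using Submodule.span_induction with
    | mem x hx =>
      obtain ⟨k, rfl⟩ := hx
      refine ⟨pow_mem (jqModCd_mem_full L (N * ℓ) dvd_rfl) _, Submodule.subset_span
        ⟨⟨(jqNModC K (N * ℓ)) ^ (k : ℕ), pow_mem (jqModCd_mem_full K (N * ℓ) dvd_rfl) _⟩, ?_⟩⟩
      apply Subtype.ext
      rw [coe_bcN]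
      show coeffMap ι ((jqNModC K (N * ℓ)) ^ (k : ℕ)) = (jqNModC L (N * ℓ)) ^ (k : ℕ)
      rw [map_pow, coeffMap_jqNModC]
    | zero => exact ⟨zero_mem _, Submodule.zero_mem _⟩
    | add x y _ _ hx hy =>
      obtain ⟨hx1, hx2⟩ := hx
      obtain ⟨hy1, hy2⟩ := hy
      exact ⟨add_mem hx1 hy1, Submodule.add_mem _ hx2 hy2⟩
    | smul a x _ hx =>
      obtain ⟨hx1, hx2⟩ := hx
      have ha : (a : LaurentSeries L) ∈ modularFunctionFieldFullC L N := EJ_le_full L N a.2
      have hax : a • x ∈ modularFunctionFieldFullC L (N * ℓ) := by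
        rw [smul_EJ_def]
        exact mul_mem (full_degeneracyC_le L (dvd_mul_right N ℓ) ha) hx1
      refine ⟨hax, ?_⟩
      have h := Submodule.smul_mem _ (⟨(a : LaurentSeries L), ha⟩ :
        ↥(modularFunctionFieldFullC L N)) hx2
      have e : (⟨a • x, hax⟩ : ↥(modularFunctionFieldFullC L (N * ℓ))) =
          (⟨(a : LaurentSeries L), ha⟩ : ↥(modularFunctionFieldFullC L N)) •
            (⟨x, hx1⟩ : ↥(modularFunctionFieldFullC L (N * ℓ))) := by
        have e1 : (⟨(a : LaurentSeries L), ha⟩ : ↥(modularFunctionFieldFullC L N)) •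
            (⟨x, hx1⟩ : ↥(modularFunctionFieldFullC L (N * ℓ))) =
            alphaC L N ℓ ⟨(a : LaurentSeries L), ha⟩ * ⟨x, hx1⟩ := Algebra.smul_def _ _
        rw [e1]
        apply Subtype.ext
        rw [MulMemClass.coe_mul, coe_alphaC]
        exact smul_EJ_def L a x
      rw [e]
      exact h
  rw [eq_top_iff]
  rintro ⟨y, hy⟩ -
  obtain ⟨hz, h⟩ := key y ((mem_W_iff L (N * ℓ) y).2 hy)
  exact h

/-- **A4**: the Hecke operator `u ↦ Nm_α (β u)` commutes with the base change of constants. -/
theorem normBeta_bcN (u : ↥(modularFunctionFieldFullC K N)) :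
    bcN ι N (normBeta K N ℓ u) = normBeta L N ℓ (bcN ι N u) := by
  letI := algC K N ℓ
  letI := algC L N ℓ
  haveI : FiniteDimensional ↥(modularFunctionFieldFullC K N)
      ↥(modularFunctionFieldFullC K (N * ℓ)) := finite_algC (N := N) (ℓ := ℓ) K
  rw [normBeta_apply, normBeta_apply, ← bcN_betaC]
  exact (norm_map_of_span (bcN ι N) (bcN ι (N * ℓ)) (bcN_alphaC ι N ℓ)
    (finrank_algC_eq (L := L) (k := K) N ℓ) (span_bcN ι N ℓ) _).symm

/-- **A4** on units. -/
theorem heckeUnits_bcN (u : (↥(modularFunctionFieldFullC K N))ˣ) :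
    Units.map (bcN ι N : ↥(modularFunctionFieldFullC K N) →* ↥(modularFunctionFieldFullC L N))
        (heckeUnits K N ℓ u) =
      heckeUnits L N ℓ (Units.map
        (bcN ι N : ↥(modularFunctionFieldFullC K N) →* ↥(modularFunctionFieldFullC L N)) u) := by
  apply Units.ext
  exact normBeta_bcN ι N ℓ (u : ↥(modularFunctionFieldFullC K N))

end Mod

end Fermat.Agent.S29.TrN
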